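import Fermat.Agent.GD.Setting

/-!
# Units of the henselian local fields: definitions
-/

set_option autoImplicit false

noncomputable section

namespace Fermat.Agent.GD

local notation "ℚb" => AlgebraicClosure ℚ

variable (p : ℕ) [Fact p.Prime]

/-- The units fixed by a subgroup of a decomposition group. -/
def fixedUnits {v : Place} (H : Subgroup (LD v).G) : Subgroup ℚbˣ where
  carrier := {x | ∀ h ∈ H, h • x = x}
  one_mem' := fun h _ => smul_one h
  mul_mem' := fun hx hy h hh => by rw [smul_mul', hx h hh, hy h hh]
  inv_mem' := fun hx h hh => by rw [smul_inv', hx h hh]

/-- The `p`-th powers inside a subgroup of units. -/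
def powers (U : Subgroup ℚbˣ) : Subgroup U := (powMonoidHom p : U →* U).range

/-- The exponent in the local index formulas. -/
def localExp (v : Place) (H : Subgroup (LD v).G) : ℕ :=
  match v with
  | none => 0
  | some q => if (q : ℕ) = p then H.index else 0

end Fermat.Agent.GD
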