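import Fermat.Agent.GD.Setting
import Fermat.Agent.GD.Engine.Cup

/-!
# Second cohomology at the archimedean place
-/

set_option autoImplicit false
set_option linter.style.haveILetI false

noncomputable section

namespace Fermat.Agent.GD

variable {L : LevelGroup.{0}} {C : Type} [AddCommGroup C] [DistribMulAction L.G C]

/-- The order of a finite group kills its second cohomology. -/
theorem LevelGroup.isB2_card_nsmul [Finite L.G] {z : L.G × L.G → C} (hz : z ∈ L.Z2 C) :
    L.IsB2 C (Nat.card L.G • z) := by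
  classical
  letI := Fintype.ofFinite L.G
  obtain ⟨⟨N, hN, hc⟩, hcoc⟩ := hz
  refine ⟨fun g => ∑ h : L.G, z (g, h), ⟨N, hN, fun g s hs =>
    Finset.sum_congr rfl fun h _ => ?_⟩, funext fun x => ?_⟩
  · simpa using hc g h s hs 1 N.one_mem
  · obtain ⟨g, h⟩ := x
    show g • (∑ j : L.G, z (h, j)) - ∑ j : L.G, z (g * h, j) + ∑ j : L.G, z (g, j) =
      Nat.card L.G • z (g, h)
    have hs : ∑ j : L.G, (g • z (h, j) + z (g, h * j)) =
        ∑ j : L.G, (z (g * h, j) + z (g, h)) := Finset.sum_congr rfl fun j _ => hcoc g h j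
    rw [Finset.sum_add_distrib, Finset.sum_add_distrib, Finset.sum_const, Finset.card_univ,
      ← Finset.smul_sum, ← Nat.card_eq_fintype_card] at hs
    rw [show ∑ j : L.G, z (g, h * j) = ∑ j : L.G, z (g, j) from
      Equiv.sum_comp (Equiv.mulLeft h) fun j => z (g, j)] at hs
    rw [eq_sub_of_add_eq hs]
    abel

theorem finite_decomp_none : Finite (decomp none) ∧ Nat.card (decomp none) ∣ 2 := by
  have hf : IsOfFinOrder complexConjugation :=
    isOfFinOrder_iff_pow_eq_one.mpr ⟨2, by norm_num, complexConjugation_sq⟩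
  have hc : Nat.card (Subgroup.zpowers complexConjugation) = orderOf complexConjugation :=
    Nat.card_zpowers _
  refine ⟨Nat.finite_of_card_ne_zero ?_, ?_⟩
  · show Nat.card (Subgroup.zpowers complexConjugation) ≠ 0
    rw [hc]; exact hf.orderOf_pos.ne'
  · show Nat.card (Subgroup.zpowers complexConjugation) ∣ 2
    rw [hc]; exact orderOf_dvd_of_pow_eq_one complexConjugation_sq

theorem sub_none_finite (H : Subgroup (LD none).G) :
    Finite ((LD none).sub H).G ∧ Nat.card ((LD none).sub H).G ∣ 2 := by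
  haveI : Finite (LD none).G := finite_decomp_none.1
  exact ⟨inferInstanceAs (Finite H), (Subgroup.card_subgroup_dvd_card H).trans finite_decomp_none.2⟩

local notation "Cu" => Additive (AlgebraicClosure ℚ)ˣ

/-- Odd torsion vanishes at the archimedean place. -/
theorem isB2_none_of_odd {p : ℕ} (hp : Odd p) (H : Subgroup (LD none).G)
    {z : ((LD none).sub H).G × ((LD none).sub H).G → Cu} (hz : z ∈ ((LD none).sub H).Z2 Cu)
    (hpz : ((LD none).sub H).IsB2 Cu (p • z)) : ((LD none).sub H).IsB2 Cu z := by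
  haveI := (sub_none_finite H).1
  have h2 : ((LD none).sub H).IsB2 Cu (2 • z) := by
    obtain ⟨m, hm⟩ := (sub_none_finite H).2
    rw [hm, mul_comm, mul_smul]
    exact (LevelGroup.isB2_card_nsmul hz).nsmul m
  obtain ⟨m, rfl⟩ := hp
  have e : z = (2 * m + 1) • z - m • (2 • z) := by
    rw [add_smul, one_smul, mul_comm, mul_smul]; abel
  rw [e]
  exact hpz.sub (h2.nsmul m)

/-- Restriction at the archimedean place kills torsion classes. -/
theorem res_isB2_none {p k : ℕ} [hp : Fact p.Prime] (H H' : Subgroup (LD none).G) (hle : H' ≤ H)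
    {z : ((LD none).sub H).G × ((LD none).sub H).G → Cu} (hz : z ∈ ((LD none).sub H).Z2 Cu)
    (hpz : ((LD none).sub H).IsB2 Cu (p ^ k • z)) (hidx : p ^ k ∣ (H'.subgroupOf H).index) :
    ((LD none).sub H').IsB2 Cu fun y => z (⟨y.1.1, hle y.1.2⟩, ⟨y.2.1, hle y.2.2⟩) := by
  obtain ⟨⟨_, ⟨N, hN, rfl⟩, hc⟩, hcoc⟩ := hz
  rcases Nat.eq_zero_or_pos k with rfl | hk
  · rw [pow_zero, one_smul] at hpz
    obtain ⟨b, ⟨_, ⟨N', hN', rfl⟩, hb⟩, rfl⟩ := hpz
    exact ⟨fun g => b ⟨g.1, hle g.2⟩, ⟨N'.subgroupOf H', ⟨N', hN', rfl⟩,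
      fun g s hs => hb ⟨g.1, hle g.2⟩ ⟨s.1, hle s.2⟩ hs⟩, rfl⟩
  · haveI : Finite H := (sub_none_finite H).1
    haveI : Finite H' := (sub_none_finite H').1
    have h1 : Nat.card H' = 1 := by
      have hmul := (H'.subgroupOf H).card_mul_index
      rw [Nat.card_congr (Subgroup.subgroupOfEquivOfLe hle).toEquiv] at hmul
      have hd := (sub_none_finite H).2
      change Nat.card H ∣ 2 at hd
      rw [← hmul] at hd
      have hi : 2 ≤ (H'.subgroupOf H).index := hp.out.two_le.trans
        (Nat.le_of_dvd (Nat.pos_of_ne_zero Subgroup.FiniteIndex.index_ne_zero)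
          ((dvd_pow_self p hk.ne').trans hidx))
      have := Nat.le_of_dvd two_pos hd
      have hp' : 0 < Nat.card H' := Nat.card_pos
      nlinarith
    have hz' : (fun y : ((LD none).sub H').G × ((LD none).sub H').G =>
        z (⟨y.1.1, hle y.1.2⟩, ⟨y.2.1, hle y.2.2⟩)) ∈ ((LD none).sub H').Z2 Cu :=
      ⟨⟨N.subgroupOf H', ⟨N, hN, rfl⟩, fun g g' s hs s' hs' =>
        hc ⟨g.1, hle g.2⟩ ⟨g'.1, hle g'.2⟩ ⟨s.1, hle s.2⟩ hs ⟨s'.1, hle s'.2⟩ hs'⟩,
        fun g h j => hcoc ⟨g.1, hle g.2⟩ ⟨h.1, hle h.2⟩ ⟨j.1, hle j.2⟩⟩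
    haveI : Finite ((LD none).sub H').G := (sub_none_finite H').1
    have := LevelGroup.isB2_card_nsmul hz'
    rwa [show Nat.card ((LD none).sub H').G = 1 from h1, one_smul] at this

end Fermat.Agent.GD
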