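import Fermat.Agent.GD.Local.Split

/-!
# The classes of `p`-power order of a local field form a divisible line
-/

set_option autoImplicit false
set_option linter.style.haveILetI false

noncomputable section

namespace Fermat.Agent.GD

open Fermat.Agent.Galois Finset

local notation "ℚb" => AlgebraicClosure ℚ
local notation "Cu" => Additive (AlgebraicClosure ℚ)ˣ

variable {q : Nat.Primes} {H H' M : Subgroup (LD (some q)).G} {σ : (LD (some q)).G}
  {p : ℕ} [hp : Fact p.Prime]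

theorem infl_eq_bot_of_le (hH : (LD (some q)).IsOpen H) (hle : H ≤ M) : infl H M = ⊥ := by
  rw [eq_bot_iff]
  rintro _ ⟨z, hz, rfl⟩
  refine AddSubgroup.mem_bot.mpr ((h2mk_eq_zero z).mpr ⟨fun _ => z.1 (1, 1), ?_, funext fun x => ?_⟩)
  · obtain ⟨N, hN, -⟩ := hH
    exact ⟨_, ⟨N, hN, rfl⟩, fun _ _ _ => rfl⟩
  · have hm : ∀ g : (LH H).G, g ∈ M.subgroupOf H := fun g => Subgroup.mem_subgroupOf.mpr (hle g.2)
    show x.1 • z.1 (1, 1) - z.1 (1, 1) + z.1 (1, 1) = z.1 x
    rw [hz.2 1 1 x.1 (hm _), sub_add_cancel]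
    have := hz.1 1 1 x.1 (hm _) x.2 (hm _)
    rw [one_mul, one_mul] at this
    exact this.symm

theorem isOpen_inf {A B : Subgroup (LD (some q)).G} (hA : (LD (some q)).IsOpen A)
    (hB : (LD (some q)).IsOpen B) : (LD (some q)).IsOpen (A ⊓ B) := by
  obtain ⟨L₁, hL₁, h₁⟩ := hA
  obtain ⟨L₂, hL₂, h₂⟩ := hB
  exact ⟨L₁ ⊓ L₂, (LD (some q)).inf _ _ hL₁ hL₂, inf_le_inf h₁ h₂⟩

/-- Restriction followed by averaging. -/
theorem relIndex_nsmul_eq_zero (hle : H' ≤ H) (hH' : (LD (some q)).IsOpen H') {x : H2 H}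
    (hx : resH2 hle x = 0) : H'.relIndex H • x = 0 := by
  classical
  obtain ⟨z, rfl⟩ := QuotientAddGroup.mk_surjective x
  obtain ⟨b, ⟨_, ⟨N, hN, rfl⟩, hb⟩, hbz⟩ := (h2mk_eq_zero _).mp hx
  obtain ⟨NM, hNM, hNMle⟩ := hH'
  obtain ⟨z₂, hcoc, -, hright, hlev, c, hc, hcz⟩ := (LH H).exists_reduced (smooth_units H)
    (M := H'.subgroupOf H) ⟨NM.subgroupOf H, ⟨NM, hNM, rfl⟩, fun g hg => hNMle hg⟩ z.2
    (b := fun g => b ⟨g.1.1, g.2⟩)
    ⟨N.subgroupOf H, ⟨N, hN, rfl⟩, fun g s hs => hb ⟨g.1.1, g.2⟩ ⟨s.1.1, s.2⟩ hs⟩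
    (fun g h => congrFun hbz (⟨g.1.1, g.2⟩, ⟨h.1.1, h.2⟩))
  set X := H'.subgroupOf H
  haveI : H'.FiniteIndex := finiteIndex_of_isOpen ⟨NM, hNM, hNMle⟩
  haveI : X.FiniteIndex := inferInstance
  letI : Fintype (H ⧸ X) := Fintype.ofFinite _
  let S : H → Cu := fun g => ∑ s : H ⧸ X, z₂ (g, s.out)
  have hS : (LH H).d₁ Cu S = H'.relIndex H • z₂ := by
    funext y
    obtain ⟨g, h⟩ := y
    have hperm : ∑ s : H ⧸ X, z₂ (g, h * s.out) = S g := by
      show _ = ∑ s : H ⧸ X, z₂ (g, s.out)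
      rw [← Equiv.sum_comp (@MulAction.toPerm H (H ⧸ X) _ _ h) fun s : H ⧸ X => z₂ (g, s.out)]
      refine Finset.sum_congr rfl fun s _ => ?_
      obtain ⟨t, ht⟩ : ∃ t : X, (h • s).out = h * s.out * t := by
        refine ⟨⟨(h * s.out)⁻¹ * (h • s).out, QuotientGroup.eq.mp ?_⟩, by group⟩
        rw [QuotientGroup.out_eq']
        conv_rhs => rw [← QuotientGroup.out_eq' s]
        rfl
      show z₂ (g, h * s.out) = z₂ (g, (h • s).out)
      rw [ht, hright _ _ _ t.2]
    have hsum := Finset.sum_congr (rfl : (Finset.univ : Finset (H ⧸ X)) = _)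
      fun s _ => hcoc g h s.out
    rw [sum_add_distrib, sum_add_distrib, ← smul_sum, hperm, sum_const, card_univ,
      ← Nat.card_eq_fintype_card, ← Subgroup.index_eq_card] at hsum
    show g • S h - S (g * h) + S g = H'.relIndex H • z₂ (g, h)
    rw [show g • S h = S (g * h) + H'.relIndex H • z₂ (g, h) - S g from eq_sub_of_add_eq hsum]
    abel
  have hSc : (LH H).Const₁ S := by
    choose T hT hTfix using hlev
    choose T' hT' hTT' using hT
    have hinf : ∀ t : Finset (H ⧸ X), ∃ L, (LD (some q)).IsLevel L ∧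
        ∀ s ∈ t, L ≤ T' s.out := by
      intro t
      induction t using Finset.induction with
      | empty => exact ⟨_, hNM, by simp⟩
      | insert s t hs ih =>
        obtain ⟨L, hL, ht⟩ := ih
        refine ⟨L ⊓ T' s.out, (LD (some q)).inf _ _ hL (hT' _), fun y hy => ?_⟩
        rcases Finset.mem_insert.mp hy with rfl | hy
        · exact inf_le_right
        · exact inf_le_left.trans (ht y hy)
    obtain ⟨L, hL, hall⟩ := hinf Finset.univ
    refine ⟨L.subgroupOf H, ⟨L, hL, rfl⟩, fun g s hs => Finset.sum_congr rfl fun t _ =>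
      hTfix _ g s ?_⟩
    rw [hTT']
    exact hall t (Finset.mem_univ _) hs
  refine (map_nsmul (h2mk H) _ z).symm.trans ((h2mk_eq_zero _).mpr ?_)
  show (LH H).IsB2 Cu (H'.relIndex H • z.1)
  rw [show (z.1 : (LH H).G × (LH H).G → Cu) = z₂ + (LH H).d₁ Cu c by rw [← hcz]; abel, nsmul_add,
    ← hS]
  exact LevelGroup.IsB2.add ⟨S, hSc, rfl⟩ ((LevelGroup.IsB2.nsmul ⟨c, hc, rfl⟩) _)

theorem exists_generator_prime {M₁ N : Subgroup (LD (some q)).G} (hle : N ≤ M₁)
    (hn : (N.subgroupOf M₁).Normal) (hidx : N.relIndex M₁ = p) (hN : (LD (some q)).IsOpen N) :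
    ∃ τ, CycLayer M₁ N τ p := by
  haveI := hn
  have hcard : Nat.card (M₁ ⧸ N.subgroupOf M₁) = p := by rw [← Subgroup.index_eq_card]; exact hidx
  haveI : Finite (M₁ ⧸ N.subgroupOf M₁) :=
    Nat.finite_of_card_ne_zero (by rw [hcard]; exact hp.out.ne_zero)
  haveI : IsCyclic (M₁ ⧸ N.subgroupOf M₁) := isCyclic_of_prime_card hcard
  obtain ⟨c, hc⟩ := IsCyclic.exists_generator (α := M₁ ⧸ N.subgroupOf M₁)
  obtain ⟨t, rfl⟩ := QuotientGroup.mk_surjective c
  have hgen : ∀ h ∈ M₁, ∃ i : ℕ, h⁻¹ * (t : (LD (some q)).G) ^ i ∈ N := by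
    intro h hh
    obtain ⟨i, hi⟩ := (mem_powers_iff_mem_zpowers.mpr (hc (QuotientGroup.mk ⟨h, hh⟩)) :
      _ ∈ Submonoid.powers _)
    refine ⟨i, ?_⟩
    have h2 : (QuotientGroup.mk (t ^ i) : M₁ ⧸ N.subgroupOf M₁) = QuotientGroup.mk ⟨h, hh⟩ := by
      rw [QuotientGroup.mk_pow]; exact hi
    simpa using Subgroup.mem_subgroupOf.mp (QuotientGroup.eq.mp h2.symm)
  obtain ⟨e, he⟩ := exists_cycLayer hN hle
    (fun g hg s hs => Subgroup.mem_subgroupOf.mp
      (hn.conj_mem ⟨s, hle hs⟩ (Subgroup.mem_subgroupOf.mpr hs) ⟨g, hg⟩)) t.2 hgen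
  have : e = p := he.relIndex_eq.symm.trans hidx
  exact ⟨_, this ▸ he⟩

/-- At most `p ^ a` classes are inflated from a normal subgroup of index `p ^ a`. -/
theorem card_infl_le (a : ℕ) : ∀ {P N : Subgroup (LD (some q)).G}, (LD (some q)).IsOpen N →
    N ≤ P → (N.subgroupOf P).Normal → N.relIndex P = p ^ a →
    Finite (infl P N) ∧ Nat.card (infl P N) ≤ p ^ a := by
  induction a with
  | zero =>
    intro P N hN hle _ hidx
    have hPN : P ≤ N := Subgroup.relIndex_eq_one.mp (by simpa using hidx)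
    rw [infl_eq_bot_of_le ⟨hN.choose, hN.choose_spec.1, hN.choose_spec.2.trans hle⟩ hPN]
    exact ⟨inferInstance, by simp⟩
  | succ a ih =>
    intro P N hN hle hn hidx
    haveI := hn
    let Q := P ⧸ N.subgroupOf P
    have hcard : Nat.card Q = p ^ (a + 1) := by rw [← Subgroup.index_eq_card]; exact hidx
    haveI : Finite Q := Nat.finite_of_card_ne_zero (by
      rw [hcard]; exact pow_ne_zero _ hp.out.ne_zero)
    haveI : Nontrivial Q := by
      rw [← Finite.one_lt_card_iff_nontrivial, hcard]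
      exact Nat.one_lt_pow (Nat.succ_ne_zero a) hp.out.one_lt
    have hQ : IsPGroup p Q := IsPGroup.of_card hcard
    haveI := hQ.center_nontrivial
    obtain ⟨c, hc⟩ := exists_prime_orderOf_dvd_card' (G := Subgroup.center Q) p (by
      obtain ⟨n, hn, hcn⟩ := (hQ.to_subgroup _).nontrivial_iff_card.mp
        (inferInstance : Nontrivial (Subgroup.center Q))
      exact hcn ▸ dvd_pow_self p (by omega))
    let Z : Subgroup Q := Subgroup.zpowers (c : Q)
    have hZ : Z.Normal := ⟨fun x hx g => by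
      have hx' : x ∈ Subgroup.center Q := (Subgroup.zpowers_le.mpr c.2) hx
      rw [Subgroup.mem_center_iff.mp hx' g, mul_inv_cancel_right]
      exact hx⟩
    let Mp : Subgroup P := Z.comap (QuotientGroup.mk' (N.subgroupOf P))
    haveI : Mp.Normal := hZ.comap _
    let M₁ : Subgroup (LD (some q)).G := Mp.map P.subtype
    have hM₁P : M₁ ≤ P := Subgroup.map_subtype_le Mp
    have hsub : M₁.subgroupOf P = Mp := Subgroup.comap_map_eq_self_of_injective P.subtype_injective Mp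
    have hNM : N ≤ M₁ := fun s hs => ⟨⟨s, hle hs⟩,
      QuotientGroup.le_comap_mk' (N.subgroupOf P) Z (Subgroup.mem_subgroupOf.mpr hs), rfl⟩
    have hZidx : Z.index = p ^ a := by
      have h := Z.card_mul_index
      rw [hcard, Nat.card_zpowers, Subgroup.orderOf_coe, hc, pow_succ'] at h
      exact Nat.eq_of_mul_eq_mul_left hp.out.pos h
    have hMP : M₁.relIndex P = p ^ a := by
      show (M₁.subgroupOf P).index = _
      rw [hsub, Subgroup.index_comap_of_surjective _ (QuotientGroup.mk'_surjective _), hZidx]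
    have hNM₁ : N.relIndex M₁ = p := by
      have h := Subgroup.relIndex_mul_relIndex N M₁ P hNM hM₁P
      rw [hidx, hMP, pow_succ'] at h
      exact Nat.eq_of_mul_eq_mul_right (pow_pos hp.out.pos a) h
    have hM₁ : (LD (some q)).IsOpen M₁ := ⟨hN.choose, hN.choose_spec.1, hN.choose_spec.2.trans hNM⟩
    have hnM : (N.subgroupOf M₁).Normal := ⟨fun s hs g => Subgroup.mem_subgroupOf.mpr
      (Subgroup.mem_subgroupOf.mp (hn.conj_mem ⟨(s : (LD (some q)).G), hM₁P s.2⟩
        (Subgroup.mem_subgroupOf.mpr (Subgroup.mem_subgroupOf.mp hs)) ⟨g, hM₁P g.2⟩))⟩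
    obtain ⟨τ, hτ⟩ := exists_generator_prime hNM hnM hNM₁ hN
    obtain ⟨hfinM, hcardM⟩ := ih hM₁ hM₁P (hsub ▸ (inferInstance : Mp.Normal)) hMP
    -- the classes of the last layer
    have hcl : Finite (infl M₁ N) ∧ Nat.card (infl M₁ N) ≤ p := by
      rw [hτ.infl_eq hp.out.one_lt]
      have hk : hτ.cls.ker.index = p := by
        have e : hτ.cls.ker = ((normGroup N τ p).subgroupOf (fixedUnits M₁)).toAddSubgroup := by
          ext w
          exact hτ.cls_eq_zero_iff hp.out.one_lt w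
        rw [e, Subgroup.index_toAddSubgroup]
        exact relIndex_normGroup_prime hτ
      rw [AddSubgroup.index_ker] at hk
      exact ⟨Nat.finite_of_card_ne_zero (by rw [hk]; exact hp.out.ne_zero), hk.le⟩
    haveI := hcl.1
    haveI := hfinM
    let r : infl P N →+ infl M₁ N :=
      ((resH2 hM₁P).comp (infl P N).subtype).codRestrict _ fun x => res_mem_infl hM₁P x.2
    have hker : ∀ x : r.ker, (x.1 : H2 P) ∈ infl P M₁ := fun x =>
      mem_infl_of_res_eq_zero hM₁ hM₁P (hsub ▸ (inferInstance : Mp.Normal))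
        (congrArg Subtype.val x.2)
    let ι : r.ker → infl P M₁ := fun x => ⟨x.1.1, hker x⟩
    have hι : Function.Injective ι := fun x y h =>
      Subtype.ext (Subtype.ext (congrArg (fun w : infl P M₁ => (w : H2 P)) h))
    haveI : Finite r.ker := Finite.of_injective ι hι
    haveI : Finite r.range := Finite.of_injective _ Subtype.val_injective
    haveI : Finite (infl P N ⧸ r.ker) :=
      Finite.of_equiv _ (QuotientAddGroup.quotientKerEquivRange r).symm.toEquiv
    refine ⟨(AddSubgroup.addGroupEquivQuotientProdAddSubgroup (s := r.ker)).finite_iff.mpr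
      inferInstance, ?_⟩
    rw [AddSubgroup.card_eq_card_quotient_mul_card_addSubgroup r.ker,
      Nat.card_congr (QuotientAddGroup.quotientKerEquivRange r).toEquiv, pow_succ']
    exact Nat.mul_le_mul ((Nat.card_le_card_of_injective _ Subtype.val_injective).trans hcl.2)
      ((Nat.card_le_card_of_injective ι hι).trans hcardM)

omit hp in
theorem exists_fixedUnit_ord {f : ℕ} {A : ℕ} [FiniteDimensional (decField (placeAt q)) (fieldOf H)]
    (D : LayerData H M σ f (p ^ A)) : ∃ u : fixedUnits H,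
      ordE q.2 (placeAt_liesOverPrime q) (fieldOf H)
        (Additive.ofMul ((fixedUnitsEquiv H).symm u)) = f := by
  obtain ⟨x, hx⟩ := D.exists_ord
  exact ⟨fixedUnitsEquiv H x.toMul, by rw [MulEquiv.symm_apply_apply]; exact hx⟩

/-- The classes of a layer are counted by the valuation. -/
theorem LayerData.cls_eq_zero_iff_dvd {f A : ℕ} [FiniteDimensional (decField (placeAt q)) (fieldOf H)]
    (D : LayerData H M σ f (p ^ A)) (hA : 0 < A) (u : fixedUnits H) {r : ℤ}
    (hr : ordE q.2 (placeAt_liesOverPrime q) (fieldOf H)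
      (Additive.ofMul ((fixedUnitsEquiv H).symm u)) = f * r) :
    D.layer.cls (Additive.ofMul u) = 0 ↔ ((p ^ A : ℕ) : ℤ) ∣ r := by
  rw [D.layer.cls_eq_zero_iff (Nat.one_lt_pow hA.ne' hp.out.one_lt)]
  have h := mem_normGroup_iff D.layer D.f_ne_zero D.exists_ord D.dvd_ord D.level
    (x := (fixedUnitsEquiv H).symm u)
  rw [MulEquiv.apply_symm_apply] at h
  rw [show ((Additive.ofMul u).toMul : fixedUnits H) = u from rfl, h, hr, Nat.cast_mul,
    mul_dvd_mul_iff_left (by exact_mod_cast D.f_ne_zero)]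

/-- Every class of `p`-power order comes from a deep enough layer. -/
theorem exists_mem_infl_layer (hH : (LD (some q)).IsOpen H)
    [FiniteDimensional (decField (placeAt q)) (fieldOf H)] {x : H2 H} {k : ℕ} (hx : p ^ k • x = 0) :
    ∃ A₀, ∀ A, A₀ ≤ A → ∀ M σ f, LayerData H M σ f (p ^ A) → x ∈ infl H M := by
  classical
  obtain ⟨z, rfl⟩ := QuotientAddGroup.mk_surjective x
  obtain ⟨N, hN, hNH, hzN⟩ := exists_inflated_level hH z.2
  haveI := (LD (some q)).finiteIndex N hN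
  haveI := (LD (some q)).normal N hN
  let G := H ⧸ N.subgroupOf H
  haveI : Finite G := inferInstance
  let S : Sylow p G := default
  obtain ⟨a, ha⟩ := S.isPGroup'.exists_card_eq
  let Pp : Subgroup H := (S : Subgroup G).comap (QuotientGroup.mk' (N.subgroupOf H))
  let P : Subgroup (LD (some q)).G := Pp.map H.subtype
  have hPH : P ≤ H := Subgroup.map_subtype_le Pp
  have hsub : P.subgroupOf H = Pp := Subgroup.comap_map_eq_self_of_injective H.subtype_injective Pp
  have hNP : N ≤ P := fun s hs => ⟨⟨s, hNH hs⟩,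
    QuotientGroup.le_comap_mk' (N.subgroupOf H) (S : Subgroup G) (Subgroup.mem_subgroupOf.mpr hs), rfl⟩
  have hPidx : P.relIndex H = (S : Subgroup G).index := by
    show (P.subgroupOf H).index = _
    rw [hsub, Subgroup.index_comap_of_surjective _ (QuotientGroup.mk'_surjective _)]
  have hcop : ¬ p ∣ P.relIndex H := hPidx ▸ S.not_dvd_index
  have hNPidx : N.relIndex P = p ^ a := by
    have h := Subgroup.relIndex_mul_relIndex N P H hNP hPH
    rw [hPidx] at h
    have h2 := (S : Subgroup G).card_mul_index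
    rw [show Nat.card G = N.relIndex H from (Subgroup.index_eq_card (N.subgroupOf H)).symm, ← h] at h2
    have h3 := Nat.eq_of_mul_eq_mul_right (Nat.pos_of_ne_zero Subgroup.FiniteIndex.index_ne_zero) h2
    rw [← h3]
    exact ha
  have hPopen : (LD (some q)).IsOpen P := ⟨N, hN, hNP⟩
  haveI := finiteDimensional_fieldOf hPopen
  have hxP : resH2 hPH (QuotientAddGroup.mk z : H2 H) ∈ infl P N :=
    res_mem_infl hPH ⟨z, hzN, rfl⟩
  refine ⟨a + 1, fun A hA M σ f D => ?_⟩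
  have hD := D.layer
  haveI : NeZero (p ^ A) := ⟨(pow_pos hp.out.pos A).ne'⟩
  have hmap : ((⊤ : Subgroup P).map (hD.deg.comp (Subgroup.inclusion hPH))) = ⊤ := by
    rw [← MonoidHom.range_eq_map, ← Subgroup.index_eq_one]
    set R := (hD.deg.comp (Subgroup.inclusion hPH)).range
    have h1 : R.index ∣ P.relIndex H := by
      have e : R = (P.subgroupOf H).map hD.deg := by
        ext x
        exact ⟨fun ⟨g, hg⟩ => ⟨Subgroup.inclusion hPH g, g.2, hg⟩,
          fun ⟨g, hg, hgx⟩ => ⟨⟨g.1, hg⟩, hgx⟩⟩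
      rw [e]
      exact Subgroup.index_map_dvd _ hD.deg_surjective
    have h2 : R.index ∣ p ^ A := by
      have h := R.index_dvd_card
      rwa [Nat.card_congr Multiplicative.toAdd, Nat.card_zmod] at h
    obtain ⟨g, -, hg⟩ := (Nat.dvd_prime_pow hp.out).mp h2
    rcases Nat.eq_zero_or_pos g with rfl | hg0
    · rw [hg, pow_zero]
    · exact absurd ((hg ▸ dvd_pow_self p hg0.ne').trans h1) hcop
  obtain ⟨gP, -, hgP⟩ := Subgroup.mem_map.mp (hmap.symm ▸ Subgroup.mem_top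
    (Multiplicative.ofAdd ((1 : ℕ) : ZMod (p ^ A))) : _ ∈ (⊤ : Subgroup P).map _)
  have hPM : CycLayer P (P ⊓ M) gP.1 (p ^ A) := by
    have hdeg : ∀ c : ℕ, hD.deg (Subgroup.inclusion hPH (gP ^ c)) =
        Multiplicative.ofAdd (c : ZMod (p ^ A)) := fun c => by
      rw [map_pow, map_pow, show hD.deg (Subgroup.inclusion hPH gP) = _ from hgP, ← ofAdd_nsmul,
        nsmul_eq_mul, Nat.cast_one, mul_one]
    have hmemM : ∀ g : P, hD.deg (Subgroup.inclusion hPH g) = 1 ↔ (g : (LD (some q)).G) ∈ P ⊓ M :=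
      fun g => (hD.deg_eq_one_iff _).trans ⟨fun hm => ⟨g.2, hm⟩, fun hm => hm.2⟩
    refine ⟨isOpen_inf hPopen hD.isOpen, inf_le_left,
      fun g hg s hs => ⟨P.mul_mem (P.mul_mem hg hs.1) (P.inv_mem hg), hD.conj g (hPH hg) s hs.2⟩,
      gP.2, fun g hg => ⟨hD.idx (Subgroup.inclusion hPH ⟨g, hg⟩), ?_⟩, pow_pos hp.out.pos A, ?_,
      fun i hi0 hi hmem => ?_⟩
    · have h1 : hD.deg (Subgroup.inclusion hPH
          ((⟨g, hg⟩ : P)⁻¹ * gP ^ hD.idx (Subgroup.inclusion hPH ⟨g, hg⟩))) = 1 := by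
        rw [map_mul, map_mul, map_inv, map_inv, hdeg]
        exact inv_mul_cancel _
      simpa using (hmemM _).mp h1
    · have h1 : hD.deg (Subgroup.inclusion hPH (gP ^ (p ^ A))) = 1 := by
        rw [hdeg, ZMod.natCast_self]; rfl
      simpa using (hmemM _).mp h1
    · have h1 : hD.deg (Subgroup.inclusion hPH (gP ^ i)) = 1 := (hmemM _).mpr (by simpa using hmem)
      rw [hdeg, ← ofAdd_zero, Multiplicative.ofAdd.injective.eq_iff, ZMod.natCast_eq_zero_iff] at h1
      exact absurd (Nat.le_of_dvd hi0 h1) (not_le.mpr hi)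
  obtain ⟨Ma, hMa, hMa'⟩ := hPM.exists_mid (a := p ^ a) (b := p ^ (A - a))
    (by rw [← pow_add]; congr 1; omega)
  obtain ⟨fP, hfP0, hdvdP, hPP, UP, hUP, hdegP⟩ := exists_degree P hPopen
  obtain ⟨U, hU, hUM, -⟩ := D.level
  have DP : LayerData P Ma gP.1 fP (p ^ a) := ⟨hMa, hfP0, hdvdP, hPP, U ⊓ UP, hU.inf hUP,
    fun s hs => hMa'.le ⟨hs.1, hUM ⟨hPH hs.1, hs.2.1⟩⟩,
    fun U' hU' hle => hdegP U' hU' (hle.trans inf_le_right)⟩
  obtain ⟨hfin, hcard⟩ := card_infl_le a ⟨N, hN, le_rfl⟩ hNP inferInstance hNPidx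
  have hres : resH2 hPH (QuotientAddGroup.mk z : H2 H) ∈ infl P Ma := by
    rcases Nat.eq_zero_or_pos a with rfl | ha0
    · have h0 : resH2 hPH (QuotientAddGroup.mk z : H2 H) = 0 := by
        have := infl_eq_bot_of_le hPopen
          (Subgroup.relIndex_eq_one.mp (by simpa using hNPidx) : P ≤ N)
        rw [this] at hxP
        exact AddSubgroup.mem_bot.mp hxP
      rw [h0]; exact zero_mem _
    have hle : infl P Ma ≤ infl P N := by
      intro w hw
      refine mem_infl_of_res_eq_zero ⟨N, hN, le_rfl⟩ hNP inferInstance ?_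
      rw [DP.layer.infl_eq (Nat.one_lt_pow ha0.ne' hp.out.one_lt)] at hw
      obtain ⟨u, rfl⟩ := hw
      obtain ⟨r, hr⟩ := DP.dvd_ord (Additive.ofMul ((fixedUnitsEquiv P).symm u.toMul))
      exact DP.res_cls_eq_zero ha0 hNP ⟨N, hN, le_rfl⟩ u.toMul hr (k := a)
        (by rw [hNPidx]) (dvd_mul_right _ _)
    haveI := hfin
    have hge : p ^ a ≤ Nat.card (infl P Ma) := by
      haveI : Finite (infl P Ma) := Finite.of_injective _ (AddSubgroup.inclusion_injective hle)
      obtain ⟨u, hu⟩ := exists_fixedUnit_ord DP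
      have hmem : DP.layer.cls (Additive.ofMul u) ∈ infl P Ma := by
        rw [DP.layer.infl_eq (Nat.one_lt_pow ha0.ne' hp.out.one_lt)]; exact ⟨_, rfl⟩
      refine le_of_le_of_eq (Nat.card_le_card_of_injective
        (fun i : Fin (p ^ a) => (i : ℕ) • (⟨_, hmem⟩ : infl P Ma)) ?_) rfl |>.trans_eq' (by simp)
      intro i j hij
      have hij' : ((i : ℕ) : ℤ) • DP.layer.cls (Additive.ofMul u) -
          ((j : ℕ) : ℤ) • DP.layer.cls (Additive.ofMul u) = 0 := by
        rw [natCast_zsmul, natCast_zsmul, sub_eq_zero]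
        exact congrArg Subtype.val hij
      have hz0 : DP.layer.cls (Additive.ofMul (u ^ ((i : ℤ) - j))) = 0 :=
        ((map_zsmul DP.layer.cls ((i : ℤ) - j) (Additive.ofMul u)).trans
          (sub_zsmul _ _ _)).trans (by rw [← sub_eq_add_neg]; exact hij')
      rw [DP.cls_eq_zero_iff_dvd ha0 _ (r := (i : ℤ) - j) (by
        rw [map_zpow, ofMul_zpow, map_zsmul, hu, smul_eq_mul, mul_comm])] at hz0
      have := Int.eq_zero_of_abs_lt_dvd hz0 (by
        have h1 := i.2; have h2 := j.2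
        rw [abs_lt]; constructor <;> omega)
      exact Fin.ext (by omega)
    rw [AddSubgroup.eq_of_le_of_card_ge hle (hcard.trans hge)]
    exact hxP
  -- the class dies on `P ⊓ M`
  have hPMM : resH2 (inf_le_left.trans hPH : P ⊓ M ≤ H) (QuotientAddGroup.mk z : H2 H) = 0 := by
    have h := res_mem_infl (inf_le_left : P ⊓ M ≤ P) hres
    rw [resH2_resH2, infl_eq_bot_of_le (isOpen_inf hPopen hD.isOpen) hMa'.le] at h
    exact AddSubgroup.mem_bot.mp h
  have hrel : (P ⊓ M).relIndex M = P.relIndex H := by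
    have h := Subgroup.relIndex_mul_relIndex (P ⊓ M) M H inf_le_right hD.le
    have h' := Subgroup.relIndex_mul_relIndex (P ⊓ M) P H inf_le_left hPH
    rw [← h', hD.relIndex_eq, hPM.relIndex_eq, mul_comm (p ^ A)] at h
    exact Nat.eq_of_mul_eq_mul_right (pow_pos hp.out.pos A) h
  refine mem_infl_of_res_eq_zero hD.isOpen hD.le hD.normal ?_
  have hj : P.relIndex H • resH2 hD.le (QuotientAddGroup.mk z : H2 H) = 0 := by
    rw [← hrel]
    refine relIndex_nsmul_eq_zero inf_le_right (isOpen_inf hPopen hD.isOpen) ?_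
    rw [resH2_resH2]
    exact hPMM
  have hk' : p ^ k • resH2 hD.le (QuotientAddGroup.mk z : H2 H) = 0 := by
    rw [← map_nsmul, hx, map_zero]
  have hgcd : Nat.gcd (p ^ k) (P.relIndex H) = 1 :=
    Nat.Coprime.pow_left k ((Nat.Prime.coprime_iff_not_dvd hp.out).mpr hcop)
  exact AddMonoid.addOrderOf_eq_one_iff.mp (Nat.eq_one_of_dvd_one
    (hgcd ▸ Nat.dvd_gcd (addOrderOf_dvd_of_nsmul_eq_zero hk') (addOrderOf_dvd_of_nsmul_eq_zero hj)))

theorem h2_killed_eq (hH : (LD (some q)).IsOpen H) {x : H2 H} {k : ℕ} (hx : p ^ k • x = 0)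
    (hle : H' ≤ H) (hH' : (LD (some q)).IsOpen H') (hidx : p ^ k ∣ H'.relIndex H) :
    resH2 hle x = 0 := by
  haveI := finiteDimensional_fieldOf hH
  obtain ⟨A₀, hA₀⟩ := exists_mem_infl_layer hH hx
  obtain ⟨M, σ, f, D⟩ := exists_layerData (p := p) H hH (A₀ + 1)
  have hm := hA₀ _ (Nat.le_succ A₀) M σ f D
  rw [D.layer.infl_eq (Nat.one_lt_pow (Nat.succ_ne_zero A₀) hp.out.one_lt)] at hm
  obtain ⟨u, rfl⟩ := hm
  obtain ⟨r, hr⟩ := D.dvd_ord (Additive.ofMul ((fixedUnitsEquiv H).symm u.toMul))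
  refine D.res_cls_eq_zero (Nat.succ_pos A₀) hle hH' u.toMul hr hidx ?_
  rw [← map_nsmul] at hx
  exact (D.cls_eq_zero_iff_dvd (Nat.succ_pos A₀) (u.toMul ^ (p ^ k)) (r := (p ^ k : ℕ) * r) (by
    rw [map_pow, ofMul_pow, map_nsmul, hr, nsmul_eq_mul]; ring)).mp hx

theorem h2_line_eq (hH : (LD (some q)).IsOpen H) {x y : H2 H} (hx : p • x = 0) (hy : p • y = 0)
    (hne : x ≠ 0) : ∃ k : ℕ, y = k • x := by
  haveI := finiteDimensional_fieldOf hH
  obtain ⟨A₀, hA₀⟩ := exists_mem_infl_layer hH (x := x) (k := 1) (by rw [pow_one]; exact hx)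
  obtain ⟨A₁, hA₁⟩ := exists_mem_infl_layer hH (x := y) (k := 1) (by rw [pow_one]; exact hy)
  set B := max A₀ A₁
  obtain ⟨M, σ, f, D⟩ := exists_layerData (p := p) H hH (B + 1)
  have hm := hA₀ (B + 1) ((le_max_left _ _).trans (Nat.le_succ _)) M σ f D
  have hm' := hA₁ (B + 1) ((le_max_right _ _).trans (Nat.le_succ _)) M σ f D
  rw [D.layer.infl_eq (Nat.one_lt_pow (Nat.succ_ne_zero B) hp.out.one_lt)] at hm hm'
  obtain ⟨u, rfl⟩ := hm
  obtain ⟨w, rfl⟩ := hm'
  obtain ⟨r, hr⟩ := D.dvd_ord (Additive.ofMul ((fixedUnitsEquiv H).symm u.toMul))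
  obtain ⟨s, hs⟩ := D.dvd_ord (Additive.ofMul ((fixedUnitsEquiv H).symm w.toMul))
  have hp0 : (p : ℤ) ≠ 0 := by exact_mod_cast hp.out.ne_zero
  have hkill : ∀ (v : Additive (fixedUnits H)) (t : ℤ),
      ordE q.2 (placeAt_liesOverPrime q) (fieldOf H)
        (Additive.ofMul ((fixedUnitsEquiv H).symm v.toMul)) = f * t →
      p • D.layer.cls v = 0 → ((p ^ B : ℕ) : ℤ) ∣ t := by
    intro v t ht hv
    rw [← map_nsmul] at hv
    have h := (D.cls_eq_zero_iff_dvd (Nat.succ_pos B) (v.toMul ^ p) (r := (p : ℤ) * t) (by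
      rw [map_pow, ofMul_pow, map_nsmul, ht, nsmul_eq_mul]; ring)).mp hv
    rw [pow_succ', Nat.cast_mul] at h
    exact (mul_dvd_mul_iff_left hp0).mp h
  obtain ⟨r₀, rfl⟩ := hkill u r hr hx
  obtain ⟨s₀, rfl⟩ := hkill w s hs hy
  have hr₀ : ¬ (p : ℤ) ∣ r₀ := fun hd => hne ((D.cls_eq_zero_iff_dvd (Nat.succ_pos B) u.toMul hr).mpr (by
    rw [pow_succ, Nat.cast_mul]; exact mul_dvd_mul_left _ hd))
  haveI : NeZero p := ⟨hp.out.ne_zero⟩
  have hr₁ : (r₀ : ZMod p) ≠ 0 := fun h => hr₀ ((ZMod.intCast_zmod_eq_zero_iff_dvd _ _).mp h)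
  refine ⟨((s₀ : ZMod p) / (r₀ : ZMod p)).val, ?_⟩
  rw [← map_nsmul, ← sub_eq_zero]
  refine (map_sub D.layer.cls _ _).symm.trans ?_
  refine (D.cls_eq_zero_iff_dvd (Nat.succ_pos B)
    (w.toMul / u.toMul ^ ((s₀ : ZMod p) / (r₀ : ZMod p)).val)
    (r := ((p ^ B : ℕ) : ℤ) * s₀ - ((s₀ : ZMod p) / (r₀ : ZMod p)).val * (((p ^ B : ℕ) : ℤ) * r₀)) (by
      rw [map_div, map_pow, ofMul_div, ofMul_pow, map_sub, map_nsmul, hr, hs, nsmul_eq_mul]; ring)).mpr ?_
  rw [show ((p ^ B : ℕ) : ℤ) * s₀ - (((s₀ : ZMod p) / (r₀ : ZMod p)).val : ℤ) * (((p ^ B : ℕ) : ℤ) * r₀) =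
    ((p ^ B : ℕ) : ℤ) * (s₀ - (((s₀ : ZMod p) / (r₀ : ZMod p)).val : ℤ) * r₀) by ring, pow_succ,
    Nat.cast_mul]
  refine mul_dvd_mul_left _ ((ZMod.intCast_zmod_eq_zero_iff_dvd _ _).mp ?_)
  push_cast
  rw [ZMod.natCast_zmod_val, div_mul_cancel₀ _ hr₁, sub_self]

end Fermat.Agent.GD
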