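import Fermat.Agent.GD.Local.Bridge

/-!
# Hilbert's Theorem 90 at all levels
-/

set_option autoImplicit false
set_option linter.style.haveILetI false

noncomputable section

namespace Fermat.Agent.GD

open Fermat.Agent.Galois

local notation "ℚb" => AlgebraicClosure ℚ

/-- An element of a decomposition group as an element of the absolute Galois group. -/
abbrev gqOf {v : Place} (g : (LD v).G) : GQ := (show decomp v from g).1

/-- Hilbert 90: a cocycle on an open subgroup constant on the cosets of a level is the coboundary of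
a nonzero number fixed by the level. -/
theorem exists_smul_div_eq (v : Place) (H N : Subgroup (LD v).G) (hN : (LD v).IsLevel N)
    (hle : N ≤ H) (f : H → ℚbˣ)
    (hf : ∀ g h : H, f (g * h) = f g * (g : (LD v).G) • f h)
    (hfN : ∀ g : H, ∀ s : H, (s : (LD v).G) ∈ N → f (g * s) = f g) :
    ∃ u : ℚbˣ, (∀ s ∈ N, s • u = u) ∧ ∀ g : H, f g = (g : (LD v).G) • u / u := by
  classical
  haveI := (LD v).finiteIndex N hN
  haveI hnorm := (LD v).normal N hN
  obtain ⟨_, ⟨F, hF, rfl, hFn⟩, hNF⟩ := hN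
  have hmem : ∀ s : (LD v).G, s ∈ N ↔ gqOf s ∈ F.fixingSubgroup := fun s => by subst hNF; rfl
  have hf1 : f 1 = 1 := by
    have h := hf 1 1
    rw [mul_one, Subgroup.coe_one, one_smul] at h
    exact left_eq_mul.mp h
  have hfix : ∀ s : H, (s : (LD v).G) ∈ N → f s = 1 := fun s hs => by
    rw [← one_mul s, hfN 1 s hs, hf1]
  haveI : (N.subgroupOf H).FiniteIndex := inferInstance
  letI : Fintype (H ⧸ N.subgroupOf H) := Fintype.ofFinite _
  let act : H → ℚb → ℚb := fun g x => gqOf (g : (LD v).G) x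
  have hact : ∀ g h : H, ∀ x, act (g * h) x = act g (act h x) := fun g h x => rfl
  let χ : H ⧸ N.subgroupOf H → (F →* ℚb) := fun c =>
    ((gqOf ((c.out : H) : (LD v).G)).toRingEquiv.toRingHom.comp (algebraMap F ℚb)).toMonoidHom
  have hχ : Function.Injective χ := by
    intro c c' hcc
    rw [← QuotientGroup.out_eq' c, ← QuotientGroup.out_eq' c', QuotientGroup.eq,
      Subgroup.mem_subgroupOf, hmem]
    intro x
    show (gqOf ((c.out : H) : (LD v).G)).symm (act c'.out x) = x
    rw [AlgEquiv.symm_apply_eq]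
    exact (DFunLike.congr_fun hcc x).symm
  have hli := (linearIndependent_monoidHom F ℚb).comp _ hχ
  obtain ⟨θ, hθ⟩ : ∃ θ : F, (∑ c, (f (c.out : H) : ℚb) * χ c θ) ≠ 0 := by
    by_contra hcon
    push Not at hcon
    have h0 := Fintype.linearIndependent_iff.mp hli (fun c => (f (c.out : H) : ℚb))
      (funext fun θ => by simpa using hcon θ) (QuotientGroup.mk 1)
    exact (f _).ne_zero h0
  set b := ∑ c, (f (c.out : H) : ℚb) * χ c θ with hb
  have hθfix : ∀ s : H, (s : (LD v).G) ∈ N → act s θ = θ := fun s hs => (hmem _).mp hs θ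
  have hkey : ∀ g : H, (f g : ℚb) * act g b = b := by
    intro g
    show (f g : ℚb) * gqOf (g : (LD v).G) b = b
    rw [hb, map_sum, Finset.mul_sum, ← (Equiv.sum_comp (MulAction.toPerm g)
      fun c => (f (c.out : H) : ℚb) * χ c θ)]
    refine Finset.sum_congr rfl fun c _ => ?_
    obtain ⟨k, hk⟩ : ∃ k : N.subgroupOf H, (g • c).out = g * c.out * k := by
      refine ⟨⟨(g * c.out)⁻¹ * (g • c).out, QuotientGroup.eq.mp ?_⟩, by group⟩
      rw [QuotientGroup.out_eq']
      conv_rhs => rw [← QuotientGroup.out_eq' c]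
      rfl
    show _ = (f ((g • c).out : H) : ℚb) * act (g • c).out θ
    rw [hk, hfN _ _ (Subgroup.mem_subgroupOf.mp k.2), hact, hθfix _ (Subgroup.mem_subgroupOf.mp k.2),
      hact, map_mul, hf, Units.val_mul]
    simp only [mul_assoc]
    rfl
  refine ⟨(Units.mk0 b hθ)⁻¹, fun s hs => ?_, fun g => ?_⟩
  · rw [smul_inv', inv_inj]
    refine Units.ext ?_
    have := hkey ⟨s, hle hs⟩
    rw [hfix ⟨s, hle hs⟩ hs, Units.val_one, one_mul] at this
    show gqOf s b = b
    exact this
  · rw [smul_inv', inv_div_inv, eq_div_iff_mul_eq']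
    refine Units.ext ?_
    show (f g : ℚb) * gqOf (g : (LD v).G) b = b
    exact hkey g

theorem local_h1_eq (v : Place) (H : Subgroup (LD v).G) (hH : (LD v).IsOpen H) :
    ∀ f ∈ ((LD v).sub H).Z1 (Additive ℚbˣ), f ∈ ((LD v).sub H).B1 (Additive ℚbˣ) := by
  intro f hf
  obtain ⟨⟨N₀, ⟨N', hN', rfl⟩, hc⟩, hcoc⟩ := hf
  obtain ⟨N₁, hN₁, hle₁⟩ := hH
  obtain ⟨u, -, hu⟩ := exists_smul_div_eq v H (N' ⊓ N₁) ((LD v).inf _ _ hN' hN₁)
    (inf_le_right.trans hle₁) (fun g => (f g).toMul)
    (fun g h => congrArg Additive.toMul (hcoc g h))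
    (fun g s hs => congrArg Additive.toMul (hc g s (Subgroup.mem_subgroupOf.mpr hs.1)))
  exact ⟨Additive.ofMul u, funext fun g => Additive.toMul.injective (hu g).symm⟩

/-- At an unramified level, unit cocycles of degree one are coboundaries of units. -/
theorem units_h1_eq (q : Nat.Primes) (H : Subgroup (LD (some q)).G) (N : Subgroup (LD (some q)).G)
    (hN : (LD (some q)).IsLevel N)
    (hI : ∀ s : (LD (some q)).G, s.1 ∈ (placeAt q).inertiaSubgroupIn ℚ → s ∈ N) (hle : N ≤ H)
    (f : H → ℚbˣ) (hf : ∀ g h : H, f (g * h) = f g * (g : (LD (some q)).G) • f h)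
    (hfN : ∀ g : H, ∀ s : H, (s : (LD (some q)).G) ∈ N → f (g * s) = f g) :
    ∃ u ∈ (placeAt q).unitGroup, (∀ s ∈ N, s • u = u) ∧
      ∀ g : H, f g = (g : (LD (some q)).G) • u / u := by
  obtain ⟨u, hu, hfu⟩ := exists_smul_div_eq (some q) H N hN hle f hf hfN
  have hA := placeAt_liesOverPrime q
  obtain ⟨k, hk⟩ := NewVec.exists_val_eq_zpow_of_fixed q.2 hA (x := (u : ℚb))
    (fun σ hσ => by
      obtain ⟨s, hs, rfl⟩ := hσ
      exact congrArg Units.val (hu s (hI s ⟨s, hs, rfl⟩))) u.ne_zero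
  let qu : ℚbˣ := Units.mk0 ((q : ℕ) : ℚb) (by exact_mod_cast q.2.ne_zero)
  have hq : ∀ g : (LD (some q)).G, g • qu = qu := fun g =>
    Units.ext (map_natCast ((show decomp (some q) from g).1 : GQ) _)
  refine ⟨u / qu ^ k, ?_, fun s hs => by rw [smul_div', smul_zpow', hu s hs, hq], fun g => ?_⟩
  · rw [ValuationSubring.mem_unitGroup_iff, Units.val_div_eq_div_val, map_div₀, hk,
      Units.val_zpow_eq_zpow_val, map_zpow₀, Units.val_mk0,
      div_self (zpow_ne_zero _ (natCast_val_ne_zero q.2))]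
  · rw [smul_div', smul_zpow', hq, div_div_div_cancel_right]
    exact hfu g

end Fermat.Agent.GD
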