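import Fermat.Agent.GD.Local.Residue

/-!
# The residue degree of a local field
-/

set_option autoImplicit false
set_option linter.style.haveILetI false

noncomputable section

namespace Fermat.Agent.GD

open Fermat.Agent.Galois Polynomial IsLocalRing

local notation "ℚb" => AlgebraicClosure ℚ

variable {q : Nat.Primes}

/-- Congruent roots of unity of order prime to `q` are equal. -/
theorem eq_of_pow_eq_one_of_near {N : ℕ} (hN : (placeAt q).valuation (N : ℚb) = 1) {x y : ℚb}
    (hx : x ^ N = 1) (hy : y ^ N = 1) (h : (placeAt q).valuation (x - y) < 1) : x = y := by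
  have hN0 : N ≠ 0 := by
    rintro rfl
    rw [Nat.cast_zero, map_zero] at hN
    exact zero_ne_one hN
  have hy1 : (placeAt q).valuation y = 1 := by
    have := congrArg (placeAt q).valuation hy
    rw [map_pow, map_one] at this
    exact (pow_eq_one_iff.mp this).resolve_right hN0
  have hy0 : y ≠ 0 := fun h0 => by rw [h0, map_zero] at hy1; exact zero_ne_one hy1
  set t := x / y with ht
  have ht1 : (placeAt q).valuation (t - 1) < 1 := by
    rw [ht, div_sub_one hy0, map_div₀, hy1, div_one]; exact h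
  have htA : t ∈ placeAt q :=
    ((placeAt q).valuation_le_one_iff _).mp (val_eq_one_of_near ht1).le
  have hsum : (placeAt q).valuation (∑ i ∈ Finset.range N, t ^ i - (N : ℚb)) < 1 := by
    rw [show (N : ℚb) = ∑ _i ∈ Finset.range N, (1 : ℚb) by simp, ← Finset.sum_sub_distrib]
    refine Valuation.map_sum_lt _ one_ne_zero fun i _ => ?_
    rw [← geom_sum_mul, map_mul]
    exact lt_of_le_of_lt (mul_le_of_le_one_left' (((placeAt q).valuation_le_one_iff _).mpr
      (sum_mem fun j _ => pow_mem htA j))) ht1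
  have hne : ∑ i ∈ Finset.range N, t ^ i ≠ 0 := fun h0 => by
    rw [h0, zero_sub, Valuation.map_neg, hN] at hsum
    exact lt_irrefl _ hsum
  have h1 := geom_sum_mul t N
  rw [ht, div_pow, hx, hy, div_one, sub_self, mul_eq_zero] at h1
  exact (div_eq_one_iff_eq hy0).mp (sub_eq_zero.mp (h1.resolve_left (by rw [← ht]; exact hne)))

theorem val_natCast_pow_sub_one {n : ℕ} (hn : n ≠ 0) :
    (placeAt q).valuation (((q : ℕ) ^ n - 1 : ℕ) : ℚb) = 1 := by
  rw [Nat.cast_sub (Nat.one_le_pow _ _ q.2.pos), Nat.cast_pow, Nat.cast_one,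
    Valuation.map_sub_swap, sub_eq_add_neg]
  refine (placeAt q).valuation.map_one_add_of_lt ?_
  rw [Valuation.map_neg, map_pow]
  exact val_pow_lt_one (placeAt_liesOverPrime q) hn

/-- The unramified level cut out by the roots of unity of order `q ^ n - 1`. -/
theorem exists_unram (n : ℕ) (hn : n ≠ 0) : ∃ N : Subgroup (LD (some q)).G,
    (LD (some q)).IsLevel N ∧ Unram N ∧ n ∣ N.index ∧
      (∀ s ∈ N, ∀ x : ℚb, x ^ ((q : ℕ) ^ n - 1) = 1 → toGQ s x = x) := by
  set M := (q : ℕ) ^ n - 1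
  have hM : 0 < M := Nat.sub_pos_of_lt (Nat.one_lt_pow hn q.2.one_lt)
  haveI : NeZero M := ⟨hM.ne'⟩
  obtain ⟨ζ, hζ⟩ := HasEnoughRootsOfUnity.exists_primitiveRoot ℚb M
  let F : IntermediateField ℚ ℚb := IntermediateField.adjoin ℚ ({ζ} : Set ℚb)
  haveI : FiniteDimensional ℚ F :=
    IntermediateField.adjoin.finiteDimensional (Algebra.IsIntegral.isIntegral ζ)
  have hFn : F.fixingSubgroup.Normal := by
    refine ⟨fun s hs g => ?_⟩
    rw [IntermediateField.mem_fixingSubgroup_iff]
    intro x hx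
    have hle : F ≤ IntermediateField.fixedField (Subgroup.zpowers (g * s * g⁻¹)) := by
      refine IntermediateField.adjoin_le_iff.mpr (Set.singleton_subset_iff.mpr ?_)
      obtain ⟨i, -, hi⟩ := hζ.eq_pow_of_pow_eq_one
        (ξ := g⁻¹ ζ) (by rw [← map_pow, hζ.pow_eq_one, map_one])
      have hsζ : s ζ = ζ := hs ⟨ζ, IntermediateField.mem_adjoin_simple_self ℚ ζ⟩
      have hfix : (g * s * g⁻¹) ζ = ζ := by
        rw [AlgEquiv.mul_apply, AlgEquiv.mul_apply, ← hi, map_pow, hsζ, hi]
        exact g.apply_symm_apply ζ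
      rintro ⟨_, m, rfl⟩
      exact (MulAction.stabilizer GQ ζ).zpow_mem (show (g * s * g⁻¹) • ζ = ζ from hfix) m
    exact hle hx ⟨_, Subgroup.mem_zpowers _⟩
  set N : Subgroup (LD (some q)).G := F.fixingSubgroup.subgroupOf (decomp (some q))
  have hN : (LD (some q)).IsLevel N := ⟨F.fixingSubgroup, ⟨F, inferInstance, rfl, hFn⟩, rfl⟩
  have hmem : ∀ s : (LD (some q)).G, s ∈ N ↔ toGQ s ζ = ζ := by
    intro s
    constructor
    · exact fun h => h ⟨ζ, IntermediateField.mem_adjoin_simple_self ℚ ζ⟩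
    · intro h
      show toGQ s ∈ F.fixingSubgroup
      rw [IntermediateField.mem_fixingSubgroup_iff]
      intro x hx
      have hle : F ≤ IntermediateField.fixedField (Subgroup.zpowers (toGQ s)) := by
        refine IntermediateField.adjoin_le_iff.mpr (Set.singleton_subset_iff.mpr ?_)
        rintro ⟨_, m, rfl⟩
        exact (MulAction.stabilizer GQ ζ).zpow_mem (show toGQ s • ζ = ζ from h) m
      exact hle hx ⟨_, Subgroup.mem_zpowers _⟩
  have hfix : ∀ s ∈ N, ∀ x : ℚb, x ^ M = 1 → toGQ s x = x := by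
    intro s hs x hx
    obtain ⟨i, -, rfl⟩ := hζ.eq_pow_of_pow_eq_one hx
    rw [map_pow, (hmem s).mp hs]
  have hζA : ∀ g : (LD (some q)).G, toGQ g ζ ^ M = 1 := fun g => by
    rw [← map_pow, hζ.pow_eq_one, map_one]
  have hζmem : ζ ∈ placeAt q := by
    refine ((placeAt q).valuation_le_one_iff _).mp (le_of_eq ?_)
    have := congrArg (placeAt q).valuation hζ.pow_eq_one
    rw [map_pow, map_one] at this
    exact (pow_eq_one_iff.mp this).resolve_right hM.ne'
  have hUr : Unram N := by
    refine ⟨⟨N, hN, le_rfl⟩, (LD (some q)).normal N hN, fun s hs => (hmem s).mpr ?_⟩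
    refine eq_of_pow_eq_one_of_near (val_natCast_pow_sub_one hn) (hζA s) hζ.pow_eq_one ?_
    obtain ⟨τ, hτ, hτs⟩ := hs
    have h1 : residue (placeAt q) (τ • (⟨ζ, hζmem⟩ : placeAt q)) =
        residue (placeAt q) ⟨ζ, hζmem⟩ := by
      rw [ResidueField.residue_smul]
      exact RingEquiv.congr_fun (MonoidHom.mem_ker.mp hτ) _
    rw [← sub_eq_zero, ← map_sub, residue_eq_zero_iff, ← ValuationSubring.coe_mem_nonunits_iff,
      ValuationSubring.mem_nonunits_iff] at h1
    convert h1 using 3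
    show toGQ s ζ - ζ = ((τ : GQ) ζ - ζ : ℚb)
    rw [show (τ : GQ) = toGQ s from hτs]
  refine ⟨N, hN, hUr, ?_, hfix⟩
  obtain ⟨σ, hσ⟩ := exists_isFrobeniusAt q.2 (placeAt_liesOverPrime q)
  obtain ⟨hd, hr⟩ := hσ
  set s : (LD (some q)).G := (⟨σ, hd⟩ : decomp (some q))
  have hsζ : ∀ i : ℕ, toGQ (s ^ i) ζ = ζ ^ ((q : ℕ) ^ i) := by
    have h1 : toGQ s ζ = ζ ^ (q : ℕ) := by
      refine eq_of_pow_eq_one_of_near (val_natCast_pow_sub_one hn) (hζA s)
        (by rw [← pow_mul, mul_comm, pow_mul, hζ.pow_eq_one, one_pow]) ?_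
      have h2 := hr (residue (placeAt q) ⟨ζ, hζmem⟩)
      change (⟨σ, hd⟩ : (placeAt q).decompositionSubgroup ℚ) •
        residue (placeAt q) (⟨ζ, hζmem⟩ : placeAt q) = _ at h2
      rw [← ResidueField.residue_smul, ← map_pow, ← sub_eq_zero, ← map_sub, residue_eq_zero_iff,
        ← ValuationSubring.coe_mem_nonunits_iff, ValuationSubring.mem_nonunits_iff] at h2
      exact h2
    intro i
    induction i with
    | zero => rw [pow_zero, pow_zero, pow_one]; rfl
    | succ i ih => rw [pow_succ', toGQ_mul, AlgEquiv.mul_apply, ih, map_pow, h1, ← pow_mul,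
        ← pow_succ']
  haveI := hUr.2.1
  have hdvd : M ∣ (q : ℕ) ^ N.index - 1 := by
    have h1 := (hmem _).mp (Subgroup.pow_index_mem N s)
    rw [hsζ] at h1
    refine hζ.dvd_of_pow_eq_one _ ?_
    refine mul_right_cancel₀ (hζ.ne_zero hM.ne') ?_
    rw [← pow_succ, Nat.sub_add_cancel (Nat.one_le_pow _ _ q.2.pos), h1, one_mul]
  have hgcd : Nat.gcd M ((q : ℕ) ^ N.index - 1) = M := Nat.gcd_eq_left hdvd
  rw [Nat.pow_sub_one_gcd_pow_sub_one] at hgcd
  have h2 : Nat.gcd n N.index = n := by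
    have h3 : (q : ℕ) ^ Nat.gcd n N.index = (q : ℕ) ^ n := by
      have := Nat.one_le_pow (Nat.gcd n N.index) _ q.2.pos
      have := Nat.one_le_pow n _ q.2.pos
      omega
    exact Nat.pow_right_injective q.2.two_le h3
  rw [← h2]
  exact Nat.gcd_dvd_right _ _

/-- A subgroup containing an unramified level is one. -/
theorem Unram.of_le {N M : Subgroup (LD (some q)).G} (hN : Unram N) (hle : N ≤ M) : Unram M := by
  refine ⟨⟨hN.1.choose, hN.1.choose_spec.1, hN.1.choose_spec.2.trans hle⟩, ?_,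
    fun s hs => hle (hN.2.2 s hs)⟩
  obtain ⟨σ, -, hσ⟩ := exists_generator hN (H := (⊤ : Subgroup _)) le_top
  haveI := hN.2.1
  refine ⟨fun m hm g => ?_⟩
  obtain ⟨i, hi⟩ := hσ g trivial
  obtain ⟨j, hj⟩ := hσ m trivial
  set π := QuotientGroup.mk' N
  have hg : π g = π σ ^ i := by
    rw [← map_pow]; exact QuotientGroup.eq.mpr hi
  have hm' : π m = π σ ^ j := by
    rw [← map_pow]; exact QuotientGroup.eq.mpr hj
  have : π (g * m * g⁻¹) = π m := by
    rw [map_mul, map_mul, map_inv, hg, hm', ← pow_add, add_comm, pow_add, mul_inv_cancel_right]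
  have h2 : m⁻¹ * (g * m * g⁻¹) ∈ N := QuotientGroup.eq.mp this.symm
  have h3 := M.mul_mem hm (hle h2)
  rwa [mul_inv_cancel_left] at h3

theorem Unram.inf {N N' : Subgroup (LD (some q)).G} (hN : Unram N) (hN' : Unram N') :
    Unram (N ⊓ N') := by
  refine ⟨?_, ?_, fun s hs => ⟨hN.2.2 s hs, hN'.2.2 s hs⟩⟩
  · obtain ⟨L₁, hL₁, h₁⟩ := hN.1
    obtain ⟨L₂, hL₂, h₂⟩ := hN'.1
    exact ⟨L₁ ⊓ L₂, (LD (some q)).inf _ _ hL₁ hL₂, inf_le_inf h₁ h₂⟩
  · haveI := hN.2.1
    haveI := hN'.2.1
    infer_instance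

/-- The ring homomorphism between the residues of two fields. -/
theorem index_pow_smul {R : Type*} [CommRing R] [IsDomain R] {π : R} (hπ : π ≠ 0) (e : ℕ) :
    (Ideal.span {π ^ e}).toAddSubgroup.index = (Ideal.span {π}).toAddSubgroup.index ^ e := by
  induction e with
  | zero => simp
  | succ e ih =>
    have hle : (Ideal.span {π ^ (e + 1)}).toAddSubgroup ≤ (Ideal.span {π ^ e}).toAddSubgroup :=
      Ideal.span_singleton_le_span_singleton.mpr (pow_dvd_pow π (Nat.le_succ e))
    rw [← AddSubgroup.relIndex_mul_index hle, ih]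
    conv_rhs => rw [pow_succ, mul_comm]
    congr 1
    let f : R →+ R := AddMonoidHom.mulLeft (π ^ e)
    have h1 : (Ideal.span {π}).toAddSubgroup.map f = (Ideal.span {π ^ (e + 1)}).toAddSubgroup := by
      ext x
      simp only [AddSubgroup.mem_map, Submodule.mem_toAddSubgroup, Ideal.mem_span_singleton', f,
        AddMonoidHom.coe_mulLeft]
      exact ⟨fun ⟨_, ⟨a, rfl⟩, h⟩ => ⟨a, by rw [← h, pow_succ]; ring⟩,
        fun ⟨a, h⟩ => ⟨a * π, ⟨a, rfl⟩, by rw [← h, pow_succ]; ring⟩⟩
    have h2 : (⊤ : AddSubgroup R).map f = (Ideal.span {π ^ e}).toAddSubgroup := by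
      ext x
      simp only [AddSubgroup.mem_map, Submodule.mem_toAddSubgroup, Ideal.mem_span_singleton', f,
        AddMonoidHom.coe_mulLeft, AddSubgroup.mem_top, true_and]
      exact exists_congr fun a => by rw [mul_comm]
    rw [← h1, ← h2, AddSubgroup.relIndex_map_map_of_injective _ _
      (mul_right_injective₀ (pow_ne_zero e hπ)), AddSubgroup.relIndex_top_right]

/-- The image of the order is generated by the residue degree. -/
theorem exists_degree (H : Subgroup (LD (some q)).G) (hH : (LD (some q)).IsOpen H)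
    [FiniteDimensional (decField (placeAt q)) (fieldOf H)] :
    ∃ f : ℕ, f ≠ 0 ∧ (∀ x, (f : ℤ) ∣ ordE q.2 (placeAt_liesOverPrime q) (fieldOf H) x) ∧
      (∃ x, ordE q.2 (placeAt_liesOverPrime q) (fieldOf H) x = f) ∧
      ∃ U, Unram U ∧ ∀ U', Unram U' → U' ≤ U → (H ⊔ U').index = f := by
  have hA := placeAt_liesOverPrime q
  haveI := finiteIndex_of_isOpen hH
  set d := Module.finrank (decField (placeAt q)) (fieldOf H) with hd
  have hd0 : 0 < d := Module.finrank_pos
  set o := ordE q.2 hA (fieldOf H) with ho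
  obtain ⟨g, hg⟩ := Int.subgroup_cyclic o.range
  set f := g.natAbs with hf
  have hqE : (⟨((q : ℕ) : ℚb), natCast_mem _ _⟩ : fieldOf H) ≠ 0 := fun h => by
    have h' : ((q : ℕ) : ℚb) = 0 := congrArg Subtype.val h
    exact q.2.ne_zero (by exact_mod_cast h')
  have hoq : o (Additive.ofMul (Units.mk0 _ hqE)) = d := by
    refine val_zpow_injective q.2 hA ?_
    rw [← ordE_spec q.2 hA (fieldOf H), zpow_natCast]
    rfl
  have hdvd : ∀ x, (f : ℤ) ∣ o x := fun x => by
    rw [hf, Int.natAbs_dvd]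
    have h : o x ∈ o.range := ⟨x, rfl⟩
    rw [hg, AddSubgroup.mem_closure_singleton] at h
    obtain ⟨n, hn⟩ := h
    exact ⟨n, by rw [← hn, smul_eq_mul, mul_comm]⟩
  have hf0 : f ≠ 0 := by
    intro h0
    have := hdvd (Additive.ofMul (Units.mk0 _ hqE))
    rw [h0, hoq, Nat.cast_zero, zero_dvd_iff] at this
    exact absurd this (by omega)
  obtain ⟨P, hP⟩ : ∃ P, o P = f := by
    have hgr : g ∈ o.range := by rw [hg]; exact AddSubgroup.subset_closure rfl
    rcases Int.natAbs_eq g with h | h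
    · obtain ⟨x, hx⟩ := hgr
      exact ⟨x, hx.trans h⟩
    · obtain ⟨x, hx⟩ := hgr
      exact ⟨-x, by rw [map_neg, hx, h, neg_neg]⟩
  refine ⟨f, hf0, hdvd, ⟨P, hP⟩, ?_⟩
  obtain ⟨e, he⟩ : f ∣ d := Int.natCast_dvd_natCast.mp (hoq ▸ hdvd _)
  set π : ℚb := (((P.toMul : (fieldOf H)ˣ) : fieldOf H) : ℚb)
  have hπ : (placeAt q).valuation π ^ d = (placeAt q).valuation ((q : ℕ) : ℚb) ^ f := by
    rw [← zpow_natCast (placeAt q |>.valuation _) f, ← hP]
    exact ordE_spec q.2 hA (fieldOf H) P
  have hv0 := natCast_val_ne_zero (A := placeAt q) q.2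
  have hπlt : (placeAt q).valuation π < 1 := by
    by_contra h
    have := one_le_pow₀ (n := d) (not_lt.mp h)
    rw [hπ] at this
    exact absurd this (not_le.mpr (val_pow_lt_one hA hf0))
  have hπ0 : π ≠ 0 := fun h => (P.toMul : (fieldOf H)ˣ).ne_zero (Subtype.ext h)
  let πI : locInt (fieldOf H) :=
    ⟨π, ((placeAt q).valuation_le_one_iff _).mp hπlt.le,
      ((P.toMul : (fieldOf H)ˣ) : fieldOf H).2⟩
  -- the nonunits are the multiples of the uniformiser
  have hmax : ∀ x : locInt (fieldOf H),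
      x ∈ Ideal.span {πI} ↔ (placeAt q).valuation (x : ℚb) < 1 := by
    intro x
    constructor
    · intro hx
      obtain ⟨y, rfl⟩ := Ideal.mem_span_singleton'.mp hx
      push_cast
      rw [map_mul]
      exact lt_of_le_of_lt (mul_le_of_le_one_left'
        (((placeAt q).valuation_le_one_iff _).mpr y.2.1)) hπlt
    · intro hx
      rcases eq_or_ne (x : ℚb) 0 with h0 | h0
      · rw [show x = 0 from Subtype.ext h0]; exact zero_mem _
      obtain ⟨k, hk⟩ := hdvd (Additive.ofMul (Units.mk0 (⟨(x : ℚb), x.2.2⟩ : fieldOf H)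
        fun h => h0 (congrArg Subtype.val h)))
      have hs := ordE_spec q.2 hA (fieldOf H) (Additive.ofMul (Units.mk0
        (⟨(x : ℚb), x.2.2⟩ : fieldOf H) fun h => h0 (congrArg Subtype.val h)))
      have e1 : ((placeAt q).valuation ((q : ℕ) : ℚb) ^ f) ^ k =
          ((placeAt q).valuation π ^ k) ^ d := by
        rw [← hπ, ← zpow_natCast, ← zpow_natCast, ← zpow_mul, ← zpow_mul, mul_comm]
      rw [← ho, hk, zpow_mul, zpow_natCast, e1] at hs
      change (placeAt q).valuation (x : ℚb) ^ d = ((placeAt q).valuation π ^ k) ^ d at hs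
      have hvx := (pow_left_inj₀ zero_le zero_le hd0.ne').mp hs
      have hk1 : 1 ≤ k := by
        by_contra hlt
        rw [hvx] at hx
        exact absurd hx (not_lt.mpr (one_le_zpow_of_nonpos₀
          (zero_lt_iff.mpr (by simpa using hπ0)) hπlt.le (by omega)))
      refine Ideal.mem_span_singleton'.mpr ⟨⟨(x : ℚb) / π,
        ((placeAt q).valuation_le_one_iff _).mp ?_, div_mem x.2.2 πI.2.2⟩,
        Subtype.ext (div_mul_cancel₀ _ hπ0)⟩
      rw [map_div₀, div_le_one₀ (zero_lt_iff.mpr (by simpa using hπ0)), hvx]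
      obtain ⟨n, rfl⟩ : ∃ n : ℕ, k = ((n + 1 : ℕ) : ℤ) := ⟨(k - 1).toNat, by omega⟩
      rw [zpow_natCast]
      exact pow_le_of_le_one zero_le hπlt.le (Nat.succ_ne_zero n)
  have hspan : Ideal.span {((q : ℕ) : locInt (fieldOf H))} = Ideal.span {πI ^ e} := by
    have hv : (placeAt q).valuation ((q : ℕ) : ℚb) = (placeAt q).valuation (π ^ e) := by
      refine (pow_left_inj₀ zero_le zero_le hd0.ne').mp ?_
      rw [map_pow, ← pow_mul, mul_comm e d, pow_mul, hπ, ← pow_mul, ← he]
    have hπe : π ^ e ≠ 0 := pow_ne_zero _ hπ0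
    have hq0 : ((q : ℕ) : ℚb) ≠ 0 := by exact_mod_cast q.2.ne_zero
    refine le_antisymm ?_ ?_ <;> rw [Ideal.span_singleton_le_span_singleton]
    · refine ⟨⟨((q : ℕ) : ℚb) / π ^ e, ((placeAt q).valuation_le_one_iff _).mp (le_of_eq (by
        rw [map_div₀, ← hv, div_self hv0])),
        div_mem (natCast_mem _ _) (pow_mem πI.2.2 _)⟩, Subtype.ext ?_⟩
      push_cast
      exact (mul_div_cancel₀ _ hπe).symm
    · refine ⟨⟨π ^ e / ((q : ℕ) : ℚb), ((placeAt q).valuation_le_one_iff _).mp (le_of_eq (by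
        rw [map_div₀, ← hv, div_self hv0])),
        div_mem (pow_mem πI.2.2 _) (natCast_mem _ _)⟩, Subtype.ext ?_⟩
      push_cast
      exact (mul_div_cancel₀ _ hq0).symm
  -- the residue field
  set k := locInt (fieldOf H) ⧸ Ideal.span {πI}
  set c := Nat.card k with hc
  have hcard : (q : ℕ) ^ d = c ^ e := by
    rw [hd, finrank_fieldOf hH, ← card_res hH]
    show Nat.card (locInt (fieldOf H) ⧸ _) = _
    rw [hspan]
    exact (show (Ideal.span {πI ^ e}).toAddSubgroup.index = _ from
      index_pow_smul (π := πI) (fun h => hπ0 (congrArg Subtype.val h)) e)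
  have he0 : e ≠ 0 := fun h => by rw [h, mul_zero] at he; omega
  obtain ⟨f', -, hcf⟩ := (Nat.dvd_prime_pow q.2).mp (hcard ▸ dvd_pow_self c he0)
  have hfe : f' * e = d :=
    Nat.pow_right_injective q.2.two_le (by show _ ^ (f' * e) = _ ^ d; rw [pow_mul, ← hcf, hcard])
  have hff : f' = f := Nat.eq_of_mul_eq_mul_right (Nat.pos_of_ne_zero he0) (hfe.trans he)
  rw [hff] at hcf
  haveI : Finite k := Nat.finite_of_card_ne_zero (by
    rw [← hc, hcf]; exact pow_ne_zero _ q.2.ne_zero)
  haveI : (Ideal.span {πI}).IsMaximal := by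
    refine Ideal.isMaximal_iff.mpr ⟨fun h => ?_, fun J x hle hx hxJ => ?_⟩
    · have := (hmax 1).mp h
      push_cast at this
      rw [map_one] at this
      exact lt_irrefl _ this
    · have hv : (placeAt q).valuation (x : ℚb) = 1 :=
        le_antisymm (((placeAt q).valuation_le_one_iff _).mpr x.2.1)
          (not_lt.mp fun h => hx ((hmax x).mpr h))
      have hx0 : (x : ℚb) ≠ 0 := fun h => by rw [h, map_zero] at hv; exact zero_ne_one hv
      have hm := J.mul_mem_right ⟨(x : ℚb)⁻¹, ((placeAt q).valuation_le_one_iff _).mp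
        (by rw [map_inv₀, hv, inv_one]), inv_mem x.2.2⟩ hxJ
      rwa [show x * _ = (1 : locInt (fieldOf H)) from Subtype.ext (mul_inv_cancel₀ hx0)] at hm
  letI : Field k := Ideal.Quotient.field _
  letI : Fintype k := Fintype.ofFinite k
  obtain ⟨U, -, hU, -, hUfix⟩ := exists_unram (q := q) f hf0
  refine ⟨U, hU, fun U' hU' hle => ?_⟩
  have hQ1 : 1 < (q : ℕ) ^ f := Nat.one_lt_pow hf0 q.2.one_lt
  set H0 := H ⊔ U'
  have hH0 : Unram H0 := hU'.of_le le_sup_right
  haveI := finiteIndex_of_isOpen hH0.1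
  have hle0 : fieldOf H0 ≤ fieldOf H := fun x hx h hh => hx h (le_sup_left (b := U') hh)
  let ι : locInt (fieldOf H0) →+* locInt (fieldOf H) :=
    { toFun := fun x => ⟨x.1, x.2.1, hle0 x.2.2⟩
      map_one' := rfl, map_mul' := fun _ _ => rfl, map_zero' := rfl
      map_add' := fun _ _ => rfl }
  let Φ : Res H0 →+* k := Ideal.quotientMap _ ι (fun x hx => by
    rw [Ideal.mem_comap, hmax]
    exact (ValuationSubring.mem_nonunits_iff _).mp ((mem_span_q_iff hH0).mp hx))
  have hinj : Function.Injective Φ := by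
    rw [injective_iff_map_eq_zero]
    intro x hx
    obtain ⟨x, rfl⟩ := Ideal.Quotient.mk_surjective x
    rw [Ideal.Quotient.eq_zero_iff_mem, mem_span_q_iff hH0, ValuationSubring.mem_nonunits_iff]
    exact (hmax (ι x)).mp (Ideal.Quotient.eq_zero_iff_mem.mp hx)
  have hsurj : Function.Surjective Φ := by
    intro y
    obtain ⟨a, rfl⟩ := Ideal.Quotient.mk_surjective y
    by_cases hy : (Ideal.Quotient.mk (Ideal.span {πI}) a) = 0
    · exact ⟨0, by rw [map_zero]; exact hy.symm⟩
    obtain ⟨α, hαE, hαA, hαroot, hαa⟩ := (isHens_restrict (A := placeAt q)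
      (fieldOf H)).exists_root (f := X ^ ((q : ℕ) ^ f) - X)
      (monic_X_pow_sub (by rw [degree_X]; exact_mod_cast hQ1))
      (fun i => by
        rw [coeff_sub, coeff_X_pow, coeff_X]
        split_ifs <;> simp [one_mem, zero_mem])
      (fun i => by
        rw [coeff_sub, coeff_X_pow, coeff_X]
        split_ifs <;> simp [one_mem, zero_mem])
      a.2.2 a.2.1
      (by
        have h1 : (Ideal.Quotient.mk (Ideal.span {πI}) (a ^ ((q : ℕ) ^ f) - a) : k) = 0 := by
          rw [map_sub, map_pow, ← hcf, hc, Nat.card_eq_fintype_card]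
          exact sub_eq_zero.mpr (FiniteField.pow_card _)
        rw [ValuationSubring.mem_nonunits_iff]
        simpa using (hmax _).mp (Ideal.Quotient.eq_zero_iff_mem.mp h1))
      (by
        rw [ValuationSubring.mem_nonunits_iff, derivative_sub, derivative_X_pow, derivative_X,
          eval_sub, eval_mul, eval_C, eval_pow, eval_X, eval_one, not_lt]
        refine le_of_eq (Eq.symm ?_)
        rw [Valuation.map_sub_swap, sub_eq_add_neg]
        refine (placeAt q).valuation.map_one_add_of_lt ?_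
        rw [Valuation.map_neg, map_mul]
        refine lt_of_le_of_lt (mul_le_of_le_one_right'
          (((placeAt q).valuation_le_one_iff _).mpr (pow_mem a.2.1 _))) ?_
        push_cast
        rw [map_pow]
        exact val_pow_lt_one hA hf0)
    have hαy : (Ideal.Quotient.mk (Ideal.span {πI}) ⟨α, hαA, hαE⟩ : k) = Ideal.Quotient.mk _ a := by
      rw [Ideal.Quotient.eq, hmax]
      exact (ValuationSubring.mem_nonunits_iff _).mp hαa
    have hαne : α ≠ 0 := fun h => hy (by
      rw [← hαy, show (⟨α, hαA, hαE⟩ : locInt (fieldOf H)) = 0 from Subtype.ext h, map_zero])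
    have hα1 : α ^ ((q : ℕ) ^ f - 1) = 1 := by
      refine mul_right_cancel₀ hαne ?_
      rw [← pow_succ, Nat.sub_add_cancel hQ1.le, one_mul]
      simpa [sub_eq_zero] using hαroot.eq_zero
    have hαH0 : α ∈ fieldOf H0 := by
      intro h hh
      let S : Subgroup (LD (some q)).G :=
        { carrier := {s | toGQ s α = α}
          one_mem' := rfl
          mul_mem' := fun {s t} hs ht => by
            show toGQ (s * t) α = α
            rw [toGQ_mul, AlgEquiv.mul_apply, ht, hs]
          inv_mem' := fun {s} hs => by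
            show toGQ s⁻¹ α = α
            exact (toGQ s).injective (((toGQ s).apply_symm_apply _).trans hs.symm) }
      have : H0 ≤ S := sup_le (fun s hs => hαE s hs) (fun s hs => hUfix s (hle hs) α hα1)
      exact this hh
    exact ⟨Ideal.Quotient.mk _ ⟨α, hαA, hαH0⟩, hαy⟩
  have h := Nat.card_congr (Equiv.ofBijective Φ ⟨hinj, hsurj⟩)
  rw [card_res hH0.1, ← hc, hcf] at h
  exact Nat.pow_right_injective q.2.two_le h

end Fermat.Agent.GD
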