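import Fermat.Agent.GD.Local.Bridge
import Fermat.Agent.GD.Local.Defs

/-!
# Powers and norms in the fields of open subgroups of a decomposition group
-/

set_option autoImplicit false
set_option linter.style.haveILetI false

noncomputable section

namespace Fermat.Agent.GD

open Fermat.Agent.Galois

local notation "ℚb" => AlgebraicClosure ℚ

/-- Hilbert's Theorem 90 for an automorphism of finite order. -/
theorem exists_div_of_prod_orderOf {L : Type*} [Field L] (σ : L ≃+* L) {p : ℕ} (hpos : 0 < p)
    (hord : orderOf σ = p) {x : L} (hx : ∏ i ∈ Finset.range p, (σ ^ i) x = 1) :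
    ∃ y : L, y ≠ 0 ∧ σ y = y * x := by
  have hσ : σ ^ p = 1 := hord ▸ pow_orderOf_eq_one σ
  set c : ℕ → L := fun i => ∏ j ∈ Finset.range i, (σ ^ j) x with hc
  have hx0 : x ≠ 0 := fun h => by
    rw [Finset.prod_eq_zero (i := 0) (Finset.mem_range.mpr hpos) (by rw [h, map_zero])] at hx
    exact zero_ne_one hx
  obtain ⟨θ, hθ⟩ : ∃ θ, (∑ i ∈ Finset.range p, c i * (σ ^ i) θ) ≠ 0 := by
    by_contra hcon
    push Not at hcon
    have hinj : Function.Injective fun i : Fin p => ((σ ^ (i : ℕ)).toRingHom : L →+* L).toMonoidHom := by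
      intro i j h
      refine Fin.ext (pow_injOn_Iio_orderOf (x := σ) (by rw [hord]; exact i.2)
        (by rw [hord]; exact j.2) (RingEquiv.ext fun z => DFunLike.congr_fun h z))
    have hli := (linearIndependent_monoidHom L L).comp _ hinj
    have h0 := Fintype.linearIndependent_iff.mp hli (fun i => c i) (funext fun θ => by
      have := hcon θ
      rw [Finset.sum_range] at this
      simpa using this) ⟨0, hpos⟩
    simp [hc] at h0
  set b := ∑ i ∈ Finset.range p, c i * (σ ^ i) θ with hb
  have hkey : x * σ b = b := by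
    have hstep : ∀ i, x * σ (c i * (σ ^ i) θ) = c (i + 1) * (σ ^ (i + 1)) θ := fun i => by
      rw [map_mul, ← mul_assoc, hc]
      congr 1
      · simp only [map_prod]
        rw [Finset.prod_range_succ', pow_zero, mul_comm]
        congr 1
        exact Finset.prod_congr rfl fun j _ => by rw [pow_succ']; rfl
      · rw [pow_succ']; rfl
    rw [hb, map_sum, Finset.mul_sum, Finset.sum_congr rfl fun i _ => hstep i]
    have h := Finset.sum_range_succ' (fun i => c i * (σ ^ i) θ) p
    rw [Finset.sum_range_succ] at h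
    have hend : c p * (σ ^ p) θ = c 0 * (σ ^ 0) θ := by
      simp only [hc, hx, hσ, pow_zero, Finset.range_zero, Finset.prod_empty]
    rw [hend] at h
    exact (add_right_cancel h).symm
  refine ⟨b⁻¹, inv_ne_zero hθ, ?_⟩
  rw [map_inv₀]
  have hσb : σ b = b / x := eq_div_of_mul_eq hx0 (by rw [mul_comm]; exact hkey)
  rw [hσb, inv_div, div_eq_mul_inv, mul_comm]

/-- Hilbert's Theorem 90 for an automorphism of prime order. -/
theorem exists_div_of_prod_eq_one {L : Type*} [Field L] (σ : L ≃+* L) {p : ℕ} (hp : p.Prime)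
    (hσ : σ ^ p = 1) (hne : σ ≠ 1) {x : L} (hx : ∏ i ∈ Finset.range p, (σ ^ i) x = 1) :
    ∃ y : L, y ≠ 0 ∧ σ y = y * x :=
  haveI := Fact.mk hp
  exists_div_of_prod_orderOf σ hp.pos (orderOf_eq_prime hσ hne) hx

variable {q : Nat.Primes} {p : ℕ}

/-- The number of `p`-th roots of unity in a field of characteristic zero containing them. -/
theorem card_ker_nsmul_units [hp : Fact p.Prime] {A : ValuationSubring ℚb}
    (E : IntermediateField (decField A) ℚb) (hE : ∀ μ : ℚb, μ ^ p = 1 → μ ∈ E) :
    Nat.card (nsmulAddMonoidHom (α := Additive Eˣ) p).ker = p := by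
  haveI : NeZero p := ⟨hp.out.ne_zero⟩
  obtain ⟨ζ, hζ⟩ := HasEnoughRootsOfUnity.exists_primitiveRoot ℚb p
  let ζE : E := ⟨ζ, hE ζ hζ.pow_eq_one⟩
  have hζE : IsPrimitiveRoot ζE p :=
    IsPrimitiveRoot.of_map_of_injective (f := algebraMap E ℚb) hζ Subtype.val_injective
  refine Eq.trans ?_ hζE.card_rootsOfUnity
  exact Nat.card_congr ⟨fun x => ⟨(x : Additive Eˣ).toMul, x.2⟩,
    fun x => ⟨Additive.ofMul (x : Eˣ), x.2⟩, fun _ => rfl, fun _ => rfl⟩

theorem coe_smul_unit (h : (LD (some q)).G) (x : ℚbˣ) : ((h • x : ℚbˣ) : ℚb) = toGQ h (x : ℚb) :=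
  rfl

/-- The units fixed by a subgroup are those of its field. -/
def fixedUnitsEquiv (H : Subgroup (LD (some q)).G) : (fieldOf H)ˣ ≃* fixedUnits H where
  toFun x := ⟨Units.map (algebraMap (fieldOf H) ℚb : fieldOf H →* ℚb) x, fun h hh =>
    Units.ext (show toGQ h ((x : fieldOf H) : ℚb) = _ from (x : fieldOf H).2 h hh)⟩
  invFun x := Units.mk0 ⟨((x : ℚbˣ) : ℚb), fun h hh => congrArg Units.val (x.2 h hh)⟩ fun h =>
    (x : ℚbˣ).ne_zero (congrArg Subtype.val h)
  left_inv x := Units.ext rfl
  right_inv x := Subtype.ext (Units.ext rfl)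
  map_mul' x y := Subtype.ext (Units.ext rfl)

theorem index_powers_units {G G' : Type*} [CommGroup G] [CommGroup G'] (e : G ≃* G') (n : ℕ) :
    (powMonoidHom n : G' →* G').range.index =
      (nsmulAddMonoidHom (α := Additive G) n).range.index := by
  have h1 : (powMonoidHom n : G' →* G').range.index = (powMonoidHom n : G →* G).range.index := by
    rw [← Subgroup.index_comap_of_surjective _ (f := e.toMonoidHom) e.surjective]
    congr 1
    ext x
    simp only [Subgroup.mem_comap, MonoidHom.mem_range, powMonoidHom_apply]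
    exact ⟨fun ⟨y, hy⟩ => ⟨e.symm y, e.injective (by
        rw [map_pow, MulEquiv.apply_symm_apply]; exact hy)⟩,
      fun ⟨y, hy⟩ => ⟨e y, by rw [← map_pow, hy]; rfl⟩⟩
  rw [h1]
  show _ = AddSubgroup.index ((powMonoidHom n : G →* G).range.toAddSubgroup)
  exact Subgroup.index_toAddSubgroup.symm

/-- The index of the `p`-th powers of a local field containing the roots of unity. -/
theorem card_powers_eq [hp : Fact p.Prime] {H : Subgroup (LD (some q)).G}
    (hH : (LD (some q)).IsOpen H)
    (hμ : ∀ h ∈ H, ∀ μ : ℚbˣ, μ ^ p = 1 → h • μ = μ) :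
    Nat.card (fixedUnits H ⧸ powers p (fixedUnits H)) = p ^ (2 + localExp p (some q) H) := by
  haveI := finiteDimensional_fieldOf hH
  have hE : ∀ μ : ℚb, μ ^ p = 1 → μ ∈ fieldOf H := fun μ hμ1 h hh => by
    have hμ0 : μ ≠ 0 := fun h0 => by
      rw [h0, zero_pow hp.out.ne_zero] at hμ1
      exact zero_ne_one hμ1
    exact congrArg Units.val (hμ h hh (Units.mk0 μ hμ0) (Units.ext hμ1))
  rw [← Subgroup.index_eq_card, powers, index_powers_units (fixedUnitsEquiv H) p,
    index_powers q.2 (placeAt_liesOverPrime q) (fieldOf H) hp.out, card_ker_nsmul_units _ hE,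
    finrank_fieldOf hH, pow_add, sq]
  congr 1
  unfold shift
  simp only [localExp]
  split
  · next h => rw [pow_one, h]
  · simp

end Fermat.Agent.GD
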