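import Fermat.Agent.GD.Local.Lattice
import Fermat.Agent.GD.Local.Norm
import Fermat.Agent.GD.Local.Degree

/-!
# Units modulo powers as a module over a group of order prime to `p`
-/

set_option autoImplicit false
set_option linter.style.haveILetI false
set_option linter.unusedSectionVars false

noncomputable section

namespace Fermat.Agent.GD

open Fermat.Agent.Galois

local notation "ℚb" => AlgebraicClosure ℚ
local notation "Cu" => Additive (AlgebraicClosure ℚ)ˣ

variable {q : Nat.Primes} {p : ℕ} [hpf : Fact p.Prime] {H N : Subgroup (LD (some q)).G}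

/-- The fixed units inside all units, written additively. -/
abbrev unitsR (N : Subgroup (LD (some q)).G) : AddSubgroup Cu := (fixedUnits N).toAddSubgroup

theorem mem_unitsR {x : Cu} : x ∈ unitsR N ↔ x.toMul ∈ fixedUnits N := Iff.rfl

theorem stable_unitsR [N.Normal] : StableUnder H (unitsR N) := fun h _ x hx s hs => by
  show s • (h • x.toMul) = h • x.toMul
  have h1 : (h⁻¹ * s * h) • x.toMul = x.toMul :=
    hx _ (by simpa using ‹N.Normal›.conj_mem s hs h⁻¹)
  rw [mul_smul, mul_smul, inv_smul_eq_iff] at h1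
  exact h1

theorem fixed_unitsR : ∀ s ∈ N, ∀ x ∈ unitsR N, s • x = x := fun s hs x hx =>
  Additive.toMul.injective (hx s hs)

theorem stable_map_nsmul {R : AddSubgroup Cu} (hR : StableUnder H R) (n : ℕ) :
    StableUnder H (R.map (nsmulAddMonoidHom n)) := by
  rintro h hh _ ⟨x, hx, rfl⟩
  exact ⟨h • x, hR h hh x hx, smul_comm n h x⟩

theorem stable_bot {B : Type} [AddCommGroup B] [DistribMulAction (LD (some q)).G B] :
    StableUnder H (⊥ : AddSubgroup B) := fun h _ x hx => by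
  rw [AddSubgroup.mem_bot.mp hx, smul_zero]; exact zero_mem _

variable (M : Type) [AddCommGroup M] [DistribMulAction (LD (some q)).G M]

/-- Maps into the torsion of the units are maps into the roots of unity. -/
theorem cQ_torsion_units (hμ : ∀ h ∈ N, ∀ μ : ℚbˣ, μ ^ p = 1 → h • μ = μ)
    (hM : ∀ m : M, p • m = 0) :
    cQ M H (unitsR N ⊓ (nsmulAddMonoidHom p).ker) ⊥ =
      Nat.card {φ : M →+ Cu // ∀ h ∈ H, ∀ m, φ (h • m) = h • φ m} := by
  set π := QuotientAddGroup.mk' (⊥ : AddSubgroup Cu) with hπ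
  have hinj : Function.Injective π := (injective_iff_map_eq_zero π).mpr fun x hx =>
    AddSubgroup.mem_bot.mp ((QuotientAddGroup.eq_zero_iff x).mp hx)
  have hsurj : Function.Surjective π := QuotientAddGroup.mk'_surjective _
  let e : Cu ≃+ Cu ⧸ (⊥ : AddSubgroup Cu) := AddEquiv.ofBijective π ⟨hinj, hsurj⟩
  refine Nat.card_congr
    ⟨fun φ => ⟨e.symm.toAddMonoidHom.comp φ.1, fun h hh m => e.injective ?_⟩,
      fun φ => ⟨π.comp φ.1, fun m => ⟨φ.1 m, ?_, rfl⟩, fun h hh m x hx => ?_⟩,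
      fun φ => Subtype.ext (AddMonoidHom.ext fun m => e.apply_symm_apply _),
      fun φ => Subtype.ext (AddMonoidHom.ext fun m => e.symm_apply_apply _)⟩
  · show e (e.symm (φ.1 (h • m))) = π (h • e.symm (φ.1 m))
    rw [e.apply_symm_apply]
    exact φ.2.2 h hh m _ (e.apply_symm_apply (φ.1 m)).symm
  · have hpm : (φ.1 m).toMul ^ p = 1 := by
      rw [← toMul_nsmul, ← map_nsmul, hM, map_zero]; rfl
    exact ⟨fun s hs => hμ s hs _ hpm, show p • φ.1 m = 0 by rw [← map_nsmul, hM, map_zero]⟩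
  · show π (φ.1 (h • m)) = π (h • x)
    rw [φ.2 h hh]
    exact congrArg (fun y => π (h • y)) (hinj hx)

/-- The equivariant maps into units modulo powers. -/
theorem card_homPowers_eq [N.Normal] :
    Nat.card {φ : M →+ Additive (fixedUnits N ⧸ powers p (fixedUnits N)) //
      ∀ h ∈ H, ∀ (m : M) (x y : fixedUnits N), φ m = Additive.ofMul (QuotientGroup.mk x) →
        (y : ℚbˣ) = h • (x : ℚbˣ) → φ (h • m) = Additive.ofMul (QuotientGroup.mk y)} =
      cQ M H (unitsR N) ((unitsR N).map (nsmulAddMonoidHom p)) := by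
  set R := unitsR N
  set T := R.map (nsmulAddMonoidHom p)
  have hT : StableUnder H T := stable_map_nsmul stable_unitsR p
  let f : R →+ Additive (fixedUnits N ⧸ powers p (fixedUnits N)) :=
    { toFun := fun x => Additive.ofMul (QuotientGroup.mk (⟨(x : Cu).toMul, x.2⟩ : fixedUnits N))
      map_zero' := rfl
      map_add' := fun _ _ => rfl }
  have hf : Function.Surjective f := fun z => by
    obtain ⟨x, hx⟩ := QuotientGroup.mk_surjective z.toMul
    exact ⟨⟨Additive.ofMul x.1, x.2⟩, congrArg Additive.ofMul hx⟩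
  have hker : ∀ x : R, f x = 0 ↔ (x : Cu) ∈ T := fun x => by
    refine (QuotientGroup.eq_one_iff (⟨(x : Cu).toMul, x.2⟩ : fixedUnits N)).trans
      ⟨?_, ?_⟩
    · rintro ⟨y, hy⟩
      exact ⟨Additive.ofMul y.1, y.2,
        congrArg (fun z : fixedUnits N => Additive.ofMul (z : ℚbˣ)) hy⟩
    · rintro ⟨y, hy, hyx⟩
      exact ⟨⟨y.toMul, hy⟩, Subtype.ext (congrArg Additive.toMul hyx)⟩
  obtain ⟨e, he⟩ := exists_quotEquiv (B := Cu) (R := R) (T := T) (V := Additive (fixedUnits N ⧸ powers p (fixedUnits N))) f hf hker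
  let Rt := R.map (QuotientAddGroup.mk' T)
  have he' : ∀ (x : fixedUnits N),
      e ⟨((Additive.ofMul (x : ℚbˣ) : Cu) : Cu ⧸ T), _, x.2, rfl⟩ =
        Additive.ofMul (QuotientGroup.mk x) := fun x => he ⟨Additive.ofMul x.1, x.2⟩
  refine Nat.card_congr
    ⟨fun φ => ⟨(Rt.subtype.comp e.symm.toAddMonoidHom).comp φ.1, fun m => (e.symm _).2,
        fun h hh m x hx => ?_⟩,
      fun φ => ⟨e.toAddMonoidHom.comp (φ.1.codRestrict Rt φ.2.1), fun h hh m x y hx hy => ?_⟩,
      fun φ => Subtype.ext (AddMonoidHom.ext fun m => e.apply_symm_apply _),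
      fun φ => Subtype.ext (AddMonoidHom.ext fun m =>
        congrArg Subtype.val (e.symm_apply_apply (φ.1.codRestrict Rt φ.2.1 m)))⟩
  · obtain ⟨z, hz, hz'⟩ := (e.symm (φ.1 m)).2
    have hxz : (x : Cu ⧸ T) = (z : Cu ⧸ T) := hx.symm.trans hz'.symm
    rw [mk_smul_eq hT hh hxz]
    have h1 : φ.1 m = Additive.ofMul (QuotientGroup.mk (⟨z.toMul, hz⟩ : fixedUnits N)) := by
      rw [← he' ⟨z.toMul, hz⟩, ← e.apply_symm_apply (φ.1 m)]
      exact congrArg e (Subtype.ext hz'.symm)
    have h2 := φ.2 h hh m _ ⟨h • z.toMul, stable_unitsR h hh z hz⟩ h1 rfl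
    show ((e.symm (φ.1 (h • m))) : Cu ⧸ T) = _
    rw [h2, ← he', e.symm_apply_apply]
    rfl
  · have h1 : φ.1.codRestrict Rt φ.2.1 m =
        ⟨((Additive.ofMul (x : ℚbˣ) : Cu) : Cu ⧸ T), _, x.2, rfl⟩ :=
      e.injective (hx.trans (he' x).symm)
    have h2 := φ.2.2 h hh m _ (congrArg Subtype.val h1)
    show e (φ.1.codRestrict Rt φ.2.1 (h • m)) = _
    rw [← he' y]
    refine congrArg e (Subtype.ext (h2.trans ?_))
    show (((h • Additive.ofMul (x : ℚbˣ) : Cu)) : Cu ⧸ T) = ((Additive.ofMul (y : ℚbˣ) : Cu) : Cu ⧸ T)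
    rw [hy]
    rfl

/-- The units of value one. -/
def unitsV (N : Subgroup (LD (some q)).G) : AddSubgroup Cu :=
  unitsR N ⊓
    { carrier := {x | (placeAt q).valuation ((x.toMul : ℚbˣ) : ℚb) = 1}
      zero_mem' := by
        show (placeAt q).valuation (((1 : ℚbˣ) : ℚb)) = 1
        rw [Units.val_one, map_one]
      add_mem' := fun {x y} (hx : _ = _) (hy : _ = _) => by
        show (placeAt q).valuation ((x.toMul * y.toMul : ℚbˣ) : ℚb) = 1
        rw [Units.val_mul, map_mul, hx, hy, one_mul]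
      neg_mem' := fun {x} (hx : _ = _) => by
        show (placeAt q).valuation (((x.toMul)⁻¹ : ℚbˣ) : ℚb) = 1
        rw [Units.val_inv_eq_inv_val, map_inv₀, hx, inv_one] }

theorem mem_unitsV {x : Cu} :
    x ∈ unitsV N ↔ x ∈ unitsR N ∧ (placeAt q).valuation ((x.toMul : ℚbˣ) : ℚb) = 1 := Iff.rfl

theorem stable_unitsV [N.Normal] : StableUnder H (unitsV N) := fun h hh x hx =>
  ⟨stable_unitsR h hh x hx.1, (valuation_smul_qbar h _).trans hx.2⟩

/-- The units of the field as an additive map. -/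
def embU (N : Subgroup (LD (some q)).G) : Additive (fieldOf N)ˣ →+ Cu :=
  MonoidHom.toAdditive ((fixedUnits N).subtype.comp (fixedUnitsEquiv N).toMonoidHom)

theorem coe_embU (x : Additive (fieldOf N)ˣ) :
    (((embU N x).toMul : ℚbˣ) : ℚb) = (((x.toMul : (fieldOf N)ˣ) : fieldOf N) : ℚb) := rfl

theorem embU_injective : Function.Injective (embU N) := fun x y h => by
  have h' : (fixedUnitsEquiv N x.toMul : ℚbˣ) = fixedUnitsEquiv N y.toMul := h
  exact Additive.toMul.injective ((fixedUnitsEquiv N).injective (Subtype.ext h'))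

theorem range_embU : (embU N).range = unitsR N := by
  ext x
  exact ⟨fun ⟨y, hy⟩ => hy ▸ (fixedUnitsEquiv N y.toMul).2,
    fun hx => ⟨Additive.ofMul ((fixedUnitsEquiv N).symm ⟨x.toMul, hx⟩), by
      show Additive.ofMul ((fixedUnitsEquiv N ((fixedUnitsEquiv N).symm ⟨x.toMul, hx⟩) : ℚbˣ)) = x
      rw [MulEquiv.apply_symm_apply]
      rfl⟩⟩

/-- The principal units of a level. -/
def unitsP (N : Subgroup (LD (some q)).G) (k : ℕ) : AddSubgroup Cu :=
  (princ (placeAt_liesOverPrime q) (fieldOf N) k).map (embU N)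

theorem mem_unitsP {k : ℕ} {x : Cu} : x ∈ unitsP N k ↔ x ∈ unitsR N ∧
    (placeAt q).valuation (((x.toMul : ℚbˣ) : ℚb) - 1) ≤
      (placeAt q).valuation ((q : ℕ) : ℚb) ^ (k + 1) := by
  constructor
  · rintro ⟨y, hy, rfl⟩
    exact ⟨range_embU.le ⟨y, rfl⟩, hy⟩
  · rintro ⟨hx, hv⟩
    obtain ⟨y, rfl⟩ := range_embU.ge hx
    exact ⟨y, hv, rfl⟩

theorem stable_unitsP [N.Normal] (k : ℕ) : StableUnder H (unitsP N k) := fun h hh x hx => by
  rw [mem_unitsP] at hx ⊢
  refine ⟨stable_unitsR h hh x hx.1, ?_⟩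
  show (placeAt q).valuation ((h • x.toMul : ℚbˣ) - 1 : ℚb) ≤ _
  rw [coe_smul_unit, ← map_one (toGQ h), ← map_sub, ← smul_qbar h, valuation_smul_qbar]
  exact hx.2

theorem map_unitsP (hN : (LD (some q)).IsOpen N) {k : ℕ} (hk : 1 ≤ k) :
    (unitsP N k).map (nsmulAddMonoidHom p) = unitsP N (k + shift p q) := by
  haveI := finiteDimensional_fieldOf hN
  show ((princ _ _ k).map (embU N)).map _ = (princ _ _ (k + shift p q)).map (embU N)
  rw [← map_princ q.2 (placeAt_liesOverPrime q) (fieldOf N) hpf.out hk, AddSubgroup.map_map,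
    AddSubgroup.map_map]
  congr 1

variable {M}

/-- The contribution of the valuation. -/
theorem cQ_units_split [N.Normal] (hN : (LD (some q)).IsOpen N) (hA : CoprimeAct p H N M) :
    cQ M H (unitsR N) ((unitsR N).map (nsmulAddMonoidHom p)) =
      cQ M H (unitsV N) ((unitsV N).map (nsmulAddMonoidHom p)) *
        Nat.card {φ : M →+ ZMod p // ∀ h ∈ H, ∀ m, φ (h • m) = φ m} := by
  haveI := finiteDimensional_fieldOf hN
  set π : Cu →+ Cu := nsmulAddMonoidHom p
  set R := unitsR N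
  set U := unitsV N
  have hA' := placeAt_liesOverPrime q
  set o := ordE q.2 hA' (fieldOf N)
  obtain ⟨f, hf0, hdvd, ⟨ϖ, hϖ⟩, -⟩ := exists_degree N hN
  have hf0' : (f : ℤ) ≠ 0 := by exact_mod_cast hf0
  set S := U ⊔ R.map π
  have hUR : U ≤ R := inf_le_left
  have hS : S ≤ R := sup_le hUR (by rintro _ ⟨x, hx, rfl⟩; exact R.nsmul_mem hx p)
  have hSst : StableUnder H S := fun h hh x hx => by
    obtain ⟨a, ha, b, hb, rfl⟩ := AddSubgroup.mem_sup.mp hx
    rw [smul_add]
    exact AddSubgroup.add_mem_sup (stable_unitsV h hh a ha)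
      (stable_map_nsmul stable_unitsR p h hh b hb)
  rw [cQ_mul hA (S := S) le_sup_right hS stable_unitsR hSst (stable_map_nsmul stable_unitsR p)
    fixed_unitsR (fun x hx => ⟨x, hx, rfl⟩)]
  -- the order of an element of `R`
  let ι : Additive (fieldOf N)ˣ ≃+ R := (AddMonoidHom.ofInjective embU_injective).trans
    (AddEquiv.addSubgroupCongr range_embU)
  have hι : ∀ y, (ι y : Cu) = embU N y := fun _ => rfl
  let ord : R →+ ℤ := o.comp ι.symm.toAddMonoidHom
  have hspec : ∀ x : R, (placeAt q).valuation (((x : Cu).toMul : ℚbˣ) : ℚb) ^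
      Module.finrank (decField (placeAt q)) (fieldOf N) =
        (placeAt q).valuation ((q : ℕ) : ℚb) ^ ord x := fun x => by
    conv_lhs => rw [← ι.apply_symm_apply x, hι, coe_embU]
    exact ordE_spec q.2 hA' (fieldOf N) _
  have hU : ∀ x : R, ord x = 0 ↔ (x : Cu) ∈ U := fun x => by
    refine (mem_ker_ordE q.2 hA' (fieldOf N) (x := ι.symm x)).trans ?_
    rw [← coe_embU, ← hι, ι.apply_symm_apply]
    exact ⟨fun h => ⟨x.2, h⟩, fun h => h.2⟩
  have hinvord : ∀ h (hh : h ∈ H) (x : R), ord ⟨h • (x : Cu), stable_unitsR h hh x x.2⟩ = ord x := by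
    intro h hh x
    refine val_zpow_injective q.2 hA' ?_
    rw [← hspec, ← hspec]
    exact congrArg (· ^ _) (valuation_smul_qbar h _)
  have hdiv : ∀ x : R, (f : ℤ) ∣ ord x := fun x => hdvd _
  let g : R →+ ZMod p := AddMonoidHom.mk' (fun x => ((ord x / f : ℤ) : ZMod p)) fun x y => by
    rw [map_add, Int.add_ediv_of_dvd_left (hdiv x), Int.cast_add]
  have hg : Function.Surjective g := fun z => by
    obtain ⟨n, rfl⟩ := ZMod.intCast_surjective z
    refine ⟨n • ι ϖ, ?_⟩
    show (((ord (n • ι ϖ)) / f : ℤ) : ZMod p) = n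
    rw [map_zsmul, show ord (ι ϖ) = f from (congrArg o (ι.symm_apply_apply ϖ)).trans hϖ, smul_eq_mul,
      Int.mul_ediv_cancel _ hf0']
  have hgker : ∀ x : R, g x = 0 ↔ (x : Cu) ∈ S := fun x => by
    show ((ord x / f : ℤ) : ZMod p) = 0 ↔ _
    rw [ZMod.intCast_zmod_eq_zero_iff_dvd]
    constructor
    · rintro ⟨k, hk⟩
      have h0 : ord (x - p • (k • ι ϖ)) = 0 := by
        rw [map_sub, map_nsmul, map_zsmul,
          show ord (ι ϖ) = f from (congrArg o (ι.symm_apply_apply ϖ)).trans hϖ]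
        obtain ⟨c, hc⟩ := hdiv x
        rw [hc, Int.mul_ediv_cancel_left _ hf0'] at hk
        rw [hc, hk, smul_eq_mul, nsmul_eq_mul]
        ring
      have h1 := (hU _).mp h0
      rw [show (x : Cu) = ((x - p • (k • ι ϖ) : R) : Cu) + p • ((k • ι ϖ : R) : Cu) by
        push_cast; abel]
      exact AddSubgroup.add_mem_sup h1 ⟨_, (k • ι ϖ).2, rfl⟩
    · intro hx
      obtain ⟨a, ha, b, ⟨c, hc, rfl⟩, hab⟩ := AddSubgroup.mem_sup.mp hx
      have e : x = ⟨a, hUR ha⟩ + p • (⟨c, hc⟩ : R) := Subtype.ext hab.symm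
      rw [e, map_add, map_nsmul, (hU ⟨a, hUR ha⟩).mpr ha, zero_add, nsmul_eq_mul,
        Int.mul_ediv_assoc _ (hdiv _)]
      exact dvd_mul_right _ _
  rw [cQ_eq_invariant stable_unitsR hSst g hg hgker (fun h hh x => by
    show ((ord _ / f : ℤ) : ZMod p) = _
    rw [hinvord h hh x]
    rfl)]
  congr 1
  symm
  refine cQ_congr stable_unitsV (stable_map_nsmul stable_unitsV p)
    (stable_map_nsmul stable_unitsR p) (by rintro _ ⟨x, hx, rfl⟩; exact U.nsmul_mem hx p)
    ((QuotientAddGroup.mk' (R.map π)).comp U.subtype) (fun y => ?_) (fun x => ?_)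
    (fun h hh x y hy => mk_smul_eq (stable_map_nsmul stable_unitsR p) hh hy)
  · constructor
    · rintro ⟨x, rfl⟩; exact ⟨x, AddSubgroup.mem_sup_left x.2, rfl⟩
    · rintro ⟨x, hx, rfl⟩
      obtain ⟨a, ha, b, hb, rfl⟩ := AddSubgroup.mem_sup.mp hx
      refine ⟨⟨a, ha⟩, ?_⟩
      show ((a : Cu) : Cu ⧸ R.map π) = ((a + b : Cu) : Cu ⧸ R.map π)
      rw [QuotientAddGroup.mk_add, (QuotientAddGroup.eq_zero_iff b).mpr hb]
      exact (add_zero (QuotientAddGroup.mk a : Cu ⧸ R.map π)).symm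
  · refine (QuotientAddGroup.eq_zero_iff _).trans ⟨?_, fun hx => AddSubgroup.map_mono hUR hx⟩
    rintro ⟨y, hy, hyx⟩
    have h1 : p • ord ⟨y, hy⟩ = 0 := by
      rw [← map_nsmul, show p • (⟨y, hy⟩ : R) = ⟨(x : Cu), hUR x.2⟩ from Subtype.ext hyx]
      exact (hU _).mpr x.2
    rw [nsmul_eq_mul] at h1
    exact ⟨y, (hU ⟨y, hy⟩).mp
      ((mul_eq_zero.mp h1).resolve_left (by exact_mod_cast hpf.out.ne_zero)), hyx⟩

/-- The equivariant count of the integers modulo `p`. -/
theorem cQ_intsOf [N.Normal] [N.FiniteIndex] [H.FiniteIndex] [Finite M]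
    (hN : (LD (some q)).IsOpen N) (hA : CoprimeAct p H N M) (hqp : (q : ℕ) = p) :
    cQ M H (intsOf N) ((intsOf N).map (nsmulAddMonoidHom p)) = Nat.card M ^ H.index := by
  obtain ⟨θ, hθ, hinj, hle, r, hr⟩ := exists_free_lattice hN
  set Λ := combo (N := N) θ
  set L := Λ.range
  have hst : StableUnder H (intsOf N) := fun h _ x hx =>
    ⟨smul_mem_fieldOf h hx.1, (valuation_smul_qbar h x).trans_le hx.2⟩
  have hstL : StableUnder H L := by
    rintro h hh _ ⟨c, rfl⟩
    exact ⟨_, (combo_smul hθ h c).symm⟩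
  have hfix : ∀ s ∈ N, ∀ x ∈ intsOf N, s • x = x := fun s hs x hx => mem_fieldOf.mp hx.1 s hs
  have hker : ∀ S : AddSubgroup ℚb, S ⊓ (nsmulAddMonoidHom p).ker = ⊥ := fun S =>
    eq_bot_iff.mpr fun x hx => AddSubgroup.mem_bot.mpr
      ((smul_eq_zero.mp (show p • x = 0 from hx.2)).resolve_left hpf.out.ne_zero)
  have hidx : L.relIndex (intsOf N) ≠ 0 := by
    intro h0
    refine finite_relIndex_pow hN r ?_
    refine Nat.eq_zero_of_zero_dvd (h0 ▸ AddSubgroup.relIndex_dvd_of_le_left (intsOf N) ?_)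
    rintro _ ⟨y, hy, rfl⟩
    show ((q : ℕ) ^ r) • y ∈ L
    rw [nsmul_eq_mul, Nat.cast_pow]
    exact hr y hy
  have key := cQ_torsion_index hA _ rfl hidx hle hst hstL hfix
    (by rw [hker]; infer_instance)
  rw [hker, hker, cQ_self ⊥ stable_bot, mul_one, mul_one] at key
  rw [key]
  -- the lattice is induced
  obtain ⟨res, hres, hresker⟩ := exists_residue_hom q.2 (placeAt_liesOverPrime q)
  let e : ((LD (some q)).G ⧸ N → zH (placeAt q)) ≃+ L := AddMonoidHom.ofInjective hinj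
  let f : L →+ ((LD (some q)).G ⧸ N → ZMod q) := (res.compLeft _).comp e.symm.toAddMonoidHom
  haveI : NeZero (q : ℕ) := ⟨q.2.ne_zero⟩
  refine cQ_eq_induced hA (V := ZMod q) (fun v => by rw [← hqp, nsmul_eq_mul, ZMod.natCast_self, zero_mul])
    (by rw [Nat.card_zmod]; exact hqp) hstL ?_ f
    (hres.comp_left.comp e.symm.surjective) (fun x => ?_) (fun h hh x c => ?_)
  · rintro h hh _ ⟨x, hx, rfl⟩
    exact ⟨h • x, hstL h hh x hx, smul_comm p h x⟩
  · constructor
    · intro hx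
      have hx' : ∀ i, ∃ y, e.symm x i = (q : ℕ) • y := fun i => (hresker _).mp (congrFun hx i)
      choose y hy using hx'
      refine ⟨Λ y, ⟨y, rfl⟩, ?_⟩
      show p • Λ y = _
      rw [← map_nsmul, ← hqp, show (q : ℕ) • y = e.symm x from funext fun i => (hy i).symm]
      exact congrArg Subtype.val (e.apply_symm_apply x)
    · rintro ⟨_, ⟨y, rfl⟩, hyx⟩
      funext i
      refine (hresker _).mpr ⟨y i, ?_⟩
      have hx : e ((q : ℕ) • y) = x := Subtype.ext (by
        show Λ ((q : ℕ) • y) = x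
        rw [map_nsmul, hqp]; exact hyx)
      exact congrFun ((congrArg e.symm hx).symm.trans (e.symm_apply_apply _)) i
  · show res (e.symm _ c) = res (e.symm x (h⁻¹ • c))
    have hx : e (fun i => e.symm x (h⁻¹ • i)) = ⟨h • (x : ℚb), hstL h hh x x.2⟩ := Subtype.ext (by
      show Λ _ = h • (x : ℚb)
      rw [← combo_smul hθ h (e.symm x)]
      exact congrArg (h • ·) (congrArg Subtype.val (e.apply_symm_apply x)))
    exact congrArg res (congrFun ((congrArg e.symm hx).symm.trans (e.symm_apply_apply _)) c)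

/-- The equivariant count of the units of value one. -/
theorem cQ_unitsV [N.Normal] [N.FiniteIndex] [H.FiniteIndex] [Finite M]
    (hN : (LD (some q)).IsOpen N) (hA : CoprimeAct p H N M)
    (hμ : ∀ h ∈ N, ∀ μ : ℚbˣ, μ ^ p = 1 → h • μ = μ) :
    cQ M H (unitsV N) ((unitsV N).map (nsmulAddMonoidHom p)) =
      Nat.card {φ : M →+ Cu // ∀ h ∈ H, ∀ m, φ (h • m) = h • φ m} *
        Nat.card M ^ localExp p (some q) H := by
  haveI := finiteDimensional_fieldOf hN
  have hA' := placeAt_liesOverPrime q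
  set π : Cu →+ Cu := nsmulAddMonoidHom p
  set P := unitsP N 1
  have hPle : P ≤ unitsV N := fun x hx => by
    obtain ⟨h1, h2⟩ := mem_unitsP.mp hx
    exact ⟨h1, near_one hA' (Nat.succ_ne_zero 1) h2⟩
  have hUmap : unitsV N = (ordE q.2 hA' (fieldOf N)).ker.map (embU N) := by
    ext x
    constructor
    · rintro ⟨hx, hv⟩
      obtain ⟨y, rfl⟩ := range_embU.ge hx
      exact ⟨y, (mem_ker_ordE q.2 hA' _).mpr hv, rfl⟩
    · rintro ⟨y, hy, rfl⟩
      exact ⟨range_embU.le ⟨y, rfl⟩, ((mem_ker_ordE q.2 hA' _).mp hy :)⟩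
  have hidx : P.relIndex (unitsV N) ≠ 0 := by
    rw [hUmap, show P = (princ hA' (fieldOf N) 1).map (embU N) from rfl,
      AddSubgroup.relIndex_map_map_of_injective _ _ embU_injective]
    exact relIndex_princ_ne_zero q.2 hA' _ 1
  have htor : unitsV N ⊓ π.ker = unitsR N ⊓ π.ker := by
    refine le_antisymm (inf_le_inf_right _ inf_le_left) fun x hx => ⟨⟨hx.1, ?_⟩, hx.2⟩
    have h1 : (x.toMul : ℚbˣ) ^ p = 1 := by
      rw [← toMul_nsmul, show p • x = 0 from hx.2]; rfl
    have h2 := congrArg (fun z : ℚbˣ => (placeAt q).valuation (z : ℚb)) h1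
    simp only [Units.val_pow_eq_pow_val, map_pow, Units.val_one, map_one] at h2
    exact (pow_eq_one_iff.mp h2).resolve_right hpf.out.ne_zero
  have hfin : Finite (unitsV N ⊓ π.ker : AddSubgroup Cu) := by
    haveI : NeZero p := ⟨hpf.out.ne_zero⟩
    refine Finite.of_injective (β := rootsOfUnity p ℚb) (fun x => ⟨(x : Cu).toMul, ?_⟩)
      fun a b h => Subtype.ext (Additive.toMul.injective
        (congrArg (fun z : rootsOfUnity p ℚb => (z : ℚbˣ)) h))
    rw [mem_rootsOfUnity, ← toMul_nsmul, show p • (x : Cu) = 0 from x.2.2]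
    rfl
  have hPtor : P ⊓ π.ker = ⊥ := by
    refine eq_bot_iff.mpr fun x hx => AddSubgroup.mem_bot.mpr ?_
    obtain ⟨h1, h2⟩ := mem_unitsP.mp hx.1
    obtain ⟨ht1, ht2⟩ := small_of_le q.2 hA' hpf.out le_rfl h2
    have h3 : ((x.toMul : ℚbˣ) : ℚb) ^ p = 1 := by
      rw [← Units.val_pow_eq_pow_val, ← toMul_nsmul, show p • x = 0 from hx.2]; rfl
    have h0 := eq_one_of_pow_eq_one (A := placeAt q) hpf.out ht1 ht2 (by rw [add_sub_cancel]; exact h3)
    exact Additive.toMul.injective (Units.ext (sub_eq_zero.mp h0))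
  have key := cQ_torsion_index hA _ rfl hidx hPle stable_unitsV (stable_unitsP 1)
    (fun s hs x hx => fixed_unitsR s hs x hx.1) hfin
  rw [hPtor, cQ_self ⊥ stable_bot, mul_one, htor, cQ_torsion_units M hμ hA.killed,
    map_unitsP hN le_rfl] at key
  rw [key, mul_comm]
  congr 1
  simp only [localExp, shift]
  split
  · next hqp =>
    rw [← cQ_intsOf hN hA hqp]
    -- the first level
    set O := intsOf N
    have hq0 : ((q : ℕ) : ℚb) ^ 2 ≠ 0 := pow_ne_zero _ (by exact_mod_cast q.2.ne_zero)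
    have hv0 : (0 : _) < (placeAt q).valuation ((q : ℕ) : ℚb) ^ 2 :=
      zero_lt_iff.mpr (pow_ne_zero _ (natCast_val_ne_zero q.2))
    have hstO : StableUnder H O := fun h _ x hx =>
      ⟨smul_mem_fieldOf h hx.1, (valuation_smul_qbar h x).trans_le hx.2⟩
    have hTO : StableUnder H (O.map (nsmulAddMonoidHom p)) := by
      rintro h hh _ ⟨x, hx, rfl⟩
      exact ⟨h • x, hstO h hh x hx, smul_comm p h x⟩
    let g : P → ℚb := fun x => ((((x : Cu).toMul : ℚbˣ) : ℚb) - 1) / ((q : ℕ) : ℚb) ^ 2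
    have hgO : ∀ x, g x ∈ O := fun x => by
      obtain ⟨h1, h2⟩ := mem_unitsP.mp x.2
      refine ⟨div_mem (sub_mem (fun s hs => congrArg Units.val (h1 s hs)) (one_mem _))
        (pow_mem (natCast_mem _ _) _), ?_⟩
      rw [map_div₀, map_pow, div_le_one₀ hv0]
      exact h2
    let f : P →+ ℚb ⧸ O.map (nsmulAddMonoidHom p) :=
      AddMonoidHom.mk' (fun x => QuotientAddGroup.mk (g x)) fun x y => by
        rw [← QuotientAddGroup.mk_add, QuotientAddGroup.eq]
        refine ⟨-((q : ℕ) • (g x * g y)), neg_mem (O.nsmul_mem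
          ⟨mul_mem (hgO x).1 (hgO y).1, by
            rw [map_mul]; exact mul_le_one' (hgO x).2 (hgO y).2⟩ _), ?_⟩
        show p • -((q : ℕ) • (g x * g y)) = _
        rw [← hqp]
        show (q : ℕ) • -((q : ℕ) • (g x * g y)) =
          -(((((x : Cu).toMul : ℚbˣ) : ℚb) * (((y : Cu).toMul : ℚbˣ) : ℚb) - 1) / ((q : ℕ) : ℚb) ^ 2) + _
        simp only [g, nsmul_eq_mul]
        field_simp
        ring
    refine cQ_congr (R := P) (stable_unitsP 1) (stable_unitsP (1 + 1)) hTO
      (fun x hx => by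
        obtain ⟨h1, h2⟩ := mem_unitsP.mp hx
        exact mem_unitsP.mpr ⟨h1, h2.trans
          (pow_le_pow_right_of_le_one' (natCast_val_lt_one hA').le (Nat.le_succ _))⟩)
      f (fun z => ?_) (fun x => ?_) (fun h hh x y hy => ?_)
    · constructor
      · rintro ⟨x, rfl⟩; exact ⟨g x, hgO x, rfl⟩
      · rintro ⟨y, hy, rfl⟩
        set t := 1 + ((q : ℕ) : ℚb) ^ 2 * y with ht
        have htv : (placeAt q).valuation (t - 1) ≤
            (placeAt q).valuation ((q : ℕ) : ℚb) ^ (1 + 1) := by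
          rw [ht, add_sub_cancel_left, map_mul, map_pow]
          exact mul_le_of_le_one_right' hy.2
        have ht0 : t ≠ 0 := fun h => by
          have := near_one hA' (Nat.succ_ne_zero 1) htv
          rw [h, map_zero] at this
          exact zero_ne_one this
        have htE : t ∈ fieldOf N :=
          add_mem (one_mem _) (mul_mem (pow_mem (natCast_mem _ _) _) hy.1)
        refine ⟨⟨Additive.ofMul (Units.mk0 t ht0),
          mem_unitsP.mpr ⟨fun s hs => Units.ext (mem_fieldOf.mp htE s hs), htv⟩⟩, ?_⟩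
        refine congrArg QuotientAddGroup.mk ?_
        show (t - 1) / ((q : ℕ) : ℚb) ^ 2 = y
        rw [ht, add_sub_cancel_left, mul_div_cancel_left₀ _ hq0]
    · refine (QuotientAddGroup.eq_zero_iff _).trans ?_
      have hx1 := (mem_unitsP.mp x.2).1
      rw [mem_unitsP]
      have e : (((x : Cu).toMul : ℚbˣ) : ℚb) - 1 = ((q : ℕ) : ℚb) ^ 2 * g x :=
        (mul_div_cancel₀ _ hq0).symm
      constructor
      · rintro ⟨y, hy, hyx⟩
        refine ⟨hx1, ?_⟩
        rw [e, ← hyx, map_mul, map_pow]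
        show _ * (placeAt q).valuation (p • y) ≤ _
        rw [← hqp, nsmul_eq_mul, map_mul, ← mul_assoc, ← pow_succ]
        exact mul_le_of_le_one_right' hy.2
      · rintro ⟨-, h⟩
        rw [e, map_mul, map_pow, pow_succ _ (1 + 1)] at h
        refine ⟨g x / ((q : ℕ) : ℚb), ⟨div_mem (hgO x).1 (natCast_mem _ _), ?_⟩, ?_⟩
        · rw [map_div₀, div_le_one₀ (zero_lt_iff.mpr (natCast_val_ne_zero q.2))]
          exact le_of_mul_le_mul_left h hv0
        · show p • (g x / ((q : ℕ) : ℚb)) = g x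
          rw [← hqp, nsmul_eq_mul, mul_div_cancel₀ _ (by exact_mod_cast q.2.ne_zero)]
    · show ((g ⟨h • (x : Cu), _⟩ : ℚb) : ℚb ⧸ O.map (nsmulAddMonoidHom p)) = _
      refine Eq.trans (congrArg QuotientAddGroup.mk ?_) (mk_smul_eq hTO hh hy)
      show ((((h • (x : Cu).toMul : ℚbˣ)) : ℚb) - 1) / ((q : ℕ) : ℚb) ^ 2 = h • g x
      rw [coe_smul_unit, smul_qbar]
      simp only [g, map_div₀, map_sub, map_one, map_pow, map_natCast]
  · rw [add_zero, pow_zero]
    exact cQ_self _ (stable_unitsP 1)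

/-- The units modulo `p`-th powers as a module. -/
theorem card_local_hom_eq (hN : (LD (some q)).IsLevel N) (hle : N ≤ H)
    (hidx : ¬ p ∣ (N.subgroupOf H).index) (hμ : ∀ h ∈ N, ∀ μ : ℚbˣ, μ ^ p = 1 → h • μ = μ)
    [Finite M] (hp : ∀ m : M, p • m = 0) (hMN : ∀ s ∈ N, ∀ m : M, s • m = m) :
    Nat.card {φ : M →+ Additive (fixedUnits N ⧸ powers p (fixedUnits N)) //
      ∀ h ∈ H, ∀ (m : M) (x y : fixedUnits N), φ m = Additive.ofMul (QuotientGroup.mk x) →
        (y : ℚbˣ) = h • (x : ℚbˣ) → φ (h • m) = Additive.ofMul (QuotientGroup.mk y)} =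
      Nat.card {φ : M →+ Cu // ∀ h ∈ H, ∀ m, φ (h • m) = h • φ m} *
        Nat.card {φ : M →+ ZMod p // ∀ h ∈ H, ∀ m, φ (h • m) = φ m} *
        Nat.card M ^ localExp p (some q) H := by
  haveI := (LD (some q)).normal N hN
  haveI := (LD (some q)).finiteIndex N hN
  haveI : H.FiniteIndex := Subgroup.finiteIndex_of_le hle
  have hA : CoprimeAct p H N M := ⟨hle, inferInstance, inferInstance, hidx, hp, hMN⟩
  have hNo : (LD (some q)).IsOpen N := ⟨N, hN, le_rfl⟩
  rw [card_homPowers_eq M, cQ_units_split hNo hA, cQ_unitsV hNo hA hμ]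
  ring

end Fermat.Agent.GD
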