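import Fermat.Agent.GD.Local.Norm

/-!
# The norm index of a cyclic extension of prime degree
-/

set_option autoImplicit false
set_option linter.style.haveILetI false

noncomputable section

namespace Fermat.Agent.GD

open Fermat.Agent.Galois

local notation "ℚb" => AlgebraicClosure ℚ

variable {q : Nat.Primes} {p : ℕ}

theorem toGQ_mul (g h : (LD (some q)).G) : toGQ (g * h) = toGQ g * toGQ h := rfl

theorem mem_fixedUnits_iff {H : Subgroup (LD (some q)).G} {x : ℚbˣ} :
    x ∈ fixedUnits H ↔ (x : ℚb) ∈ fieldOf H :=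
  ⟨fun h g hg => congrArg Units.val (h g hg), fun h g hg => Units.ext (h g hg)⟩

variable (H' : Subgroup (LD (some q)).G)

/-- The action of an element normalising a subgroup on its field. -/
def actField (τ : (LD (some q)).G) (hτ : ∀ h, h ∈ H' ↔ τ * h * τ⁻¹ ∈ H') :
    fieldOf H' ≃+* fieldOf H' where
  toFun x := ⟨toGQ τ (x : ℚb), fun h hh => by
    obtain ⟨h', hh', rfl⟩ : ∃ h', h' ∈ H' ∧ τ * h' * τ⁻¹ = h :=
      ⟨τ⁻¹ * h * τ, (hτ _).mpr (by simpa [mul_assoc] using hh), by group⟩
    rw [toGQ_mul, toGQ_mul, AlgEquiv.mul_apply, AlgEquiv.mul_apply]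
    have : toGQ τ⁻¹ (toGQ τ (x : ℚb)) = x := (toGQ τ).symm_apply_apply _
    rw [this, x.2 h' hh']⟩
  invFun x := ⟨(toGQ τ).symm (x : ℚb), fun h hh => by
    apply (toGQ τ).injective
    rw [AlgEquiv.apply_symm_apply]
    have h1 := x.2 _ ((hτ h).mp hh)
    rw [toGQ_mul, toGQ_mul, AlgEquiv.mul_apply, AlgEquiv.mul_apply] at h1
    exact h1⟩
  left_inv x := Subtype.ext ((toGQ τ).symm_apply_apply _)
  right_inv x := Subtype.ext ((toGQ τ).apply_symm_apply _)
  map_mul' x y := Subtype.ext (map_mul (toGQ τ) _ _)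
  map_add' x y := Subtype.ext (map_add (toGQ τ) _ _)

variable {H'}

theorem coe_actField_pow {τ : (LD (some q)).G} (hτ : ∀ h, h ∈ H' ↔ τ * h * τ⁻¹ ∈ H') (i : ℕ)
    (x : fieldOf H') : (((actField H' τ hτ) ^ i) x : ℚb) = toGQ (τ ^ i) (x : ℚb) := by
  induction i with
  | zero => rfl
  | succ i ih =>
    rw [pow_succ', pow_succ', toGQ_mul, AlgEquiv.mul_apply]
    exact congrArg (toGQ τ) ih

/-- The units of the field inside those of `ℚ̄`. -/
def unitsIncl (H' : Subgroup (LD (some q)).G) : Additive (fieldOf H')ˣ →+ Additive ℚbˣ :=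
  (Units.map (algebraMap (fieldOf H') ℚb : fieldOf H' →* ℚb)).toAdditive

theorem unitsIncl_injective (H' : Subgroup (LD (some q)).G) :
    Function.Injective (unitsIncl H') := fun a b h => by
  refine Additive.toMul.injective (Units.ext (Subtype.ext ?_))
  exact congrArg (fun z : Additive ℚbˣ => ((z.toMul : ℚbˣ) : ℚb)) h

set_option maxHeartbeats 1000000 in
/-- The norm index of a cyclic extension of degree `p` of a local field is `p`. -/
theorem card_norm_eq [hp : Fact p.Prime] (H : Subgroup (LD (some q)).G)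
    (hH' : (LD (some q)).IsOpen H') (hle : H' ≤ H) (hn : (H'.subgroupOf H).Normal)
    (hidx : (H'.subgroupOf H).index = p) :
    Nat.card (fixedUnits H ⧸ Subgroup.closure {x : fixedUnits H |
      ∃ y ∈ fixedUnits H', (x : ℚbˣ) =
        ∏ᶠ s : H ⧸ H'.subgroupOf H, ((s.out : H) : (LD (some q)).G) • y}) = p := by
  classical
  haveI := hn
  have hH : (LD (some q)).IsOpen H := ⟨hH'.choose, hH'.choose_spec.1, hH'.choose_spec.2.trans hle⟩
  haveI := finiteDimensional_fieldOf hH
  haveI := finiteDimensional_fieldOf hH'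
  have hcard : Nat.card (H ⧸ H'.subgroupOf H) = p := by rw [← Subgroup.index_eq_card, hidx]
  obtain ⟨t, ht⟩ : ∃ t : H, (QuotientGroup.mk t : H ⧸ H'.subgroupOf H) ≠ 1 := by
    haveI : Nontrivial (H ⧸ H'.subgroupOf H) := by
      haveI : Finite (H ⧸ H'.subgroupOf H) :=
        Nat.finite_of_card_ne_zero (by rw [hcard]; exact hp.out.ne_zero)
      rw [← Finite.one_lt_card_iff_nontrivial, hcard]
      exact hp.out.one_lt
    obtain ⟨c, hc⟩ := exists_ne (1 : H ⧸ H'.subgroupOf H)
    exact ⟨c.out, by rwa [QuotientGroup.out_eq']⟩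
  set τ : (LD (some q)).G := t.1
  have hpow : ∀ g : H, ∃ i < p, (QuotientGroup.mk g : H ⧸ H'.subgroupOf H) =
      QuotientGroup.mk (t ^ i) := by
    intro g
    haveI : Finite (H ⧸ H'.subgroupOf H) :=
      Nat.finite_of_card_ne_zero (by rw [hcard]; exact hp.out.ne_zero)
    have hmem := mem_powers_of_prime_card hcard ht (g' := (QuotientGroup.mk g : H ⧸ H'.subgroupOf H))
    obtain ⟨i, hi⟩ := hmem
    refine ⟨i % p, Nat.mod_lt _ hp.out.pos, ?_⟩
    rw [← hi, QuotientGroup.mk_pow]
    exact (pow_eq_pow_mod i (hcard ▸ pow_card_eq_one')).trans rfl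
  have hτ : ∀ h, h ∈ H' ↔ τ * h * τ⁻¹ ∈ H' := by
    intro h
    constructor
    · intro hh
      exact hn.conj_mem ⟨h, hle hh⟩ (Subgroup.mem_subgroupOf.mpr hh) t
    · intro hh
      have h1 : h ∈ H := by
        have h2 := H.mul_mem (H.mul_mem (H.inv_mem t.2) (hle hh)) t.2
        convert h2 using 1
        show h = (t : (LD (some q)).G)⁻¹ * ((t : (LD (some q)).G) * h * (t : (LD (some q)).G)⁻¹) * t
        group
      have h3 := hn.conj_mem ⟨τ * h * τ⁻¹, hle hh⟩ (Subgroup.mem_subgroupOf.mpr hh) t⁻¹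
      rw [Subgroup.mem_subgroupOf] at h3
      convert h3 using 1
      show h = τ⁻¹ * (τ * h * τ⁻¹) * τ⁻¹⁻¹
      group
  set σ := actField H' τ hτ
  have hσp : σ ^ p = 1 := by
    refine RingEquiv.ext fun x => Subtype.ext ?_
    rw [coe_actField_pow]
    refine x.2 _ ?_
    have : (QuotientGroup.mk (t ^ p) : H ⧸ H'.subgroupOf H) = 1 := by
      rw [QuotientGroup.mk_pow]; exact hcard ▸ pow_card_eq_one'
    have h2 := Subgroup.mem_subgroupOf.mp ((QuotientGroup.eq_one_iff _).mp this)
    simpa using h2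
  have hσne : σ ≠ 1 := by
    intro h
    refine ht ((QuotientGroup.eq_one_iff _).mpr (Subgroup.mem_subgroupOf.mpr ?_))
    obtain ⟨hd, hh⟩ := mem_of_fixes hH' (σ := toGQ τ) fun x hx =>
      congrArg (fun z : fieldOf H' => (z : ℚb)) (RingEquiv.congr_fun h ⟨x, hx⟩)
    exact hh
  -- the endomorphism of the units
  let s : AddMonoid.End (Additive (fieldOf H')ˣ) :=
    (Units.map (σ.toRingHom : fieldOf H' →* fieldOf H')).toAdditive
  have hs : ∀ (i : ℕ) (x : Additive (fieldOf H')ˣ),
      ((((s ^ i) x).toMul : (fieldOf H')ˣ) : fieldOf H') = (σ ^ i) ((x.toMul : (fieldOf H')ˣ) : _) := by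
    intro i
    induction i with
    | zero => exact fun x => rfl
    | succ i ih =>
      intro x
      rw [pow_succ', pow_succ']
      exact congrArg σ (ih x)
  have hs1 : s ^ p = 1 := AddMonoidHom.ext fun x =>
    Additive.toMul.injective (Units.ext ((hs p x).trans (RingEquiv.congr_fun hσp _)))
  have hN : ∀ x : Additive (fieldOf H')ˣ,
      ((((∑ i ∈ Finset.range p, s ^ i) x).toMul : (fieldOf H')ˣ) : fieldOf H') =
        ∏ i ∈ Finset.range p, (σ ^ i) ((x.toMul : (fieldOf H')ˣ) : _) := by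
    intro x
    rw [end_sum_apply, toMul_sum, Units.coe_prod]
    exact Finset.prod_congr rfl fun i _ => hs i x
  have hH1 : ∀ x, (∑ i ∈ Finset.range p, s ^ i) x = 0 → ∃ y, s y - y = x := by
    intro x hx
    obtain ⟨y, hy0, hy⟩ := exists_div_of_prod_eq_one σ hp.out hσp hσne
      (x := ((x.toMul : (fieldOf H')ˣ) : fieldOf H')) (by rw [← hN, hx]; rfl)
    refine ⟨Additive.ofMul (Units.mk0 y hy0), sub_eq_iff_eq_add.mpr ?_⟩
    refine Additive.toMul.injective (Units.ext ?_)
    exact hy.trans (mul_comm _ _)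
  haveI : NeZero p := ⟨hp.out.ne_zero⟩
  have hfin : ∀ (E : IntermediateField (decField (placeAt q)) ℚb),
      Nat.card (nsmulAddMonoidHom (α := Additive Eˣ) p).ker ≠ 0 := fun E => by
    haveI : Finite (nsmulAddMonoidHom (α := Additive Eˣ) p).ker :=
      Finite.of_injective (β := rootsOfUnity p E) (fun x => ⟨(x : Additive Eˣ).toMul, x.2⟩)
        fun a b h => Subtype.ext (congrArg (fun z : rootsOfUnity p E => Additive.ofMul (z : Eˣ)) h)
    exact Nat.card_pos.ne'
  have htate := relIndex_norm_range hp.out s hs1 hH1 (hfin _)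
  -- the fixed part is the field of `H`
  have hfix : (AddMonoidHom.ker (s - 1 : AddMonoid.End (Additive (fieldOf H')ˣ))).map (unitsIncl H') = (fixedUnits H).toAddSubgroup := by
    ext x
    rw [AddSubgroup.mem_map]
    show _ ↔ x.toMul ∈ fixedUnits H
    constructor
    · rintro ⟨y, hy, rfl⟩
      intro g hg
      obtain ⟨i, -, hi⟩ := hpow ⟨g, hg⟩
      have hmem := Subgroup.mem_subgroupOf.mp (QuotientGroup.eq.mp hi.symm)
      have hgi : g = τ ^ i * ((τ ^ i)⁻¹ * g) := by group
      have hy' : σ ((y.toMul : (fieldOf H')ˣ) : fieldOf H') =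
          ((y.toMul : (fieldOf H')ˣ) : fieldOf H') :=
        congrArg (fun z : Additive (fieldOf H')ˣ => ((z.toMul : (fieldOf H')ˣ) : fieldOf H'))
          (sub_eq_zero.mp hy)
      have hyi : ∀ j : ℕ, (σ ^ j) ((y.toMul : (fieldOf H')ˣ) : fieldOf H') =
          ((y.toMul : (fieldOf H')ˣ) : fieldOf H') := fun j => by
        induction j with
        | zero => rfl
        | succ j ih => rw [pow_succ']; exact (congrArg σ ih).trans hy'
      refine Units.ext ?_
      show toGQ g (((y.toMul : (fieldOf H')ˣ) : fieldOf H') : ℚb) = _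
      rw [hgi, toGQ_mul, AlgEquiv.mul_apply,
        ((y.toMul : (fieldOf H')ˣ) : fieldOf H').2 _ (by simpa using hmem), ← coe_actField_pow hτ]
      exact congrArg Subtype.val (hyi i)
    · intro hx
      have hx' : ((x.toMul : ℚbˣ) : ℚb) ∈ fieldOf H' := fun g hg =>
        congrArg Units.val (hx g (hle hg))
      refine ⟨Additive.ofMul (Units.mk0 ⟨_, hx'⟩ fun h => (x.toMul : ℚbˣ).ne_zero
        (congrArg Subtype.val h)), ?_, Additive.toMul.injective (Units.ext rfl)⟩
      refine sub_eq_zero.mpr (Additive.toMul.injective (Units.ext (Subtype.ext ?_)))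
      exact congrArg Units.val (hx τ t.2)
  have hmapm : ((AddMonoidHom.ker (s - 1 : AddMonoid.End (Additive (fieldOf H')ˣ))).map
      (nsmulAddMonoidHom (α := Additive (fieldOf H')ˣ) p)).relIndex (AddMonoidHom.ker (s - 1 : AddMonoid.End (Additive (fieldOf H')ˣ))) =
      (nsmulAddMonoidHom (α := Additive (fieldOf H)ˣ) p).range.index := by
    rw [← AddSubgroup.relIndex_map_map_of_injective _ _ (unitsIncl_injective H'), hfix,
      ← index_powers_units (fixedUnitsEquiv H) p, ← Subgroup.index_toAddSubgroup]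
    show AddSubgroup.index _ = _
    congr 1
    ext x
    simp only [AddSubgroup.mem_addSubgroupOf, AddSubgroup.mem_map]
    constructor
    · rintro ⟨_, ⟨w, hw, rfl⟩, hwx⟩
      have hw' : unitsIncl H' w ∈ (fixedUnits H).toAddSubgroup :=
        hfix ▸ AddSubgroup.mem_map_of_mem _ hw
      refine ⟨⟨(unitsIncl H' w).toMul, hw'⟩, Subtype.ext ?_⟩
      rw [show nsmulAddMonoidHom p w = p • w from rfl, map_nsmul] at hwx
      exact congrArg Additive.toMul hwx
    · rintro ⟨z, hz⟩
      have hz' : Additive.ofMul (z : ℚbˣ) ∈ (AddMonoidHom.ker (s - 1 : AddMonoid.End (Additive (fieldOf H')ˣ))).map (unitsIncl H') :=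
        hfix.symm ▸ z.2
      obtain ⟨w, hw, hwz⟩ := AddSubgroup.mem_map.mp hz'
      refine ⟨_, ⟨w, hw, rfl⟩, ?_⟩
      rw [show nsmulAddMonoidHom p w = p • w from rfl, map_nsmul, hwz]
      exact congrArg (fun a : fixedUnits H => Additive.ofMul (a : ℚbˣ)) hz
  have hker : Nat.card ((nsmulAddMonoidHom (α := Additive (fieldOf H')ˣ) p).ker ⊓
      AddMonoidHom.ker (s - 1 : AddMonoid.End (Additive (fieldOf H')ˣ)) : AddSubgroup _) =
      Nat.card (nsmulAddMonoidHom (α := Additive (fieldOf H)ˣ) p).ker := by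
    have hA : ∀ w : Additive (fieldOf H')ˣ, w ∈ AddMonoidHom.ker (s - 1 : AddMonoid.End (Additive (fieldOf H')ˣ)) →
        (((w.toMul : (fieldOf H')ˣ) : fieldOf H') : ℚb) ∈ fieldOf H := fun w hw =>
      mem_fixedUnits_iff.mp (show (unitsIncl H' w).toMul ∈ fixedUnits H from
        (hfix ▸ AddSubgroup.mem_map_of_mem _ hw :
          unitsIncl H' w ∈ (fixedUnits H).toAddSubgroup))
    refine Nat.card_eq_of_bijective
      (fun w => ⟨Additive.ofMul (Units.mk0 ⟨_, hA w.1 w.2.2⟩ fun h =>
        ((w : Additive (fieldOf H')ˣ).toMul : (fieldOf H')ˣ).ne_zero (Subtype.ext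
          (congrArg (fun z : fieldOf H => (z : ℚb)) h))), ?_⟩) ⟨?_, ?_⟩
    · refine Additive.toMul.injective (Units.ext (Subtype.ext ?_))
      have h := congrArg (fun z : Additive (fieldOf H')ˣ =>
        (((z.toMul : (fieldOf H')ˣ) : fieldOf H') : ℚb)) (show p • (w.1 : Additive (fieldOf H')ˣ) = 0 from w.2.1)
      simpa [nsmulAddMonoidHom] using h
    · intro a b h
      refine Subtype.ext (Additive.toMul.injective (Units.ext (Subtype.ext ?_)))
      exact congrArg (fun z : (nsmulAddMonoidHom (α := Additive (fieldOf H)ˣ) p).ker =>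
        ((((z.1 : Additive (fieldOf H)ˣ).toMul : (fieldOf H)ˣ) : fieldOf H) : ℚb)) h
    · rintro ⟨u, hu⟩
      have hu' : unitsIncl H u ∈ (AddMonoidHom.ker (s - 1 : AddMonoid.End (Additive (fieldOf H')ˣ))).map (unitsIncl H') :=
        hfix.symm ▸ mem_fixedUnits_iff.mpr ((u.toMul : (fieldOf H)ˣ) : fieldOf H).2
      obtain ⟨w, hw, hwu⟩ := AddSubgroup.mem_map.mp hu'
      refine ⟨⟨w, unitsIncl_injective H' ?_, hw⟩, Subtype.ext (unitsIncl_injective H ?_)⟩
      · show unitsIncl H' (p • w) = unitsIncl H' 0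
        rw [map_nsmul, hwu, ← map_nsmul, show p • u = 0 from hu, map_zero, map_zero]
      · exact (Additive.toMul.injective (Units.ext rfl) : unitsIncl H _ = unitsIncl H' w).trans hwu
  have hquot : Nat.card (fixedUnits H ⧸ Subgroup.closure {x : fixedUnits H |
      ∃ y ∈ fixedUnits H', (x : ℚbˣ) =
        ∏ᶠ s : H ⧸ H'.subgroupOf H, ((s.out : H) : (LD (some q)).G) • y}) =
      (AddMonoidHom.range (∑ i ∈ Finset.range p, s ^ i)).relIndex (AddMonoidHom.ker (s - 1 : AddMonoid.End (Additive (fieldOf H')ˣ))) := by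
    haveI : Finite (H ⧸ H'.subgroupOf H) :=
      Nat.finite_of_card_ne_zero (by rw [hcard]; exact hp.out.ne_zero)
    let e : Fin p → H ⧸ H'.subgroupOf H := fun i => QuotientGroup.mk (t ^ (i : ℕ))
    have hsurj : Function.Surjective e := fun c => by
      obtain ⟨i, hi, hci⟩ := hpow c.out
      exact ⟨⟨i, hi⟩, hci.symm.trans (QuotientGroup.out_eq' c)⟩
    have hprod : ∀ z : (fieldOf H')ˣ,
        ((∏ᶠ c : H ⧸ H'.subgroupOf H, ((c.out : H) : (LD (some q)).G) •
          (unitsIncl H' (Additive.ofMul z)).toMul : ℚbˣ) : ℚb) =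
        (((((∑ i ∈ Finset.range p, s ^ i) (Additive.ofMul z)).toMul : (fieldOf H')ˣ) :
          fieldOf H') : ℚb) := by
      intro z
      have hb : Function.Bijective e :=
        (Nat.bijective_iff_surjective_and_card e).mpr ⟨hsurj, by simp [hcard]⟩
      rw [hN, ← finprod_comp e hb, finprod_eq_prod_of_fintype, Units.coe_prod,
        Finset.prod_range]
      show _ = (algebraMap (fieldOf H') ℚb) (∏ i : Fin p, _)
      rw [map_prod]
      refine Finset.prod_congr rfl fun i _ => ?_
      show toGQ (((e i).out : H) : (LD (some q)).G) ((z : fieldOf H') : ℚb) = _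
      obtain ⟨k, hk⟩ : ∃ k : H'.subgroupOf H, (e i).out = t ^ (i : ℕ) * k :=
        QuotientGroup.mk_out_eq_mul _ _
      rw [hk, Subgroup.coe_mul, toGQ_mul, AlgEquiv.mul_apply,
        ((z : fieldOf H')).2 _ (Subgroup.mem_subgroupOf.mp k.2), Subgroup.coe_pow]
      exact (coe_actField_pow hτ _ _).symm
    rw [← Subgroup.index_eq_card, ← Subgroup.index_toAddSubgroup,
      ← AddSubgroup.relIndex_map_map_of_injective _ _ (unitsIncl_injective H'), hfix]
    show _ = AddSubgroup.index _
    congr 1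
    have hset : {x : fixedUnits H | ∃ y ∈ fixedUnits H', (x : ℚbˣ) =
        ∏ᶠ c : H ⧸ H'.subgroupOf H, ((c.out : H) : (LD (some q)).G) • y} =
        {x : fixedUnits H | Additive.ofMul (x : ℚbˣ) ∈
          (AddMonoidHom.range (∑ i ∈ Finset.range p, s ^ i)).map (unitsIncl H')} := by
      ext x
      constructor
      · rintro ⟨y, hy, hxy⟩
        refine AddSubgroup.mem_map.mpr ⟨_, ⟨Additive.ofMul (Units.mk0 ⟨(y : ℚb),
          mem_fixedUnits_iff.mp hy⟩ fun h => y.ne_zero (congrArg Subtype.val h)), rfl⟩, ?_⟩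
        refine Additive.toMul.injective (Units.ext ((hprod _).symm.trans ?_))
        show _ = ((x : ℚbˣ) : ℚb)
        rw [hxy]
        exact congrArg Units.val (finprod_congr fun c => congrArg _ (Units.ext rfl))
      · intro hx
        obtain ⟨_, ⟨z, rfl⟩, hz⟩ := AddSubgroup.mem_map.mp hx
        refine ⟨(unitsIncl H' z).toMul, mem_fixedUnits_iff.mpr
          ((z.toMul : (fieldOf H')ˣ) : fieldOf H').2, Units.ext ?_⟩
        rw [show (x : ℚbˣ) = (unitsIncl H' _).toMul from congrArg Additive.toMul hz.symm]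
        exact (hprod z.toMul).symm
    have hclos : Subgroup.closure {x : fixedUnits H | ∃ y ∈ fixedUnits H', (x : ℚbˣ) =
        ∏ᶠ c : H ⧸ H'.subgroupOf H, ((c.out : H) : (LD (some q)).G) • y} =
        ((AddMonoidHom.range (∑ i ∈ Finset.range p, s ^ i)).map (unitsIncl H')).toSubgroup'.subgroupOf
          (fixedUnits H) := by
      rw [hset]
      exact Subgroup.closure_eq (((AddMonoidHom.range (∑ i ∈ Finset.range p, s ^ i)).map
        (unitsIncl H')).toSubgroup'.subgroupOf (fixedUnits H))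
    rw [hclos]
    rfl
  rw [hquot]
  set h := (AddMonoidHom.range (∑ i ∈ Finset.range p, s ^ i)).relIndex (AddMonoidHom.ker (s - 1 : AddMonoid.End (Additive (fieldOf H')ˣ)))
  have hd : Module.finrank (decField (placeAt q)) (fieldOf H') =
      p * Module.finrank (decField (placeAt q)) (fieldOf H) := by
    rw [finrank_fieldOf hH', finrank_fieldOf hH, ← Subgroup.relIndex_mul_index hle]
    exact congrArg (· * _) hidx
  rw [hker, hmapm, index_powers q.2 (placeAt_liesOverPrime q) (fieldOf H) hp.out,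
    index_powers q.2 (placeAt_liesOverPrime q) (fieldOf H') hp.out, hd] at htate
  set a := Nat.card (nsmulAddMonoidHom (α := Additive (fieldOf H)ˣ) p).ker
  set b := Nat.card (nsmulAddMonoidHom (α := Additive (fieldOf H')ˣ) p).ker
  set Q := ((q : ℕ) ^ Module.finrank (decField (placeAt q)) (fieldOf H)) ^ shift p q
  have hQ : ((q : ℕ) ^ (p * Module.finrank (decField (placeAt q)) (fieldOf H))) ^ shift p q
      = Q ^ p := by
    rw [← pow_mul, ← pow_mul, ← pow_mul]
    congr 1
    ring
  rw [hQ] at htate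
  have hne : b * Q ^ p * a ^ p ≠ 0 :=
    mul_ne_zero (mul_ne_zero (hfin _) (pow_ne_zero _ (pow_ne_zero _ (pow_ne_zero _ q.2.ne_zero))))
      (pow_ne_zero _ (hfin _))
  obtain ⟨n, hn'⟩ : ∃ n, p = n + 1 := ⟨p - 1, by have := hp.out.pos; omega⟩
  have key : h ^ n = p ^ n := by
    have h1 : h ^ n * p = p ^ p := by
      apply mul_right_cancel₀ hne
      rw [show p - 1 = n by omega] at htate
      refine Eq.trans ?_ (Eq.trans htate ?_)
      · show _ = h ^ n * (p * b * Q ^ p) * a ^ p
        ring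
      · rw [mul_pow, mul_pow]; ring
    rw [hn', pow_succ] at h1
    rw [hn']
    exact mul_right_cancel₀ (Nat.succ_ne_zero n) h1
  exact Nat.pow_left_injective (by have := hp.out.two_le; omega : n ≠ 0) key

end Fermat.Agent.GD
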