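import Mathlib

/-!
# Two-cocycles on a group with cyclic quotient
-/

set_option autoImplicit false
set_option linter.style.haveILetI false

namespace Fermat.Agent.GD

open Finset

variable {G C : Type*} [Group G] [AddCommGroup C] [DistribMulAction G C]

/-- The sum attached to a cocycle inflated from a cyclic quotient is fixed by the generator. -/
theorem smul_sum_eq_of_cyclic {N : Subgroup G} {σ : G} {m : ℕ} (hσm : σ ^ m ∈ N)
    {f : G × G → C} (hf : ∀ g h j, g • f (h, j) + f (g, h * j) = f (g * h, j) + f (g, h))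
    (hinv : ∀ g h, ∀ s ∈ N, ∀ t ∈ N, f (g * s, h * t) = f (g, h)) :
    σ • ∑ i ∈ range m, f (σ ^ i, σ) = ∑ i ∈ range m, f (σ ^ i, σ) := by
  set c₀ := f (1, 1) with hc₀
  set a := ∑ i ∈ range m, f (σ ^ i, σ) with ha
  have hg1 : ∀ g, f (g, 1) = g • c₀ := fun g => by
    have e := hf g 1 1
    rw [mul_one, mul_one] at e
    exact (add_right_cancel e).symm
  have hfm : ∀ g s, s ∈ N → f (g * s, σ) = f (g, σ) := fun g s hs => by
    have := hinv g σ s hs 1 N.one_mem
    rwa [mul_one] at this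
  rw [ha, smul_sum]
  have hstep : ∀ i ∈ range m, σ • f (σ ^ i, σ) =
      f (σ ^ (i + 1), σ) + (f (σ, σ ^ i) - f (σ, σ ^ (i + 1))) := fun i _ => by
    have e := hf σ (σ ^ i) σ
    rw [← pow_succ', ← pow_succ] at e
    rw [add_sub, ← e, add_sub_cancel_right]
  rw [sum_congr rfl hstep, sum_add_distrib, sum_range_sub' (fun i => f (σ, σ ^ i))]
  have h0 : f (σ, σ ^ m) = σ • c₀ := by
    have := hinv σ 1 1 N.one_mem (σ ^ m) hσm
    rw [mul_one, one_mul, hg1] at this
    exact this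
  have hlast : f (σ ^ m, σ) = f (1, σ) := by
    have := hfm 1 (σ ^ m) hσm
    rwa [one_mul] at this
  simp only [pow_zero]
  rw [h0, hg1, sub_self, add_zero]
  have h1 := sum_range_succ' (fun i => f (σ ^ i, σ)) m
  rw [sum_range_succ, hlast] at h1
  simp only [pow_zero] at h1
  exact (add_right_cancel h1).symm

/-- The norm criterion for the vanishing of a cocycle inflated from a cyclic quotient. -/
theorem exists_coboundary_of_cyclic {N : Subgroup G} (hn : N.Normal) {σ : G}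
    (hσ : ∀ g : G, ∃ i : ℕ, g⁻¹ * σ ^ i ∈ N) {m : ℕ} (hm : 0 < m) (hσm : σ ^ m ∈ N)
    (hmin : ∀ i, 0 < i → i < m → σ ^ i ∉ N)
    (P : AddSubgroup C) (hPN : ∀ s ∈ N, ∀ x ∈ P, s • x = x) (hPσ : ∀ x ∈ P, σ • x ∈ P)
    {f : G × G → C} (hf : ∀ g h j, g • f (h, j) + f (g, h * j) = f (g * h, j) + f (g, h))
    (hinv : ∀ g h, ∀ s ∈ N, ∀ t ∈ N, f (g * s, h * t) = f (g, h)) (hP : ∀ x, f x ∈ P)
    (hnorm : ∃ y ∈ P, ∑ i ∈ range m, σ ^ i • y = ∑ i ∈ range m, f (σ ^ i, σ)) :
    ∃ b : G → C, (∀ g, b g ∈ P) ∧ (∀ g, ∀ s ∈ N, b (g * s) = b g) ∧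
      ∀ g h, g • b h - b (g * h) + b g = f (g, h) := by
  classical
  set c₀ := f (1, 1) with hc₀
  set a := ∑ i ∈ range m, f (σ ^ i, σ) with ha
  have hf1 : ∀ g, f (1, g) = c₀ := fun g => by
    have e := hf 1 1 g
    rw [one_smul, one_mul, one_mul] at e
    exact add_left_cancel e
  have hg1 : ∀ g, f (g, 1) = g • c₀ := fun g => by
    have e := hf g 1 1
    rw [mul_one, mul_one] at e
    exact (add_right_cancel e).symm
  have hfm : ∀ g s, s ∈ N → f (g * s, σ) = f (g, σ) := fun g s hs => by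
    have := hinv g σ s hs 1 N.one_mem
    rwa [mul_one] at this
  obtain ⟨y, hy, hNy⟩ := hnorm
  have hpP : ∀ i, σ ^ i • y ∈ P := fun i => by
    induction i with
    | zero => simpa using hy
    | succ i ih => rw [pow_succ', mul_smul]; exact hPσ _ ih
  let B : ℕ → C := fun i => c₀ + ∑ j ∈ range i, (σ ^ j • y - f (σ ^ j, σ))
  have hperiod : ∀ i, B (i + m) = B i := fun i => by
    have e : ∀ j, σ ^ (m + j) • y - f (σ ^ (m + j), σ) = σ ^ j • y - f (σ ^ j, σ) := fun j => by
      rw [pow_add, mul_smul, hPN _ hσm _ (hpP j), ← pow_add, add_comm m j, pow_add, hfm _ _ hσm]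
    simp only [B]
    rw [add_comm i m, sum_range_add, sum_congr rfl fun j _ => e j, sum_sub_distrib (s := range m),
      hNy, ← ha, sub_self, zero_add]
  have hperiod' : ∀ i k, B (i + m * k) = B i := fun i k => by
    induction k with
    | zero => rw [mul_zero, add_zero]
    | succ k ih => rw [Nat.mul_succ, ← add_assoc, hperiod, ih]
  have hB : ∀ i j, (σ ^ i)⁻¹ * σ ^ j ∈ N → B i = B j := by
    intro i j hij
    have key : ∀ i j, i ≤ j → (σ ^ i)⁻¹ * σ ^ j ∈ N → B i = B j := by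
      intro i j hle hij
      obtain ⟨k, rfl⟩ := Nat.exists_eq_add_of_le hle
      rw [pow_add, inv_mul_cancel_left] at hij
      have hk : σ ^ (k % m) ∈ N := by
        rw [← Nat.div_add_mod k m, pow_add, pow_mul] at hij
        exact (N.mul_mem_cancel_left (N.pow_mem hσm _)).mp hij
      have h0 : k % m = 0 := by
        by_contra hne
        exact hmin _ (Nat.pos_of_ne_zero hne) (Nat.mod_lt _ hm) hk
      rw [← Nat.div_add_mod k m, h0, add_zero, hperiod']
    rcases le_total i j with h | h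
    · exact key i j h hij
    · refine (key j i h ?_).symm
      have := N.inv_mem hij
      rwa [mul_inv_rev, inv_inv] at this
  choose idx hidx using hσ
  set b : G → C := fun g => B (idx g) with hb
  have hbrep : ∀ g i, g⁻¹ * σ ^ i ∈ N → b g = B i := fun g i hi => hB _ _ (by
    have := N.mul_mem (N.inv_mem (hidx g)) hi
    rwa [show (g⁻¹ * σ ^ idx g)⁻¹ * (g⁻¹ * σ ^ i) = (σ ^ idx g)⁻¹ * σ ^ i by group] at this)
  have hbinv : ∀ g, ∀ s ∈ N, b (g * s) = b g := fun g s hs => hbrep _ _ (by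
    rw [mul_inv_rev, mul_assoc]
    exact N.mul_mem (N.inv_mem hs) (hidx g))
  have hbP : ∀ g, b g ∈ P := fun g =>
    add_mem (hP _) (sum_mem fun j _ => sub_mem (hpP j) (hP _))
  clear_value b
  refine ⟨b, hbP, hbinv, ?_⟩
  have hb1 : b 1 = c₀ := by rw [hbrep 1 0 (by simp)]; simp [B]
  have hbσ : b σ = y := by
    rw [hbrep σ 1 (by simp)]
    simp [B, hf1]
  have hEσ : ∀ g, g • b σ - b (g * σ) + b g = f (g, σ) := by
    intro g
    obtain ⟨i, s, hs, rfl⟩ : ∃ i, ∃ s ∈ N, g = σ ^ i * s :=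
      ⟨idx g, (σ ^ idx g)⁻¹ * g, by
        have := N.inv_mem (hidx g)
        rwa [mul_inv_rev, inv_inv] at this, by group⟩
    have e1 : b (σ ^ i * s * σ) = B (i + 1) := by
      rw [show σ ^ i * s * σ = σ ^ i * σ * (σ⁻¹ * s * σ) by group, ← pow_succ, hbinv _ _ (by
        have := hn.conj_mem _ hs σ⁻¹
        rwa [inv_inv] at this)]
      exact hbrep _ _ (by simp)
    rw [hbσ, mul_smul, hPN s hs y hy, e1, hbinv _ s hs, hbrep (σ ^ i) i (by simp), hfm _ s hs]
    simp only [B, sum_range_succ]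
    abel
  have hEpow : ∀ (i : ℕ) g, g • b (σ ^ i) - b (g * σ ^ i) + b g = f (g, σ ^ i) := by
    intro i
    induction i with
    | zero =>
      intro g
      rw [pow_zero, mul_one, hb1, hg1]
      abel
    | succ i ih =>
      intro g
      have e := hf g (σ ^ i) σ
      rw [← pow_succ] at e
      rw [← eq_sub_iff_add_eq'] at e
      rw [e, ← ih g, ← hEσ (g * σ ^ i), ← hEσ (σ ^ i), mul_assoc, ← pow_succ, smul_add, smul_sub,
        mul_smul]
      abel
  intro g h
  obtain ⟨i, t, ht, rfl⟩ : ∃ i, ∃ t ∈ N, h = σ ^ i * t :=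
    ⟨idx h, (σ ^ idx h)⁻¹ * h, by
      have := N.inv_mem (hidx h)
      rwa [mul_inv_rev, inv_inv] at this, by group⟩
  have e : f (g, σ ^ i * t) = f (g, σ ^ i) := by
    have := hinv g (σ ^ i) 1 N.one_mem t ht
    rwa [mul_one] at this
  rw [e, ← hEpow i g, hbinv _ _ ht, ← mul_assoc, hbinv _ _ ht]

end Fermat.Agent.GD
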