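import Fermat.Agent.GD.Local.Residue
import Fermat.Agent.GD.Local.Cyclic
import Fermat.Agent.GD.Local.H90

/-!
# The unit cohomology of an unramified level in degree two
-/

set_option autoImplicit false
set_option linter.style.haveILetI false

noncomputable section

namespace Fermat.Agent.GD

open Fermat.Agent.Galois Polynomial Finset

local notation "ℚb" => AlgebraicClosure ℚ

/-- On a finite field an element fixed by an automorphism is a norm. -/
theorem exists_prod_eq_of_fixed {k : Type*} [Field k] [Finite k] (σ : k ≃+* k) {m : ℕ} (hm : 0 < m)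
    (hord : orderOf σ = m) {u : k} (hu : σ u = u) (hu0 : u ≠ 0) :
    ∃ a : k, a ≠ 0 ∧ ∏ i ∈ range m, (σ ^ i) a = u := by
  classical
  let N : kˣ →* kˣ :=
    { toFun := fun x => ∏ i ∈ range m, Units.map ((σ ^ i : k ≃+* k) : k →* k) x
      map_one' := by simp
      map_mul' := fun x y => by simp [prod_mul_distrib] }
  let D : kˣ →* kˣ := (Units.map (σ : k →* k)) / MonoidHom.id kˣ
  have hval : ∀ x : kˣ, ((N x : kˣ) : k) = ∏ i ∈ range m, (σ ^ i) (x : k) := fun x => by
    show ((∏ i ∈ range m, Units.map ((σ ^ i : k ≃+* k) : k →* k) x : kˣ) : k) = _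
    rw [Units.coe_prod]
    rfl
  have hker : N.ker ≤ D.range := by
    intro x hx
    obtain ⟨y, hy0, hy⟩ := exists_div_of_prod_orderOf σ hm hord (x := (x : k))
      (by rw [← hval, MonoidHom.mem_ker.mp hx, Units.val_one])
    refine ⟨Units.mk0 y hy0, div_eq_iff_eq_mul.mpr (Units.ext ?_)⟩
    show σ y = (x : k) * y
    rw [hy, mul_comm]
  have hstep : ∀ x : k, σ (∏ i ∈ range m, (σ ^ i) x) = ∏ i ∈ range m, (σ ^ i) x := fun x => by
    rw [map_prod]
    have h := prod_range_succ' (fun i => (σ ^ i) x) m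
    rw [prod_range_succ, ← hord, pow_orderOf_eq_one, hord, pow_zero] at h
    have h' : ∀ i, σ ((σ ^ i) x) = (σ ^ (i + 1)) x := fun i => by rw [pow_succ']; rfl
    rw [prod_congr rfl fun i _ => h' i]
    rcases eq_or_ne x 0 with rfl | hx
    · simp
    · exact (mul_right_cancel₀ (show (1 : k ≃+* k) x ≠ 0 from hx) h).symm
  have hrange : N.range ≤ D.ker := by
    rintro _ ⟨x, rfl⟩
    refine div_eq_one.mpr (Units.ext ?_)
    show σ ((N x : kˣ) : k) = (N x : kˣ)
    rw [hval, hstep]
  have heq : N.range = D.ker := by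
    haveI : Finite D.ker := inferInstance
    refine Subgroup.eq_of_le_of_card_ge hrange ?_
    have h1 : Nat.card N.range * Nat.card N.ker = Nat.card D.range * Nat.card D.ker := by
      rw [← Subgroup.index_ker N, ← Subgroup.index_ker D, Subgroup.index_mul_card,
        Subgroup.index_mul_card]
    have h2 : Nat.card N.ker ≤ Nat.card D.range :=
      Nat.card_le_card_of_injective _ (Subgroup.inclusion_injective hker)
    refine Nat.le_of_mul_le_mul_right ?_ (Nat.card_pos (α := N.ker))
    rw [h1, mul_comm (Nat.card D.ker)]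
    exact Nat.mul_le_mul_right _ h2
  obtain ⟨a, ha⟩ := (heq.symm ▸ (div_eq_one.mpr (Units.ext hu) : Units.mk0 u hu0 ∈ D.ker) :
    Units.mk0 u hu0 ∈ N.range)
  exact ⟨a, a.ne_zero, by rw [← hval, ha, Units.val_mk0]⟩

variable {q : Nat.Primes}

/-- Units fixed by the group of an unramified level are norms of units of the level. -/
theorem exists_unit_norm {H N : Subgroup (LD (some q)).G} (hN : Unram N) (hle : N ≤ H)
    {σ : (LD (some q)).G} (hσH : σ ∈ H) (hσ : ∀ h ∈ H, ∃ i : ℕ, h⁻¹ * σ ^ i ∈ N) {m : ℕ}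
    (hm : 0 < m) (hσm : σ ^ m ∈ N) (hmin : ∀ i, 0 < i → i < m → σ ^ i ∉ N)
    {u : ℚb} (hu : (placeAt q).valuation u = 1) (huH : u ∈ fieldOf H) :
    ∃ y : ℚb, y ∈ fieldOf N ∧ (placeAt q).valuation y = 1 ∧
      ∏ i ∈ range m, toGQ (σ ^ i) y = u := by
  haveI := hN.2.1
  have hA := placeAt_liesOverPrime q
  letI : Field (Res N) := (isField_res hN).toField
  haveI : Finite (Res N) := Nat.finite_of_card_ne_zero (by
    rw [card_res hN.1]; exact pow_ne_zero _ q.2.ne_zero)
  set s : Res N ≃+* Res N := actRes N σ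
  have hs : ∀ (i : ℕ) (x : locInt (fieldOf N)),
      (s ^ i) (Ideal.Quotient.mk _ x) = Ideal.Quotient.mk _ (actInt N (σ ^ i) x) := fun i x => by
    rw [← map_pow]; exact actRes_mk N _ x
  have hord : orderOf s = m := by
    refine (orderOf_eq_iff hm).mpr ⟨?_, fun i hi hi0 h1 => hmin i hi0 hi ?_⟩
    · refine RingEquiv.ext fun x => ?_
      obtain ⟨x, rfl⟩ := Ideal.Quotient.mk_surjective x
      rw [hs]
      exact congrArg (Ideal.Quotient.mk _) (Subtype.ext (x.2.2 _ hσm))
    · refine toGQ_mem_of_fix hN fun x => ?_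
      rw [map_pow]
      exact RingEquiv.congr_fun h1 x
  have hunit : ∀ x : locInt (fieldOf N), (Ideal.Quotient.mk _ x : Res N) ≠ 0 →
      (placeAt q).valuation (x : ℚb) = 1 := fun x hx => by
    rw [Ne, Ideal.Quotient.eq_zero_iff_mem, mem_span_q_iff hN, ValuationSubring.mem_nonunits_iff,
      not_lt] at hx
    exact le_antisymm (((placeAt q).valuation_le_one_iff _).mpr x.2.1) hx
  -- the residual norm
  let uI : locInt (fieldOf N) :=
    ⟨u, ((placeAt q).valuation_le_one_iff _).mp hu.le, fun h hh => huH h (hle hh)⟩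
  obtain ⟨a₀, ha₀, hNa⟩ := exists_prod_eq_of_fixed s hm hord (u := Ideal.Quotient.mk _ uI)
    (by
      show s (Ideal.Quotient.mk _ uI) = _
      rw [actRes_mk]
      exact congrArg (Ideal.Quotient.mk _) (Subtype.ext (huH σ hσH)))
    (by
      rw [Ne, Ideal.Quotient.eq_zero_iff_mem, mem_span_q_iff hN, ValuationSubring.mem_nonunits_iff]
      show ¬ (placeAt q).valuation u < 1
      rw [hu]; exact lt_irrefl _)
  -- an element of nonzero trace
  obtain ⟨z₀, hz₀⟩ : ∃ z : Res N, (∑ i ∈ range m, (s ^ i) z) ≠ 0 := by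
    by_contra hcon
    push Not at hcon
    have hinj : Function.Injective fun i : Fin m =>
        ((s ^ (i : ℕ)).toRingHom : Res N →+* Res N).toMonoidHom := fun i j h => by
      refine Fin.ext (pow_injOn_Iio_orderOf (x := s) (by rw [hord]; exact i.2)
        (by rw [hord]; exact j.2) (RingEquiv.ext fun z => DFunLike.congr_fun h z))
    have h0 := Fintype.linearIndependent_iff.mp ((linearIndependent_monoidHom _ _).comp _ hinj)
      (fun _ => (1 : Res N)) (funext fun z => by
        have := hcon z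
        rw [sum_range] at this
        simpa using this) ⟨0, hm⟩
    exact one_ne_zero h0
  have hz0 : z₀ ≠ 0 := fun h => hz₀ (by simp [h])
  obtain ⟨a, rfl⟩ := Ideal.Quotient.mk_surjective a₀
  obtain ⟨c, hc⟩ := Ideal.Quotient.mk_surjective z₀⁻¹
  have ha := hunit a ha₀
  have hc1 := hunit c (by rw [hc]; exact inv_ne_zero hz0)
  have hv : ∀ (i : ℕ) (x : ℚb), (placeAt q).valuation (toGQ (σ ^ i) x) = (placeAt q).valuation x :=
    fun i x => valuation_apply_eq (show decomp (some q) from σ ^ i).2 x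
  have hvN : ∀ x : ℚb, (placeAt q).valuation x = 1 →
      (placeAt q).valuation (∏ i ∈ range m, toGQ (σ ^ i) x) = 1 := fun x hx => by
    rw [map_prod]
    exact prod_eq_one fun i _ => by rw [hv, hx]
  set na := ∏ i ∈ range m, toGQ (σ ^ i) (a : ℚb)
  set nc := ∏ i ∈ range m, toGQ (σ ^ i) (c : ℚb)
  have hna0 : na ≠ 0 := fun h => by
    have := hvN _ ha; change (placeAt q).valuation na = 1 at this
    rw [h, map_zero] at this; exact zero_ne_one this
  have hnc0 : nc ≠ 0 := fun h => by
    have := hvN _ hc1; change (placeAt q).valuation nc = 1 at this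
    rw [h, map_zero] at this; exact zero_ne_one this
  -- products over the powers of the generator are fixed
  have hperm : ∀ h ∈ H, ∀ g : ℕ → ℚb, (∀ i, ∀ s ∈ N, toGQ s (g i) = g i) →
      (∀ i, toGQ σ (g i) = g (i + 1)) → (∀ i, g (i + m) = g i) →
      toGQ h (∏ i ∈ range m, g i) = ∏ i ∈ range m, g i := by
    intro h hh g hgN hgσ hper
    have hfixσ : ∀ j : ℕ, toGQ (σ ^ j) (∏ i ∈ range m, g i) = ∏ i ∈ range m, g i := by
      intro j
      induction j with
      | zero => rfl
      | succ j ih =>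
        rw [pow_succ', toGQ_mul, AlgEquiv.mul_apply, ih, map_prod,
          prod_congr rfl fun i _ => hgσ i]
        have h1 := prod_range_succ' g m
        rw [prod_range_succ, show g m = g 0 by simpa using hper 0] at h1
        rcases eq_or_ne (g 0) 0 with h0 | h0
        · rw [prod_eq_zero (i := 0) (mem_range.mpr hm) h0,
            prod_eq_zero (i := m - 1) (mem_range.mpr (by omega))
              (by rw [Nat.sub_add_cancel hm, show g m = g 0 by simpa using hper 0, h0])]
        · exact (mul_right_cancel₀ h0 h1).symm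
    obtain ⟨i, hi⟩ := hσ h hh
    have e : h = σ ^ i * (h⁻¹ * σ ^ i)⁻¹ := by group
    rw [e, toGQ_mul, AlgEquiv.mul_apply, map_prod,
      prod_congr rfl fun j _ => hgN j _ (N.inv_mem hi)]
    exact hfixσ i
  have hgen : ∀ (x : locInt (fieldOf N)), ∀ h ∈ H,
      toGQ h (∏ i ∈ range m, toGQ (σ ^ i) (x : ℚb)) = ∏ i ∈ range m, toGQ (σ ^ i) (x : ℚb) := by
    intro x h hh
    refine hperm h hh _ (fun i s hs => (actInt N (σ ^ i) x).2.2 s hs) (fun i => ?_) (fun i => ?_)
    · rw [pow_succ', toGQ_mul, AlgEquiv.mul_apply]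
    · rw [pow_add, toGQ_mul, AlgEquiv.mul_apply, x.2.2 _ hσm]
  set w := u * nc / na
  have hw1 : (placeAt q).valuation w = 1 := by
    rw [map_div₀, map_mul, hu, hvN _ hc1, hvN _ ha, one_mul, div_one]
  -- the polynomial
  let S : Subring ℚb := (placeAt q).toSubring
  have hfc : ∀ i, i ∈ range m → toGQ (σ ^ i) (c : ℚb) ∈ placeAt q := fun i _ =>
    ((placeAt q).valuation_le_one_iff _).mp (by rw [hv, hc1])
  set P : ℚb[X] := ∏ i ∈ range m, (X + C (toGQ (σ ^ i) (c : ℚb))) with hP
  have hdeg : 0 < P.degree := by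
    rw [hP, degree_prod]
    simp only [degree_X_add_C, sum_const, card_range, nsmul_one]
    exact_mod_cast hm
  have hPmon : P.Monic := monic_prod_of_monic _ _ fun i _ => monic_X_add_C _
  have hmonic : (P - C w).Monic := hPmon.sub_of_left (lt_of_le_of_lt degree_C_le hdeg)
  have hcoeffE : ∀ i, P.coeff i ∈ (fieldOf H).restrictScalars ℚ := by
    intro i h hh
    show toGQ h (P.coeff i) = _
    have hmap : P.map ((toGQ h : ℚb →ₐ[ℚ] ℚb) : ℚb →+* ℚb) = P := by
      refine eq_of_natDegree_lt_card_of_eval_eq _ _ (f := fun t : Fin (P.natDegree + 1) =>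
        ((t : ℕ) : ℚb)) (fun t t' ht => Fin.ext (by simpa using ht)) (fun t => ?_) ?_
      · have e1 : ((toGQ h : ℚb →ₐ[ℚ] ℚb) : ℚb →+* ℚb) ((t : ℕ) : ℚb) = ((t : ℕ) : ℚb) :=
          map_natCast _ _
        rw [← e1, eval_map, eval₂_hom, e1]
        have hx : toGQ h ((t : ℕ) : ℚb) = ((t : ℕ) : ℚb) := map_natCast _ _
        have hxN : ∀ g : (LD (some q)).G, toGQ g ((t : ℕ) : ℚb) = ((t : ℕ) : ℚb) :=
          fun g => map_natCast _ _
        generalize ((t : ℕ) : ℚb) = x at hx hxN ⊢
        rw [hP, eval_prod]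
        simp only [eval_add, eval_X, eval_C]
        refine hperm h hh (fun i => x + toGQ (σ ^ i) (c : ℚb)) (fun i s hs => ?_)
          (fun i => ?_) (fun i => ?_)
        · rw [map_add, hxN]; exact congrArg _ ((actInt N (σ ^ i) c).2.2 s hs)
        · rw [map_add, hxN, pow_succ', toGQ_mul, AlgEquiv.mul_apply]
        · rw [pow_add, toGQ_mul, AlgEquiv.mul_apply, c.2.2 _ hσm]
      · rw [Fintype.card_fin, natDegree_map, max_self]
        exact Nat.lt_succ_self _
    conv_rhs => rw [← hmap, coeff_map]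
    rfl
  have hcoeffA : ∀ i, P.coeff i ∈ placeAt q := by
    intro i
    have hl : P ∈ Polynomial.lifts (algebraMap (placeAt q) ℚb) := by
      refine Subsemiring.prod_mem _ fun j hj => ?_
      exact ⟨X + C ⟨_, hfc j hj⟩, by simp⟩
    obtain ⟨e, he⟩ := (lifts_iff_coeff_lifts P).mp hl i
    exact he ▸ e.2
  have hwH : w ∈ (fieldOf H).restrictScalars ℚ := fun h hh => by
    show toGQ h (u * nc / na) = _
    rw [map_div₀, map_mul, huH h hh, hgen c h hh, hgen a h hh]
  obtain ⟨t, htE, htA, htroot, ht0⟩ :=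
    (isHens_restrict (A := placeAt q) (fieldOf H)).exists_root (f := P - C w) hmonic
    (fun i => by
      rw [coeff_sub, coeff_C]
      split_ifs
      · exact sub_mem (hcoeffE i) hwH
      · exact sub_mem (hcoeffE i) (zero_mem _))
    (fun i => by
      rw [coeff_sub, coeff_C]
      split_ifs
      · exact sub_mem (hcoeffA i) (((placeAt q).valuation_le_one_iff _).mp hw1.le)
      · exact sub_mem (hcoeffA i) (zero_mem _))
    (a := 0) (zero_mem _) (zero_mem _)
    (by
      rw [eval_sub, eval_C, hP, eval_prod]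
      simp only [eval_add, eval_X, eval_C, zero_add]
      show nc - u * nc / na ∈ _
      rw [show nc - u * nc / na = nc / na * (na - u) by field_simp,
        ValuationSubring.mem_nonunits_iff, map_mul, map_div₀, hvN _ hc1, hvN _ ha, div_one, one_mul,
        ← ValuationSubring.mem_nonunits_iff]
      have hq1 : (∏ i ∈ range m, actInt N (σ ^ i) a) - uI ∈
          Ideal.span {((q : ℕ) : locInt (fieldOf N))} := by
        rw [← Ideal.Quotient.eq, map_prod, ← hNa]
        exact prod_congr rfl fun i _ => (hs i a).symm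
      have := (mem_span_q_iff hN).mp hq1
      push_cast at this
      exact this)
    (by
      rw [derivative_sub, derivative_C, sub_zero, hP, derivative_prod_finset, eval_finset_sum]
      simp only [eval_mul, eval_prod, derivative_add, derivative_X, derivative_C, add_zero,
        eval_one, mul_one, eval_add, eval_X, eval_C, zero_add]
      intro hbad
      let D : locInt (fieldOf N) :=
        ∑ i ∈ range m, ∏ j ∈ (range m).erase i, actInt N (σ ^ j) c
      have hD : (D : ℚb) ∈ (placeAt q).nonunits := by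
        simp only [D]
        push_cast
        exact hbad
      have hD0 : (Ideal.Quotient.mk _ D : Res N) = 0 :=
        Ideal.Quotient.eq_zero_iff_mem.mpr ((mem_span_q_iff hN).mpr hD)
      simp only [D, map_sum, map_prod, ← hs, hc, map_inv₀] at hD0
      have hne : (∏ j ∈ range m, ((s ^ j) z₀)⁻¹) ≠ 0 :=
        prod_ne_zero_iff.mpr fun j _ =>
          inv_ne_zero fun h => hz0 ((s ^ j).injective (h.trans (map_zero _).symm))
      refine hz₀ ((mul_left_inj' hne).mp ?_)
      rw [zero_mul, sum_mul, ← hD0]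
      refine sum_congr rfl fun i hi => ?_
      rw [← mul_prod_erase _ _ hi, mul_inv_cancel_left₀]
      exact fun h => hz0 ((s ^ i).injective (h.trans (map_zero _).symm)))
  -- the solution
  have htc : (placeAt q).valuation (t + c) = 1 := by
    rw [sub_zero, ValuationSubring.mem_nonunits_iff] at ht0
    rw [Valuation.map_add_eq_of_lt_right _ (by rw [hc1]; exact ht0), hc1]
  refine ⟨(t + c) * a / c, fun h hh => ?_, ?_, ?_⟩
  · rw [map_div₀, map_mul, map_add, a.2.2 h hh, c.2.2 h hh,
      show toGQ h t = t from htE h (hle hh)]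
  · rw [map_div₀, map_mul, htc, ha, hc1, one_mul, div_one]
  · have hroot : ∏ i ∈ range m, (t + toGQ (σ ^ i) (c : ℚb)) = w := by
      have := htroot.eq_zero
      rw [eval_sub, eval_C, hP, eval_prod, sub_eq_zero] at this
      simpa using this
    have hfix : ∀ i, toGQ (σ ^ i) ((t + c) * a / c) =
        (t + toGQ (σ ^ i) (c : ℚb)) * toGQ (σ ^ i) (a : ℚb) / toGQ (σ ^ i) (c : ℚb) := fun i => by
      rw [map_div₀, map_mul, map_add, show toGQ (σ ^ i) t = t from htE _ (H.pow_mem hσH i)]
    rw [prod_congr rfl fun i _ => hfix i, prod_div_distrib, prod_mul_distrib, hroot]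
    show u * nc / na * na / nc = u
    field_simp

/-- At an unramified level, unit cocycles of degree two are coboundaries of units. -/
theorem units_h2_eq (H : Subgroup (LD (some q)).G) (N : Subgroup (LD (some q)).G)
    (hN : (LD (some q)).IsLevel N)
    (hI : ∀ s : (LD (some q)).G, s.1 ∈ (placeAt q).inertiaSubgroupIn ℚ → s ∈ N) (hle : N ≤ H)
    (f : H × H → ℚbˣ)
    (hf : ∀ g h j : H,
      (g : (LD (some q)).G) • f (h, j) * f (g, h * j) = f (g * h, j) * f (g, h))
    (hfN : ∀ g h : H, ∀ s t : H, (s : (LD (some q)).G) ∈ N → (t : (LD (some q)).G) ∈ N →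
      f (g * s, h * t) = f (g, h))
    (hu : ∀ g, f g ∈ (placeAt q).unitGroup) (hfix : ∀ g, ∀ s ∈ N, s • f g = f g) :
    ∃ b : H → ℚbˣ, (∀ g, b g ∈ (placeAt q).unitGroup) ∧
      (∀ g : H, ∀ s : H, (s : (LD (some q)).G) ∈ N → b (g * s) = b g) ∧
      ∀ g h : H, f (g, h) = (g : (LD (some q)).G) • b h / b (g * h) * b g := by
  classical
  have hn := (LD (some q)).normal N hN
  haveI := (LD (some q)).finiteIndex N hN
  have hUr : Unram N := ⟨⟨N, hN, le_rfl⟩, hn, hI⟩
  obtain ⟨σ, hσH, hσ⟩ := exists_generator hUr hle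
  have hex : ∃ i, 0 < i ∧ σ ^ i ∈ N :=
    ⟨N.index, Nat.pos_of_ne_zero Subgroup.FiniteIndex.index_ne_zero,
      Subgroup.pow_index_mem N σ⟩
  let m := Nat.find hex
  obtain ⟨hm, hσm⟩ : 0 < m ∧ σ ^ m ∈ N := Nat.find_spec hex
  have hmin : ∀ i, 0 < i → i < m → σ ^ i ∉ N := fun i h0 h h' => Nat.find_min hex h ⟨h0, h'⟩
  let P : AddSubgroup (Additive ℚbˣ) :=
    { carrier := {x | x.toMul ∈ (placeAt q).unitGroup ∧ ∀ s ∈ N, s • x.toMul = x.toMul}
      zero_mem' := ⟨one_mem _, fun s _ => smul_one s⟩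
      add_mem' := fun hx hy => ⟨mul_mem hx.1 hy.1, fun s hs => by
        rw [toMul_add, smul_mul', hx.2 s hs, hy.2 s hs]⟩
      neg_mem' := fun hx => ⟨inv_mem hx.1, fun s hs => by
        rw [toMul_neg, smul_inv', hx.2 s hs]⟩ }
  obtain ⟨b, hbP, hbN, hb⟩ := exists_coboundary_of_cyclic (N := N.subgroupOf H)
    (σ := (⟨σ, hσH⟩ : H)) inferInstance
    (fun g => by
      obtain ⟨i, hi⟩ := hσ g g.2
      exact ⟨i, Subgroup.mem_subgroupOf.mpr (by simpa using hi)⟩)
    hm (Subgroup.mem_subgroupOf.mpr (by simpa using hσm))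
    (fun i h0 h h' => hmin i h0 h (by simpa using Subgroup.mem_subgroupOf.mp h'))
    P (fun s hs x hx => Additive.toMul.injective (hx.2 _ hs))
    (fun x hx => ⟨by
      rw [ValuationSubring.mem_unitGroup_iff]
      show (placeAt q).valuation (toGQ σ ((x.toMul : ℚbˣ) : ℚb)) = 1
      rw [valuation_apply_eq (show decomp (some q) from σ).2]
      exact (ValuationSubring.mem_unitGroup_iff _ _).mp hx.1, fun s hs => by
      have h1 := hx.2 (σ⁻¹ * s * σ) (by simpa using hn.conj_mem s hs σ⁻¹)
      rw [mul_smul, mul_smul, inv_smul_eq_iff] at h1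
      exact h1⟩)
    (f := fun y => Additive.ofMul (f y)) (fun g h j => congrArg Additive.ofMul (hf g h j))
    (fun g h s hs t ht => congrArg Additive.ofMul (hfN g h s t hs ht))
    (fun y => ⟨hu y, hfix y⟩)
    (by
      set a : Additive ℚbˣ := ∑ i ∈ Finset.range m,
        Additive.ofMul (f ((⟨σ, hσH⟩ : H) ^ i, ⟨σ, hσH⟩))
      have ha : a ∈ P := sum_mem fun i _ => ⟨hu _, hfix _⟩
      have haσ : (⟨σ, hσH⟩ : H) • a = a := smul_sum_eq_of_cyclic (N := N.subgroupOf H)
        (Subgroup.mem_subgroupOf.mpr (by simpa using hσm))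
        (fun g h j => congrArg Additive.ofMul (hf g h j))
        (fun g h s hs t ht => congrArg Additive.ofMul (hfN g h s t hs ht))
      have hH : ∀ h ∈ H, h • a.toMul = a.toMul := by
        intro h hh
        obtain ⟨i, hi⟩ := hσ h hh
        have hσi : ∀ j : ℕ, σ ^ j • a.toMul = a.toMul := fun j => by
          induction j with
          | zero => rw [pow_zero, one_smul]
          | succ j ih => rw [pow_succ', mul_smul, ih]; exact congrArg Additive.toMul haσ
        rw [show h = σ ^ i * (h⁻¹ * σ ^ i)⁻¹ by group, mul_smul, ha.2 _ (N.inv_mem hi), hσi]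
      obtain ⟨y, hyE, hy1, hy⟩ := exists_unit_norm hUr hle hσH hσ hm hσm hmin
        ((ValuationSubring.mem_unitGroup_iff _ _).mp ha.1)
        (fun h hh => congrArg Units.val (hH h hh))
      have hy0 : y ≠ 0 := fun h => by rw [h, map_zero] at hy1; exact zero_ne_one hy1
      refine ⟨Additive.ofMul (Units.mk0 y hy0),
        ⟨(ValuationSubring.mem_unitGroup_iff _ _).mpr hy1, fun s hs => Units.ext (hyE s hs)⟩,
        Additive.toMul.injective ?_⟩
      rw [toMul_sum]
      refine Units.ext ?_
      rw [Units.coe_prod, ← hy]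
      exact Finset.prod_congr rfl fun i _ => rfl)
  refine ⟨fun g => (b g).toMul, fun g => (hbP g).1,
    fun g s hs => congrArg Additive.toMul (hbN g s (Subgroup.mem_subgroupOf.mpr hs)),
    fun g h => ?_⟩
  exact (congrArg Additive.toMul (hb g h)).symm

end Fermat.Agent.GD
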