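import Fermat.Agent.GD.Local.Index
import Fermat.Agent.GD.Setting

/-!
# The field of an open subgroup of a decomposition group
-/

set_option autoImplicit false
set_option linter.style.haveILetI false

noncomputable section

namespace Fermat.Agent.GD

open Fermat.Agent.Galois

local notation "ℚb" => AlgebraicClosure ℚ

theorem placeAt_liesOverPrime (q : Nat.Primes) : (placeAt q).LiesOverPrime q := by
  haveI : Fact (q : ℕ).Prime := ⟨q.2⟩
  have hle : (placeAt q).valuation ((q : ℕ) : ℚb) ≤ 1 :=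
    ((placeAt q).valuation_le_one_iff _).mpr (natCast_mem _ _)
  rw [ValuationSubring.LiesOverPrime, ValuationSubring.mem_nonunits_iff]
  refine lt_of_le_of_ne hle fun h1 => ?_
  have hinv : ((q : ℕ) : ℚb)⁻¹ ∈ placeAt q :=
    ((placeAt q).valuation_le_one_iff _).mp (by rw [map_inv₀, h1, inv_one])
  change ((q : ℕ) : ℚb)⁻¹ ∈ padicPlace (q : ℕ) at hinv
  rw [mem_padicPlace_iff, map_inv₀, nnnorm_inv, map_natCast] at hinv
  have hlt : ‖(((q : ℕ) : PadicAlgCl (q : ℕ)))‖₊ < 1 := by
    rw [← NNReal.coe_lt_coe, coe_nnnorm, ← map_natCast (algebraMap ℚ_[(q : ℕ)] (PadicAlgCl (q : ℕ))),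
      PadicAlgCl.norm_extends, Padic.norm_p]
    exact inv_lt_one_of_one_lt₀ (by exact_mod_cast q.2.one_lt)
  have h0 : (0 : NNReal) < ‖(((q : ℕ) : PadicAlgCl (q : ℕ)))‖₊ := by
    rw [pos_iff_ne_zero, nnnorm_ne_zero_iff]
    exact_mod_cast q.2.ne_zero
  exact absurd hinv (not_le.mpr (one_lt_inv₀ h0 |>.mpr hlt))

variable {q : Nat.Primes}

/-- An element of a decomposition group as an element of the absolute Galois group. -/
abbrev toGQ (h : (LD (some q)).G) : GQ := (show decomp (some q) from h).1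

/-- The fixed field of a subgroup of a decomposition group. -/
def fieldOf (H : Subgroup (LD (some q)).G) :
    IntermediateField (decField (placeAt q)) (AlgebraicClosure ℚ) where
  carrier := {x | ∀ h ∈ H, toGQ h x = x}
  mul_mem' ha hb h hh := by rw [map_mul, ha h hh, hb h hh]
  one_mem' h _ := map_one _
  add_mem' ha hb h hh := by rw [map_add, ha h hh, hb h hh]
  zero_mem' h _ := map_zero _
  algebraMap_mem' c h _ := apply_eq_of_mem_decField c.2 (show decomp (some q) from h).2
  inv_mem' x hx h hh := by rw [map_inv₀, hx h hh]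

theorem mem_fieldOf {H : Subgroup (LD (some q)).G} {x : ℚb} :
    x ∈ fieldOf H ↔ ∀ h ∈ H, toGQ h x = x := Iff.rfl

/-- An open subgroup is the stabiliser of its field. -/
theorem mem_of_fixes {H : Subgroup (LD (some q)).G} (hH : (LD (some q)).IsOpen H) {σ : GQ}
    (hσ : ∀ x ∈ fieldOf H, σ x = x) :
    ∃ hd : σ ∈ decomp (some q), (⟨σ, hd⟩ : decomp (some q)) ∈ H := by
  have hd : σ ∈ decomp (some q) := isHens_decField (placeAt q) fun z =>
    hσ z (fun h _ => apply_eq_of_mem_decField z.2 (show decomp (some q) from h).2)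
  refine ⟨hd, ?_⟩
  obtain ⟨N, ⟨_, ⟨F, hF, rfl, hn⟩, rfl⟩, hle⟩ := hH
  haveI := hF
  haveI : Normal ℚ ℚb := IsGalois.to_normal
  let K : IntermediateField ℚ ℚb := IntermediateField.normalClosure ℚ F ℚb
  have hFK : F ≤ K := IntermediateField.le_normalClosure F
  haveI : FiniteDimensional ℚ K := normalClosure.is_finiteDimensional ℚ _ ℚb
  haveI : Normal ℚ K := normalClosure.normal ℚ _ ℚb
  haveI : IsGalois ℚ K := ⟨⟩
  let G : Subgroup (K ≃ₐ[ℚ] K) :=
    (H.map (decomp (some q)).subtype).map (AlgEquiv.restrictNormalHom K)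
  have hmem : AlgEquiv.restrictNormalHom K σ ∈ G := by
    rw [← IntermediateField.fixingSubgroup_fixedField G]
    rintro ⟨y, hy⟩
    apply Subtype.ext
    refine (AlgEquiv.restrictNormal_commutes σ K y).trans (hσ _ fun h hh => ?_)
    exact (AlgEquiv.restrictNormal_commutes (toGQ h) K y).symm.trans
      (congrArg Subtype.val (hy ⟨_, Subgroup.mem_map_of_mem _ (Subgroup.mem_map_of_mem _ hh)⟩))
  obtain ⟨_, ⟨h, hh, rfl⟩, hτσ⟩ := hmem
  have hfix : (toGQ h)⁻¹ * σ ∈ F.fixingSubgroup := by
    intro x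
    have h1 := AlgEquiv.restrictNormal_commutes (toGQ h) K ⟨x, hFK x.2⟩
    have h2 := AlgEquiv.restrictNormal_commutes σ K ⟨x, hFK x.2⟩
    have h3 : toGQ h (x : ℚb) = σ (x : ℚb) := h1.symm.trans
      ((congrArg (fun g : K ≃ₐ[ℚ] K => ((g ⟨x, hFK x.2⟩ : K) : ℚb)) hτσ).trans h2)
    show (toGQ h)⁻¹ (σ (x : ℚb)) = x
    rw [← h3]
    exact (toGQ h).symm_apply_apply _
  have hmul : (⟨σ, hd⟩ : decomp (some q)) =
      (show decomp (some q) from h) * ((show decomp (some q) from h)⁻¹ * ⟨σ, hd⟩) := by group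
  rw [hmul]
  exact mul_mem hh (hle hfix)

/-- The Galois group over the henselisation is the decomposition group. -/
def galDecomp (q : Nat.Primes) :
    Gal(ℚb/decField (placeAt q)) ≃* (LD (some q)).G where
  toFun σ := (⟨σ.restrictScalars ℚ, isHens_decField _ fun z => σ.commutes z⟩ : decomp (some q))
  invFun h := AlgEquiv.ofRingEquiv (f := (toGQ h).toRingEquiv)
    fun z => apply_eq_of_mem_decField z.2 (show decomp (some q) from h).2
  left_inv σ := AlgEquiv.ext fun _ => rfl
  right_inv h := Subtype.ext (AlgEquiv.ext fun _ => rfl)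
  map_mul' σ τ := Subtype.ext (AlgEquiv.ext fun _ => rfl)

theorem fixingSubgroup_fieldOf {H : Subgroup (LD (some q)).G} (hH : (LD (some q)).IsOpen H) :
    (fieldOf H).fixingSubgroup = H.comap (galDecomp q).toMonoidHom := by
  ext σ
  constructor
  · intro hσ
    obtain ⟨hd, hh⟩ := mem_of_fixes hH (σ := σ.restrictScalars ℚ) fun x hx => hσ ⟨x, hx⟩
    exact hh
  · rintro hσ ⟨x, hx⟩
    exact hx _ hσ

theorem finrank_fieldOf {H : Subgroup (LD (some q)).G} (hH : (LD (some q)).IsOpen H) :
    Module.finrank (decField (placeAt q)) (fieldOf H) = H.index := by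
  haveI : Algebra.IsAlgebraic ℚ ℚb := isAlgebraic_qbar
  rw [IntermediateField.finrank_eq_fixingSubgroup_index, fixingSubgroup_fieldOf hH]
  exact Subgroup.index_comap_of_surjective _ (galDecomp q).surjective

theorem finiteIndex_of_isOpen {L : LevelGroup} {H : Subgroup L.G} (hH : L.IsOpen H) :
    H.FiniteIndex := by
  obtain ⟨N, hN, hle⟩ := hH
  haveI := L.finiteIndex N hN
  exact Subgroup.finiteIndex_of_le hle

theorem finiteDimensional_fieldOf {H : Subgroup (LD (some q)).G}
    (hH : (LD (some q)).IsOpen H) : FiniteDimensional (decField (placeAt q)) (fieldOf H) := by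
  haveI := finiteIndex_of_isOpen hH
  exact Module.finite_of_finrank_pos (by
    rw [finrank_fieldOf hH]; exact Nat.pos_of_ne_zero Subgroup.FiniteIndex.index_ne_zero)

end Fermat.Agent.GD
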