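import Mathlib

/-!
# Tate's formula for the Herbrand quotient of an action of a cyclic group of prime order
-/

set_option autoImplicit false
set_option linter.style.haveILetI false

namespace Fermat.Agent.GD

open Polynomial

section Index

variable {X Y Z : Type*} [AddCommGroup X] [AddCommGroup Y] [AddCommGroup Z]

theorem card_ker_comp (g : X →+ Y) (f : Y →+ Z) :
    Nat.card (f.comp g).ker = Nat.card g.ker * Nat.card (f.ker ⊓ g.range : AddSubgroup Y) := by
  have hle : g.ker ≤ (f.comp g).ker := fun x hx => by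
    simp only [AddMonoidHom.mem_ker, AddMonoidHom.comp_apply] at hx ⊢
    rw [hx, map_zero]
  have hmap : (f.comp g).ker.map g = f.ker ⊓ g.range := by
    ext y
    simp only [AddSubgroup.mem_map, AddSubgroup.mem_inf, AddMonoidHom.mem_ker,
      AddMonoidHom.mem_range, AddMonoidHom.comp_apply]
    constructor
    · rintro ⟨x, hx, rfl⟩
      exact ⟨hx, x, rfl⟩
    · rintro ⟨hy, x, rfl⟩
      exact ⟨x, hy, rfl⟩
  rw [← hmap, ← AddSubgroup.relIndex_ker, ← AddSubgroup.relIndex_bot_left (f.comp g).ker,
    ← AddSubgroup.relIndex_bot_left g.ker,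
    AddSubgroup.relIndex_mul_relIndex _ _ _ bot_le hle]

theorem relIndex_mul_card_inf (H K : AddSubgroup X) :
    H.relIndex K * Nat.card (H ⊓ K : AddSubgroup X) = Nat.card K := by
  rw [← AddSubgroup.relIndex_bot_left (H ⊓ K : AddSubgroup X),
    ← AddSubgroup.relIndex_bot_left K, ← AddSubgroup.inf_relIndex_right H K, mul_comm,
    AddSubgroup.relIndex_mul_relIndex _ _ _ bot_le inf_le_right]

/-- Multiplicativity of the index of endomorphisms. -/
theorem index_range_comp (f g : X →+ X) :
    (f.comp g).range.index * (Nat.card f.ker * Nat.card g.ker) =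
      f.range.index * g.range.index * Nat.card (f.comp g).ker := by
  have h1 : (f.comp g).range.index = (g.range ⊔ f.ker).index * f.range.index := by
    rw [← AddSubgroup.index_map, AddMonoidHom.range_comp]
  have h2 : g.range.index = g.range.relIndex f.ker * (g.range ⊔ f.ker).index := by
    conv_lhs => rw [← AddSubgroup.relIndex_mul_index (le_sup_left : g.range ≤ g.range ⊔ f.ker),
      AddSubgroup.relIndex_sup_left]
  rw [h1, h2, card_ker_comp g f, ← relIndex_mul_card_inf g.range f.ker, inf_comm]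
  ring

theorem card_ker_pow (f : AddMonoid.End X) (hf : Nat.card f.ker ≠ 0) (n : ℕ) :
    Nat.card (f ^ n).ker ≠ 0 := by
  induction n with
  | zero =>
    rw [pow_zero, show (1 : AddMonoid.End X).ker = ⊥ from AddMonoidHom.ker_id]
    simp
  | succ n ih =>
    rw [pow_succ']
    refine ne_of_eq_of_ne (card_ker_comp (f ^ n : X →+ X) (f : X →+ X)) (mul_ne_zero ih ?_)
    haveI : Finite f.ker := Nat.finite_of_card_ne_zero hf
    haveI : Finite (f.ker ⊓ (f ^ n).range : AddSubgroup X) :=
      Finite.of_injective _ (AddSubgroup.inclusion_injective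
        (inf_le_left : f.ker ⊓ (f ^ n).range ≤ f.ker))
    exact Nat.card_pos.ne'

theorem index_range_pow (f : AddMonoid.End X) (hf : Nat.card f.ker ≠ 0) (n : ℕ) :
    (f ^ n).range.index * Nat.card f.ker ^ n = f.range.index ^ n * Nat.card (f ^ n).ker := by
  induction n with
  | zero =>
    rw [pow_zero, show (1 : AddMonoid.End X).ker = ⊥ from AddMonoidHom.ker_id,
      show (1 : AddMonoid.End X).range = ⊤ from AddMonoidHom.range_eq_top.mpr fun x => ⟨x, rfl⟩]
    simp
  | succ n ih =>
    have h := index_range_comp f (f ^ n)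
    rw [show AddMonoidHom.comp f (f ^ n) = (f ^ (n + 1) : AddMonoid.End X) by rw [pow_succ']; rfl]
      at h
    apply mul_right_cancel₀ (card_ker_pow f hf n)
    calc (f ^ (n + 1)).range.index * Nat.card f.ker ^ (n + 1) * Nat.card (f ^ n).ker
        = (f ^ (n + 1)).range.index * (Nat.card f.ker * Nat.card (f ^ n).ker) *
            Nat.card f.ker ^ n := by ring
      _ = f.range.index * ((f ^ n).range.index * Nat.card f.ker ^ n) *
            Nat.card (f ^ (n + 1)).ker := by rw [h]; ring
      _ = _ := by rw [ih]; ring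

theorem range_comp_bijective (f u : X →+ X) (hu : Function.Bijective u) :
    (f.comp u).range = f.range ∧ Nat.card (f.comp u).ker = Nat.card f.ker := by
  have hr : u.range = ⊤ := AddMonoidHom.range_eq_top.mpr hu.2
  refine ⟨by rw [AddMonoidHom.range_comp, hr, ← AddMonoidHom.range_eq_map], ?_⟩
  rw [card_ker_comp, (AddMonoidHom.ker_eq_bot_iff u).mpr hu.1, hr, inf_top_eq]
  simp

theorem relIndex_map_split (N φ : X →+ X) (hker : N.ker = φ.range) (hle : N.range ≤ φ.ker) :
    (φ.ker.map N).relIndex φ.ker =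
      (φ.range.map φ).relIndex φ.range * N.range.relIndex φ.ker := by
  have hle1 : φ.ker.map N ≤ N.range := by
    rw [AddMonoidHom.range_eq_map]
    exact AddSubgroup.map_mono le_top
  rw [← AddSubgroup.relIndex_mul_relIndex _ _ _ hle1 hle]
  congr 1
  rw [AddMonoidHom.range_eq_map N, AddSubgroup.relIndex_map_map, top_sup_eq,
    AddSubgroup.relIndex_top_right, hker]
  conv_rhs => rw [AddMonoidHom.range_eq_map φ, AddSubgroup.relIndex_map_map,
    top_sup_eq, AddSubgroup.relIndex_top_right, ← AddMonoidHom.range_eq_map φ, sup_comm]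

/-- Multiplicativity of the index of an endomorphism in a short exact sequence. -/
theorem index_range_exact (φ : X →+ Y) (hφ : Function.Surjective φ) (f : X →+ X) (g : Y →+ Y)
    (hc : φ.comp f = g.comp φ) :
    f.range.index * (Nat.card (f.ker ⊓ φ.ker : AddSubgroup X) * Nat.card g.ker) =
      g.range.index * (φ.ker.map f).relIndex φ.ker * Nat.card f.ker := by
  have hmem : ∀ x, φ (f x) = g (φ x) := fun x => DFunLike.congr_fun hc x
  have h1 : (f.range ⊔ φ.ker).index = g.range.index := by
    have h := AddSubgroup.index_map f.range φ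
    have e : f.range.map φ = g.range := by
      rw [AddMonoidHom.map_range, hc, AddMonoidHom.range_comp,
        AddMonoidHom.range_eq_top.mpr hφ, ← AddMonoidHom.range_eq_map]
    rw [e, AddMonoidHom.range_eq_top.mpr hφ, AddSubgroup.index_top, mul_one] at h
    exact h.symm
  have h2 : f.range.index = f.range.relIndex φ.ker * g.range.index := by
    rw [← h1, ← AddSubgroup.relIndex_sup_left φ.ker f.range,
      AddSubgroup.relIndex_mul_index le_sup_left]
  have hle : φ.ker.map f ≤ φ.ker := by
    rintro _ ⟨x, hx, rfl⟩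
    rw [AddMonoidHom.mem_ker, hmem, show φ x = 0 from hx, map_zero]
  set C := g.ker.comap φ
  have hC : C.map f = φ.ker ⊓ f.range := by
    ext y
    simp only [AddSubgroup.mem_map, AddSubgroup.mem_inf, AddMonoidHom.mem_ker,
      AddMonoidHom.mem_range, C, AddSubgroup.mem_comap]
    constructor
    · rintro ⟨x, hx, rfl⟩
      exact ⟨by rw [hmem, hx], x, rfl⟩
    · rintro ⟨hy, x, rfl⟩
      exact ⟨x, by rw [← hmem, hy], rfl⟩
  have hkC : f.ker ≤ C := fun x hx => by
    simp only [C, AddSubgroup.mem_comap, AddMonoidHom.mem_ker]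
    rw [← hmem, show f x = 0 from hx, map_zero]
  have hφC : φ.ker ≤ C := fun x hx => by
    simp only [C, AddSubgroup.mem_comap, AddMonoidHom.mem_ker]
    rw [show φ x = 0 from hx, map_zero]
  have h3 : (φ.ker.map f).relIndex φ.ker =
      (φ.ker ⊔ f.ker).relIndex C * f.range.relIndex φ.ker := by
    have hle' : φ.ker.map f ≤ φ.ker ⊓ f.range :=
      le_inf hle (by rw [AddMonoidHom.range_eq_map]; exact AddSubgroup.map_mono le_top)
    rw [← AddSubgroup.relIndex_mul_relIndex _ _ φ.ker hle' inf_le_left,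
      ← hC, AddSubgroup.relIndex_map_map, sup_of_le_left hkC, hC, inf_comm,
      AddSubgroup.inf_relIndex_right]
  have h4 : Nat.card g.ker = φ.ker.relIndex (φ.ker ⊔ f.ker) * (φ.ker ⊔ f.ker).relIndex C := by
    rw [AddSubgroup.relIndex_mul_relIndex _ _ _ le_sup_left (sup_le hφC hkC),
      AddSubgroup.relIndex_ker, show C.map φ = g.ker from
        AddSubgroup.map_comap_eq_self_of_surjective hφ _]
  rw [AddSubgroup.relIndex_sup_left] at h4
  rw [h2, h3, h4, ← relIndex_mul_card_inf φ.ker f.ker, inf_comm f.ker φ.ker]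
  ring

end Index

/-- `(X - 1) ^ (p - 1)` is a unit times `p` modulo the cyclotomic polynomial. -/
theorem exists_cyclotomic_unit {p : ℕ} (hp : p.Prime) :
    ∃ U V A B : ℤ[X], (X - 1) ^ (p - 1) * U = C (p : ℤ) + cyclotomic p ℤ * A ∧
      U * V = 1 + cyclotomic p ℤ * B := by
  obtain ⟨n, rfl⟩ : ∃ n, p = n + 1 := ⟨p - 1, by have := hp.pos; omega⟩
  haveI : Fact (Irreducible (cyclotomic (n + 1) ℤ)) :=
    ⟨cyclotomic.irreducible (Nat.succ_pos n)⟩
  haveI : IsDomain (AdjoinRoot (cyclotomic (n + 1) ℤ)) :=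
    AdjoinRoot.isDomain_of_prime
      (UniqueFactorizationMonoid.irreducible_iff_prime.mp (cyclotomic.irreducible (Nat.succ_pos n)))
  set ζ : AdjoinRoot (cyclotomic (n + 1) ℤ) := AdjoinRoot.root _
  haveI : CharZero (AdjoinRoot (cyclotomic (n + 1) ℤ)) :=
    charZero_of_injective_ringHom (AdjoinRoot.of.injective_of_degree_ne_zero
      (by rw [degree_cyclotomic]; exact_mod_cast (Nat.totient_pos.mpr (Nat.succ_pos n)).ne'))
  have hζ : IsPrimitiveRoot ζ (n + 1) := by
    rw [← isRoot_cyclotomic_iff, IsRoot.def]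
    refine (congrArg (eval ζ) (map_cyclotomic_int (n + 1) _).symm).trans ((eval_map _ _).trans ?_)
    exact (congrArg (fun f => eval₂ f ζ (cyclotomic (n + 1) ℤ))
      (RingHom.ext_int _ _)).trans (AdjoinRoot.eval₂_root _)
  have hassoc : Associated ((ζ - 1) ^ n) ((n + 1 : ℕ) : AdjoinRoot (cyclotomic (n + 1) ℤ)) := by
    have h1 : Associated (∏ _k ∈ Finset.range n, (ζ - 1))
        (∏ k ∈ Finset.range n, (ζ ^ (k + 1) - 1)) :=
      Associated.prod _ _ _ fun k hk => hζ.associated_sub_one_pow_sub_one_of_coprime (by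
        rw [Finset.mem_range] at hk
        refine (Nat.Coprime.symm ((Nat.Prime.coprime_iff_not_dvd hp).mpr fun h => ?_))
        exact absurd (Nat.le_of_dvd (Nat.succ_pos k) h) (by omega))
    rw [Finset.prod_const, Finset.card_range] at h1
    refine h1.trans ?_
    have h2 := hζ.prod_pow_sub_one_eq_order
    refine ⟨(-1) ^ n, ?_⟩
    push_cast
    rw [mul_comm]
    exact h2
  obtain ⟨u, hu⟩ := hassoc
  obtain ⟨U, hU⟩ := AdjoinRoot.mk_surjective (u : AdjoinRoot (cyclotomic (n + 1) ℤ))
  obtain ⟨V, hV⟩ := AdjoinRoot.mk_surjective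
    ((u⁻¹ : (AdjoinRoot (cyclotomic (n + 1) ℤ))ˣ) : AdjoinRoot (cyclotomic (n + 1) ℤ))
  obtain ⟨A, hA⟩ : cyclotomic (n + 1) ℤ ∣ (X - 1) ^ n * U - C ((n + 1 : ℕ) : ℤ) := by
    rw [← AdjoinRoot.mk_eq_zero, map_sub, map_mul, map_pow, map_sub, map_one, AdjoinRoot.mk_X, hU,
      hu, AdjoinRoot.mk_C, map_natCast, sub_self]
  obtain ⟨B, hB⟩ : cyclotomic (n + 1) ℤ ∣ U * V - 1 := by
    rw [← AdjoinRoot.mk_eq_zero, map_sub, map_mul, map_one, hU, hV, Units.mul_inv, sub_self]
  exact ⟨U, V, A, B, by rw [Nat.add_sub_cancel]; linear_combination hA,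
    by linear_combination hB⟩

variable {X : Type*} [AddCommGroup X]

theorem end_sum_apply {ι : Type*} (t : Finset ι) (f : ι → AddMonoid.End X) (x : X) :
    (∑ i ∈ t, f i) x = ∑ i ∈ t, f i x :=
  map_sum ({ toFun := fun g => g x, map_zero' := rfl, map_add' := fun _ _ => rfl } :
    AddMonoid.End X →+ X) f t

/-- Tate's formula: for an automorphism `σ` of order `p` with vanishing first cohomology, the index
of the norms in the fixed subgroup is computed by the indices of multiplication by `p`. -/
theorem relIndex_norm_range {p : ℕ} (hp : p.Prime) (σ : AddMonoid.End X) (hσ : σ ^ p = 1)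
    (hH1 : ∀ x, (∑ i ∈ Finset.range p, σ ^ i) x = 0 → ∃ y, σ y - y = x)
    (hfin : Nat.card (nsmulAddMonoidHom (α := X) p).ker ≠ 0) :
    (∑ i ∈ Finset.range p, σ ^ i).range.relIndex (σ - 1).ker ^ (p - 1) *
        (nsmulAddMonoidHom (α := X) p).range.index *
        Nat.card ((nsmulAddMonoidHom (α := X) p).ker ⊓ (σ - 1).ker : AddSubgroup X) ^ p =
      ((σ - 1).ker.map (nsmulAddMonoidHom (α := X) p)).relIndex (σ - 1).ker ^ p *
        Nat.card (nsmulAddMonoidHom (α := X) p).ker := by
  set N : AddMonoid.End X := ∑ i ∈ Finset.range p, σ ^ i with hN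
  set φ : AddMonoid.End X := σ - 1 with hφ
  set m : X →+ X := nsmulAddMonoidHom (α := X) p with hm
  have hNφ : N * φ = 0 := by rw [hN, hφ, geom_sum_mul, hσ, sub_self]
  have hφN : φ * N = 0 := by rw [hN, hφ, mul_geom_sum, hσ, sub_self]
  have hker : N.ker = φ.range := by
    ext x
    constructor
    · intro hx
      obtain ⟨y, hy⟩ := hH1 x hx
      exact ⟨y, hy⟩
    · rintro ⟨y, rfl⟩
      exact DFunLike.congr_fun hNφ y
  have hNF : ∀ x ∈ φ.ker, N x = p • x := by
    intro x hx
    have hfix : ∀ i : ℕ, (σ ^ i) x = x := fun i => by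
      induction i with
      | zero => rfl
      | succ i ih =>
        rw [pow_succ', AddMonoid.End.coe_mul, Function.comp_apply, ih]
        exact sub_eq_zero.mp hx
    rw [hN, end_sum_apply, Finset.sum_congr rfl fun i _ => hfix i,
      Finset.sum_const, Finset.card_range]
  -- the augmented part
  let Y : AddSubgroup X := φ.range
  have hres : ∀ f : AddMonoid.End X, Commute f φ → ∀ y ∈ Y, f y ∈ Y := by
    rintro f hf _ ⟨z, rfl⟩
    exact ⟨f z, (DFunLike.congr_fun hf z).symm⟩
  let φY : X →+ Y := φ.rangeRestrict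
  have hφYs : Function.Surjective φY := φ.rangeRestrict_surjective
  let π : AddMonoid.End Y := φY.comp Y.subtype
  let s : AddMonoid.End Y := π + 1
  have hs : ∀ (i : ℕ) (y : Y), (((s ^ i) y : Y) : X) = (σ ^ i) y := by
    intro i
    induction i with
    | zero => exact fun y => rfl
    | succ i ih =>
      intro y
      rw [pow_succ', pow_succ']
      show ((π ((s ^ i) y) + (s ^ i) y : Y) : X) = σ ((σ ^ i) y)
      rw [AddSubgroup.coe_add, ih]
      show φ ((s ^ i) y : X) + _ = _
      rw [ih, hφ]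
      exact sub_add_cancel _ _
  have hΦ : aeval s (cyclotomic p ℤ) = 0 := by
    haveI := Fact.mk hp
    rw [cyclotomic_prime, map_sum]
    refine AddMonoidHom.ext fun y => Subtype.ext ?_
    have h : N (y : X) = 0 := (hker ▸ y.2 : (y : X) ∈ N.ker)
    refine (congrArg Subtype.val (end_sum_apply _ _ y)).trans ?_
    rw [AddSubgroup.val_finsetSum]
    simp only [map_pow, aeval_X, hs]
    rw [hN, end_sum_apply] at h
    exact h
  obtain ⟨U, V, A, B, hU, hUV⟩ := exists_cyclotomic_unit hp
  have e1 : π ^ (p - 1) * aeval s U = (p : AddMonoid.End Y) := by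
    have := congrArg (aeval s) hU
    rwa [map_mul, map_pow, map_sub, aeval_X, map_one, map_add, map_mul, hΦ, zero_mul, add_zero,
      aeval_C, map_natCast, show s - 1 = π from add_sub_cancel_right π 1] at this
  have e2 : aeval s U * aeval s V = 1 := by
    have := congrArg (aeval s) hUV
    rwa [map_mul, map_add, map_one, map_mul, hΦ, zero_mul, add_zero] at this
  have e3 : aeval s V * aeval s U = 1 := by rw [← map_mul, mul_comm, map_mul, e2]
  -- the kernels
  have hπK : Nat.card π.ker = Nat.card (m.ker ⊓ φ.ker : AddSubgroup X) := by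
    refine Nat.card_congr ⟨fun y => ⟨((y : Y) : X), ?_⟩, fun x => ⟨⟨(x : X), ?_⟩, ?_⟩,
      fun y => rfl, fun x => rfl⟩
    · have hy : φ ((y : Y) : X) = 0 := congrArg Subtype.val y.2
      refine ⟨?_, hy⟩
      have h : N ((y : Y) : X) = 0 := (hker ▸ (y : Y).2 : ((y : Y) : X) ∈ N.ker)
      show p • ((y : Y) : X) = 0
      rw [← hNF _ hy, h]
    · show (x : X) ∈ φ.range
      rw [← hker]
      exact (hNF _ x.2.2).trans x.2.1
    · exact Subtype.ext x.2.2
  have hπ0 : Nat.card π.ker ≠ 0 := by
    rw [hπK]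
    haveI : Finite m.ker := Nat.finite_of_card_ne_zero hfin
    haveI : Finite (m.ker ⊓ φ.ker : AddSubgroup X) :=
      Finite.of_injective _ (AddSubgroup.inclusion_injective
        (inf_le_left : m.ker ⊓ φ.ker ≤ m.ker))
    exact Nat.card_pos.ne'
  -- multiplication by `p` on the augmented part
  set g : Y →+ Y := nsmulAddMonoidHom (α := Y) p with hg
  have hgπ : g = AddMonoidHom.comp (π ^ (p - 1)) (aeval s U) := by
    refine AddMonoidHom.ext fun y => ?_
    show p • y = _
    exact ((DFunLike.congr_fun e1 y).trans (AddMonoid.End.natCast_apply p y)).symm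
  have hUbij : Function.Bijective (aeval s U : AddMonoid.End Y) :=
    Function.bijective_iff_has_inverse.mpr ⟨aeval s V, fun y => DFunLike.congr_fun e3 y,
      fun y => DFunLike.congr_fun e2 y⟩
  obtain ⟨hgR, hgK⟩ : g.range = (π ^ (p - 1)).range ∧ Nat.card g.ker = Nat.card (π ^ (p - 1)).ker := by
    rw [hgπ]
    exact range_comp_bijective (π ^ (p - 1) : Y →+ Y) (aeval s U : AddMonoid.End Y) hUbij
  have hses := index_range_exact φY hφYs m g (AddMonoidHom.ext fun x => map_nsmul φY p x)
  rw [show φY.ker = AddMonoidHom.ker φ from AddMonoidHom.ker_rangeRestrict φ] at hses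
  have hpow := index_range_pow π hπ0 (p - 1)
  rw [← hgR, ← hgK, hπK] at hpow
  have hsplit : (φ.ker.map m).relIndex φ.ker = π.range.index * N.range.relIndex φ.ker := by
    have hmap : φ.ker.map m = φ.ker.map N := by
      ext x
      simp only [AddSubgroup.mem_map]
      exact exists_congr fun y => and_congr_right fun hy => ⟨fun h => (hNF y hy).trans h, fun h => (hNF y hy).symm.trans h⟩
    have hle2 : N.range ≤ φ.ker := by
      rintro _ ⟨x, rfl⟩
      exact DFunLike.congr_fun hφN x
    have hπr : π.range.index = (Y.map φ).relIndex Y := by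
      show _ = AddSubgroup.index ((Y.map φ).addSubgroupOf Y)
      congr 1
      ext y
      simp only [AddSubgroup.mem_addSubgroupOf]
      exact ⟨fun ⟨z, hz⟩ => ⟨z, z.2, congrArg Subtype.val hz⟩,
        fun ⟨z, hz, h⟩ => ⟨⟨z, hz⟩, Subtype.ext h⟩⟩
    rw [hmap, hπr]
    exact relIndex_map_split (N : X →+ X) (φ : X →+ X) hker hle2
  have hg0 : Nat.card g.ker ≠ 0 := hgK ▸ card_ker_pow π hπ0 _
  obtain ⟨n, hn⟩ : ∃ n, p = n + 1 := ⟨p - 1, by have := hp.pos; omega⟩
  rw [show p - 1 = n by omega] at hpow ⊢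
  rw [hn]
  apply mul_right_cancel₀ hg0
  rw [hsplit] at hses ⊢
  linear_combination (N.range.relIndex φ.ker ^ n *
      Nat.card (m.ker ⊓ φ.ker : AddSubgroup X) ^ n) * hses +
    (N.range.relIndex φ.ker ^ n * (π.range.index * N.range.relIndex φ.ker) * Nat.card m.ker) * hpow

end Fermat.Agent.GD
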