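import Fermat.Agent.GD.Local.Module
import Fermat.Agent.GD.Local.Herbrand

/-!
# Units of a finite extension of the henselisation
-/

set_option autoImplicit false
set_option linter.style.haveILetI false

noncomputable section

namespace Fermat.Agent.GD

open IsLocalRing Polynomial
open Fermat.Agent.Galois

local notation "ℚb" => AlgebraicClosure ℚ

variable {A : ValuationSubring (AlgebraicClosure ℚ)}

/-- Raising a small principal unit to the `p`-th power scales its distance to one by `p`. -/
theorem val_one_add_pow_sub_one {p : ℕ} (hp : p.Prime) {t : ℚb}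
    (h1 : A.valuation t < 1) (h2 : A.valuation t ^ (p - 1) < A.valuation (p : ℚb)) :
    A.valuation ((1 + t) ^ p - 1) = A.valuation (p : ℚb) * A.valuation t := by
  rcases eq_or_ne t 0 with rfl | ht
  · simp
  have hp0 : A.valuation (p : ℚb) ≠ 0 := by simpa using hp.ne_zero
  have ht0 : A.valuation t ≠ 0 := by simpa using ht
  obtain ⟨m, hm⟩ : ∃ m, p = m + 2 := ⟨p - 2, by have := hp.two_le; omega⟩
  have hexp : (1 + t) ^ p - 1 = (p : ℚb) * t +
      ((∑ i ∈ Finset.range m, t ^ (i + 2) * (p.choose (i + 2) : ℚb)) + t ^ p) := by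
    rw [add_comm 1 t, add_pow, hm, Finset.sum_range_succ, Finset.sum_range_succ',
      Finset.sum_range_succ']
    simp only [one_pow, mul_one, Nat.choose_self, Nat.cast_one, zero_add, pow_one,
      Nat.choose_one_right, Nat.choose_zero_right, pow_zero]
    ring
  rw [hexp, ← map_mul]
  refine Valuation.map_add_eq_of_lt_left _ (lt_of_le_of_lt (Valuation.map_add _ _ _)
    (max_lt ?_ ?_))
  · refine Valuation.map_sum_lt _ ?_ fun i hi => ?_
    · rw [map_mul]; exact mul_ne_zero hp0 ht0
    rw [Finset.mem_range] at hi
    obtain ⟨c, hc⟩ := hp.dvd_choose_self (show i + 2 ≠ 0 by omega) (show i + 2 < p by omega)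
    rw [hc, Nat.cast_mul, map_mul, map_mul, map_mul, map_pow, pow_succ', mul_assoc,
      mul_comm (A.valuation (p : ℚb)) (A.valuation t)]
    refine mul_lt_mul_of_pos_left ?_ (zero_lt_iff.mpr ht0)
    calc A.valuation t ^ (i + 1) * (A.valuation (p : ℚb) * A.valuation (c : ℚb))
        ≤ A.valuation t ^ (i + 1) * A.valuation (p : ℚb) :=
          mul_le_mul' le_rfl (mul_le_of_le_one_right' ((A.valuation_le_one_iff _).mpr
            (natCast_mem A c)))
      _ < A.valuation (p : ℚb) := by
          have : A.valuation t ^ (i + 1) < 1 := pow_lt_one₀ zero_le h1 (Nat.succ_ne_zero i)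
          exact lt_of_lt_of_eq (mul_lt_mul_of_pos_right this (zero_lt_iff.mpr hp0)) (one_mul _)
  · rw [map_mul, map_pow]
    conv_lhs => rw [show p = p - 1 + 1 by omega, pow_succ]
    exact mul_lt_mul_of_pos_right h2 (zero_lt_iff.mpr ht0)

variable {q : ℕ} (hq : q.Prime) (hA : A.LiesOverPrime q)
variable (E : IntermediateField (decField A) (AlgebraicClosure ℚ)) [FiniteDimensional (decField A) E]

include hq hA

omit [FiniteDimensional (decField A) E] in
/-- A power of the value of an element of `E` is an integral power of the value of `q`. -/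
theorem exists_val_pow_eq {x : ℚb} (hx : x ∈ E) (hx0 : x ≠ 0) :
    ∃ k : ℤ, A.valuation x ^ Module.finrank (decField A) E = A.valuation (q : ℚb) ^ k := by
  haveI : Algebra.IsAlgebraic ℚ ℚb := isAlgebraic_qbar
  haveI : Normal (decField A) ℚb := (inferInstance : IsGalois (decField A) ℚb).to_normal
  have hxi : IsIntegral (decField A) x := (Algebra.IsIntegral.isIntegral (R := ℚ) x).tower_top
  set m := minpoly (decField A) x with hmdef
  have hmo : (m.map (algebraMap (decField A) ℚb)).Monic := (minpoly.monic hxi).map _
  have hsplit : (m.map (algebraMap (decField A) ℚb)).Splits := IsAlgClosed.splits _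
  have hroots : ∀ y ∈ (m.map (algebraMap (decField A) ℚb)).roots,
      A.valuation y = A.valuation x := by
    intro y hy
    obtain ⟨σ, rfl⟩ := (Normal.minpoly_eq_iff_mem_orbit (F := decField A) (E := ℚb)).mp
      (minpoly.eq_of_root (Algebra.IsAlgebraic.isAlgebraic (R := decField A) x) (by
        rw [aeval_def, ← eval_map]; exact (mem_roots hmo.ne_zero).mp hy))
    exact Galois.valuation_apply_eq (σ := σ.restrictScalars ℚ)
      (isHens_decField A fun z => σ.commutes z) x
  have hc0 := hsplit.coeff_zero_eq_prod_roots_of_monic hmo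
  have hv : A.valuation ((m.map (algebraMap (decField A) ℚb)).coeff 0) =
      A.valuation x ^ m.natDegree := by
    rw [hc0, map_mul, map_pow, Valuation.map_neg, map_one, one_pow, one_mul, map_multiset_prod,
      Multiset.eq_replicate_card.mpr (fun v hv => by
        obtain ⟨y, hy, rfl⟩ := Multiset.mem_map.mp hv
        exact hroots y hy : ∀ v ∈ ((m.map (algebraMap (decField A) ℚb)).roots.map A.valuation),
          v = A.valuation x), Multiset.prod_replicate, Multiset.card_map,
      ← hsplit.natDegree_eq_card_roots, natDegree_map]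
  rw [coeff_map] at hv
  obtain ⟨k, hk⟩ := exists_val_eq_zpow hq hA (x := ((m.coeff 0 : decField A) : ℚb))
    (m.coeff 0).2 (fun h => by
      have h' : A.valuation x ^ m.natDegree = 0 := by
        rw [← hv, show (algebraMap (decField A) ℚb) (m.coeff 0) = ((m.coeff 0 : decField A) : ℚb)
          from rfl, h, map_zero]
      exact pow_ne_zero _ (by simpa using hx0) h')
  obtain ⟨l, hl⟩ : m.natDegree ∣ Module.finrank (decField A) E := by
    have h := minpoly.degree_dvd (Algebra.IsIntegral.isIntegral (R := decField A) (⟨x, hx⟩ : E))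
    rwa [← minpoly.algebraMap_eq (Subtype.val_injective : Function.Injective (algebraMap E ℚb))
      (⟨x, hx⟩ : E)] at h
  refine ⟨k * l, ?_⟩
  rw [hl, pow_mul, ← hv, zpow_mul, zpow_natCast]
  exact congrArg (· ^ l) hk

theorem val_zpow_injective {a b : ℤ} (h : A.valuation (q : ℚb) ^ a = A.valuation (q : ℚb) ^ b) :
    a = b := by
  have hv0 : 0 < A.valuation (q : ℚb) := zero_lt_iff.mpr (natCast_val_ne_zero hq)
  exact zpow_right_injective₀ hv0 (natCast_val_lt_one hA).ne h

omit [FiniteDimensional (decField A) E] in
theorem exists_val_unit_eq (x : Eˣ) :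
    ∃ k : ℤ, A.valuation ((x : E) : ℚb) ^ Module.finrank (decField A) E =
      A.valuation (q : ℚb) ^ k :=
  exists_val_pow_eq hq hA E (x : E).2 fun h => x.ne_zero (Subtype.ext h)

/-- The normalised order on the units of `E`. -/
def ordE : Additive Eˣ →+ ℤ where
  toFun x := (exists_val_unit_eq hq hA E x.toMul).choose
  map_zero' := by
    refine val_zpow_injective hq hA ?_
    rw [← (exists_val_unit_eq hq hA E _).choose_spec]
    simp
  map_add' x y := by
    refine val_zpow_injective hq hA ?_
    rw [zpow_add₀ (natCast_val_ne_zero hq), ← (exists_val_unit_eq hq hA E _).choose_spec,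
      ← (exists_val_unit_eq hq hA E _).choose_spec, ← (exists_val_unit_eq hq hA E _).choose_spec,
      ← mul_pow, ← map_mul]
    rfl

theorem ordE_spec (x : Additive Eˣ) :
    A.valuation (((x.toMul : Eˣ) : E) : ℚb) ^ Module.finrank (decField A) E =
      A.valuation (q : ℚb) ^ ordE hq hA E x :=
  (exists_val_unit_eq hq hA E x.toMul).choose_spec

theorem mem_ker_ordE {x : Additive Eˣ} :
    x ∈ (ordE hq hA E).ker ↔ A.valuation (((x.toMul : Eˣ) : E) : ℚb) = 1 := by
  have h := ordE_spec hq hA E x
  rw [AddMonoidHom.mem_ker]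
  constructor
  · intro h0
    rw [h0, zpow_zero] at h
    exact (pow_eq_one_iff.mp h).resolve_right (Module.finrank_pos (R := decField A) (M := E)).ne'
  · intro h1
    rw [h1, one_pow, ← zpow_zero (A.valuation (q : ℚb))] at h
    exact (val_zpow_injective hq hA h).symm

omit hq hA [FiniteDimensional (decField A) E] in
theorem eq_one_of_pow_eq_one {p : ℕ} (hp : p.Prime) {t : ℚb} (h1 : A.valuation t < 1)
    (h2 : A.valuation t ^ (p - 1) < A.valuation (p : ℚb)) (h : (1 + t) ^ p = 1) : t = 0 := by
  have h3 := val_one_add_pow_sub_one hp h1 h2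
  rw [h, sub_self, map_zero, eq_comm, mul_eq_zero] at h3
  rcases h3 with h3 | h3
  · exact absurd h3 (by simpa using hp.ne_zero)
  · simpa using h3

end Fermat.Agent.GD
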