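import Fermat.Agent.Galois.Places
import Fermat.Agent.Galois.Tame

/-!
# Henselian subfields at a place of the algebraic closure of `ℚ`

A subfield whose Galois group lies in the decomposition group of a place satisfies Hensel's lemma.
-/

set_option autoImplicit false

noncomputable section

namespace Fermat.Agent.GD

open IsLocalRing Polynomial
open Fermat.Agent.Galois

local notation "ℚb" => AlgebraicClosure ℚ

/-- The field is fixed by nothing outside the decomposition group: it is henselian at the place. -/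
def IsHens (A : ValuationSubring (AlgebraicClosure ℚ))
    (F : IntermediateField ℚ (AlgebraicClosure ℚ)) : Prop :=
  F.fixingSubgroup ≤ A.decompositionSubgroup ℚ

variable {A : ValuationSubring (AlgebraicClosure ℚ)}
  {F : IntermediateField ℚ (AlgebraicClosure ℚ)}

theorem IsHens.mono (h : IsHens A F) {E : IntermediateField ℚ (AlgebraicClosure ℚ)} (hE : F ≤ E) :
    IsHens A E :=
  (IntermediateField.fixingSubgroup_antitone hE).trans h

theorem mem_of_forall_fixingSubgroup {x : ℚb} (h : ∀ σ ∈ F.fixingSubgroup, σ x = x) : x ∈ F := by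
  have hF := InfiniteGalois.fixedField_fixingSubgroup (K := AlgebraicClosure ℚ) F
  rw [← hF]
  exact fun σ => h σ.1 σ.2

/-- The roots of a monic polynomial over the ring of the place lie in it. -/
theorem root_mem {f : ℚb[X]} (hf : f.Monic) (hc : ∀ i, f.coeff i ∈ A) {α : ℚb}
    (hα : f.IsRoot α) : α ∈ A := by
  obtain ⟨g, hg, -, hgm⟩ := lifts_and_degree_eq_and_monic
    ((lifts_iff_coeff_lifts f).mpr fun i => ⟨⟨f.coeff i, hc i⟩, rfl⟩ :
      f ∈ Polynomial.lifts (algebraMap A ℚb)) hf
  have hint : IsIntegral A α := ⟨g, hgm, by rw [← eval_map, hg]; exact hα⟩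
  obtain ⟨y, hy⟩ := IsIntegrallyClosed.isIntegral_iff.mp hint
  exact hy ▸ y.2

theorem sub_mem_nonunits {x y : ℚb} (hx : x ∈ A.nonunits) (hy : y ∈ A.nonunits) :
    x - y ∈ A.nonunits := by
  rw [ValuationSubring.mem_nonunits_iff] at hx hy ⊢
  exact lt_of_le_of_lt (Valuation.map_sub A.valuation x y) (max_lt hx hy)

theorem mul_mem_nonunits {x y : ℚb} (hx : x ∈ A.nonunits) (hy : y ∈ A) : x * y ∈ A.nonunits := by
  rw [ValuationSubring.mem_nonunits_iff] at hx ⊢
  rw [map_mul]
  exact lt_of_le_of_lt (mul_le_of_le_one_right' ((A.valuation_le_one_iff y).mpr hy)) hx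

/-- Hensel's lemma. -/
theorem IsHens.exists_root (h : IsHens A F) {f : ℚb[X]} (hf : f.Monic)
    (hF : ∀ i, f.coeff i ∈ F) (hA : ∀ i, f.coeff i ∈ A) {a : ℚb} (haF : a ∈ F) (haA : a ∈ A)
    (h0 : f.eval a ∈ A.nonunits) (h1 : f.derivative.eval a ∉ A.nonunits) :
    ∃ α : ℚb, α ∈ F ∧ α ∈ A ∧ f.IsRoot α ∧ α - a ∈ A.nonunits := by
  classical
  have hsplit : f.Splits := IsAlgClosed.splits f
  have hprod := hsplit.eq_prod_roots_of_monic hf
  have hroot : ∀ α ∈ f.roots, α ∈ A := fun α hα => root_mem hf hA ((mem_roots hf.ne_zero).mp hα).eq_zero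
  -- some root is congruent to the approximation
  obtain ⟨α, hα, hαa⟩ : ∃ α ∈ f.roots, a - α ∈ A.nonunits := by
    by_contra hcon
    push Not at hcon
    refine h1 ?_ |>.elim
    exfalso
    apply absurd h0
    rw [hprod, eval_multiset_prod, Multiset.map_map, ValuationSubring.mem_nonunits_iff, not_lt,
      map_multiset_prod, Multiset.map_map]
    refine le_of_eq (Eq.symm (Multiset.prod_eq_one fun v hv => ?_))
    obtain ⟨β, hβ, rfl⟩ := Multiset.mem_map.mp hv
    simp only [Function.comp_apply, eval_sub, eval_X, eval_C]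
    refine le_antisymm ((A.valuation_le_one_iff _).mpr (sub_mem haA (hroot β hβ))) (not_lt.mp ?_)
    exact fun hlt => hcon β hβ (A.mem_nonunits_iff.mpr hlt)
  -- it is the only one
  have huniq : ∀ β ∈ f.roots, a - β ∈ A.nonunits → β = α := by
    intro β hβ hβa
    by_contra hne
    refine h1 ?_
    obtain ⟨t, ht⟩ := Multiset.exists_cons_of_mem hα
    have hβt : β ∈ t := by
      rw [ht, Multiset.mem_cons] at hβ
      exact hβ.resolve_left hne
    obtain ⟨t', ht'⟩ := Multiset.exists_cons_of_mem hβt
    set g := ((t'.map fun γ => X - C γ).prod)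
    have hg : ∀ i, g.coeff i ∈ A := by
      have hl : g ∈ Polynomial.lifts (algebraMap A ℚb) := by
        refine Subsemiring.multiset_prod_mem _ _ fun p hp => ?_
        obtain ⟨γ, hγ, rfl⟩ := Multiset.mem_map.mp hp
        exact ⟨X - C ⟨γ, hroot γ (by rw [ht, ht']; simp [hγ])⟩, by simp⟩
      intro i
      obtain ⟨c, hc⟩ := (lifts_iff_coeff_lifts g).mp hl i
      exact hc ▸ c.2
    have hgA : g.eval a ∈ A := by
      rw [eval_eq_sum_range]
      exact sum_mem fun i _ => mul_mem (hg i) (pow_mem haA i)
    have hgA' : g.derivative.eval a ∈ A := by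
      rw [eval_eq_sum_range]
      refine sum_mem fun i _ => mul_mem ?_ (pow_mem haA i)
      rw [coeff_derivative]
      exact mul_mem (hg _) (by exact_mod_cast natCast_mem A (i + 1))
    have hd : f.derivative.eval a = (a - β) * g.eval a + (a - α) * g.eval a +
        (a - α) * (a - β) * g.derivative.eval a := by
      rw [hprod, ht, Multiset.map_cons, Multiset.prod_cons, ht', Multiset.map_cons,
        Multiset.prod_cons]
      simp only [derivative_mul, derivative_sub, derivative_X, derivative_C, sub_zero, one_mul,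
        eval_add, eval_mul, eval_sub, eval_X, eval_C, g]
      ring
    rw [hd, show (a - β) * g.eval a + (a - α) * g.eval a + (a - α) * (a - β) * g.derivative.eval a =
      (a - β) * g.eval a - (-1 : ℚb) * ((a - α) * (g.eval a + (a - β) * g.derivative.eval a)) by ring]
    refine sub_mem_nonunits (mul_mem_nonunits hβa hgA) ?_
    rw [mul_comm]
    refine mul_mem_nonunits (mul_mem_nonunits hαa ?_) (neg_mem A.one_mem)
    exact add_mem hgA (mul_mem (sub_mem haA (hroot β hβ)) hgA')
  have hαA := hroot α hα
  refine ⟨α, mem_of_forall_fixingSubgroup fun σ hσ => ?_, hαA, (mem_roots hf.ne_zero).mp hα, ?_⟩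
  · have hfix : ∀ x ∈ F, σ x = x := fun x hx => hσ ⟨x, hx⟩
    refine huniq (σ α) ((mem_roots hf.ne_zero).mpr ?_) ?_
    · have := ((mem_roots hf.ne_zero).mp hα).eq_zero
      rw [IsRoot.def, eval_eq_sum_range] at *
      rw [← map_zero σ, ← this, map_sum]
      exact Finset.sum_congr rfl fun i _ => by rw [map_mul, map_pow, hfix _ (hF i)]
    · rw [ValuationSubring.mem_nonunits_iff, show a - σ α = σ (a - α) by rw [map_sub, hfix a haF],
        Galois.valuation_apply_eq (h hσ)]
      exact A.mem_nonunits_iff.mp hαa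
  · rw [ValuationSubring.mem_nonunits_iff, Valuation.map_sub_swap]
    exact A.mem_nonunits_iff.mp hαa

end Fermat.Agent.GD
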