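import Mathlib

/-!
# Equivariant maps into subquotients killed by `p`

For a group `H` acting through a finite quotient of order prime to `p`, the number of equivariant
maps from a module killed by `p` is multiplicative in the target.
-/

set_option autoImplicit false
set_option linter.style.haveILetI false
set_option linter.unusedSectionVars false

noncomputable section

namespace Fermat.Agent.GD

variable {G : Type} [Group G]

/-- The standing hypotheses: `H` acts on `M` through a quotient of order prime to `p`. -/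
structure CoprimeAct (p : ℕ) (H N : Subgroup G) (M : Type) [AddCommGroup M]
    [DistribMulAction G M] : Prop where
  le : N ≤ H
  normal : (N.subgroupOf H).Normal
  finiteIndex : (N.subgroupOf H).FiniteIndex
  coprime : ¬ p ∣ (N.subgroupOf H).index
  killed : ∀ m : M, p • m = 0
  trivial : ∀ s ∈ N, ∀ m : M, s • m = m

theorem exists_linLift {p : ℕ} [Fact p.Prime] {M A C : Type} [AddCommGroup M] [AddCommGroup A]
    [AddCommGroup C] [Module (ZMod p) M] [Module (ZMod p) A] [Module (ZMod p) C]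
    (π : A →ₗ[ZMod p] C) (hπ : Function.Surjective π) (φ : M →ₗ[ZMod p] C) :
    ∃ l : M →ₗ[ZMod p] A, π.comp l = φ :=
  Module.projective_lifting_property π φ hπ

/-- Additive maps lift along surjections of groups killed by `p`. -/
theorem exists_addLift {p : ℕ} [Fact p.Prime] {M A C : Type} [AddCommGroup M] [AddCommGroup A]
    [AddCommGroup C] (hM : ∀ m : M, p • m = 0) (hA : ∀ a : A, p • a = 0) (π : A →+ C)
    (hπ : Function.Surjective π) (φ : M →+ C) : ∃ l : M →+ A, ∀ m, π (l m) = φ m := by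
  have hC : ∀ c : C, p • c = 0 := fun c => by
    obtain ⟨a, rfl⟩ := hπ c
    rw [← map_nsmul, hA, map_zero]
  obtain ⟨l, hl⟩ := @exists_linLift p _ M A C _ _ _ (AddCommGroup.zmodModule hM)
    (AddCommGroup.zmodModule hA) (AddCommGroup.zmodModule hC)
    (@AddMonoidHom.toZModLinearMap p A C _ _ (AddCommGroup.zmodModule hA)
      (AddCommGroup.zmodModule hC) π) hπ
    (@AddMonoidHom.toZModLinearMap p M C _ _ (AddCommGroup.zmodModule hM)
      (AddCommGroup.zmodModule hC) φ)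
  exact ⟨@LinearMap.toAddMonoidHom (ZMod p) (ZMod p) M A _ _ _ _
    (AddCommGroup.zmodModule hM) (AddCommGroup.zmodModule hA) _ l,
    fun m => congrArg (fun f => DFunLike.coe f m) hl⟩

variable {p : ℕ} [hpf : Fact p.Prime] {H N : Subgroup G}
variable (M : Type) [AddCommGroup M] [DistribMulAction G M]
variable {B : Type} [AddCommGroup B] [DistribMulAction G B]

/-- Stability under a subgroup. -/
def StableUnder (H : Subgroup G) (T : AddSubgroup B) : Prop :=
  ∀ h ∈ H, ∀ x ∈ T, h • x ∈ T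

/-- The equivariant maps from `M` into `R / T`. -/
def homSet (H : Subgroup G) (R T : AddSubgroup B) : Set (M →+ B ⧸ T) :=
  {φ | (∀ m, φ m ∈ R.map (QuotientAddGroup.mk' T)) ∧
    ∀ h ∈ H, ∀ (m : M) (x : B), φ m = (x : B ⧸ T) → φ (h • m) = ((h • x : B) : B ⧸ T)}

/-- The number of equivariant maps. -/
def cQ (H : Subgroup G) (R T : AddSubgroup B) : ℕ := Nat.card (homSet M H R T)

theorem mk_smul_eq {T : AddSubgroup B} (hT : StableUnder H T) {h : G} (hh : h ∈ H) {x y : B}
    (hxy : (x : B ⧸ T) = y) : ((h • x : B) : B ⧸ T) = ((h • y : B) : B ⧸ T) := by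
  rw [QuotientAddGroup.eq] at hxy ⊢
  rw [← smul_neg, ← smul_add]
  exact hT h hh _ hxy

/-- The equivariant maps form a group. -/
def homGrp {R T : AddSubgroup B} (hT : StableUnder H T) : AddSubgroup (M →+ B ⧸ T) where
  carrier := homSet M H R T
  zero_mem' := ⟨fun _ => zero_mem _, fun h hh m x hx => by
    have := mk_smul_eq hT hh (x := 0) (y := x) hx
    rwa [smul_zero] at this⟩
  add_mem' := fun {φ ψ} hφ hψ => ⟨fun m => add_mem (hφ.1 m) (hψ.1 m), fun h hh m x hx => by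
    obtain ⟨a, -, ha⟩ := hφ.1 m
    obtain ⟨b, -, hb⟩ := hψ.1 m
    rw [AddMonoidHom.add_apply, hφ.2 h hh m a ha.symm, hψ.2 h hh m b hb.symm,
      ← QuotientAddGroup.mk_add, ← smul_add]
    refine mk_smul_eq hT hh ?_
    rw [QuotientAddGroup.mk_add, ← hx, AddMonoidHom.add_apply, ← ha, ← hb]
    rfl⟩
  neg_mem' := fun {φ} hφ => ⟨fun m => neg_mem (hφ.1 m), fun h hh m x hx => by
    obtain ⟨a, -, ha⟩ := hφ.1 m
    rw [AddMonoidHom.neg_apply, hφ.2 h hh m a ha.symm, ← QuotientAddGroup.mk_neg, ← smul_neg]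
    refine mk_smul_eq hT hh ?_
    rw [QuotientAddGroup.mk_neg, ← hx, AddMonoidHom.neg_apply, ← ha]
    rfl⟩

variable {M}

/-- An additive section of a surjection of subquotients killed by `p`. -/
theorem exists_lift (hA : CoprimeAct p H N M) {R S T : AddSubgroup B} (hTS : T ≤ S)
    (hp : ∀ x ∈ R, p • x ∈ T) (φ : M →+ B ⧸ S)
    (hφ : ∀ m, φ m ∈ R.map (QuotientAddGroup.mk' S)) :
    ∃ ψ : M →+ B ⧸ T, (∀ m, ψ m ∈ R.map (QuotientAddGroup.mk' T)) ∧
      ∀ m, QuotientAddGroup.map T S (AddMonoidHom.id B) hTS (ψ m) = φ m := by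
  let Rt := R.map (QuotientAddGroup.mk' T)
  let Rs := R.map (QuotientAddGroup.mk' S)
  have ht : ∀ x : Rt, p • x = 0 := by
    rintro ⟨_, x, hx, rfl⟩
    apply Subtype.ext
    show p • (QuotientAddGroup.mk' T x) = 0
    rw [← map_nsmul]
    exact (QuotientAddGroup.eq_zero_iff _).mpr (hp x hx)
  let π : Rt →+ Rs :=
    ((QuotientAddGroup.map T S (AddMonoidHom.id B) hTS).comp Rt.subtype).codRestrict _ fun x => by
      obtain ⟨_, y, hy, rfl⟩ := x
      exact ⟨y, hy, rfl⟩
  have hπ : Function.Surjective π := by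
    rintro ⟨_, x, hx, rfl⟩
    exact ⟨⟨_, x, hx, rfl⟩, rfl⟩
  obtain ⟨l, hl⟩ := exists_addLift hA.killed ht π hπ (φ.codRestrict Rs hφ)
  exact ⟨Rt.subtype.comp l, fun m => (l m).2, fun m => congrArg Subtype.val (hl m)⟩

/-- Averaging: equivariant maps lift. -/
theorem exists_homSet_lift (hA : CoprimeAct p H N M) {R S T : AddSubgroup B} (hTS : T ≤ S)
    (hR : StableUnder H R) (hT : StableUnder H T) (hfix : ∀ s ∈ N, ∀ x ∈ R, s • x = x)
    (hp : ∀ x ∈ R, p • x ∈ T) {φ : M →+ B ⧸ S} (hφ : φ ∈ homSet M H R S) :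
    ∃ ψ ∈ homSet M H R T, ∀ m, QuotientAddGroup.map T S (AddMonoidHom.id B) hTS (ψ m) = φ m := by
  classical
  obtain ⟨ψ₀, hψ₀, hlift⟩ := exists_lift hA hTS hp φ hφ.1
  haveI := hA.finiteIndex
  haveI := hA.normal
  letI : Fintype (H ⧸ N.subgroupOf H) := Fintype.ofFinite _
  obtain ⟨j, -, hj⟩ := Nat.exists_mul_mod_eq_one_of_coprime
    ((Nat.Prime.coprime_iff_not_dvd hpf.out).mpr hA.coprime).symm hpf.out.one_lt
  choose f hfR hf using fun m => hψ₀ m
  -- the translate of the lift by a group element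
  let tr : H → M → B ⧸ T := fun g m =>
    (((g : G) • f ((g : G)⁻¹ • m) : B) : B ⧸ T)
  have htr_lift : ∀ (g : H) m (x : B), ψ₀ ((g : G)⁻¹ • m) = (x : B ⧸ T) →
      tr g m = (((g : G) • x : B) : B ⧸ T) := fun g m x hx =>
    mk_smul_eq hT g.2 ((hf _).trans hx)
  have htr_add : ∀ g m m', tr g (m + m') = tr g m + tr g m' := fun g m m' => by
    rw [htr_lift g (m + m') (f ((g : G)⁻¹ • m) + f ((g : G)⁻¹ • m'))
      (by rw [smul_add, map_add, QuotientAddGroup.mk_add]; exact congrArg₂ (· + ·) (hf _).symm (hf _).symm)]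
    rw [smul_add, QuotientAddGroup.mk_add]
  have htr_mul : ∀ (g s : H), (s : G) ∈ N → ∀ m, tr (g * s) m = tr g m := fun g s hs m => by
    refine (htr_lift (g * s) m (f ((g : G)⁻¹ • m)) ?_).trans ?_
    · rw [show (((g * s : H) : G))⁻¹ = (s : G)⁻¹ * (g : G)⁻¹ from mul_inv_rev _ _, mul_smul,
        hA.trivial _ (N.inv_mem hs)]
      exact (hf _).symm
    · show (((((g : G) * (s : G)) • f _) : B) : B ⧸ T) = _
      rw [mul_smul, hfix _ hs _ (hfR _)]
  let Ψ : M →+ B ⧸ T := AddMonoidHom.mk'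
    (fun m => j • ∑ c : H ⧸ N.subgroupOf H, tr c.out m)
    (fun m m' => by simp only [htr_add, Finset.sum_add_distrib, nsmul_add])
  refine ⟨Ψ, ⟨fun m => (R.map (QuotientAddGroup.mk' T)).nsmul_mem
    (sum_mem fun c _ => AddSubgroup.mem_map_of_mem _ (hR _ c.out.2 _ (hfR _))) j,
    fun h hh m x hx => ?_⟩, fun m => ?_⟩
  · let hH : H := ⟨h, hh⟩
    set σ : Equiv.Perm (H ⧸ N.subgroupOf H) := MulAction.toPerm hH
    have hterm : ∀ c, tr (σ c).out (h • m) =
        ((h • ((c.out : G) • f ((c.out : G)⁻¹ • m)) : B) : B ⧸ T) := by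
      intro c
      obtain ⟨s, hs, hsc⟩ : ∃ s : H, (s : G) ∈ N ∧ (σ c).out = hH * c.out * s := by
        refine ⟨(hH * c.out)⁻¹ * (σ c).out, Subgroup.mem_subgroupOf.mp (QuotientGroup.eq.mp ?_),
          by group⟩
        rw [QuotientGroup.out_eq']
        conv_rhs => rw [show σ c = hH • c from rfl, ← QuotientGroup.out_eq' c]
        rfl
      rw [hsc, htr_mul _ _ hs, ← mul_smul]
      refine htr_lift (hH * c.out) (h • m) _ ?_
      rw [← mul_smul]
      show ψ₀ ((((hH : G) * (c.out : G))⁻¹ * h) • m) = _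
      rw [show ((hH : G) * (c.out : G))⁻¹ * h = (c.out : G)⁻¹ by show (h * (c.out : G))⁻¹ * h = _; group]
      exact (hf _).symm
    show j • ∑ c : H ⧸ N.subgroupOf H, tr c.out (h • m) = _
    rw [← Equiv.sum_comp σ, Finset.sum_congr rfl fun c _ => hterm c]
    have hx' : ((j • ∑ c : H ⧸ N.subgroupOf H, (c.out : G) • f ((c.out : G)⁻¹ • m) : B) : B ⧸ T) =
        x := by
      rw [← hx, QuotientAddGroup.mk_nsmul, QuotientAddGroup.mk_sum]
      rfl
    rw [← mk_smul_eq hT hh hx', ← QuotientAddGroup.mk_sum, ← Finset.smul_sum,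
      ← QuotientAddGroup.mk_nsmul, smul_comm j h]
  · show QuotientAddGroup.map T S (AddMonoidHom.id B) hTS (j • ∑ c : H ⧸ N.subgroupOf H, tr c.out m) = φ m
    have hterm : ∀ c : H ⧸ N.subgroupOf H,
        QuotientAddGroup.map T S (AddMonoidHom.id B) hTS (tr c.out m) = φ m := by
      intro c
      have h1 : φ ((c.out : G)⁻¹ • m) = ((f ((c.out : G)⁻¹ • m) : B) : B ⧸ S) := by
        rw [← hlift, ← hf]; rfl
      have h2 := hφ.2 _ c.out.2 _ _ h1
      rw [smul_inv_smul] at h2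
      exact h2.symm
    rw [map_nsmul, map_sum, Finset.sum_congr rfl fun c _ => hterm c, Finset.sum_const,
      Finset.card_univ, ← Nat.card_eq_fintype_card, ← Subgroup.index_eq_card, smul_smul, mul_comm]
    conv_lhs => rw [← Nat.mod_add_div ((N.subgroupOf H).index * j) p, hj]
    rw [add_smul, one_smul, mul_smul, ← map_nsmul, ← map_nsmul, hA.killed, map_zero, add_zero]

/-- Multiplicativity in a chain. -/
theorem cQ_mul (hA : CoprimeAct p H N M) {R S T : AddSubgroup B} (hTS : T ≤ S) (hSR : S ≤ R)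
    (hR : StableUnder H R) (hS : StableUnder H S) (hT : StableUnder H T)
    (hfix : ∀ s ∈ N, ∀ x ∈ R, s • x = x) (hp : ∀ x ∈ R, p • x ∈ T) :
    cQ M H R T = cQ M H S T * cQ M H R S := by
  set π := QuotientAddGroup.map T S (AddMonoidHom.id B) hTS
  have hmem : ∀ ψ ∈ homSet M H R T, π.comp ψ ∈ homSet M H R S := fun ψ hψ =>
    ⟨fun m => by
      obtain ⟨a, ha, ha'⟩ := hψ.1 m
      exact ⟨a, ha, by rw [AddMonoidHom.comp_apply, ← ha']; rfl⟩,
    fun h hh m x hx => by
      obtain ⟨a, -, ha'⟩ := hψ.1 m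
      rw [AddMonoidHom.comp_apply, hψ.2 h hh m a ha'.symm]
      refine mk_smul_eq hS hh ?_
      rw [AddMonoidHom.comp_apply, ← ha'] at hx
      exact hx⟩
  let Φ : homGrp M (R := R) hT →+ homGrp M (R := R) hS :=
    AddMonoidHom.mk' (fun ψ => ⟨π.comp ψ.1, hmem ψ.1 ψ.2⟩) fun ψ ψ' => Subtype.ext
      (AddMonoidHom.comp_add _ _ _)
  have hΦ : Function.Surjective Φ := by
    rintro ⟨φ, hφ⟩
    obtain ⟨ψ, hψ, h⟩ := exists_homSet_lift hA hTS hR hT hfix hp hφ
    exact ⟨⟨ψ, hψ⟩, Subtype.ext (AddMonoidHom.ext h)⟩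
  have hker : Nat.card Φ.ker = cQ M H S T := by
    refine Nat.card_congr ⟨fun ψ => ⟨ψ.1.1, fun m => ?_, ψ.1.2.2⟩,
      fun ψ => ⟨⟨ψ.1, fun m => AddSubgroup.map_mono hSR (ψ.2.1 m), ψ.2.2⟩, ?_⟩,
      fun _ => rfl, fun _ => rfl⟩
    · obtain ⟨a, -, ha⟩ := ψ.1.2.1 m
      have h0 : π (ψ.1.1 m) = 0 := DFunLike.congr_fun (congrArg Subtype.val ψ.2) m
      rw [← ha] at h0
      exact ⟨a, (QuotientAddGroup.eq_zero_iff _).mp h0, ha⟩
    · refine Subtype.ext (AddMonoidHom.ext fun m => ?_)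
      obtain ⟨a, ha, ha'⟩ := ψ.2.1 m
      show π (ψ.1 m) = 0
      rw [← ha']
      exact (QuotientAddGroup.eq_zero_iff _).mpr ha
  show Nat.card (homGrp M (R := R) hT) = _
  rw [AddSubgroup.card_eq_card_quotient_mul_card_addSubgroup Φ.ker, hker, mul_comm,
    Nat.card_congr (QuotientAddGroup.quotientKerEquivOfSurjective Φ hΦ).toEquiv]
  rfl

/-- Transport along a homomorphism onto another subquotient. -/
theorem cQ_congr {B' : Type} [AddCommGroup B'] [DistribMulAction G B'] {R T : AddSubgroup B}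
    {R' T' : AddSubgroup B'} (hR : StableUnder H R) (hT : StableUnder H T)
    (hT' : StableUnder H T') (hTR : T ≤ R) (f : R →+ B' ⧸ T')
    (hrange : ∀ y, y ∈ f.range ↔ y ∈ R'.map (QuotientAddGroup.mk' T'))
    (hker : ∀ x : R, f x = 0 ↔ (x : B) ∈ T)
    (heq : ∀ h (hh : h ∈ H) (x : R) (y : B'), f x = (y : B' ⧸ T') →
      f ⟨h • (x : B), hR h hh x x.2⟩ = ((h • y : B') : B' ⧸ T')) :
    cQ M H R T = cQ M H R' T' := by
  set Rt := R.map (QuotientAddGroup.mk' T)
  let g : R →+ Rt := ((QuotientAddGroup.mk' T).comp R.subtype).codRestrict _ fun x =>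
    ⟨x, x.2, rfl⟩
  have hg : Function.Surjective g := by
    rintro ⟨_, x, hx, rfl⟩
    exact ⟨⟨x, hx⟩, rfl⟩
  have hkg : g.ker = f.ker := by
    ext x
    rw [AddMonoidHom.mem_ker, AddMonoidHom.mem_ker, hker]
    exact Subtype.ext_iff.trans (QuotientAddGroup.eq_zero_iff _)
  let e : Rt ≃+ f.range :=
    (QuotientAddGroup.quotientKerEquivOfSurjective g hg).symm.trans
      ((QuotientAddGroup.quotientAddEquivOfEq hkg).trans (QuotientAddGroup.quotientKerEquivRange f))
  have he : ∀ x : R, (e (g x) : B' ⧸ T') = f x := fun x => by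
    show ((QuotientAddGroup.quotientKerEquivRange f) (QuotientAddGroup.quotientAddEquivOfEq hkg
      ((QuotientAddGroup.quotientKerEquivOfSurjective g hg).symm (g x))) : B' ⧸ T') = f x
    rw [show (QuotientAddGroup.quotientKerEquivOfSurjective g hg).symm (g x) =
      (x : R ⧸ g.ker) from (AddEquiv.symm_apply_eq _).mpr rfl]
    rfl
  refine Nat.card_congr
    ⟨fun φ => ⟨(f.range.subtype.comp e.toAddMonoidHom).comp (φ.1.codRestrict Rt φ.2.1), fun m =>
        (hrange _).mp (e _).2, fun h hh m y hy => ?_⟩,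
      fun φ => ⟨(Rt.subtype.comp e.symm.toAddMonoidHom).comp
        (φ.1.codRestrict f.range fun m => (hrange _).mpr (φ.2.1 m)), fun m => (e.symm _).2,
        fun h hh m x hx => ?_⟩,
      fun φ => Subtype.ext (AddMonoidHom.ext fun m => congrArg Subtype.val (e.symm_apply_apply _)),
      fun φ => Subtype.ext (AddMonoidHom.ext fun m => congrArg Subtype.val (e.apply_symm_apply _))⟩
  · obtain ⟨a, ha, ha'⟩ := φ.2.1 m
    have h1 : φ.1.codRestrict Rt φ.2.1 m = g ⟨a, ha⟩ := Subtype.ext ha'.symm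
    have h2 : φ.1.codRestrict Rt φ.2.1 (h • m) = g ⟨h • a, hR h hh a ha⟩ :=
      Subtype.ext (φ.2.2 h hh m a ha'.symm)
    show (e (φ.1.codRestrict Rt φ.2.1 (h • m)) : B' ⧸ T') = _
    change (e (φ.1.codRestrict Rt φ.2.1 m) : B' ⧸ T') = _ at hy
    rw [h1, he] at hy
    rw [h2, he]
    exact heq h hh ⟨a, ha⟩ y hy
  · obtain ⟨z, hz⟩ := hg (e.symm (φ.1.codRestrict f.range (fun m => (hrange _).mpr (φ.2.1 m)) m))
    have hz' : f z = φ.1 m := by rw [← he, hz, AddEquiv.apply_symm_apply]; rfl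
    obtain ⟨y, -, hy⟩ := φ.2.1 m
    have h2 := φ.2.2 h hh m y hy.symm
    have h3 := heq h hh z y (hz'.trans hy.symm)
    have hxz : (x : B ⧸ T) = ((z : B) : B ⧸ T) := by
      rw [← hx]
      exact (congrArg Subtype.val hz).symm
    rw [mk_smul_eq hT hh hxz]
    show ((e.symm _ : Rt) : B ⧸ T) = _
    refine congrArg Subtype.val ((e.symm_apply_eq (y := g ⟨h • (z : B), hR h hh z z.2⟩)).mpr (Subtype.ext ?_))
    rw [he, h3, ← h2]
    rfl

theorem cQ_self (R : AddSubgroup B) (hR : StableUnder H R) : cQ M H R R = 1 := by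
  refine Nat.card_eq_one_iff_exists.mpr ⟨⟨0, (homGrp M (R := R) hR).zero_mem⟩, fun φ =>
    Subtype.ext (AddMonoidHom.ext fun m => ?_)⟩
  obtain ⟨a, ha, ha'⟩ := φ.2.1 m
  rw [← ha']
  exact (QuotientAddGroup.eq_zero_iff _).mpr ha

theorem cQ_pos [Finite M] {R T : AddSubgroup B} (hT : StableUnder H T)
    [Finite (R.map (QuotientAddGroup.mk' T))] : 0 < cQ M H R T := by
  haveI : Finite (homSet M H R T) :=
    Finite.of_injective (fun φ (m : M) => (⟨φ.1 m, φ.2.1 m⟩ : R.map (QuotientAddGroup.mk' T)))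
      fun φ ψ h => Subtype.ext (AddMonoidHom.ext fun m => congrArg Subtype.val (congrFun h m))
  haveI : Nonempty (homSet M H R T) := ⟨⟨0, (homGrp M (R := R) hT).zero_mem⟩⟩
  exact Nat.card_pos

/-- A homomorphism with kernel `T` identifies `R / T` with its image. -/
theorem exists_quotEquiv {V : Type} [AddCommGroup V] {R T : AddSubgroup B} (f : R →+ V)
    (hf : Function.Surjective f) (hker : ∀ x : R, f x = 0 ↔ (x : B) ∈ T) :
    ∃ e : R.map (QuotientAddGroup.mk' T) ≃+ V,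
      ∀ x : R, e ⟨((x : B) : B ⧸ T), x, x.2, rfl⟩ = f x := by
  let g : R →+ R.map (QuotientAddGroup.mk' T) :=
    ((QuotientAddGroup.mk' T).comp R.subtype).codRestrict _ fun x => ⟨x, x.2, rfl⟩
  have hg : Function.Surjective g := by
    rintro ⟨_, x, hx, rfl⟩
    exact ⟨⟨x, hx⟩, rfl⟩
  have hkg : g.ker = f.ker := by
    ext x
    rw [AddMonoidHom.mem_ker, AddMonoidHom.mem_ker, hker]
    exact Subtype.ext_iff.trans (QuotientAddGroup.eq_zero_iff _)
  refine ⟨(QuotientAddGroup.quotientKerEquivOfSurjective g hg).symm.trans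
    ((QuotientAddGroup.quotientAddEquivOfEq hkg).trans
      (QuotientAddGroup.quotientKerEquivOfSurjective f hf)), fun x => ?_⟩
  show (QuotientAddGroup.quotientKerEquivOfSurjective f hf) (QuotientAddGroup.quotientAddEquivOfEq hkg
    ((QuotientAddGroup.quotientKerEquivOfSurjective g hg).symm (g x))) = f x
  rw [show (QuotientAddGroup.quotientKerEquivOfSurjective g hg).symm (g x) =
    (x : R ⧸ g.ker) from (AddEquiv.symm_apply_eq _).mpr rfl]
  rfl

/-- Maps into a subquotient with trivial action. -/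
theorem cQ_eq_invariant {V : Type} [AddCommGroup V] {R T : AddSubgroup B}
    (hR : StableUnder H R) (hT : StableUnder H T) (f : R →+ V) (hf : Function.Surjective f)
    (hker : ∀ x : R, f x = 0 ↔ (x : B) ∈ T)
    (hinv : ∀ h (hh : h ∈ H) (x : R), f ⟨h • (x : B), hR h hh x x.2⟩ = f x) :
    cQ M H R T = Nat.card {φ : M →+ V // ∀ h ∈ H, ∀ m, φ (h • m) = φ m} := by
  obtain ⟨e, he⟩ := exists_quotEquiv f hf hker
  let Rt := R.map (QuotientAddGroup.mk' T)
  have he' : ∀ (a : B) (ha : a ∈ R),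
      e ⟨(a : B ⧸ T), a, ha, rfl⟩ = f ⟨a, ha⟩ := fun a ha => he ⟨a, ha⟩
  refine Nat.card_congr
    ⟨fun φ => ⟨e.toAddMonoidHom.comp (φ.1.codRestrict Rt φ.2.1), fun h hh m => ?_⟩,
      fun φ => ⟨(Rt.subtype.comp e.symm.toAddMonoidHom).comp φ.1, fun m => (e.symm _).2,
        fun h hh m x hx => ?_⟩,
      fun φ => Subtype.ext (AddMonoidHom.ext fun m => congrArg Subtype.val (e.symm_apply_apply _)),
      fun φ => Subtype.ext (AddMonoidHom.ext fun m => e.apply_symm_apply _)⟩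
  · obtain ⟨a, ha, ha'⟩ := φ.2.1 m
    show e (φ.1.codRestrict Rt φ.2.1 (h • m)) = e (φ.1.codRestrict Rt φ.2.1 m)
    rw [show φ.1.codRestrict Rt φ.2.1 (h • m) = ⟨((h • a : B) : B ⧸ T), h • a, hR h hh a ha, rfl⟩
        from Subtype.ext (φ.2.2 h hh m a ha'.symm),
      show φ.1.codRestrict Rt φ.2.1 m = ⟨(a : B ⧸ T), a, ha, rfl⟩ from Subtype.ext ha'.symm,
      he' _ (hR h hh a ha), he' a ha]
    exact hinv h hh ⟨a, ha⟩
  · show (e.symm (φ.1 (h • m)) : B ⧸ T) = _
    rw [φ.2 h hh]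
    obtain ⟨z, hz, hz'⟩ := (e.symm (φ.1 m)).2
    have hxz : (x : B ⧸ T) = (z : B ⧸ T) := hx.symm.trans hz'.symm
    rw [mk_smul_eq hT hh hxz]
    refine congrArg Subtype.val (e.symm_apply_eq.mpr ?_ :
      e.symm (φ.1 m) = (⟨((h • z : B) : B ⧸ T), h • z, hR h hh z hz, rfl⟩ : Rt))
    rw [he' _ (hR h hh z hz), hinv h hh ⟨z, hz⟩, ← he' z hz, ← e.apply_symm_apply (φ.1 m)]
    exact congrArg e (Subtype.ext hz'.symm)

omit hpf in
theorem card_linHom_fin {M : Type} [AddCommGroup M] [Finite M] [hp : Fact p.Prime]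
    {V : Type} [AddCommGroup V] [Finite V] [Module (ZMod p) M] [Module (ZMod p) V]
    {d : ℕ} (hd : Nat.card V = p ^ d) : Nat.card (M →+ V) = Nat.card M ^ d := by
  have h1 := Module.natCard_eq_pow_finrank (K := ZMod p) (V := M)
  have h2 := Module.natCard_eq_pow_finrank (K := ZMod p) (V := V)
  have h3 := Module.natCard_eq_pow_finrank (K := ZMod p) (V := M →ₗ[ZMod p] V)
  rw [Module.finrank_linearMap] at h3
  rw [hd, Nat.card_zmod] at h2
  rw [Nat.card_congr (⟨fun f => f.toZModLinearMap p, fun f => f.toAddMonoidHom,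
    fun _ => rfl, fun _ => rfl⟩ : (M →+ V) ≃ (M →ₗ[ZMod p] V)), h3, h1, Nat.card_zmod, ← pow_mul,
    ← Nat.pow_right_injective hp.out.two_le h2]

omit hpf in
theorem card_addHom_fin {M : Type} [AddCommGroup M] [Finite M] [hp : Fact p.Prime]
    {V : Type} [AddCommGroup V] [Finite V] (hM : ∀ m : M, p • m = 0) (hV : ∀ v : V, p • v = 0)
    {d : ℕ} (hd : Nat.card V = p ^ d) : Nat.card (M →+ V) = Nat.card M ^ d :=
  @card_linHom_fin p M _ _ _ V _ _ (AddCommGroup.zmodModule hM) (AddCommGroup.zmodModule hV) d hd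

/-- The section of a free action. -/
theorem exists_free_coords {D : Type} [Group D] (H N : Subgroup D) [N.Normal] (hle : N ≤ H)
    (y : D) : ∃ h ∈ H, ∃ c : D ⧸ H, (h⁻¹ * y)⁻¹ * c.out⁻¹ ∈ N := by
  have hh : y * (QuotientGroup.mk (y⁻¹) : D ⧸ H).out ∈ H := by
    have := QuotientGroup.eq.mp (QuotientGroup.out_eq' (QuotientGroup.mk (y⁻¹) : D ⧸ H)).symm
    rwa [inv_inv] at this
  refine ⟨_, hh, QuotientGroup.mk (y⁻¹), ?_⟩
  rw [show ((y * (QuotientGroup.mk (y⁻¹) : D ⧸ H).out)⁻¹ * y)⁻¹ *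
    (QuotientGroup.mk (y⁻¹) : D ⧸ H).out⁻¹ = 1 by group]
  exact N.one_mem

/-- Maps into an induced module. -/
theorem cQ_eq_induced [Finite M] [N.Normal] [H.FiniteIndex] [N.FiniteIndex]
    (hA : CoprimeAct p H N M) {V : Type} [AddCommGroup V] [Finite V] (hV : ∀ v : V, p • v = 0)
    (hd : Nat.card V = p) {R T : AddSubgroup B} (hR : StableUnder H R) (hT : StableUnder H T)
    (f : R →+ (G ⧸ N → V)) (hf : Function.Surjective f)
    (hker : ∀ x : R, f x = 0 ↔ (x : B) ∈ T)
    (heq : ∀ h (hh : h ∈ H) (x : R) (c : G ⧸ N),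
      f ⟨h • (x : B), hR h hh x x.2⟩ c = f x (h⁻¹ • c)) :
    cQ M H R T = Nat.card M ^ H.index := by
  classical
  obtain ⟨e, he⟩ := exists_quotEquiv f hf hker
  let Rt := R.map (QuotientAddGroup.mk' T)
  have he' : ∀ (a : B) (ha : a ∈ R),
      e ⟨(a : B ⧸ T), a, ha, rfl⟩ = f ⟨a, ha⟩ := fun a ha => he ⟨a, ha⟩
  have hcard : Nat.card (M →+ (G ⧸ H → V)) = Nat.card M ^ H.index := by
    haveI : Finite (G ⧸ H → V) := inferInstance
    refine card_addHom_fin hA.killed (fun v => funext fun c => hV (v c)) ?_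
    rw [Nat.card_fun, hd, Subgroup.index_eq_card]
  rw [← hcard]
  have hFeq : ∀ (φ : homSet M H R T) h, h ∈ H → ∀ m c,
      e (φ.1.codRestrict Rt φ.2.1 (h • m)) c = e (φ.1.codRestrict Rt φ.2.1 m) (h⁻¹ • c) := by
    intro φ h hh m c
    obtain ⟨a, ha, ha'⟩ := φ.2.1 m
    rw [show φ.1.codRestrict Rt φ.2.1 (h • m) = ⟨((h • a : B) : B ⧸ T), h • a, hR h hh a ha, rfl⟩
        from Subtype.ext (φ.2.2 h hh m a ha'.symm),
      show φ.1.codRestrict Rt φ.2.1 m = ⟨(a : B ⧸ T), a, ha, rfl⟩ from Subtype.ext ha'.symm,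
      he' _ (hR h hh a ha), he' a ha]
    exact heq h hh ⟨a, ha⟩ c
  choose hc hhc cc hcc using fun y : G => exists_free_coords H N hA.le y
  -- extension of a function of the orbit representatives
  let ext' : (M →+ (G ⧸ H → V)) → M → G ⧸ N → V := fun ψ m c =>
    ψ ((hc c.out)⁻¹ • m) (cc c.out)
  have huniq : ∀ (h : G) (d : G ⧸ H) (n : G), h ∈ H → n ∈ N →
      ∀ (ψ : M →+ (G ⧸ H → V)) m, ext' ψ m (QuotientGroup.mk (h * d.out⁻¹ * n)) =
        ψ (h⁻¹ • m) d := by
    intro h d n hh hn ψ m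
    set y := (QuotientGroup.mk (h * d.out⁻¹ * n) : G ⧸ N).out
    have hy : (h * d.out⁻¹ * n)⁻¹ * y ∈ N := QuotientGroup.eq.mp (QuotientGroup.out_eq' _).symm
    set k := hc y
    set e' := cc y
    have hk : (k⁻¹ * y)⁻¹ * e'.out⁻¹ ∈ N := hcc y
    -- both descriptions of the coset
    have h1 : (h * d.out⁻¹)⁻¹ * (k * e'.out⁻¹) ∈ N := by
      have := N.mul_mem (N.mul_mem hn hy) hk
      convert this using 1
      group
    have hde : e' = d := by
      rw [← QuotientGroup.out_eq' e', ← QuotientGroup.out_eq' d]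
      refine QuotientGroup.eq.mpr ?_
      have h2 : e'.out * k⁻¹ * h * d.out⁻¹ ∈ N := by
        have := N.inv_mem h1
        convert this using 1
        group
      have h3 : k⁻¹ * h * d.out⁻¹ * e'.out ∈ N := by
        have := ‹N.Normal›.conj_mem _ h2 e'.out⁻¹
        convert this using 1
        group
      have h4 : d.out⁻¹ * e'.out ∈ H := by
        have := H.mul_mem (H.mul_mem (H.inv_mem hh) (show k ∈ H from hhc y)) (hA.le h3)
        convert this using 1
        group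
      have := H.inv_mem h4
      convert this using 1
      group
    have hkh : ∃ t ∈ N, k = h * t := by
      refine ⟨h⁻¹ * k, ?_, by group⟩
      rw [hde] at h1
      have := ‹N.Normal›.conj_mem _ h1 d.out⁻¹
      convert this using 1
      group
    obtain ⟨t, ht, hkt⟩ := hkh
    show ψ (k⁻¹ • m) e' = _
    rw [hde, hkt, mul_inv_rev, mul_smul, hA.trivial _ (N.inv_mem ht)]
  refine Nat.card_congr
    ⟨fun φ => AddMonoidHom.mk' (fun m (d : G ⧸ H) =>
        e (φ.1.codRestrict Rt φ.2.1 m) (QuotientGroup.mk d.out⁻¹))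
        (fun m m' => by funext d; simp only [map_add, Pi.add_apply]),
      fun ψ => ⟨(Rt.subtype.comp e.symm.toAddMonoidHom).comp (AddMonoidHom.mk' (ext' ψ)
        (fun m m' => by funext c; simp only [ext', smul_add, map_add, Pi.add_apply])),
        fun m => (e.symm _).2, fun h hh m x hx => ?_⟩, fun φ => ?_, fun ψ => ?_⟩
  · show (e.symm (ext' ψ (h • m)) : B ⧸ T) = _
    obtain ⟨z, hz, hz'⟩ := (e.symm (ext' ψ m)).2
    have hxz : (x : B ⧸ T) = (z : B ⧸ T) := hx.symm.trans hz'.symm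
    rw [mk_smul_eq hT hh hxz]
    refine congrArg Subtype.val (e.symm_apply_eq.mpr ?_ :
      e.symm (ext' ψ (h • m)) = (⟨((h • z : B) : B ⧸ T), h • z, hR h hh z hz, rfl⟩ : Rt))
    rw [he' _ (hR h hh z hz)]
    funext c
    rw [heq h hh ⟨z, hz⟩, ← he' z hz,
      show (⟨(z : B ⧸ T), z, hz, rfl⟩ : Rt) = e.symm (ext' ψ m) from Subtype.ext hz',
      e.apply_symm_apply]
    induction c using QuotientGroup.induction_on with
    | H g =>
      have h1 := hcc g
      rw [show g = hc g * (cc g).out⁻¹ * (((hc g)⁻¹ * g)⁻¹ * (cc g).out⁻¹)⁻¹ by group,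
        huniq _ _ _ (hhc g) (N.inv_mem h1)]
      show _ = ext' ψ m (QuotientGroup.mk (h⁻¹ * (hc g * _ * _)))
      rw [← mul_assoc, ← mul_assoc, huniq _ _ _ (H.mul_mem (H.inv_mem hh) (hhc g)) (N.inv_mem h1),
        mul_inv_rev, inv_inv, mul_smul]
  · refine Subtype.ext (AddMonoidHom.ext fun m => ?_)
    refine Eq.trans (congrArg Subtype.val (e.symm_apply_eq.mpr ?_ :
      e.symm _ = φ.1.codRestrict Rt φ.2.1 m)) rfl
    funext c
    show e (φ.1.codRestrict Rt φ.2.1 ((hc c.out)⁻¹ • m)) (QuotientGroup.mk (cc c.out).out⁻¹) = _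
    rw [hFeq φ _ (H.inv_mem (hhc c.out)), inv_inv]
    show e (φ.1.codRestrict Rt φ.2.1 m) (QuotientGroup.mk (hc c.out * (cc c.out).out⁻¹)) = _
    refine congrArg (e (φ.1.codRestrict Rt φ.2.1 m)) ?_
    conv_rhs => rw [← QuotientGroup.out_eq' c]
    refine (QuotientGroup.eq.mpr ?_).symm
    have := hcc c.out
    convert this using 1
    group
  · ext m d
    show e (e.symm (ext' ψ m)) (QuotientGroup.mk d.out⁻¹) = _
    rw [e.apply_symm_apply]
    have := huniq 1 d 1 H.one_mem N.one_mem ψ m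
    rwa [one_mul, mul_one, inv_one, one_smul] at this

/-- Comparison of a finite index pair: multiplication and torsion. -/
theorem cQ_torsion_index [Finite M] (hA : CoprimeAct p H N M) (n : ℕ) :
    ∀ {R T : AddSubgroup B}, T.relIndex R = n → n ≠ 0 → T ≤ R → StableUnder H R → StableUnder H T →
      (∀ s ∈ N, ∀ x ∈ R, s • x = x) →
      Finite (R ⊓ (nsmulAddMonoidHom p).ker : AddSubgroup B) →
      cQ M H R (R.map (nsmulAddMonoidHom p)) * cQ M H (T ⊓ (nsmulAddMonoidHom p).ker) ⊥ =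
        cQ M H T (T.map (nsmulAddMonoidHom p)) * cQ M H (R ⊓ (nsmulAddMonoidHom p).ker) ⊥ := by
  induction n using Nat.strong_induction_on with
  | _ n ih =>
  intro R T hn hn0 hle hR hT hfix hfin
  haveI := hfin
  set π : B →+ B := nsmulAddMonoidHom p with hπ
  have hker : ∀ {x}, x ∈ π.ker ↔ p • x = 0 := Iff.rfl
  have hstk : StableUnder H π.ker := fun h _ x hx => by
    rw [hker] at hx ⊢
    rw [← smul_comm h p x, hx, smul_zero]
  have hmap : ∀ {S : AddSubgroup B}, StableUnder H S → StableUnder H (S.map π) := by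
    rintro S hS h hh _ ⟨x, hx, rfl⟩
    exact ⟨h • x, hS h hh x hx, (smul_comm p h x)⟩
  have hinf : ∀ {S S' : AddSubgroup B}, StableUnder H S → StableUnder H S' →
      StableUnder H (S ⊓ S') := fun h1 h2 h hh x hx => ⟨h1 h hh x hx.1, h2 h hh x hx.2⟩
  have hbot : StableUnder H (⊥ : AddSubgroup B) := fun h _ x hx => by
    rw [AddSubgroup.mem_bot.mp hx, smul_zero]; exact zero_mem _
  set S := R ⊓ T.comap π
  have hS : StableUnder H S := fun h hh x hx => ⟨hR h hh x hx.1, by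
    show p • (h • x) ∈ T
    rw [smul_comm]; exact hT h hh _ hx.2⟩
  have hTS : T ≤ S := fun x hx => ⟨hle hx, T.nsmul_mem hx p⟩
  rcases eq_or_ne S T with hST | hST
  · -- multiplication by `p` is bijective on the quotient
    have hsurj : ∀ r ∈ R, ∃ r' ∈ R, r - p • r' ∈ T := by
      haveI : (T.addSubgroupOf R).FiniteIndex := ⟨by
        show T.relIndex R ≠ 0
        rw [hn]; exact hn0⟩
      haveI : Finite (R ⧸ T.addSubgroupOf R) := AddSubgroup.finite_quotient_of_finiteIndex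
      let m := nsmulAddMonoidHom (α := R ⧸ T.addSubgroupOf R) p
      have hinj : Function.Injective m := (injective_iff_map_eq_zero m).mpr fun x hx => by
        obtain ⟨⟨r, hr⟩, rfl⟩ := QuotientAddGroup.mk_surjective x
        have h1 : p • r ∈ T := AddSubgroup.mem_addSubgroupOf.mp
          ((QuotientAddGroup.eq_zero_iff (p • (⟨r, hr⟩ : R))).mp hx)
        exact (QuotientAddGroup.eq_zero_iff _).mpr (hST ▸ ⟨hr, h1⟩ : r ∈ T)
      intro r hr
      obtain ⟨x, hx⟩ := Finite.surjective_of_injective hinj (QuotientAddGroup.mk (⟨r, hr⟩ : R))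
      obtain ⟨⟨r', hr'⟩, rfl⟩ := QuotientAddGroup.mk_surjective x
      refine ⟨r', hr', ?_⟩
      have := AddSubgroup.mem_addSubgroupOf.mp (QuotientAddGroup.eq.mp hx)
      rw [show r - p • r' = -(p • r') + r by abel]
      exact this
    have htor : R ⊓ π.ker = T ⊓ π.ker := le_antisymm
      (fun x hx => ⟨hST ▸ ⟨hx.1, by show p • x ∈ T; rw [hker.mp hx.2]; exact zero_mem _⟩, hx.2⟩)
      (inf_le_inf_right _ hle)
    have hmod : cQ M H T (T.map π) = cQ M H R (R.map π) := by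
      refine cQ_congr hT (hmap hT) (hmap hR) (by
        rintro _ ⟨x, hx, rfl⟩; exact T.nsmul_mem hx p)
        ((QuotientAddGroup.mk' (R.map π)).comp T.subtype) (fun y => ?_) (fun x => ?_)
        (fun h hh x y hy => mk_smul_eq (hmap hR) hh hy)
      · constructor
        · rintro ⟨x, rfl⟩; exact ⟨x, hle x.2, rfl⟩
        · rintro ⟨r, hr, rfl⟩
          obtain ⟨r', hr', ht⟩ := hsurj r hr
          refine ⟨⟨_, ht⟩, (QuotientAddGroup.eq).mpr ⟨r', hr', ?_⟩⟩
          show p • r' = -(r - p • r') + r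
          abel
      · refine (QuotientAddGroup.eq_zero_iff _).trans ⟨?_, fun hx => AddSubgroup.map_mono hle hx⟩
        rintro ⟨r, hr, hrx⟩
        have h1 : r ∈ S := ⟨hr, by show p • r ∈ T; rw [show p • r = (x : B) from hrx]; exact x.2⟩
        exact ⟨r, hST ▸ h1, hrx⟩
    rw [hmod, htor]
  · have hfi : T.relIndex S * S.relIndex R = n :=
      hn ▸ AddSubgroup.relIndex_mul_relIndex T S R hTS inf_le_left
    have h1 : T.relIndex S ≠ 0 := fun h => hn0 (by rw [← hfi, h, zero_mul])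
    have h2 : T.relIndex S ≠ 1 := fun h => hST (le_antisymm (AddSubgroup.relIndex_eq_one.mp h) hTS)
    have h3 : S.relIndex R ≠ 0 := fun h => hn0 (by rw [← hfi, h, mul_zero])
    have hlt : S.relIndex R < n := by
      rw [← hfi]
      exact lt_mul_of_one_lt_left (Nat.pos_of_ne_zero h3) (by omega)
    have hfixS : ∀ s ∈ N, ∀ x ∈ S, s • x = x := fun s hs x hx => hfix s hs x hx.1
    have hA1 := ih _ hlt rfl h3 inf_le_left hR hS hfix hfin
    -- one step killed by `p`
    have hpS : ∀ x ∈ S, p • x ∈ T := fun x hx => hx.2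
    have hpT : S.map π ≤ T := by rintro _ ⟨x, hx, rfl⟩; exact hx.2
    have hTmap : T.map π ≤ S.map π := AddSubgroup.map_mono hTS
    set W := T ⊔ (S ⊓ π.ker)
    have hW : StableUnder H W := fun h hh x hx => by
      obtain ⟨a, ha, b, hb, rfl⟩ := AddSubgroup.mem_sup.mp hx
      rw [smul_add]
      exact AddSubgroup.add_mem_sup (hT h hh a ha) ⟨hS h hh b hb.1, hstk h hh b hb.2⟩
    have hWS : W ≤ S := sup_le hTS inf_le_left
    have e1 := cQ_mul hA (R := S) (S := T) (T := S.map π) hpT hTS hS hT (hmap hS) hfixS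
      (fun x hx => ⟨x, hx, rfl⟩)
    have e2 := cQ_mul hA (R := T) (S := S.map π) (T := T.map π) hTmap hpT hT (hmap hS) (hmap hT)
      (fun s hs x hx => hfixS s hs x (hTS hx)) (fun x hx => ⟨x, hx, rfl⟩)
    have e3 := cQ_mul hA (R := S) (S := W) (T := T) le_sup_left hWS hS hW hT hfixS hpS
    have e4 := cQ_mul hA (R := S ⊓ π.ker) (S := T ⊓ π.ker) (T := ⊥) bot_le
      (inf_le_inf_right _ hTS) (hinf hS hstk) (hinf hT hstk) hbot
      (fun s hs x hx => hfixS s hs x hx.1) (fun x hx => by rw [hker.mp hx.2]; exact zero_mem _)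
    have e5 : cQ M H S W = cQ M H (S.map π) (T.map π) := by
      refine cQ_congr hS hW (hmap hT) hWS
        (((QuotientAddGroup.mk' (T.map π)).comp π).comp S.subtype) (fun y => ?_) (fun x => ?_)
        (fun h hh x y hy => ?_)
      · constructor
        · rintro ⟨x, rfl⟩; exact ⟨π x, ⟨x, x.2, rfl⟩, rfl⟩
        · rintro ⟨_, ⟨x, hx, rfl⟩, rfl⟩; exact ⟨⟨x, hx⟩, rfl⟩
      · refine (QuotientAddGroup.eq_zero_iff _).trans ⟨?_, fun hx => ?_⟩
        · rintro ⟨t, ht, htx⟩
          rw [show (x : B) = t + ((x : B) - t) by abel]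
          exact AddSubgroup.add_mem_sup ht ⟨S.sub_mem x.2 (hTS ht),
            show p • ((x : B) - t) = 0 by rw [nsmul_sub, sub_eq_zero]; exact htx.symm⟩
        · obtain ⟨a, ha, b, hb, hab⟩ := AddSubgroup.mem_sup.mp hx
          refine ⟨a, ha, ?_⟩
          show π a = π x
          rw [← hab, map_add, show π b = 0 from hb.2, add_zero]
      · show ((π (h • (x : B)) : B) : B ⧸ T.map π) = _
        rw [show π (h • (x : B)) = h • π (x : B) from smul_comm p h (x : B)]
        exact mk_smul_eq (hmap hT) hh hy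
    have e6 : cQ M H (S ⊓ π.ker) (T ⊓ π.ker) = cQ M H W T := by
      refine cQ_congr (hinf hS hstk) (hinf hT hstk) hT (inf_le_inf_right _ hTS)
        ((QuotientAddGroup.mk' T).comp (S ⊓ π.ker).subtype) (fun y => ?_) (fun x => ?_)
        (fun h hh x y hy => mk_smul_eq hT hh hy)
      · constructor
        · rintro ⟨x, rfl⟩; exact ⟨x, le_sup_right (a := T) x.2, rfl⟩
        · rintro ⟨x, hx, rfl⟩
          obtain ⟨a, ha, b, hb, rfl⟩ := AddSubgroup.mem_sup.mp hx
          refine ⟨⟨b, hb⟩, ?_⟩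
          show ((b : B) : B ⧸ T) = ((a + b : B) : B ⧸ T)
          rw [QuotientAddGroup.mk_add, (QuotientAddGroup.eq_zero_iff a).mpr ha, zero_add]
      · exact (QuotientAddGroup.eq_zero_iff _).trans ⟨fun hx => ⟨hx, x.2.2⟩, fun hx => hx.1⟩
    have hB : cQ M H S (S.map π) * cQ M H (T ⊓ π.ker) ⊥ =
        cQ M H T (T.map π) * cQ M H (S ⊓ π.ker) ⊥ := by
      rw [e1, e2, e3, e4, e5, e6]; ring
    have hpos : 0 < cQ M H (S ⊓ π.ker) ⊥ := by
      haveI : Finite (S ⊓ π.ker : AddSubgroup B) :=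
        Finite.of_injective (AddSubgroup.inclusion (inf_le_inf_right π.ker (inf_le_left : S ≤ R)))
          (AddSubgroup.inclusion_injective _)
      haveI : Finite ((S ⊓ π.ker).map (QuotientAddGroup.mk' (⊥ : AddSubgroup B))) :=
        Finite.of_surjective (fun x : (S ⊓ π.ker : AddSubgroup B) => (⟨_, x, x.2, rfl⟩ :
          (S ⊓ π.ker).map (QuotientAddGroup.mk' (⊥ : AddSubgroup B))))
          fun y => by obtain ⟨_, x, hx, rfl⟩ := y; exact ⟨⟨x, hx⟩, rfl⟩
      exact cQ_pos hbot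
    refine mul_right_cancel₀ hpos.ne' ?_
    calc _ = cQ M H R (R.map π) * cQ M H (S ⊓ π.ker) ⊥ * cQ M H (T ⊓ π.ker) ⊥ := by ring
      _ = cQ M H (R ⊓ π.ker) ⊥ * (cQ M H S (S.map π) * cQ M H (T ⊓ π.ker) ⊥) := by rw [hA1]; ring
      _ = _ := by rw [hB]; ring

end Fermat.Agent.GD
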