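import Fermat.Agent.GD.Local.Hensel
import Fermat.Agent.NewVec.InertiaField

/-!
# The henselisation of `ℚ` at a place and its finite extensions: values and integers
-/

set_option autoImplicit false
set_option linter.style.haveILetI false

noncomputable section

namespace Fermat.Agent.GD

open IsLocalRing Polynomial IntermediateField
open Fermat.Agent.Galois

local notation "ℚb" => AlgebraicClosure ℚ

variable (A : ValuationSubring (AlgebraicClosure ℚ))

/-- The fixed field of the decomposition group. -/
def decField : IntermediateField ℚ (AlgebraicClosure ℚ) :=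
  IntermediateField.fixedField (A.decompositionSubgroup ℚ)

theorem isHens_decField : IsHens A (decField A) := by
  intro σ hσ
  -- on every element, `σ` agrees with an element of the decomposition group
  have key : ∀ x : ℚb, ∃ τ ∈ A.decompositionSubgroup ℚ, τ x = σ x := by
    intro x
    haveI : Normal ℚ ℚb := IsGalois.to_normal
    haveI : FiniteDimensional ℚ (ℚ⟮x⟯) :=
      IntermediateField.adjoin.finiteDimensional (Algebra.IsIntegral.isIntegral x)
    let L : IntermediateField ℚ ℚb := IntermediateField.normalClosure ℚ (ℚ⟮x⟯) ℚb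
    have hxL : x ∈ L :=
      (IntermediateField.le_normalClosure _) (IntermediateField.mem_adjoin_simple_self ℚ x)
    haveI : FiniteDimensional ℚ L := normalClosure.is_finiteDimensional ℚ _ ℚb
    haveI : Normal ℚ L := normalClosure.normal ℚ _ ℚb
    haveI : IsGalois ℚ L := ⟨⟩
    let G : Subgroup (L ≃ₐ[ℚ] L) :=
      (A.decompositionSubgroup ℚ).map (AlgEquiv.restrictNormalHom L)
    have hmem : AlgEquiv.restrictNormalHom L σ ∈ G := by
      rw [← IntermediateField.fixingSubgroup_fixedField G]
      rintro ⟨y, hy⟩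
      apply Subtype.ext
      refine (AlgEquiv.restrictNormal_commutes σ L y).trans ?_
      have hyD : (y : ℚb) ∈ decField A := fun τ => by
        show (τ : GQ) (y : ℚb) = y
        exact (AlgEquiv.restrictNormal_commutes (τ : GQ) L y).symm.trans
          (congrArg Subtype.val (hy ⟨_, Subgroup.mem_map_of_mem _ τ.2⟩))
      exact hσ ⟨_, hyD⟩
    obtain ⟨τ, hτ, hτσ⟩ := hmem
    refine ⟨τ, hτ, ?_⟩
    have h1 := AlgEquiv.restrictNormal_commutes τ L ⟨x, hxL⟩
    have h2 := AlgEquiv.restrictNormal_commutes σ L ⟨x, hxL⟩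
    exact h1.symm.trans ((congrArg (fun g : L ≃ₐ[ℚ] L => ((g ⟨x, hxL⟩ : L) : ℚb)) hτσ).trans h2)
  have hval : ∀ x, A.valuation (σ x) = A.valuation x := fun x => by
    obtain ⟨τ, hτ, hτx⟩ := key x
    rw [← hτx, Galois.valuation_apply_eq hτ]
  refine SetLike.ext fun x => ?_
  rw [ValuationSubring.mem_pointwise_smul_iff_inv_smul_mem, ← A.valuation_le_one_iff,
    ← A.valuation_le_one_iff, ← hval (σ⁻¹ • x)]
  show A.valuation (σ (σ⁻¹ x)) ≤ 1 ↔ _
  rw [← AlgEquiv.mul_apply, mul_inv_cancel, AlgEquiv.one_apply]

variable {A}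

theorem apply_eq_of_mem_decField {x : ℚb} (hx : x ∈ decField A) {σ : GQ}
    (hσ : σ ∈ A.decompositionSubgroup ℚ) : σ x = x :=
  hx ⟨σ, hσ⟩

/-- The values on the henselisation are the powers of the value of the prime. -/
theorem exists_val_eq_zpow {q : ℕ} (hq : q.Prime) (hA : A.LiesOverPrime q) {x : ℚb}
    (hx : x ∈ decField A) (hx0 : x ≠ 0) : ∃ k : ℤ, A.valuation x = A.valuation (q : ℚb) ^ k :=
  NewVec.exists_val_eq_zpow_of_fixed hq hA
    (fun σ hσ => by
      obtain ⟨⟨τ, hτ⟩, -, rfl⟩ := hσ
      exact apply_eq_of_mem_decField hx hτ) hx0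

/-- The residues of the henselisation lie in the prime field. -/
theorem exists_int_sub_mem_nonunits {q : ℕ} (hq : q.Prime) (hA : A.LiesOverPrime q) {x : ℚb}
    (hx : x ∈ decField A) (hxA : x ∈ A) : ∃ a : ℤ, x - a ∈ A.nonunits := by
  haveI : Fact q.Prime := ⟨hq⟩
  obtain ⟨σ, hσ⟩ := exists_isFrobeniusAt hq hA
  obtain ⟨hdec, hfr⟩ := hσ
  set r : ResidueField A := residue A ⟨x, hxA⟩
  have hr : r ^ q = r := by
    rw [← hfr r]
    show (⟨σ, hdec⟩ : A.decompositionSubgroup ℚ) • residue A (⟨x, hxA⟩ : A) = _
    rw [← ResidueField.residue_smul]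
    exact congrArg (residue A) (Subtype.ext (apply_eq_of_mem_decField hx hdec))
  haveI : CharP (ResidueField A) q := by
    refine (CharP.charP_iff_prime_eq_zero hq).mpr ?_
    rw [← map_natCast (residue A), residue_eq_zero_iff, ← ValuationSubring.coe_mem_nonunits_iff]
    simpa [ValuationSubring.LiesOverPrime] using hA
  obtain ⟨a, ha⟩ : ∃ a : ZMod q, ZMod.castHom dvd_rfl (ResidueField A) a = r := by
    classical
    by_contra hcon
    push Not at hcon
    set f : ZMod q →+* ResidueField A := ZMod.castHom dvd_rfl _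
    set p : (ResidueField A)[X] := X ^ q - X
    have hp : p ≠ 0 := FiniteField.X_pow_card_sub_X_ne_zero _ hq.one_lt
    have hsub : insert r (Finset.univ.image f) ⊆ p.roots.toFinset := by
      intro y hy
      rw [Multiset.mem_toFinset, mem_roots hp, IsRoot.def, eval_sub, eval_pow, eval_X, sub_eq_zero]
      rcases Finset.mem_insert.mp hy with rfl | hy
      · exact hr
      · obtain ⟨b, -, rfl⟩ := Finset.mem_image.mp hy
        rw [← map_pow, ZMod.pow_card]
    have h1 := (Finset.card_le_card hsub).trans ((Multiset.toFinset_card_le _).trans (card_roots' p))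
    rw [Finset.card_insert_of_notMem (by simpa using hcon),
      Finset.card_image_of_injective _ f.injective, Finset.card_univ, ZMod.card,
      FiniteField.X_pow_card_sub_X_natDegree_eq _ hq.one_lt] at h1
    omega
  obtain ⟨m, rfl⟩ := ZMod.intCast_surjective a
  rw [map_intCast] at ha
  refine ⟨m, ?_⟩
  have h : residue A (⟨x, hxA⟩ - (m : A)) = 0 := by
    rw [map_sub, map_intCast, ha, sub_self]
  rw [residue_eq_zero_iff, ← ValuationSubring.coe_mem_nonunits_iff] at h
  simpa using h

end Fermat.Agent.GD
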