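import Fermat.Agent.GD.Defs

/-!
# Inflation and restriction in degree two when the first cohomology vanishes
-/

set_option autoImplicit false
set_option linter.style.haveILetI false

noncomputable section

namespace Fermat.Agent.GD

universe u w

variable {L : LevelGroup.{u}} {C : Type w} [AddCommGroup C] [DistribMulAction L.G C]

/-- The vanishing of the first cohomology of a subgroup, at all levels. -/
def LevelGroup.H1Zero (L : LevelGroup.{u}) (C : Type w) [AddCommGroup C] [DistribMulAction L.G C]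
    (M : Subgroup L.G) : Prop :=
  ∀ a : M → C, (∀ g h : M, a (g * h) = a g + (g : L.G) • a h) →
    (∃ N, L.IsLevel N ∧ ∀ g s : M, (s : L.G) ∈ N → a (g * s) = a g) →
    ∃ m : C, ∀ g : M, a g = (g : L.G) • m - m

/-- A two-cocycle on the quotient by a normal subgroup. -/
def LevelGroup.Inflated (L : LevelGroup.{u}) {C : Type w} [AddCommGroup C]
    [DistribMulAction L.G C] (M : Subgroup L.G) (z : L.G × L.G → C) : Prop :=
  (∀ g h, ∀ m ∈ M, ∀ n ∈ M, z (g * m, h * n) = z (g, h)) ∧ ∀ g h, ∀ m ∈ M, m • z (g, h) = z (g, h)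

/-- Inflation is injective. -/
theorem LevelGroup.exists_descend {N : Subgroup L.G} (hn : N.Normal)
    (h1 : L.H1Zero C N) {z : L.G × L.G → C} (hz : L.IsCocycle₂ C z) (hi : L.Inflated N z)
    (hB : L.IsB2 C z) :
    ∃ b : L.G → C, (∀ g, ∀ s ∈ N, b (g * s) = b g) ∧ (∀ g, ∀ s ∈ N, s • b g = b g) ∧
      L.d₁ C b = z := by
  obtain ⟨b, ⟨N₀, hN₀, hb⟩, hbz⟩ := hB
  have hd : ∀ g h, g • b h - b (g * h) + b g = z (g, h) := fun g h => congrFun hbz (g, h)
  set c₀ := z (1, 1) with hc₀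
  have hzN : ∀ n ∈ N, ∀ n' ∈ N, z (n, n') = c₀ := fun n hn n' hn' => by
    have := hi.1 1 1 n hn n' hn'
    rwa [one_mul, one_mul] at this
  have hc₀fix : ∀ n ∈ N, n • c₀ = c₀ := fun n hn => hi.2 1 1 n hn
  obtain ⟨a, ha⟩ := h1 (fun n => b n - c₀) (fun n m => by
      have h := hd n m
      rw [hzN n n.2 m m.2] at h
      show b ((n : L.G) * m) - c₀ = b n - c₀ + (n : L.G) • (b m - c₀)
      rw [smul_sub, hc₀fix n n.2, show b ((n : L.G) * m) = (n : L.G) • b m + b n - c₀ by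
        rw [← h]; abel]
      abel)
    ⟨N₀, hN₀, fun g s hs => by
      show b ((g : L.G) * s) - c₀ = b g - c₀
      rw [hb _ _ hs]⟩
  set b' : L.G → C := fun g => b g - (g • a - a)
  have hd' : ∀ g h, g • b' h - b' (g * h) + b' g = z (g, h) := fun g h => by
    rw [← hd g h]
    simp only [b', smul_sub, mul_smul]
    abel
  have hb'N : ∀ n ∈ N, b' n = c₀ := fun n hn => by
    have := ha ⟨n, hn⟩
    simp only [b']
    rw [← this]
    abel
  have hright : ∀ g, ∀ n ∈ N, b' (g * n) = b' g := by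
    intro g n hnN
    have h := hd' g n
    have hg1 : z (g, n) = g • c₀ := by
      have e := hz g 1 1
      rw [mul_one, mul_one, ← hc₀] at e
      have e2 : z (g, n) = z (g, 1) := by
        have := hi.1 g 1 1 N.one_mem n hnN
        rwa [mul_one, one_mul] at this
      rw [e2]
      exact (add_right_cancel e).symm
    rw [hg1, hb'N n hnN] at h
    have h' : b' g - b' (g * n) = 0 := by
      rw [← sub_self (g • c₀)]
      nth_rewrite 1 [← h]
      abel
    exact (sub_eq_zero.mp h').symm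
  refine ⟨b', hright, fun g n hnN => ?_, funext fun x => hd' x.1 x.2⟩
  have h := hd' n g
  have hng : b' (n * g) = b' g := by
    have hm : g⁻¹ * n * g ∈ N := by
      have := hn.conj_mem n hnN g⁻¹
      rwa [inv_inv] at this
    rw [show n * g = g * (g⁻¹ * n * g) by group, hright g _ hm]
  have hz1 : z (n, g) = c₀ := by
    have e2 : z (n, g) = z (1, g) := by
      have := hi.1 1 g n hnN 1 N.one_mem
      rwa [one_mul, mul_one] at this
    have e := hz 1 1 g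
    rw [one_smul, one_mul, one_mul, ← hc₀] at e
    rw [e2]
    exact add_left_cancel e
  rw [hz1, hng, hb'N n hnN] at h
  have h' : n • b' g - b' g = 0 := by
    rw [← sub_self c₀]
    nth_rewrite 1 [← h]
    abel
  exact sub_eq_zero.mp h'

/-- A class vanishing on an open subgroup has a representative vanishing on it in the second
variable. -/
theorem LevelGroup.exists_reduced (hC : L.Smooth C) {M : Subgroup L.G} (hM : L.IsOpen M)
    {z : L.G × L.G → C} (hz : z ∈ L.Z2 C) {b : M → C}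
    (hb : ∃ N, L.IsLevel N ∧ ∀ g s : M, (s : L.G) ∈ N → b (g * s) = b g)
    (hbz : ∀ g h : M, (g : L.G) • b h - b (g * h) + b g = z ((g : L.G), (h : L.G))) :
    ∃ z₂ : L.G × L.G → C, L.IsCocycle₂ C z₂ ∧ (∀ g, ∀ m ∈ M, z₂ (g, m) = 0) ∧
      (∀ g h, ∀ m ∈ M, z₂ (g, h * m) = z₂ (g, h)) ∧
      (∀ h, ∃ N, L.IsLevel N ∧ ∀ g, ∀ s ∈ N, z₂ (g * s, h) = z₂ (g, h)) ∧
      ∃ c, L.Const₁ c ∧ z - z₂ = L.d₁ C c := by
  classical
  obtain ⟨⟨Nz, hNz, hzc⟩, hzcoc⟩ := hz
  obtain ⟨Nb, hNb, hbc⟩ := hb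
  obtain ⟨NM, hNM, hNMle⟩ := hM
  set N := Nz ⊓ Nb ⊓ NM
  have hN : L.IsLevel N := L.inf _ _ (L.inf _ _ hNz hNb) hNM
  have hNM' : N ≤ M := inf_le_right.trans hNMle
  have hNn := L.normal N hN
  -- remove the cochain of the subgroup
  set b₁ : L.G → C := fun g => if hg : g ∈ M then b ⟨g, hg⟩ else 0
  have hb₁ : ∀ g, ∀ s ∈ N, b₁ (g * s) = b₁ g := by
    intro g s hs
    by_cases hg : g ∈ M
    · simp only [b₁, dif_pos hg, dif_pos (M.mul_mem hg (hNM' hs))]
      exact hbc ⟨g, hg⟩ ⟨s, hNM' hs⟩ hs.1.2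
    · simp only [b₁, dif_neg hg, dif_neg (fun h => hg ((M.mul_mem_cancel_right (hNM' hs)).mp h))]
  set z₁ := z - L.d₁ C b₁ with hz₁
  have hz₁MM : ∀ m ∈ M, ∀ n ∈ M, z₁ (m, n) = 0 := by
    intro m hm n hnM
    show z (m, n) - (m • b₁ n - b₁ (m * n) + b₁ m) = 0
    simp only [b₁, dif_pos hm, dif_pos hnM, dif_pos (M.mul_mem hm hnM)]
    rw [sub_eq_zero]
    exact (hbz ⟨m, hm⟩ ⟨n, hnM⟩).symm
  have hdcoc : ∀ c : L.G → C, L.IsCocycle₂ C (L.d₁ C c) := fun c g h j => by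
    show g • (h • c j - c (h * j) + c h) + (g • c (h * j) - c (g * (h * j)) + c g) =
      ((g * h) • c j - c (g * h * j) + c (g * h)) + (g • c h - c (g * h) + c g)
    rw [smul_add, smul_sub, mul_smul, mul_assoc]
    abel
  have hsubcoc : ∀ {w : L.G × L.G → C}, L.IsCocycle₂ C w → ∀ c : L.G → C,
      L.IsCocycle₂ C (w - L.d₁ C c) := fun {w} hw c g h j => by
    show g • (w (h, j) - _) + (w (g, h * j) - _) = (w (g * h, j) - _) + (w (g, h) - _)
    rw [smul_sub, sub_add_sub_comm, sub_add_sub_comm, hw g h j, hdcoc c g h j]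
  have hz₁coc : L.IsCocycle₂ C z₁ := hsubcoc hzcoc b₁
  -- representatives of the cosets
  set r : L.G → L.G := fun g => if g ∈ M then 1 else (QuotientGroup.mk g : L.G ⧸ M).out
  have hr : ∀ g, (r g)⁻¹ * g ∈ M := fun g => by
    by_cases hg : g ∈ M
    · simp only [r, if_pos hg, inv_one, one_mul]; exact hg
    · simp only [r, if_neg hg]
      exact QuotientGroup.eq.mp (QuotientGroup.out_eq' _)
  have hrm : ∀ g, ∀ m ∈ M, r (g * m) = r g := fun g m hm => by
    by_cases hg : g ∈ M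
    · simp only [r, if_pos hg, if_pos (M.mul_mem hg hm)]
    · simp only [r, if_neg hg, if_neg (fun h => hg ((M.mul_mem_cancel_right hm).mp h))]
      rw [QuotientGroup.mk_mul_of_mem g hm]
  -- second step
  set c₂ : L.G → C := fun g => -z₁ (r g, (r g)⁻¹ * g)
  have hc₂ : ∀ g, ∀ s ∈ N, c₂ (g * s) = c₂ g := by
    intro g s hs
    show -z₁ (r (g * s), (r (g * s))⁻¹ * (g * s)) = -z₁ (r g, (r g)⁻¹ * g)
    rw [hrm g s (hNM' hs), ← mul_assoc]
    congr 1
    show z (r g, _) - (r g • b₁ _ - b₁ _ + b₁ _) = z (r g, _) - (r g • b₁ _ - b₁ _ + b₁ _)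
    have e : z (r g, (r g)⁻¹ * g * s) = z (r g, (r g)⁻¹ * g) := by
      have := hzc (r g) ((r g)⁻¹ * g) 1 Nz.one_mem s hs.1.1
      rwa [mul_one] at this
    rw [e, hb₁ _ s hs, ← mul_assoc (r g), hb₁ _ s hs]
  have hc₂M : ∀ m ∈ M, c₂ m = 0 := fun m hm => by
    simp only [c₂, r, if_pos hm, inv_one, one_mul]
    rw [hz₁MM 1 M.one_mem m hm, neg_zero]
  set z₂ := z₁ - L.d₁ C c₂ with hz₂
  have hz₂coc : L.IsCocycle₂ C z₂ := hsubcoc hz₁coc c₂
  have hz₂MM : ∀ m ∈ M, ∀ n ∈ M, z₂ (m, n) = 0 := by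
    intro m hm n hnM
    show z₁ (m, n) - (m • c₂ n - c₂ (m * n) + c₂ m) = 0
    rw [hz₁MM m hm n hnM, hc₂M n hnM, hc₂M m hm, hc₂M _ (M.mul_mem hm hnM)]
    simp
  have hz₁one : ∀ g, z₁ (g, 1) = 0 := fun g => by
    have e := hz₁coc g 1 1
    rw [mul_one, mul_one, hz₁MM 1 M.one_mem 1 M.one_mem, smul_zero, zero_add] at e
    exact left_eq_add.mp e
  have hrr : ∀ g, r (r g) = r g := fun g => by
    have h' : r (g * ((r g)⁻¹ * g)⁻¹) = r g := hrm g _ (M.inv_mem (hr g))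
    rwa [mul_inv_rev, inv_inv, mul_inv_cancel_left] at h'
  have hz₂r : ∀ g, ∀ m ∈ M, z₂ (r g, m) = 0 := by
    intro g m hm
    show z₁ (r g, m) - (r g • c₂ m - c₂ (r g * m) + c₂ (r g)) = 0
    rw [hc₂M m hm, smul_zero]
    show z₁ (r g, m) - (0 - -z₁ (r (r g * m), (r (r g * m))⁻¹ * (r g * m)) +
      -z₁ (r (r g), (r (r g))⁻¹ * r g)) = 0
    rw [hrm _ m hm, hrr, inv_mul_cancel_left, inv_mul_cancel, hz₁one]
    abel
  have hz₂g : ∀ g, ∀ m ∈ M, z₂ (g, m) = 0 := by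
    intro g m hm
    have e := hz₂coc (r g) ((r g)⁻¹ * g) m
    rw [hz₂MM _ (hr g) m hm, smul_zero, mul_inv_cancel_left, hz₂r g _ (M.mul_mem (hr g) hm),
      hz₂r g _ (hr g), zero_add, add_zero] at e
    exact e.symm
  have hz₂right : ∀ g h, ∀ m ∈ M, z₂ (g, h * m) = z₂ (g, h) := by
    intro g h m hm
    have e := hz₂coc g h m
    rwa [hz₂g h m hm, smul_zero, zero_add, hz₂g _ m hm, zero_add] at e
  refine ⟨z₂, hz₂coc, hz₂g, hz₂right, fun h => ?_, b₁ + c₂, ⟨N, hN, fun g s hs => by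
    simp only [Pi.add_apply, hb₁ g s hs, hc₂ g s hs]⟩, ?_⟩
  · obtain ⟨N₁, hN₁, hf₁⟩ := hC (b₁ h)
    obtain ⟨N₂, hN₂, hf₂⟩ := hC (c₂ h)
    refine ⟨N ⊓ N₁ ⊓ N₂, L.inf _ _ (L.inf _ _ hN hN₁) hN₂, fun g s hs => ?_⟩
    have hsh : h⁻¹ * s * h ∈ N := by
      have := hNn.conj_mem _ hs.1.1 h⁻¹
      rwa [inv_inv] at this
    have hmul : g * s * h = g * h * (h⁻¹ * s * h) := by group
    have ez : z (g * s, h) = z (g, h) := by
      have := hzc g h s hs.1.1.1.1 1 Nz.one_mem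
      rwa [mul_one] at this
    show z (g * s, h) - ((g * s) • b₁ h - b₁ (g * s * h) + b₁ _) -
      ((g * s) • c₂ h - c₂ (g * s * h) + c₂ _) = _
    rw [ez, mul_smul, hf₁ _ hs.1.2, mul_smul, hf₂ _ hs.2, hmul, hb₁ _ _ hsh, hc₂ _ _ hsh,
      hb₁ _ _ hs.1.1, hc₂ _ _ hs.1.1]
    rfl
  · rw [map_add, hz₂, hz₁]
    abel

/-- A class vanishing on a normal subgroup is inflated. -/
theorem LevelGroup.exists_inflated (hC : L.Smooth C) {M : Subgroup L.G} (hn : M.Normal) (hM : L.IsOpen M)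
    (h1 : L.H1Zero C M) {z : L.G × L.G → C} (hz : z ∈ L.Z2 C) {b : M → C}
    (hb : ∃ N, L.IsLevel N ∧ ∀ g s : M, (s : L.G) ∈ N → b (g * s) = b g)
    (hbz : ∀ g h : M, (g : L.G) • b h - b (g * h) + b g = z ((g : L.G), (h : L.G))) :
    ∃ z' ∈ L.Z2 C, L.Inflated M z' ∧ L.IsB2 C (z - z') := by
  classical
  have hM' := hM
  obtain ⟨NM, hNM, hNMle⟩ := hM'
  obtain ⟨z₂, hz₂coc, hz₂g, hz₂right, hz₂lev, c, hcc, hcz⟩ :=
    L.exists_reduced hC hM hz hb hbz
  have hz₂MM : ∀ m ∈ M, ∀ n ∈ M, z₂ (m, n) = 0 := fun m _ n hn' => hz₂g m n hn'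
  have hdcoc : ∀ c : L.G → C, L.IsCocycle₂ C (L.d₁ C c) := fun c g h j => by
    show g • (h • c j - c (h * j) + c h) + (g • c (h * j) - c (g * (h * j)) + c g) =
      ((g * h) • c j - c (g * h * j) + c (g * h)) + (g • c h - c (g * h) + c g)
    rw [smul_add, smul_sub, mul_smul, mul_assoc]
    abel
  have hsubcoc : ∀ {w : L.G × L.G → C}, L.IsCocycle₂ C w → ∀ c : L.G → C,
      L.IsCocycle₂ C (w - L.d₁ C c) := fun {w} hw c g h j => by
    show g • (w (h, j) - _) + (w (g, h * j) - _) = (w (g * h, j) - _) + (w (g, h) - _)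
    rw [smul_sub, sub_add_sub_comm, sub_add_sub_comm, hw g h j, hdcoc c g h j]
  set r : L.G → L.G := fun g => if g ∈ M then 1 else (QuotientGroup.mk g : L.G ⧸ M).out
  have hr : ∀ g, (r g)⁻¹ * g ∈ M := fun g => by
    by_cases hg : g ∈ M
    · simp only [r, if_pos hg, inv_one, one_mul]; exact hg
    · simp only [r, if_neg hg]
      exact QuotientGroup.eq.mp (QuotientGroup.out_eq' _)
  have hrm : ∀ g, ∀ m ∈ M, r (g * m) = r g := fun g m hm => by
    by_cases hg : g ∈ M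
    · simp only [r, if_pos hg, if_pos (M.mul_mem hg hm)]
    · simp only [r, if_neg hg, if_neg (fun h => hg ((M.mul_mem_cancel_right hm).mp h))]
      rw [QuotientGroup.mk_mul_of_mem g hm]
  -- third step
  have hphi : ∀ h, ∃ a : C, ∀ m : M, z₂ ((m : L.G), h) = (m : L.G) • a - a := by
    intro h
    refine h1 (fun m => z₂ ((m : L.G), h)) (fun m n => ?_) ?_
    · have e := hz₂coc (m : L.G) (n : L.G) h
      rw [hz₂MM _ m.2 _ n.2, add_zero] at e
      have e' : z₂ ((m : L.G), (n : L.G) * h) = z₂ ((m : L.G), h) := by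
        rw [show (n : L.G) * h = h * (h⁻¹ * n * h) by group]
        refine hz₂right _ _ _ ?_
        have := hn.conj_mem _ n.2 h⁻¹
        rwa [inv_inv] at this
      rw [e'] at e
      show z₂ ((m : L.G) * n, h) = _
      rw [← e, add_comm]
    · obtain ⟨N₁, hN₁, hf₁⟩ := hz₂lev h
      exact ⟨N₁, hN₁, fun g s hs => hf₁ (g : L.G) (s : L.G) hs⟩
  choose a ha using hphi
  set c₃ : L.G → C := fun h => if h ∈ M then 0 else a (r h)
  have hc₃ : ∀ h, ∀ m ∈ M, c₃ (h * m) = c₃ h := fun h m hm => by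
    by_cases hh : h ∈ M
    · simp only [c₃, if_pos hh, if_pos (M.mul_mem hh hm)]
    · simp only [c₃, if_neg hh, if_neg (fun h' => hh ((M.mul_mem_cancel_right hm).mp h')),
        hrm h m hm]
  set z₃ := z₂ - L.d₁ C c₃ with hz₃
  have hz₃coc : L.IsCocycle₂ C z₃ := hsubcoc hz₂coc c₃
  have hright : ∀ g h, ∀ m ∈ M, z₃ (g, h * m) = z₃ (g, h) := by
    intro g h m hm
    show z₂ (g, h * m) - (g • c₃ (h * m) - c₃ (g * (h * m)) + c₃ g) = _
    rw [hz₂right g h m hm, hc₃ h m hm, ← mul_assoc, hc₃ _ m hm]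
    rfl
  have hz₃g : ∀ g, ∀ m ∈ M, z₃ (g, m) = 0 := by
    intro g m hm
    show z₂ (g, m) - (g • c₃ m - c₃ (g * m) + c₃ g) = 0
    rw [hz₂g g m hm, hc₃ g m hm, show c₃ m = 0 from if_pos hm]
    simp
  have hz₃m : ∀ m ∈ M, ∀ h, z₃ (m, h) = 0 := by
    intro m hm h
    by_cases hh : h ∈ M
    · exact hz₃g m h hh
    show z₂ (m, h) - (m • c₃ h - c₃ (m * h) + c₃ m) = 0
    have hmh : c₃ (m * h) = c₃ h := by
      rw [show m * h = h * (h⁻¹ * m * h) by group]
      refine hc₃ _ _ ?_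
      have := hn.conj_mem _ hm h⁻¹
      rwa [inv_inv] at this
    have hzr : z₂ (m, h) = z₂ (m, r h) := by
      conv_lhs => rw [← mul_inv_cancel_left (r h) h]
      exact hz₂right _ _ _ (hr h)
    rw [hmh, show c₃ m = 0 from if_pos hm, show c₃ h = a (r h) from if_neg hh, hzr,
      ha (r h) ⟨m, hm⟩]
    abel
  have hinf : L.Inflated M z₃ := by
    refine ⟨fun g h m hm n hnM => ?_, fun g h m hm => ?_⟩
    · rw [hright _ _ n hnM]
      have e := hz₃coc g m h
      rw [hz₃m m hm h, smul_zero, zero_add, hz₃g g m hm, add_zero] at e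
      rw [← e, show m * h = h * (h⁻¹ * m * h) by group]
      refine hright _ _ _ ?_
      have := hn.conj_mem _ hm h⁻¹
      rwa [inv_inv] at this
    · have e := hz₃coc m g h
      rw [hz₃m m hm, add_zero, hz₃m m hm g, add_zero] at e
      rw [e, show m * g = g * (g⁻¹ * m * g) by group]
      have hm' : g⁻¹ * m * g ∈ M := by
        have := hn.conj_mem _ hm g⁻¹
        rwa [inv_inv] at this
      have e2 := hz₃coc g (g⁻¹ * m * g) h
      rw [hz₃m _ hm' h, smul_zero, zero_add, hz₃g g _ hm', add_zero] at e2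
      rw [← e2, show g⁻¹ * m * g * h = h * (h⁻¹ * (g⁻¹ * m * g) * h) by group]
      refine hright _ _ _ ?_
      have := hn.conj_mem _ hm' h⁻¹
      rwa [inv_inv] at this
  refine ⟨z₃, ⟨⟨NM, hNM, fun g h s hs t ht => hinf.1 g h s (hNMle hs) t (hNMle ht)⟩, hz₃coc⟩, hinf,
    c + c₃, hcc.comp₂ L ⟨NM, hNM, fun g s hs => hc₃ g s (hNMle hs)⟩ (· + ·), ?_⟩
  rw [map_add, ← hcz, hz₃]
  abel

end Fermat.Agent.GD
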