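import Fermat.Agent.GD.Local.Layer
import Fermat.Agent.GD.Local.Inflation
import Fermat.Agent.GD.Local.Cyclic
import Fermat.Agent.GD.Local.H90
import Fermat.Agent.GD.Engine.Cup

/-!
# The second cohomology of a local field: classes, inflation and cyclic layers
-/

set_option autoImplicit false
set_option linter.style.haveILetI false

noncomputable section

namespace Fermat.Agent.GD

open Fermat.Agent.Galois Finset

local notation "ℚb" => AlgebraicClosure ℚ
local notation "Cu" => Additive (AlgebraicClosure ℚ)ˣ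

variable {q : Nat.Primes}

/-- The levels of an open subgroup of the decomposition group. -/
abbrev LH (H : Subgroup (LD (some q)).G) : LevelGroup.{0} := (LD (some q)).sub H

theorem smooth_units (H : Subgroup (LD (some q)).G) : (LH H).Smooth Cu := by
  intro x
  haveI : Normal ℚ ℚb := IsGalois.to_normal
  set E : IntermediateField ℚ ℚb :=
    IntermediateField.adjoin ℚ ({((x.toMul : ℚbˣ) : ℚb)} : Set ℚb)
  haveI : FiniteDimensional ℚ E :=
    IntermediateField.adjoin.finiteDimensional (Algebra.IsIntegral.isIntegral _)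
  let K : IntermediateField ℚ ℚb := IntermediateField.normalClosure ℚ E ℚb
  haveI : FiniteDimensional ℚ K := normalClosure.is_finiteDimensional ℚ _ ℚb
  haveI : Normal ℚ K := normalClosure.normal ℚ _ ℚb
  have hKn : K.fixingSubgroup.Normal := by
    haveI : IsGalois ℚ K := ⟨⟩
    infer_instance
  refine ⟨_, ⟨_, ⟨_, ⟨K, inferInstance, rfl, hKn⟩, rfl⟩, rfl⟩, fun s hs => ?_⟩
  refine Additive.toMul.injective (Units.ext ?_)
  have hs' : toGQ (s : (LD (some q)).G) ∈ K.fixingSubgroup := hs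
  exact hs' ⟨_, IntermediateField.le_normalClosure E
    (IntermediateField.mem_adjoin_simple_self ℚ _)⟩

theorem exists_level_le_of_isOpen {H : Subgroup (LD (some q)).G} (hH : (LD (some q)).IsOpen H) :
    ∃ N, (LD (some q)).IsLevel N ∧ N ≤ H := hH

theorem h1Zero_units {H M : Subgroup (LD (some q)).G} (hM : (LD (some q)).IsOpen M) (hle : M ≤ H) :
    (LH H).H1Zero Cu (M.subgroupOf H) := by
  rintro a ha ⟨_, ⟨N', hN', rfl⟩, hc⟩
  obtain ⟨N₁, hN₁, hN₁M⟩ := hM
  let ι : M → M.subgroupOf H := fun g =>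
    ⟨⟨g.1, hle g.2⟩, Subgroup.mem_subgroupOf.mpr g.2⟩
  obtain ⟨u, -, hu⟩ := exists_smul_div_eq (some q) M (N' ⊓ N₁) ((LD (some q)).inf _ _ hN' hN₁)
    (inf_le_right.trans hN₁M) (fun g => (a (ι g)).toMul)
    (fun g h => congrArg Additive.toMul (ha (ι g) (ι h)))
    (fun g s hs => congrArg Additive.toMul (hc (ι g) (ι s) (Subgroup.mem_subgroupOf.mpr hs.1)))
  exact ⟨Additive.ofMul u, fun g =>
    Additive.toMul.injective (hu ⟨g.1.1, Subgroup.mem_subgroupOf.mp g.2⟩)⟩

/-- Every cocycle is inflated from a level. -/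
theorem exists_inflated_level {H : Subgroup (LD (some q)).G} (hH : (LD (some q)).IsOpen H)
    {z : (LH H).G × (LH H).G → Cu} (hz : z ∈ (LH H).Z2 Cu) :
    ∃ N, (LD (some q)).IsLevel N ∧ N ≤ H ∧ (LH H).Inflated (N.subgroupOf H) z := by
  classical
  obtain ⟨⟨_, ⟨N₀, hN₀, rfl⟩, hc⟩, -⟩ := hz
  haveI := (LD (some q)).finiteIndex N₀ hN₀
  haveI : (N₀.subgroupOf H).FiniteIndex := inferInstance
  let Q := H ⧸ N₀.subgroupOf H
  letI : Fintype Q := Fintype.ofFinite _
  choose T hT hTfix using fun x : Q × Q => smooth_units H (z ((x.1.out : H), (x.2.out : H)))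
  choose T' hT' hTT' using hT
  obtain ⟨N₁, hN₁, hN₁H⟩ := hH
  have hinf : ∀ t : Finset (Q × Q), ∃ N, (LD (some q)).IsLevel N ∧ N ≤ N₀ ⊓ N₁ ∧
      ∀ x ∈ t, N ≤ T' x := by
    intro t
    induction t using Finset.induction with
    | empty => exact ⟨_, (LD (some q)).inf _ _ hN₀ hN₁, le_rfl, by simp⟩
    | insert x t hx ih =>
      obtain ⟨N, hN, hle, ht⟩ := ih
      refine ⟨N ⊓ T' x, (LD (some q)).inf _ _ hN (hT' x), inf_le_left.trans hle, ?_⟩
      intro y hy
      rcases Finset.mem_insert.mp hy with rfl | hy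
      · exact inf_le_right
      · exact inf_le_left.trans (ht y hy)
  obtain ⟨N, hN, hle, hall⟩ := hinf Finset.univ
  refine ⟨N, hN, hle.trans (inf_le_right.trans hN₁H),
    fun g h m hm n hn => hc g h m (Subgroup.mem_subgroupOf.mpr (hle hm).1) n
      (Subgroup.mem_subgroupOf.mpr (hle hn).1), fun g h m hm => ?_⟩
  have hg : ∃ s ∈ N₀.subgroupOf H, ((g : Q).out : H) = g * s :=
    ⟨g⁻¹ * ((g : Q).out : H), QuotientGroup.eq.mp (QuotientGroup.out_eq' (g : Q)).symm, by group⟩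
  have hh : ∃ s ∈ N₀.subgroupOf H, ((h : Q).out : H) = h * s :=
    ⟨h⁻¹ * ((h : Q).out : H), QuotientGroup.eq.mp (QuotientGroup.out_eq' (h : Q)).symm, by group⟩
  obtain ⟨s, hs, hgs⟩ := hg
  obtain ⟨t, ht, hht⟩ := hh
  have e : z ((((g : Q), (h : Q)).1.out : H), (((g : Q), (h : Q)).2.out : H)) = z (g, h) := by
    show z (((g : Q).out : H), ((h : Q).out : H)) = _
    rw [hgs, hht]
    exact hc g h s hs t ht
  have h2 := hTfix ((g : Q), (h : Q)) m (by
    rw [hTT']
    exact Subgroup.mem_subgroupOf.mpr (hall _ (Finset.mem_univ _) hm))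
  rwa [e] at h2

/-- The coboundaries among the cocycles. -/
def B2 (H : Subgroup (LD (some q)).G) : AddSubgroup ((LH H).Z2 Cu) where
  carrier := {z | (LH H).IsB2 Cu z.1}
  zero_mem' := (LH H).isB2_zero
  add_mem' ha hb := ha.add hb
  neg_mem' ha := ha.neg

/-- The second cohomology. -/
abbrev H2 (H : Subgroup (LD (some q)).G) : Type := (LH H).Z2 Cu ⧸ B2 H

/-- The class of a cocycle. -/
def h2mk (H : Subgroup (LD (some q)).G) : (LH H).Z2 Cu →+ H2 H := QuotientAddGroup.mk' (B2 H)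

theorem h2mk_eq_zero {H : Subgroup (LD (some q)).G} (z : (LH H).Z2 Cu) :
    h2mk H z = 0 ↔ (LH H).IsB2 Cu z.1 := QuotientAddGroup.eq_zero_iff z

variable {H H' : Subgroup (LD (some q)).G}

/-- The inclusion of the group elements. -/
abbrev incl (hle : H' ≤ H) (g : (LH H').G) : (LH H).G := ⟨g.1, hle g.2⟩

/-- Restriction of cochains. -/
def resCochain (hle : H' ≤ H) : ((LH H).G × (LH H).G → Cu) →+ ((LH H').G × (LH H').G → Cu) where
  toFun z y := z (incl hle y.1, incl hle y.2)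
  map_zero' := rfl
  map_add' _ _ := rfl

theorem resCochain_mem (hle : H' ≤ H) {z : (LH H).G × (LH H).G → Cu} (hz : z ∈ (LH H).Z2 Cu) :
    resCochain hle z ∈ (LH H').Z2 Cu := by
  obtain ⟨⟨_, ⟨N, hN, rfl⟩, hc⟩, hcoc⟩ := hz
  exact ⟨⟨N.subgroupOf H', ⟨N, hN, rfl⟩, fun g g' s hs s' hs' =>
    hc (incl hle g) (incl hle g') (incl hle s) hs (incl hle s') hs'⟩,
    fun g h j => hcoc (incl hle g) (incl hle h) (incl hle j)⟩

/-- Restriction of cocycles. -/
def resZ (hle : H' ≤ H) : (LH H).Z2 Cu →+ (LH H').Z2 Cu :=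
  ((resCochain hle).comp ((LH H).Z2 Cu).subtype).codRestrict _ fun z => resCochain_mem hle z.2

theorem isB2_res (hle : H' ≤ H) {z : (LH H).G × (LH H).G → Cu} (hz : (LH H).IsB2 Cu z) :
    (LH H').IsB2 Cu (resCochain hle z) := by
  obtain ⟨b, ⟨_, ⟨N, hN, rfl⟩, hb⟩, rfl⟩ := hz
  exact ⟨fun g => b (incl hle g), ⟨N.subgroupOf H', ⟨N, hN, rfl⟩,
    fun g s hs => hb (incl hle g) (incl hle s) hs⟩, rfl⟩

/-- Restriction. -/
def resH2 (hle : H' ≤ H) : H2 H →+ H2 H' :=
  QuotientAddGroup.map (B2 H) (B2 H') (resZ hle) fun _ hz => isB2_res hle hz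

theorem resH2_mk (hle : H' ≤ H) (z : (LH H).Z2 Cu) :
    resH2 hle (h2mk H z) = h2mk H' (resZ hle z) := rfl

theorem resH2_resH2 {H'' : Subgroup (LD (some q)).G} (h₁ : H' ≤ H) (h₂ : H'' ≤ H') (x : H2 H) :
    resH2 h₂ (resH2 h₁ x) = resH2 (h₂.trans h₁) x := by
  obtain ⟨z, rfl⟩ := QuotientAddGroup.mk_surjective x
  rfl

/-- The classes inflated from a subgroup. -/
def infl (H M : Subgroup (LD (some q)).G) : AddSubgroup (H2 H) :=
  AddSubgroup.map (h2mk H)
    { carrier := {z | (LH H).Inflated (M.subgroupOf H) z.1}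
      zero_mem' := ⟨fun _ _ _ _ _ _ => rfl, fun _ _ _ _ => smul_zero _⟩
      add_mem' := fun {z w} hz hw => ⟨fun g h m hm n hn => by
        show z.1 _ + w.1 _ = _
        rw [hz.1 g h m hm n hn, hw.1 g h m hm n hn]
        rfl, fun g h m hm => by
        show m • (z.1 _ + w.1 _) = _
        rw [smul_add, hz.2 g h m hm, hw.2 g h m hm]
        rfl⟩
      neg_mem' := fun {z} hz => ⟨fun g h m hm n hn => by
        show -z.1 _ = _
        rw [hz.1 g h m hm n hn]
        rfl, fun g h m hm => by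
        show m • -z.1 _ = _
        rw [smul_neg, hz.2 g h m hm]
        rfl⟩ }

theorem mem_infl {M : Subgroup (LD (some q)).G} {x : H2 H} :
    x ∈ infl H M ↔ ∃ z : (LH H).Z2 Cu, (LH H).Inflated (M.subgroupOf H) z.1 ∧ h2mk H z = x :=
  Iff.rfl

theorem infl_mono {M M' : Subgroup (LD (some q)).G} (h : M' ≤ M) : infl H M ≤ infl H M' := by
  rintro _ ⟨z, hz, rfl⟩
  exact ⟨z, ⟨fun g g' m hm n hn => hz.1 g g' m (h hm) n (h hn),
    fun g g' m hm => hz.2 g g' m (h hm)⟩, rfl⟩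

theorem res_mem_infl (hle : H' ≤ H) {M : Subgroup (LD (some q)).G} {x : H2 H}
    (hx : x ∈ infl H M) : resH2 hle x ∈ infl H' M := by
  obtain ⟨z, hz, rfl⟩ := hx
  exact ⟨resZ hle z, ⟨fun g g' m hm n hn =>
    hz.1 (incl hle g) (incl hle g') (incl hle m) hm (incl hle n) hn,
    fun g g' m hm => hz.2 (incl hle g) (incl hle g') (incl hle m) hm⟩, (resH2_mk hle z).symm⟩

/-- A class vanishing on a normal subgroup is inflated from it. -/
theorem mem_infl_of_res_eq_zero {M : Subgroup (LD (some q)).G} (hM : (LD (some q)).IsOpen M)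
    (hle : M ≤ H) (hn : (M.subgroupOf H).Normal) {x : H2 H} (hx : resH2 hle x = 0) :
    x ∈ infl H M := by
  obtain ⟨z, rfl⟩ := QuotientAddGroup.mk_surjective x
  obtain ⟨b, ⟨_, ⟨N, hN, rfl⟩, hb⟩, hbz⟩ := (h2mk_eq_zero _).mp hx
  obtain ⟨NM, hNM, hNMle⟩ := hM
  obtain ⟨z', hz', hinf, hB⟩ := (LH H).exists_inflated (smooth_units H) hn
    ⟨NM.subgroupOf H, ⟨NM, hNM, rfl⟩, fun g hg => hNMle hg⟩
    (h1Zero_units ⟨NM, hNM, hNMle⟩ hle) z.2 (b := fun g => b ⟨g.1.1, g.2⟩)
    ⟨N.subgroupOf H, ⟨N, hN, rfl⟩, fun g s hs => hb ⟨g.1.1, g.2⟩ ⟨s.1.1, s.2⟩ hs⟩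
    (fun g h => congrFun hbz (⟨g.1.1, g.2⟩, ⟨h.1.1, h.2⟩))
  refine ⟨⟨z', hz'⟩, hinf, (sub_eq_zero.mp ?_).symm⟩
  exact (map_sub (h2mk H) z ⟨z', hz'⟩).symm.trans ((h2mk_eq_zero _).mpr hB)

section Cyclic

variable {M : Subgroup (LD (some q)).G} {σ : (LD (some q)).G} {m : ℕ}

/-- The element of `H` underlying the generator. -/
def CycLayer.genH (h : CycLayer H M σ m) : (LH H).G := ⟨σ, h.mem⟩

/-- The element attached to an inflated cocycle. -/
def CycLayer.total (h : CycLayer H M σ m) (z : (LH H).G × (LH H).G → Cu) : ℚbˣ :=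
  (∑ i ∈ range m, z (h.genH ^ i, h.genH)).toMul

theorem CycLayer.coe_genH_pow (h : CycLayer H M σ m) (i : ℕ) :
    ((h.genH ^ i : (LH H).G) : (LD (some q)).G) = σ ^ i := SubmonoidClass.coe_pow _ i

theorem CycLayer.genH_pow_mem (h : CycLayer H M σ m) {i : ℕ} :
    h.genH ^ i ∈ M.subgroupOf H ↔ σ ^ i ∈ M := by
  rw [Subgroup.mem_subgroupOf, h.coe_genH_pow]

/-- An inflated cocycle is a coboundary exactly when its total is a norm. -/
theorem CycLayer.h2mk_eq_zero_iff (h : CycLayer H M σ m) {z : (LH H).Z2 Cu}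
    (hz : (LH H).Inflated (M.subgroupOf H) z.1) :
    h2mk H z = 0 ↔ h.total z.1 ∈ normGroup M σ m := by
  have hσm : h.genH ^ m ∈ M.subgroupOf H := h.genH_pow_mem.mpr h.pow_mem
  have hnorm : ∀ y : Cu, (∑ i ∈ range m, h.genH ^ i • y).toMul = nrm σ m y.toMul := fun y => by
    rw [toMul_sum, nrm_apply]
    exact prod_congr rfl fun i _ => by rw [← h.coe_genH_pow i]; rfl
  rw [h2mk_eq_zero]
  constructor
  · intro hB
    obtain ⟨b, hbr, hbf, hbz⟩ :=
      (LH H).exists_descend h.normal (h1Zero_units h.isOpen h.le) z.2.2 hz hB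
    refine ⟨(b h.genH).toMul, fun s hs => congrArg Additive.toMul
      (hbf h.genH ⟨s, h.le hs⟩ (Subgroup.mem_subgroupOf.mpr hs)), ?_⟩
    rw [← hnorm, CycLayer.total, ← hbz]
    congr 1
    have e : ∀ i, (LH H).d₁ Cu b (h.genH ^ i, h.genH) =
        h.genH ^ i • b h.genH + (b (h.genH ^ i) - b (h.genH ^ (i + 1))) := fun i => by
      show h.genH ^ i • b h.genH - b (h.genH ^ i * h.genH) + b (h.genH ^ i) = _
      rw [← pow_succ]
      abel
    rw [sum_congr rfl fun i _ => e i, sum_add_distrib,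
      sum_range_sub' (fun i => b (h.genH ^ i)), pow_zero,
      show b (h.genH ^ m) = b 1 by simpa using hbr 1 _ hσm, sub_self, add_zero]
  · rintro ⟨y, hy, hyz⟩
    let P : AddSubgroup Cu :=
      { carrier := {x | ∀ s ∈ M, s • x.toMul = x.toMul}
        zero_mem' := fun s _ => smul_one s
        add_mem' := fun hx hy s hs => by rw [toMul_add, smul_mul', hx s hs, hy s hs]
        neg_mem' := fun hx s hs => by rw [toMul_neg, smul_inv', hx s hs] }
    obtain ⟨b, -, hb, hbz⟩ := exists_coboundary_of_cyclic h.normal (σ := h.genH)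
      (fun g => by
        obtain ⟨i, hi⟩ := h.gen g.1 g.2
        exact ⟨i, Subgroup.mem_subgroupOf.mpr (by
          rw [Subgroup.coe_mul, Subgroup.coe_inv, h.coe_genH_pow]; exact hi)⟩)
      h.pos hσm (fun i hi him hmem => h.min i hi him (h.genH_pow_mem.mp hmem))
      P (fun s hs x hx => Additive.toMul.injective (hx _ hs))
      (fun x hx s hs => by
        show s • (σ • x.toMul) = σ • x.toMul
        have h1 := hx _ (h.conj _ (H.inv_mem h.mem) s hs)
        rw [inv_inv, mul_smul, mul_smul, inv_smul_eq_iff] at h1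
        exact h1)
      z.2.2 hz.1
      (fun x s hs => congrArg Additive.toMul
        (hz.2 x.1 x.2 ⟨s, h.le hs⟩ (Subgroup.mem_subgroupOf.mpr hs)))
      ⟨Additive.ofMul y, hy, Additive.toMul.injective ((hnorm _).trans hyz)⟩
    obtain ⟨N₀, hN₀, hN₀M⟩ := h.isOpen
    exact ⟨b, ⟨N₀.subgroupOf H, ⟨N₀, hN₀, rfl⟩, fun g s hs => hb g s (hN₀M hs)⟩,
      funext fun x => hbz x.1 x.2⟩

open Classical in
/-- The exponent of an element modulo the layer. -/
def CycLayer.idx (h : CycLayer H M σ m) (g : (LH H).G) : ℕ :=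
  Nat.find (h.gen g.1 g.2) % m

theorem CycLayer.idx_lt (h : CycLayer H M σ m) (g : (LH H).G) : h.idx g < m :=
  Nat.mod_lt _ h.pos

theorem CycLayer.idx_spec (h : CycLayer H M σ m) (g : (LH H).G) :
    (g : (LD (some q)).G)⁻¹ * σ ^ h.idx g ∈ M := by
  classical
  set i := Nat.find (h.gen g.1 g.2) with hi
  have h1 : (g : (LD (some q)).G)⁻¹ * σ ^ i ∈ M := Nat.find_spec (h.gen g.1 g.2)
  have h2 : σ ^ (m * (i / m)) ∈ M := by rw [pow_mul]; exact M.pow_mem h.pow_mem _
  show (g : (LD (some q)).G)⁻¹ * σ ^ (i % m) ∈ M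
  have e : (g : (LD (some q)).G)⁻¹ * σ ^ (i % m) =
      (g : (LD (some q)).G)⁻¹ * σ ^ i * (σ ^ (m * (i / m)))⁻¹ := by
    conv_rhs => rw [← Nat.mod_add_div i m, pow_add, Nat.mod_add_div]
    rw [← mul_assoc, mul_inv_cancel_right]
  rw [e]
  exact M.mul_mem h1 (M.inv_mem h2)

theorem CycLayer.idx_eq (h : CycLayer H M σ m) (g : (LH H).G) {i : ℕ} (hi : i < m)
    (hgi : (g : (LD (some q)).G)⁻¹ * σ ^ i ∈ M) : h.idx g = i := by
  have h1 := M.mul_mem (M.inv_mem (h.idx_spec g)) hgi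
  rw [show ((g : (LD (some q)).G)⁻¹ * σ ^ h.idx g)⁻¹ * ((g : (LD (some q)).G)⁻¹ * σ ^ i) =
    (σ ^ h.idx g)⁻¹ * σ ^ i by group] at h1
  exact congrArg Fin.val (h.bijective.1 (a₁ := ⟨_, h.idx_lt g⟩) (a₂ := ⟨i, hi⟩)
    (QuotientGroup.eq.mpr (Subgroup.mem_subgroupOf.mpr (by simpa using h1))))

theorem CycLayer.idx_mul (h : CycLayer H M σ m) (g g' : (LH H).G) :
    h.idx (g * g') = (h.idx g + h.idx g') % m := by
  refine h.idx_eq _ (Nat.mod_lt _ h.pos) ?_
  have h1 := h.conj _ (H.inv_mem g'.2) _ (h.idx_spec g)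
  rw [inv_inv] at h1
  have h2 := M.mul_mem h1 (h.idx_spec g')
  have h3 : σ ^ (m * ((h.idx g + h.idx g') / m)) ∈ M := by
    rw [pow_mul]; exact M.pow_mem h.pow_mem _
  have h4 := M.mul_mem h2 (M.inv_mem h3)
  convert h4 using 1
  show ((g : (LD (some q)).G) * g')⁻¹ * σ ^ ((h.idx g + h.idx g') % m) = _
  set u := h.idx g + h.idx g'
  have e : σ ^ h.idx g * σ ^ h.idx g' = σ ^ (u % m) * σ ^ (m * (u / m)) := by
    rw [← pow_add, ← pow_add, Nat.mod_add_div]
  calc ((g : (LD (some q)).G) * g')⁻¹ * σ ^ (u % m)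
      = (g' : (LD (some q)).G)⁻¹ * ((g : (LD (some q)).G)⁻¹ *
          (σ ^ (u % m) * σ ^ (m * (u / m)))) * (σ ^ (m * (u / m)))⁻¹ := by group
    _ = _ := by rw [← e]; group

theorem CycLayer.smul_fixed {x : ℚbˣ} (hx : x ∈ fixedUnits H) (g : (LH H).G) :
    g • Additive.ofMul x = Additive.ofMul x :=
  Additive.toMul.injective (hx g.1 g.2)

/-- The carry cocycle. -/
def CycLayer.carry (h : CycLayer H M σ m) : Additive (fixedUnits H) →+ (LH H).Z2 Cu :=
  AddMonoidHom.mk' (fun u => ⟨fun y =>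
      ((h.idx y.1 + h.idx y.2) / m) • Additive.ofMul ((u.toMul : fixedUnits H) : ℚbˣ), by
    obtain ⟨N₀, hN₀, hN₀M⟩ := h.isOpen
    refine ⟨⟨N₀.subgroupOf H, ⟨N₀, hN₀, rfl⟩, fun g g' s hs s' hs' => ?_⟩, fun g g' j => ?_⟩
    · have hidx : ∀ g : (LH H).G, ∀ s : (LH H).G, (s : (LD (some q)).G) ∈ M →
          h.idx (g * s) = h.idx g := fun g s hs => h.idx_eq _ (h.idx_lt g) (by
        rw [Subgroup.coe_mul, mul_inv_rev, mul_assoc]
        exact M.mul_mem (M.inv_mem hs) (h.idx_spec g))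
      show _ • _ = _ • _
      rw [hidx g s (hN₀M hs), hidx g' s' (hN₀M hs')]
    · show g • (((h.idx g' + h.idx j) / m) • Additive.ofMul ((u.toMul : fixedUnits H) : ℚbˣ)) + _ = _
      rw [smul_comm, CycLayer.smul_fixed u.toMul.2, ← add_nsmul, ← add_nsmul, h.idx_mul, h.idx_mul]
      congr 1
      have hm := h.pos
      have key : ∀ a b c : ℕ, (b + c) / m + (a + (b + c) % m) / m = (a + b + c) / m := fun a b c => by
        conv_rhs => rw [add_assoc, ← Nat.mod_add_div (b + c) m, ← add_assoc,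
          Nat.add_mul_div_left _ _ hm]
        ring
      rw [key (h.idx g) (h.idx g') (h.idx j)]
      have k2 := key (h.idx j) (h.idx g) (h.idx g')
      rw [show h.idx g + h.idx g' + h.idx j = h.idx j + h.idx g + h.idx g' by ring, ← k2,
        add_comm (h.idx j) ((h.idx g + h.idx g') % m)]
      ring⟩)
    fun u w => Subtype.ext (funext fun y => by
      show _ • Additive.ofMul _ = _
      rw [toMul_add, Subgroup.coe_mul, ofMul_mul]
      exact nsmul_add _ _ _)

theorem CycLayer.carry_inflated (h : CycLayer H M σ m) (u : Additive (fixedUnits H)) :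
    (LH H).Inflated (M.subgroupOf H) (h.carry u).1 := by
  refine ⟨fun g g' s hs s' hs' => ?_, fun g g' s _ => ?_⟩
  · have hidx : ∀ g : (LH H).G, ∀ s : (LH H).G, (s : (LD (some q)).G) ∈ M →
        h.idx (g * s) = h.idx g := fun g s hs => h.idx_eq _ (h.idx_lt g) (by
      rw [Subgroup.coe_mul, mul_inv_rev, mul_assoc]
      exact M.mul_mem (M.inv_mem hs) (h.idx_spec g))
    show _ • _ = _ • _
    rw [hidx g s hs, hidx g' s' hs']
  · show s • (_ • _) = _ • _
    rw [smul_comm, CycLayer.smul_fixed u.toMul.2]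

theorem CycLayer.total_carry (h : CycLayer H M σ m) (hm : 1 < m) (u : Additive (fixedUnits H)) :
    h.total (h.carry u).1 = ((u.toMul : fixedUnits H) : ℚbˣ) := by
  have hpow : ∀ i < m, h.idx (h.genH ^ i) = i := fun i hi =>
    h.idx_eq _ hi (by rw [h.coe_genH_pow, inv_mul_cancel]; exact M.one_mem)
  have hgen : h.idx h.genH = 1 := by simpa using hpow 1 hm
  show (∑ i ∈ range m, ((h.idx (h.genH ^ i) + h.idx h.genH) / m) • Additive.ofMul _).toMul = _
  rw [← sum_smul, sum_congr rfl fun i hi => by rw [hpow i (mem_range.mp hi), hgen]]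
  have e : ∑ i ∈ range m, (i + 1) / m = 1 := by
    rw [sum_eq_single (m - 1)]
    · rw [Nat.sub_add_cancel h.pos, Nat.div_self h.pos]
    · intro i hi hne
      rw [mem_range] at hi
      exact Nat.div_eq_of_lt (by omega)
    · exact fun hni => absurd (mem_range.mpr (by have := h.pos; omega)) hni
  rw [e, one_smul]
  rfl

/-- The class of a unit of the base. -/
def CycLayer.cls (h : CycLayer H M σ m) : Additive (fixedUnits H) →+ H2 H :=
  (h2mk H).comp h.carry

theorem CycLayer.cls_eq_zero_iff (h : CycLayer H M σ m) (hm : 1 < m)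
    (u : Additive (fixedUnits H)) :
    h.cls u = 0 ↔ ((u.toMul : fixedUnits H) : ℚbˣ) ∈ normGroup M σ m := by
  rw [← h.total_carry hm u]
  exact h.h2mk_eq_zero_iff (h.carry_inflated u)

theorem CycLayer.total_fixed (h : CycLayer H M σ m) {z : (LH H).Z2 Cu}
    (hz : (LH H).Inflated (M.subgroupOf H) z.1) : h.total z.1 ∈ fixedUnits H := by
  intro g hg
  have hσ : h.genH • (∑ i ∈ range m, z.1 (h.genH ^ i, h.genH)) =
      ∑ i ∈ range m, z.1 (h.genH ^ i, h.genH) :=
    smul_sum_eq_of_cyclic (h.genH_pow_mem.mpr h.pow_mem) z.2.2 hz.1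
  have hσi : ∀ i : ℕ, σ ^ i • h.total z.1 = h.total z.1 := fun i => by
    induction i with
    | zero => rw [pow_zero, one_smul]
    | succ i ih => rw [pow_succ', mul_smul, ih]; exact congrArg Additive.toMul hσ
  obtain ⟨i, hi⟩ := h.gen g hg
  have hfix : (g⁻¹ * σ ^ i)⁻¹ • h.total z.1 = h.total z.1 := by
    have e : (⟨_, h.le (M.inv_mem hi)⟩ : (LH H).G) • (∑ j ∈ range m, z.1 (h.genH ^ j, h.genH)) =
        ∑ j ∈ range m, z.1 (h.genH ^ j, h.genH) := by
      rw [smul_sum]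
      exact sum_congr rfl fun j _ =>
        hz.2 _ _ _ (Subgroup.mem_subgroupOf.mpr (M.inv_mem hi))
    exact congrArg Additive.toMul e
  rw [show g = σ ^ i * (g⁻¹ * σ ^ i)⁻¹ by group, mul_smul, hfix, hσi]

/-- The inflated classes of a layer are those of the base units. -/
theorem CycLayer.infl_eq (h : CycLayer H M σ m) (hm : 1 < m) :
    infl H M = h.cls.range := by
  refine le_antisymm ?_ ?_
  · rintro _ ⟨z, hz, rfl⟩
    set u : Additive (fixedUnits H) := Additive.ofMul ⟨h.total z.1, h.total_fixed hz⟩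
    refine ⟨u, (sub_eq_zero.mp ?_).symm⟩
    show h2mk H z - h2mk H (h.carry u) = 0
    have hinf : (LH H).Inflated (M.subgroupOf H) (z - h.carry u).1 :=
      ⟨fun g g' a ha b hb => by
        show z.1 _ - (h.carry u).1 _ = z.1 _ - (h.carry u).1 _
        rw [hz.1 g g' a ha b hb, (h.carry_inflated u).1 g g' a ha b hb],
      fun g g' a ha => by
        show a • (z.1 _ - (h.carry u).1 _) = z.1 _ - (h.carry u).1 _
        rw [smul_sub, hz.2 g g' a ha, (h.carry_inflated u).2 g g' a ha]⟩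
    refine (map_sub (h2mk H) z (h.carry u)).symm.trans ((h.h2mk_eq_zero_iff hinf).mpr ?_)
    have e : h.total (z - h.carry u).1 = h.total z.1 / h.total (h.carry u).1 := by
      show (∑ i ∈ range m, (z.1 _ - (h.carry u).1 _)).toMul = _
      rw [sum_sub_distrib, toMul_sub]
      rfl
    rw [e, h.total_carry hm]
    show h.total z.1 / h.total z.1 ∈ _
    rw [div_self']
    exact one_mem _
  · rintro _ ⟨u, rfl⟩
    exact ⟨h.carry u, h.carry_inflated u, rfl⟩

end Cyclic

end Fermat.Agent.GD
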