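import Fermat.Agent.GD.Local.Powers

/-!
# The index of the `p`-th powers in a finite extension of the henselisation
-/

set_option autoImplicit false
set_option linter.style.haveILetI false

noncomputable section

namespace Fermat.Agent.GD

open IsLocalRing Polynomial
open Fermat.Agent.Galois

local notation "ℚb" => AlgebraicClosure ℚ

variable {A : ValuationSubring (AlgebraicClosure ℚ)} {q : ℕ} (hq : q.Prime)
  (hA : A.LiesOverPrime q)
variable (E : IntermediateField (decField A) (AlgebraicClosure ℚ))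
  [FiniteDimensional (decField A) E]

include hq hA

/-- An integer of the place divisible by a power of the prime. -/
theorem exists_smul_locInt (k : ℕ) {x : ℚb} (hx : x ∈ E)
    (hv : A.valuation x ≤ A.valuation (q : ℚb) ^ k) :
    ∃ y : locInt E, x = (q : ℚb) ^ k * (y : ℚb) := by
  have hq0 : (q : ℚb) ^ k ≠ 0 := pow_ne_zero _ (by exact_mod_cast hq.ne_zero)
  refine ⟨⟨x / (q : ℚb) ^ k, (A.valuation_le_one_iff _).mp ?_,
    div_mem hx (pow_mem (natCast_mem E q) k)⟩, (mul_div_cancel₀ x hq0).symm⟩
  rw [map_div₀, map_pow]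
  exact (div_le_one₀ (zero_lt_iff.mpr (pow_ne_zero _ (natCast_val_ne_zero hq)))).mpr hv

/-- Successive levels have index `q ^ d`. -/
theorem relIndex_princ (k : ℕ) :
    (princ hA E (k + 1)).relIndex (princ hA E k) = q ^ Module.finrank (decField A) E := by
  rw [← index_smul_locInt E hq hA]
  have hex : ∀ x : princ hA E k, ∃ y : locInt E,
      ((((x : Additive Eˣ).toMul : Eˣ) : E) : ℚb) - 1 = (q : ℚb) ^ (k + 1) * (y : ℚb) :=
    fun x => exists_smul_locInt hq hA E _ (sub_mem ((((x : Additive Eˣ).toMul : Eˣ) : E)).2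
      (one_mem E)) x.2
  choose g hg using hex
  set π := QuotientAddGroup.mk' (nsmulAddMonoidHom (α := locInt E) q).range with hπdef
  have hq0 : (q : ℚb) ^ (k + 1) ≠ 0 := pow_ne_zero _ (by exact_mod_cast hq.ne_zero)
  have hadd : ∀ x y, π (g (x + y)) = π (g x) + π (g y) := by
    intro x y
    rw [← map_add, QuotientAddGroup.mk'_eq_mk']
    refine ⟨- ((q ^ k : ℕ) • (q • (g x * g y))), ?_, ?_⟩
    · refine neg_mem ⟨(q ^ k : ℕ) • (g x * g y), ?_⟩
      show q • ((q ^ k : ℕ) • (g x * g y)) = _
      rw [smul_comm]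
    · apply Subtype.ext
      push_cast
      refine mul_left_cancel₀ hq0 ?_
      have e : ((((x + y : princ hA E k) : Additive Eˣ).toMul : Eˣ) : E).1 =
          ((((x : Additive Eˣ).toMul : Eˣ) : E) : ℚb) * ((((y : Additive Eˣ).toMul : Eˣ) : E) : ℚb) :=
        rfl
      have h1 := hg (x + y)
      rw [e, sub_eq_iff_eq_add.mp (hg x), sub_eq_iff_eq_add.mp (hg y)] at h1
      linear_combination -h1
  set φ : princ hA E k →+ _ := AddMonoidHom.mk' (fun x => π (g x)) hadd with hφdef
  have hker : φ.ker = (princ hA E (k + 1)).addSubgroupOf (princ hA E k) := by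
    ext x
    rw [AddMonoidHom.mem_ker, AddSubgroup.mem_addSubgroupOf, mem_princ hA]
    show π (g x) = 0 ↔ _
    rw [hπdef, QuotientAddGroup.mk'_apply, QuotientAddGroup.eq_zero_iff]
    constructor
    · rintro ⟨z, hz⟩
      rw [hg x, ← hz, map_mul, map_pow,
        show ((nsmulAddMonoidHom q z : locInt E) : ℚb) = (q : ℚb) * (z : ℚb) by
          simp [nsmulAddMonoidHom, nsmul_eq_mul],
        map_mul, ← mul_assoc, ← pow_succ]
      exact mul_le_of_le_one_right' ((A.valuation_le_one_iff _).mpr z.2.1)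
    · intro hv
      obtain ⟨z, hz⟩ := exists_smul_locInt hq hA E (k + 1 + 1)
        (sub_mem ((((x : Additive Eˣ).toMul : Eˣ) : E)).2 (one_mem E)) hv
      refine ⟨z, Subtype.ext (mul_left_cancel₀ hq0 ?_)⟩
      rw [← hg x, hz]
      show (q : ℚb) ^ (k + 1) * ((q • z : locInt E) : ℚb) = _
      push_cast
      rw [nsmul_eq_mul]
      ring
  have hsurj : Function.Surjective φ := fun z => by
    obtain ⟨y, rfl⟩ := QuotientAddGroup.mk'_surjective _ z
    have hv : A.valuation ((1 + (q : ℚb) ^ (k + 1) * (y : ℚb)) - 1) ≤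
        A.valuation (q : ℚb) ^ (k + 1) := by
      rw [add_sub_cancel_left, map_mul, map_pow]
      exact mul_le_of_le_one_right' ((A.valuation_le_one_iff _).mpr y.2.1)
    have h0 : (⟨1 + (q : ℚb) ^ (k + 1) * (y : ℚb),
        add_mem (one_mem E) (mul_mem (pow_mem (natCast_mem E q) _) y.2.2)⟩ : E) ≠ 0 := fun h => by
      have h1 := near_one hA k.succ_ne_zero hv
      rw [show (1 : ℚb) + (q : ℚb) ^ (k + 1) * (y : ℚb) = 0 from congrArg Subtype.val h,
        map_zero] at h1
      exact zero_ne_one h1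
    refine ⟨⟨Additive.ofMul (Units.mk0 _ h0), hv⟩, congrArg π (Subtype.ext ?_)⟩
    have h1 := hg ⟨Additive.ofMul (Units.mk0 _ h0), hv⟩
    change (1 + (q : ℚb) ^ (k + 1) * (y : ℚb)) - 1 = _ at h1
    rw [add_sub_cancel_left] at h1
    exact (mul_left_cancel₀ hq0 h1).symm
  show ((princ hA E (k + 1)).addSubgroupOf (princ hA E k)).index = _
  rw [← hker, AddSubgroup.index_ker, AddMonoidHom.range_eq_top.mpr hsurj,
    AddSubgroup.card_top]
  rfl

theorem finite_locInt_mod : (nsmulAddMonoidHom (α := locInt E) q).range.index ≠ 0 := by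
  rw [index_smul_locInt E hq hA]
  exact pow_ne_zero _ hq.ne_zero

/-- The first level has finite index in the units. -/
theorem relIndex_princ_zero_ne_zero :
    (princ hA E 0).relIndex (ordE hq hA E).ker ≠ 0 := by
  have hint : ∀ x : (ordE hq hA E).ker, ((((x : Additive Eˣ).toMul : Eˣ) : E) : ℚb) ∈ A :=
    fun x => (A.valuation_le_one_iff _).mp ((mem_ker_ordE hq hA E).mp x.2).le
  set π := QuotientAddGroup.mk' (nsmulAddMonoidHom (α := locInt E) q).range with hπdef
  let val : (ordE hq hA E).ker → locInt E := fun x =>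
    ⟨_, hint x, ((((x : Additive Eˣ).toMul : Eˣ) : E)).2⟩
  haveI : (nsmulAddMonoidHom (α := locInt E) q).range.FiniteIndex := ⟨finite_locInt_mod hq hA E⟩
  haveI : Finite (locInt E ⧸ (nsmulAddMonoidHom (α := locInt E) q).range) :=
    AddSubgroup.finite_quotient_of_finiteIndex
  let Ψ : (ordE hq hA E).ker ⧸ (princ hA E 0).addSubgroupOf (ordE hq hA E).ker → _ :=
    fun c => π (val c.out)
  have hinj : Function.Injective Ψ := by
    intro c c' h
    rw [← QuotientAddGroup.out_eq' c, ← QuotientAddGroup.out_eq' c', QuotientAddGroup.eq,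
      AddSubgroup.mem_addSubgroupOf, mem_princ hA]
    have h' : π (val c'.out) = π (val c.out) := h.symm
    rw [hπdef, QuotientAddGroup.mk'_eq_mk'] at h'
    obtain ⟨z, ⟨w, hw⟩, hz⟩ := h'
    set a : Eˣ := ((c.out : (ordE hq hA E).ker) : Additive Eˣ).toMul
    set b : Eˣ := ((c'.out : (ordE hq hA E).ker) : Additive Eˣ).toMul
    have hab : (((a : E) : ℚb)) = ((b : E) : ℚb) + (q : ℚb) * (w : ℚb) := by
      have hz' := congrArg Subtype.val hz
      rw [← hw] at hz'
      simp only [val] at hz'
      push_cast [nsmulAddMonoidHom, nsmul_eq_mul] at hz'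
      simpa [nsmulAddMonoidHom, nsmul_eq_mul] using hz'.symm
    show A.valuation ((((a⁻¹ * b : Eˣ) : E) : ℚb) - 1) ≤ _
    have ha : A.valuation ((a : E) : ℚb) = 1 := (mem_ker_ordE hq hA E).mp c.out.2
    have ha0 : ((a : E) : ℚb) ≠ 0 := fun h0 => by rw [h0, map_zero] at ha; exact zero_ne_one ha
    rw [Units.val_mul, IntermediateField.coe_mul, Units.val_inv_eq_inv_val,
      IntermediateField.coe_inv, inv_mul_eq_div, div_sub_one ha0, map_div₀, ha, div_one,
      show ((b : E) : ℚb) - ((a : E) : ℚb) = -((q : ℚb) * (w : ℚb)) by rw [hab]; ring,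
      Valuation.map_neg, map_mul, zero_add, pow_one]
    exact mul_le_of_le_one_right' ((A.valuation_le_one_iff _).mpr w.2.1)
  haveI := Finite.of_injective _ hinj
  exact AddSubgroup.index_ne_zero_of_finite

theorem princ_le_ker (k : ℕ) : princ hA E k ≤ (ordE hq hA E).ker := fun _ hx =>
  (mem_ker_ordE hq hA E).mpr (near_one hA k.succ_ne_zero hx)

omit hq [FiniteDimensional (decField A) E] in
theorem princ_succ_le (k : ℕ) : princ hA E (k + 1) ≤ princ hA E k := fun _ hx =>
  (mem_princ hA E).mpr (le_trans ((mem_princ hA E).mp hx)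
    (pow_le_pow_right_of_le_one' (natCast_val_lt_one hA).le (Nat.le_succ (k + 1))))

theorem relIndex_princ_ne_zero (k : ℕ) : (princ hA E k).relIndex (ordE hq hA E).ker ≠ 0 := by
  induction k with
  | zero => exact relIndex_princ_zero_ne_zero hq hA E
  | succ k ih =>
    rw [← AddSubgroup.relIndex_mul_relIndex _ _ _ (princ_succ_le hA E k) (princ_le_ker hq hA E k),
      relIndex_princ hq hA E k]
    exact mul_ne_zero (pow_ne_zero _ hq.ne_zero) ih

set_option maxHeartbeats 1000000 in
/-- The index of the `p`-th powers of `E` is `p` times the number of `p`-th roots of unity times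
`p ^ [E : decField]` if `p` is the residue characteristic. -/
theorem index_powers {p : ℕ} (hp : p.Prime) :
    (nsmulAddMonoidHom (α := Additive Eˣ) p).range.index =
      p * Nat.card (nsmulAddMonoidHom (α := Additive Eˣ) p).ker *
        (q ^ Module.finrank (decField A) E) ^ shift p q := by
  set X := Additive Eˣ
  set m : X →+ X := nsmulAddMonoidHom p
  set o := ordE hq hA E
  set U := o.ker
  -- the units
  haveI : ((princ hA E 1).addSubgroupOf U).FiniteIndex := ⟨relIndex_princ_ne_zero hq hA E 1⟩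
  haveI hUfi : Finite (U ⧸ (princ hA E 1).addSubgroupOf U) :=
    AddSubgroup.finite_quotient_of_finiteIndex
  let mU : U →+ U := nsmulAddMonoidHom p
  let π := QuotientAddGroup.mk' ((princ hA E 1).addSubgroupOf U)
  let mQ := nsmulAddMonoidHom (α := U ⧸ (princ hA E 1).addSubgroupOf U) p
  have h1 := index_range_exact π (QuotientAddGroup.mk'_surjective _) mU mQ
    (AddMonoidHom.ext fun x => map_nsmul π p x)
  rw [QuotientAddGroup.ker_mk'] at h1
  have hbot : mU.ker ⊓ (princ hA E 1).addSubgroupOf U = ⊥ := by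
    refine eq_bot_iff.mpr fun x ⟨hx1, hx2⟩ => ?_
    obtain ⟨ht1, ht2⟩ := small_of_le hq hA hp le_rfl hx2
    have hpow : (((((x : X).toMul : Eˣ) : E) : ℚb)) ^ p = 1 := by
      have h := congrArg (fun z : U => (((((z : X).toMul : Eˣ) : E) : ℚb))) hx1
      simpa [mU, nsmulAddMonoidHom] using h
    have h0 := eq_one_of_pow_eq_one (A := A) hp ht1 ht2 (by rw [add_sub_cancel]; exact hpow)
    refine AddSubgroup.mem_bot.mpr (Subtype.ext ?_)
    refine Additive.toMul.injective (Units.ext (Subtype.ext ?_))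
    exact sub_eq_zero.mp h0
  have hmap : (((princ hA E 1).addSubgroupOf U).map mU).relIndex
      ((princ hA E 1).addSubgroupOf U) = (q ^ Module.finrank (decField A) E) ^ shift p q := by
    have hm : ((princ hA E 1).addSubgroupOf U).map mU =
        (princ hA E (1 + shift p q)).addSubgroupOf U := by
      rw [← map_princ hq hA E hp le_rfl]
      ext x
      simp only [AddSubgroup.mem_map, AddSubgroup.mem_addSubgroupOf]
      exact ⟨fun ⟨y, hy, h⟩ => ⟨y, hy, congrArg Subtype.val h⟩,
        fun ⟨y, hy, h⟩ => ⟨⟨y, princ_le_ker hq hA E 1 hy⟩, hy, Subtype.ext h⟩⟩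
    rw [hm, AddSubgroup.relIndex_addSubgroupOf (princ_le_ker hq hA E 1)]
    unfold shift
    split
    · rw [pow_one]; exact relIndex_princ hq hA E 1
    · rw [pow_zero, add_zero]; exact AddSubgroup.relIndex_self _
  have hQ : mQ.range.index = Nat.card mQ.ker := by
    haveI : mQ.ker.FiniteIndex := inferInstance
    exact AddSubgroup.index_range
  have hU : mU.range.index = (q ^ Module.finrank (decField A) E) ^ shift p q * Nat.card mU.ker := by
    rw [hbot, hmap, hQ] at h1
    refine mul_right_cancel₀ (Nat.card_pos (α := mQ.ker)).ne' ?_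
    simp only [AddSubgroup.card_bot, one_mul] at h1
    rw [h1]
    ring
  -- the order
  let oR := o.rangeRestrict
  let mR : o.range →+ o.range := nsmulAddMonoidHom p
  have h2 := index_range_exact oR o.rangeRestrict_surjective m mR
    (AddMonoidHom.ext fun x => map_nsmul oR p x)
  rw [show oR.ker = U from o.ker_rangeRestrict] at h2
  have hmUker : Nat.card mU.ker = Nat.card (m.ker ⊓ U : AddSubgroup X) :=
    Nat.card_congr ⟨fun x => ⟨x.1.1, congrArg Subtype.val x.2, x.1.2⟩,
      fun x => ⟨⟨x.1, x.2.2⟩, Subtype.ext x.2.1⟩, fun _ => rfl, fun _ => rfl⟩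
  have hkerU : m.ker ≤ U := fun x hx => by
    have h : p • o x = 0 := by
      rw [← map_nsmul, show p • x = 0 from hx, map_zero]
    exact (nsmul_eq_zero_iff_right hp.ne_zero).mp h
  have hmR : mR.ker = ⊥ := eq_bot_iff.mpr fun x hx => AddSubgroup.mem_bot.mpr
    (Subtype.ext ((nsmul_eq_zero_iff_right hp.ne_zero).mp (congrArg Subtype.val hx)))
  have hmRi : mR.range.index = p := by
    obtain ⟨g, hg⟩ := Int.subgroup_cyclic o.range
    have hg0 : g ≠ 0 := by
      intro h0
      have hqE : (⟨(q : ℚb), natCast_mem E q⟩ : E) ≠ 0 := fun h => by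
        have h' : (q : ℚb) = 0 := congrArg Subtype.val h
        exact hq.ne_zero (by exact_mod_cast h')
      have hmem : o (Additive.ofMul (Units.mk0 _ hqE)) ∈ o.range := ⟨_, rfl⟩
      rw [hg, h0, AddSubgroup.mem_closure_singleton] at hmem
      obtain ⟨n, hn⟩ := hmem
      rw [smul_zero] at hn
      have hk := (mem_ker_ordE hq hA E (x := Additive.ofMul (Units.mk0 _ hqE))).mp hn.symm
      exact absurd hk (natCast_val_lt_one hA).ne
    have hgmem : g ∈ o.range := by rw [hg]; exact AddSubgroup.subset_closure rfl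
    let e : ℤ →+ o.range := zmultiplesHom o.range ⟨g, hgmem⟩
    have hes : Function.Surjective e := by
      rintro ⟨x, hx⟩
      rw [hg, AddSubgroup.mem_closure_singleton] at hx
      obtain ⟨n, rfl⟩ := hx
      exact ⟨n, Subtype.ext (by simp [e, zmultiplesHom])⟩
    have hei : Function.Injective e := fun a b h => by
      have := congrArg Subtype.val h
      simp only [e, zmultiplesHom_apply, AddSubgroup.coe_zsmul, smul_eq_mul] at this
      exact mul_right_cancel₀ hg0 this
    have hr : mR.range = (AddSubgroup.zmultiples (p : ℤ)).map e := by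
      ext x
      obtain ⟨n, rfl⟩ := hes x
      simp only [AddSubgroup.mem_map, AddMonoidHom.mem_range, AddSubgroup.mem_zmultiples_iff]
      constructor
      · rintro ⟨y, hy⟩
        obtain ⟨l, rfl⟩ := hes y
        exact ⟨p • l, ⟨l, by simp [mul_comm]⟩, by rw [map_nsmul]; exact hy⟩
      · rintro ⟨_, ⟨l, rfl⟩, hy⟩
        exact ⟨e l, by rw [← hy]; show p • e l = _; rw [← map_nsmul]; simp [mul_comm]⟩
    rw [hr, AddSubgroup.index_map, (AddMonoidHom.ker_eq_bot_iff e).mpr hei,
      AddMonoidHom.range_eq_top.mpr hes, sup_bot_eq, AddSubgroup.index_top, mul_one,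
      Int.index_zmultiples, Int.natAbs_natCast]
  have hpow : (U.map m).relIndex U = mU.range.index := by
    show AddSubgroup.index ((U.map m).addSubgroupOf U) = _
    congr 1
    ext x
    simp only [AddSubgroup.mem_addSubgroupOf, AddSubgroup.mem_map, AddMonoidHom.mem_range]
    exact ⟨fun ⟨y, hy, h⟩ => ⟨⟨y, hy⟩, Subtype.ext h⟩,
      fun ⟨y, h⟩ => ⟨y, y.2, congrArg Subtype.val h⟩⟩
  have hmU : Nat.card mU.ker = Nat.card m.ker := by rw [hmUker, inf_eq_left.mpr hkerU]
  rw [hpow, hU, hmU, inf_eq_left.mpr hkerU, hmR, hmRi, AddSubgroup.card_bot, mul_one] at h2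
  have hfin : Nat.card m.ker ≠ 0 := by
    haveI : Finite m.ker := by
      haveI : NeZero p := ⟨hp.ne_zero⟩
      refine Finite.of_injective (β := rootsOfUnity p E)
        (fun x => ⟨(x : X).toMul, x.2⟩) fun a b h => ?_
      exact Subtype.ext (congrArg (fun z : rootsOfUnity p E => Additive.ofMul (z : Eˣ)) h)
    exact Nat.card_pos.ne'
  refine mul_right_cancel₀ hfin ?_
  rw [h2]
  ring

end Fermat.Agent.GD
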