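import Fermat.Agent.GD.Local.Base

/-!
# Integers of the finite extensions of the henselisation
-/

set_option autoImplicit false
set_option linter.style.haveILetI false

noncomputable section

namespace Fermat.Agent.GD

open IsLocalRing Polynomial
open Fermat.Agent.Galois

local notation "ℚb" => AlgebraicClosure ℚ

variable {A : ValuationSubring (AlgebraicClosure ℚ)} (E : IntermediateField (decField A) (AlgebraicClosure ℚ))

theorem isHens_restrict : IsHens A (E.restrictScalars ℚ) :=
  (isHens_decField A).mono fun x hx => E.algebraMap_mem ⟨x, hx⟩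

variable (A)

/-- The integers of the henselisation. -/
def zH : Subring ℚb := A.toSubring ⊓ (decField A).toSubfield.toSubring

variable {A}

theorem mem_zH {x : ℚb} : x ∈ zH A ↔ x ∈ A ∧ x ∈ decField A := Iff.rfl

/-- The integers of an extension of the henselisation, as a module over those of the base. -/
def locInt : Subalgebra (zH A) ℚb where
  carrier := {x | x ∈ A ∧ x ∈ E}
  mul_mem' h h' := ⟨mul_mem h.1 h'.1, mul_mem h.2 h'.2⟩
  one_mem' := ⟨one_mem _, one_mem _⟩
  add_mem' h h' := ⟨add_mem h.1 h'.1, add_mem h.2 h'.2⟩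
  zero_mem' := ⟨zero_mem _, zero_mem _⟩
  algebraMap_mem' c := ⟨c.2.1, E.algebraMap_mem ⟨c, c.2.2⟩⟩

theorem mem_locInt {x : ℚb} : x ∈ locInt E ↔ x ∈ A ∧ x ∈ E := Iff.rfl

variable {q : ℕ} (hq : q.Prime) (hA : A.LiesOverPrime q)

include hq hA

omit hq in
theorem natCast_val_lt_one : A.valuation (q : ℚb) < 1 := A.mem_nonunits_iff.mp hA

omit hA in
theorem natCast_val_ne_zero : A.valuation (q : ℚb) ≠ 0 := by simpa using hq.ne_zero

/-- A nonzero integer of the henselisation is a unit times a power of the prime. -/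
theorem exists_eq_mul_pow (x : zH A) (hx : x ≠ 0) :
    ∃ (u : (zH A)ˣ) (k : ℕ), (x : ℚb) = ((u : zH A) : ℚb) * (q : ℚb) ^ k := by
  have hx0 : (x : ℚb) ≠ 0 := fun h => hx (Subtype.ext h)
  have hv0 := natCast_val_ne_zero (A := A) hq
  have hv1 := natCast_val_lt_one hA
  obtain ⟨k, hk⟩ := exists_val_eq_zpow hq hA x.2.2 hx0
  have hk0 : 0 ≤ k := by
    by_contra h
    have h1 : A.valuation (x : ℚb) ≤ 1 := (A.valuation_le_one_iff _).mpr x.2.1
    rw [hk] at h1
    exact absurd h1 (not_le.mpr (one_lt_zpow_of_neg₀ (zero_lt_iff.mpr hv0) hv1 (not_le.mp h)))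
  lift k to ℕ using hk0
  rw [zpow_natCast] at hk
  have hq0 : (q : ℚb) ^ k ≠ 0 := pow_ne_zero _ (by exact_mod_cast hq.ne_zero)
  have hu : A.valuation ((x : ℚb) / (q : ℚb) ^ k) = 1 := by
    rw [map_div₀, map_pow, hk, div_self (pow_ne_zero _ hv0)]
  have hmem : (x : ℚb) / (q : ℚb) ^ k ∈ zH A :=
    ⟨(A.valuation_le_one_iff _).mp hu.le,
      show (x : ℚb) / (q : ℚb) ^ k ∈ decField A from
        div_mem (show (x : ℚb) ∈ decField A from x.2.2) (pow_mem (natCast_mem (decField A) q) k)⟩
  have hinv : ((x : ℚb) / (q : ℚb) ^ k)⁻¹ ∈ zH A :=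
    ⟨(A.valuation_le_one_iff _).mp (by rw [map_inv₀, hu, inv_one]), show ((x : ℚb) / (q : ℚb) ^ k)⁻¹ ∈ decField A from inv_mem (show _ ∈ decField A from hmem.2)⟩
  refine ⟨⟨⟨_, hmem⟩, ⟨_, hinv⟩, Subtype.ext (mul_inv_cancel₀ (div_ne_zero hx0 hq0)),
    Subtype.ext (inv_mul_cancel₀ (div_ne_zero hx0 hq0))⟩, k, ?_⟩
  exact (div_mul_cancel₀ _ hq0).symm

theorem isUnit_or_dvd (x : zH A) : IsUnit x ∨ (q : zH A) ∣ x := by
  rcases eq_or_ne x 0 with rfl | hx
  · exact Or.inr (dvd_zero _)
  obtain ⟨u, k, h⟩ := exists_eq_mul_pow hq hA x hx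
  have hxe : x = u * (q : zH A) ^ k := Subtype.ext (by push_cast; exact h)
  cases k with
  | zero => exact Or.inl ⟨u, by rw [hxe, pow_zero, mul_one]⟩
  | succ k => exact Or.inr ⟨u * (q : zH A) ^ k, by rw [hxe]; ring⟩

theorem isDiscreteValuationRing_zH : IsDiscreteValuationRing (zH A) := by
  haveI : IsDomain (zH A) := inferInstance
  refine IsDiscreteValuationRing.ofHasUnitMulPowIrreducibleFactorization ⟨(q : zH A), ?_, ?_⟩
  · refine ⟨fun h => ?_, fun a b hab => ?_⟩
    · obtain ⟨u, hu⟩ := h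
      have h2 : A.valuation (q : ℚb) * A.valuation (((u⁻¹ : (zH A)ˣ) : zH A) : ℚb) = 1 := by
        rw [← map_mul, ← map_one A.valuation]
        congr 1
        have := congrArg Subtype.val u.mul_inv
        simpa [hu] using this
      have h3 : A.valuation (((u⁻¹ : (zH A)ˣ) : zH A) : ℚb) ≤ 1 :=
        (A.valuation_le_one_iff _).mpr (((u⁻¹ : (zH A)ˣ) : zH A)).2.1
      exact absurd h2 (ne_of_lt (lt_of_le_of_lt (mul_le_of_le_one_right' h3)
        (natCast_val_lt_one hA)))
    · rcases isUnit_or_dvd hq hA a with ha | ⟨c, hc⟩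
      · exact Or.inl ha
      rcases isUnit_or_dvd hq hA b with hb | ⟨e, he⟩
      · exact Or.inr hb
      exfalso
      have h : A.valuation (q : ℚb) =
          A.valuation (q : ℚb) * (A.valuation (q : ℚb) * A.valuation ((c : ℚb) * (e : ℚb))) := by
        rw [← map_mul, ← map_mul]
        congr 1
        have := congrArg Subtype.val hab
        rw [hc, he] at this
        push_cast at this
        linear_combination this
      have h3 : A.valuation ((c : ℚb) * (e : ℚb)) ≤ 1 :=
        (A.valuation_le_one_iff _).mpr (mul_mem c.2.1 e.2.1)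
      have h4 : (1 : A.ValueGroup) = A.valuation (q : ℚb) * A.valuation ((c : ℚb) * (e : ℚb)) :=
        mul_left_cancel₀ (natCast_val_ne_zero (A := A) hq) (by rw [mul_one]; exact h)
      exact absurd h4.symm (ne_of_lt (lt_of_le_of_lt (mul_le_of_le_one_right' h3)
        (natCast_val_lt_one hA)))
  · intro x hx
    obtain ⟨u, k, h⟩ := exists_eq_mul_pow hq hA x hx
    exact ⟨k, u, by rw [mul_comm]; exact Subtype.ext (by push_cast; exact h.symm)⟩

omit hq hA in
/-- Integers are integral over those of the henselisation. -/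
theorem isIntegral_of_mem {x : ℚb} (hx : x ∈ A) : IsIntegral (zH A) x := by
  haveI : Algebra.IsAlgebraic ℚ ℚb := isAlgebraic_qbar
  haveI : Normal (decField A) ℚb := (inferInstance : IsGalois (decField A) ℚb).to_normal
  have hxi : IsIntegral (decField A) x :=
    (Algebra.IsIntegral.isIntegral (R := ℚ) x).tower_top
  set m := minpoly (decField A) x
  have hroots : ∀ y, (m.map (algebraMap (decField A) ℚb)).IsRoot y → y ∈ A := by
    intro y hy
    obtain ⟨σ, rfl⟩ := (Normal.minpoly_eq_iff_mem_orbit (F := decField A) (E := ℚb)).mp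
      (minpoly.eq_of_root (Algebra.IsAlgebraic.isAlgebraic (R := decField A) x) (by
        rw [aeval_def, ← eval_map]; exact hy))
    exact Galois.apply_mem_of_mem_decomposition (σ := σ.restrictScalars ℚ)
      (isHens_decField A fun z => σ.commutes z) hx
  have hcoef : ∀ i, ((m.coeff i : decField A) : ℚb) ∈ A := by
    have hsplit : (m.map (algebraMap (decField A) ℚb)).Splits := IsAlgClosed.splits _
    have hmo : (m.map (algebraMap (decField A) ℚb)).Monic := (minpoly.monic hxi).map _
    have hl : m.map (algebraMap (decField A) ℚb) ∈ Polynomial.lifts (algebraMap A ℚb) := by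
      rw [hsplit.eq_prod_roots_of_monic hmo]
      refine Subsemiring.multiset_prod_mem _ _ fun p hp => ?_
      obtain ⟨γ, hγ, rfl⟩ := Multiset.mem_map.mp hp
      exact ⟨X - C ⟨γ, hroots γ ((mem_roots hmo.ne_zero).mp hγ)⟩, by simp⟩
    intro i
    obtain ⟨c, hc⟩ := (lifts_iff_coeff_lifts _).mp hl i
    rw [coeff_map] at hc
    exact (show ((m.coeff i : decField A) : ℚb) = (c : ℚb) from hc.symm) ▸ c.2
  have hlm : m.map (algebraMap (decField A) ℚb) ∈ Polynomial.lifts (algebraMap (zH A) ℚb) :=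
    (lifts_iff_coeff_lifts _).mpr fun i => ⟨⟨_, hcoef i, (m.coeff i).2⟩, by rw [coeff_map]; rfl⟩
  obtain ⟨p, hp, -, hpm⟩ := lifts_and_degree_eq_and_monic hlm ((minpoly.monic hxi).map _)
  refine ⟨p, hpm, ?_⟩
  rw [← eval_map, hp, eval_map, ← aeval_def]
  exact minpoly.aeval _ _

end Fermat.Agent.GD
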