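import Fermat.Agent.GD.Local.Bridge
import Fermat.Agent.GD.Local.Defs
import Fermat.Agent.GD.Local.EquivHom

/-!
# A normal basis lattice in the integers of a Galois extension of the henselisation
-/

set_option autoImplicit false
set_option linter.style.haveILetI false

noncomputable section

namespace Fermat.Agent.GD

open Fermat.Agent.Galois

local notation "ℚb" => AlgebraicClosure ℚ

variable {q : Nat.Primes} {N : Subgroup (LD (some q)).G}

instance decompActionQbar (q : Nat.Primes) : DistribMulAction (LD (some q)).G ℚb :=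
  inferInstanceAs (DistribMulAction (decomp (some q)) ℚb)

theorem smul_qbar (g : (LD (some q)).G) (x : ℚb) : g • x = toGQ g x := rfl

theorem smul_qbar_mul (g : (LD (some q)).G) (x y : ℚb) : g • (x * y) = g • x * g • y :=
  map_mul (toGQ g) x y

theorem valuation_smul_qbar (g : (LD (some q)).G) (x : ℚb) :
    (placeAt q).valuation (g • x) = (placeAt q).valuation x :=
  Galois.valuation_apply_eq (σ := toGQ g) (show decomp (some q) from g).2 x

theorem smul_decField (g : (LD (some q)).G) {c : ℚb} (hc : c ∈ decField (placeAt q)) :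
    g • c = c :=
  apply_eq_of_mem_decField hc (show decomp (some q) from g).2

theorem smul_natCast (g : (LD (some q)).G) (n : ℕ) : g • (n : ℚb) = n := map_natCast (toGQ g) n

theorem smul_mem_fieldOf [N.Normal] (g : (LD (some q)).G) {x : ℚb} (hx : x ∈ fieldOf N) :
    g • x ∈ fieldOf N := fun h hh => by
  have h1 : (g⁻¹ * h * g) • x = x :=
    mem_fieldOf.mp hx _ (by simpa using ‹N.Normal›.conj_mem h hh g⁻¹)
  rw [mul_smul, mul_smul, inv_smul_eq_iff] at h1
  exact h1

theorem isGalois_fieldOf [N.Normal] (hN : (LD (some q)).IsOpen N) :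
    IsGalois (decField (placeAt q)) (fieldOf N) := by
  haveI : Algebra.IsAlgebraic ℚ ℚb := isAlgebraic_qbar
  rw [← InfiniteGalois.normal_iff_isGalois, fixingSubgroup_fieldOf hN]
  exact Subgroup.Normal.comap inferInstance _

/-- A normal basis: the translates of an element span the field freely. -/
theorem exists_normal_elt [N.Normal] (hN : (LD (some q)).IsOpen N) :
    ∃ b ∈ fieldOf N, LinearIndependent (decField (placeAt q))
        (fun x : (LD (some q)).G ⧸ N => x.out • b) ∧
      ∀ y ∈ fieldOf N, ∃ c : (LD (some q)).G ⧸ N →₀ decField (placeAt q),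
        y = c.sum fun x a => (a : ℚb) * (x.out • b) := by
  haveI := isGalois_fieldOf hN
  haveI := finiteDimensional_fieldOf hN
  haveI := finiteIndex_of_isOpen hN
  haveI : Algebra.IsAlgebraic ℚ ℚb := isAlgebraic_qbar
  haveI : Normal (decField (placeAt q)) ℚb :=
    (inferInstance : IsGalois (decField (placeAt q)) ℚb).to_normal
  haveI : Normal (decField (placeAt q)) (fieldOf N) := IsGalois.to_normal
  let nb := IsGalois.normalBasis (decField (placeAt q)) (fieldOf N)
  let b : fieldOf N := nb 1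
  let v : (LD (some q)).G ⧸ N → fieldOf N := fun x => ⟨x.out • (b : ℚb), smul_mem_fieldOf _ b.2⟩
  have hspan : ⊤ ≤ Submodule.span (decField (placeAt q)) (Set.range v) := by
    rw [← nb.span_eq]
    refine Submodule.span_le.mpr ?_
    rintro _ ⟨e, rfl⟩
    obtain ⟨σ, rfl⟩ := AlgEquiv.restrictNormalHom_surjective (F := decField (placeAt q))
      (K₁ := fieldOf N) (E := ℚb) e
    refine Submodule.subset_span ⟨(galDecomp q σ : (LD (some q)).G ⧸ N), Subtype.ext ?_⟩
    rw [IsGalois.normalBasis_apply]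
    refine Eq.trans ?_ (AlgEquiv.restrictNormal_commutes σ (fieldOf N) b).symm
    obtain ⟨s, hs⟩ := QuotientGroup.mk_out_eq_mul N (galDecomp q σ)
    show ((galDecomp q σ : (LD (some q)).G ⧸ N).out) • (b : ℚb) = _
    rw [hs, mul_smul, smul_qbar (s : (LD (some q)).G), mem_fieldOf.mp b.2 _ s.2]
    rfl
  letI : Fintype ((LD (some q)).G ⧸ N) := Fintype.ofFinite _
  have hcard : Fintype.card ((LD (some q)).G ⧸ N) =
      Module.finrank (decField (placeAt q)) (fieldOf N) := by
    rw [← Nat.card_eq_fintype_card, ← Subgroup.index_eq_card, finrank_fieldOf hN]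
  have hli := linearIndependent_of_top_le_span_of_card_eq_finrank hspan hcard
  refine ⟨b, b.2, hli.map' (fieldOf N).val.toLinearMap
    (LinearMap.ker_eq_bot.mpr Subtype.val_injective), fun y hy => ?_⟩
  have hmem : (⟨y, hy⟩ : fieldOf N) ∈ Submodule.span (decField (placeAt q)) (Set.range v) :=
    hspan Submodule.mem_top
  obtain ⟨c, hc⟩ := Finsupp.mem_span_range_iff_exists_finsupp.mp hmem
  refine ⟨c, ?_⟩
  have h := congrArg (fun z : fieldOf N => (z : ℚb)) hc
  simp only [Finsupp.sum, AddSubmonoidClass.coe_finsetSum] at h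
  rw [← h]
  rfl

/-- A bound on the value of an element of the field by a power of the prime. -/
theorem exists_pow_mul_le {x : ℚb} (hN : (LD (some q)).IsOpen N) (hx : x ∈ fieldOf N) :
    ∃ r : ℕ, ∀ r', r ≤ r' → (placeAt q).valuation (((q : ℕ) : ℚb) ^ r' * x) ≤ 1 := by
  have hA := placeAt_liesOverPrime q
  rcases eq_or_ne x 0 with rfl | hx0
  · exact ⟨0, fun r _ => by rw [mul_zero, map_zero]; exact zero_le⟩
  haveI := finiteDimensional_fieldOf hN
  obtain ⟨k, hk⟩ := exists_val_pow_eq q.2 hA (fieldOf N) hx hx0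
  set d := Module.finrank (decField (placeAt q)) (fieldOf N)
  have hd : 0 < d := Module.finrank_pos
  refine ⟨k.natAbs, fun r hr => ?_⟩
  refine (pow_le_one_iff hd.ne').mp ?_
  rw [map_mul, map_pow, mul_pow, hk, ← zpow_natCast ((placeAt q).valuation ((q : ℕ) : ℚb)) r,
    ← zpow_natCast (((placeAt q).valuation ((q : ℕ) : ℚb)) ^ (r : ℤ)) d, ← zpow_mul,
    ← zpow_add₀ (natCast_val_ne_zero q.2)]
  have h0 : (0 : ℤ) ≤ r * d + k := by
    have h1 : -(r : ℤ) ≤ k := by omega
    have h2 : (r : ℤ) ≤ r * d := by nlinarith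
    omega
  lift (r : ℤ) * d + k to ℕ using h0 with e
  rw [zpow_natCast]
  exact pow_le_one₀ zero_le (natCast_val_lt_one hA).le

/-- The integers of the field of `N`. -/
def intsOf (N : Subgroup (LD (some q)).G) : AddSubgroup ℚb where
  carrier := {x | x ∈ fieldOf N ∧ (placeAt q).valuation x ≤ 1}
  zero_mem' := ⟨zero_mem _, by rw [map_zero]; exact zero_le⟩
  add_mem' h h' := ⟨add_mem h.1 h'.1, (Valuation.map_add _ _ _).trans (max_le h.2 h'.2)⟩
  neg_mem' h := ⟨neg_mem h.1, by rw [Valuation.map_neg]; exact h.2⟩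

theorem mem_intsOf {x : ℚb} :
    x ∈ intsOf N ↔ x ∈ fieldOf N ∧ (placeAt q).valuation x ≤ 1 := Iff.rfl

theorem pow_mul_mem_intsOf (hN : (LD (some q)).IsOpen N) {x : ℚb} (hx : x ∈ fieldOf N) :
    ∃ r : ℕ, ∀ r', r ≤ r' → ((q : ℕ) : ℚb) ^ r' * x ∈ intsOf N := by
  obtain ⟨r, hr⟩ := exists_pow_mul_le hN hx
  exact ⟨r, fun r' h => ⟨mul_mem (pow_mem (natCast_mem (fieldOf N) _) _) hx, hr r' h⟩⟩

/-- The combination of the translates of an element with the given coefficients. -/
def combo [N.FiniteIndex] (θ : ℚb) :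
    ((LD (some q)).G ⧸ N → zH (placeAt q)) →+ ℚb where
  toFun c :=
    letI := Fintype.ofFinite ((LD (some q)).G ⧸ N)
    ∑ x, (c x : ℚb) * (x.out • θ)
  map_zero' := Finset.sum_eq_zero fun x _ => zero_mul _
  map_add' c c' := by
    rw [← Finset.sum_add_distrib]
    exact Finset.sum_congr rfl fun x _ => add_mul _ _ _

/-- A lattice with a free action inside the integers, of finite index. -/
theorem exists_free_lattice [N.Normal] [N.FiniteIndex] (hN : (LD (some q)).IsOpen N) :
    ∃ θ ∈ fieldOf N, Function.Injective (combo (N := N) θ) ∧ (combo (N := N) θ).range ≤ intsOf N ∧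
      ∃ r : ℕ, ∀ y ∈ intsOf N, ((q : ℕ) : ℚb) ^ r * y ∈ (combo (N := N) θ).range := by
  classical
  letI := Fintype.ofFinite ((LD (some q)).G ⧸ N)
  haveI := finiteDimensional_fieldOf hN
  obtain ⟨b, hb, hli, hspan⟩ := exists_normal_elt hN
  obtain ⟨m, hm⟩ := pow_mul_mem_intsOf hN hb
  have hq0 : ((q : ℕ) : ℚb) ^ m ≠ 0 := pow_ne_zero _ (by exact_mod_cast q.2.ne_zero)
  set θ := ((q : ℕ) : ℚb) ^ m * b with hθ
  have hsmul : ∀ x : (LD (some q)).G ⧸ N, x.out • θ = ((q : ℕ) : ℚb) ^ m * (x.out • b) := by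
    intro x
    rw [hθ, smul_qbar_mul, ← Nat.cast_pow, smul_natCast]
  refine ⟨θ, (hm m le_rfl).1, (injective_iff_map_eq_zero _).mpr fun c hc => ?_, ?_, ?_⟩
  · have h0 : ∑ x, (⟨(c x : ℚb), (c x).2.2⟩ : decField (placeAt q)) • (x.out • b) = 0 := by
      refine mul_left_cancel₀ hq0 ?_
      rw [mul_zero, Finset.mul_sum, ← hc]
      refine Finset.sum_congr rfl fun x _ => ?_
      rw [hsmul]
      show _ * ((c x : ℚb) * _) = _
      ring
    funext x
    exact Subtype.ext (congrArg (fun z : decField (placeAt q) => (z : ℚb))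
      (Fintype.linearIndependent_iff.mp hli _ h0 x))
  · rintro _ ⟨c, rfl⟩
    refine sum_mem fun x _ => ⟨mul_mem ((fieldOf N).algebraMap_mem ⟨_, (c x).2.2⟩)
      (smul_mem_fieldOf _ (hm m le_rfl).1), ?_⟩
    rw [map_mul, valuation_smul_qbar]
    exact mul_le_one' (((placeAt q).valuation_le_one_iff _).mpr (c x).2.1) (hm m le_rfl).2
  · obtain ⟨B, -⟩ := locInt_free (fieldOf N) q.2 (placeAt_liesOverPrime q)
    -- denominators of the basis
    have hden : ∀ i, ∃ r : ℕ, ∀ r', r ≤ r' →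
        ((q : ℕ) : ℚb) ^ r' * (B i : ℚb) ∈ (combo (N := N) θ).range := by
      intro i
      obtain ⟨c, hc⟩ := hspan _ (B i).2.2
      have hcx : ∀ x, ∃ r : ℕ, ∀ r', r ≤ r' →
          ((q : ℕ) : ℚb) ^ r' * (c x : ℚb) ∈ intsOf N := fun x =>
        pow_mul_mem_intsOf hN ((fieldOf N).algebraMap_mem (c x))
      choose r hr using hcx
      refine ⟨m + Finset.univ.sup r, fun r' hr' => ?_⟩
      have hz : ∀ x, ((q : ℕ) : ℚb) ^ (r' - m) * (c x : ℚb) ∈ zH (placeAt q) := fun x =>
        ⟨((placeAt q).valuation_le_one_iff _).mp (hr x _ (by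
            have := Finset.le_sup (f := r) (Finset.mem_univ x)
            omega)).2,
          mul_mem (pow_mem (natCast_mem (decField (placeAt q)) _) _) (c x).2⟩
      refine ⟨fun x => ⟨_, hz x⟩, ?_⟩
      show ∑ x, ((q : ℕ) : ℚb) ^ (r' - m) * (c x : ℚb) * (x.out • θ) = _
      rw [hc, Finsupp.sum_fintype _ _ (fun x => by rw [ZeroMemClass.coe_zero, zero_mul]),
        Finset.mul_sum]
      refine Finset.sum_congr rfl fun x _ => ?_
      rw [hsmul, show ((q : ℕ) : ℚb) ^ r' = ((q : ℕ) : ℚb) ^ (r' - m) * ((q : ℕ) : ℚb) ^ m by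
        rw [← pow_add, Nat.sub_add_cancel (le_trans (Nat.le_add_right _ _) hr')]]
      ring
    choose r hr using hden
    refine ⟨Finset.univ.sup r, fun y hy => ?_⟩
    have hy' : y ∈ locInt (fieldOf N) := ⟨((placeAt q).valuation_le_one_iff _).mp hy.2, hy.1⟩
    have e : y = ∑ i, ((B.repr ⟨y, hy'⟩ i : zH (placeAt q)) : ℚb) * (B i : ℚb) := by
      have h := congrArg (fun z : locInt (fieldOf N) => (z : ℚb)) (B.sum_repr ⟨y, hy'⟩).symm
      simp only [AddSubmonoidClass.coe_finsetSum] at h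
      exact h
    rw [e, Finset.mul_sum]
    refine sum_mem fun i _ => ?_
    obtain ⟨c, hc⟩ := hr i _ (Finset.le_sup (Finset.mem_univ i))
    refine ⟨fun x => B.repr ⟨y, hy'⟩ i * c x, ?_⟩
    rw [mul_left_comm, ← hc]
    show ∑ x, _ = _ * ∑ x, _
    rw [Finset.mul_sum]
    exact Finset.sum_congr rfl fun x _ => mul_assoc _ _ _

theorem combo_smul [N.Normal] [N.FiniteIndex] {θ : ℚb} (hθ : θ ∈ fieldOf N)
    (g : (LD (some q)).G) (c : (LD (some q)).G ⧸ N → zH (placeAt q)) :
    g • combo (N := N) θ c = combo (N := N) θ fun x => c (g⁻¹ • x) := by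
  letI := Fintype.ofFinite ((LD (some q)).G ⧸ N)
  show g • ∑ x, (c x : ℚb) * (x.out • θ) = ∑ x, (c (g⁻¹ • x) : ℚb) * (x.out • θ)
  rw [Finset.smul_sum, ← Equiv.sum_comp (MulAction.toPerm g) fun x => (c (g⁻¹ • x) : ℚb) * (x.out • θ)]
  refine Finset.sum_congr rfl fun x _ => ?_
  rw [smul_qbar_mul, smul_decField g (c x).2.2]
  show _ = (c (g⁻¹ • g • x) : ℚb) * ((g • x).out • θ)
  rw [inv_smul_smul, ← mul_smul]
  congr 1
  obtain ⟨s, hs, hgs⟩ : ∃ s ∈ N, (g • x).out = g * x.out * s := by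
    refine ⟨(g * x.out)⁻¹ * (g • x).out, QuotientGroup.eq.mp ?_, by group⟩
    rw [QuotientGroup.out_eq']
    conv_rhs => rw [← QuotientGroup.out_eq' x]
    rfl
  rw [hgs, mul_smul (g * x.out) s, smul_qbar s, mem_fieldOf.mp hθ s hs]

theorem finite_relIndex_pow (hN : (LD (some q)).IsOpen N) (r : ℕ) :
    ((intsOf N).map (nsmulAddMonoidHom ((q : ℕ) ^ r))).relIndex (intsOf N) ≠ 0 := by
  haveI := finiteDimensional_fieldOf hN
  induction r with
  | zero =>
    rw [show (intsOf N).map (nsmulAddMonoidHom ((q : ℕ) ^ 0)) = intsOf N from by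
      ext x
      simp [nsmulAddMonoidHom]]
    rw [AddSubgroup.relIndex_self]
    exact one_ne_zero
  | succ r ih =>
    have hle : ∀ k : ℕ, (intsOf N).map (nsmulAddMonoidHom k) ≤ intsOf N := by
      rintro k _ ⟨x, hx, rfl⟩
      exact (intsOf N).nsmul_mem hx k
    have e : (intsOf N).map (nsmulAddMonoidHom ((q : ℕ) ^ (r + 1))) =
        ((intsOf N).map (nsmulAddMonoidHom (q : ℕ))).map (nsmulAddMonoidHom ((q : ℕ) ^ r)) := by
      rw [AddSubgroup.map_map]
      congr 1
      ext x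
      show ((q : ℕ) ^ (r + 1)) • x = ((q : ℕ) ^ r) • ((q : ℕ) • x)
      rw [smul_smul, pow_succ]
    rw [e, ← AddSubgroup.relIndex_mul_relIndex _ _ _ (AddSubgroup.map_mono (hle _)) (hle _)]
    refine mul_ne_zero ?_ ih
    rw [AddSubgroup.relIndex_map_map_of_injective]
    · let ι : locInt (fieldOf N) →+ ℚb := (locInt (fieldOf N)).val.toLinearMap.toAddMonoidHom
      have e1 : intsOf N = ι.range := by
        ext x
        exact ⟨fun hx => ⟨⟨x, ((placeAt q).valuation_le_one_iff _).mp hx.2, hx.1⟩, rfl⟩,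
          fun ⟨y, hy⟩ => hy ▸ ⟨y.2.2, ((placeAt q).valuation_le_one_iff _).mpr y.2.1⟩⟩
      have e2 : ι.range.map (nsmulAddMonoidHom (q : ℕ)) =
          (nsmulAddMonoidHom (α := locInt (fieldOf N)) (q : ℕ)).range.map ι := by
        ext x
        constructor
        · rintro ⟨_, ⟨y, rfl⟩, rfl⟩; exact ⟨_, ⟨y, rfl⟩, map_nsmul ι _ y⟩
        · rintro ⟨_, ⟨y, rfl⟩, rfl⟩; exact ⟨_, ⟨y, rfl⟩, (map_nsmul ι _ y).symm⟩
      rw [e1, e2, AddMonoidHom.range_eq_map (f := ι),
        AddSubgroup.relIndex_map_map_of_injective _ _ (f := ι) (fun a b h => Subtype.ext h),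
        AddSubgroup.relIndex_top_right, index_smul_locInt _ q.2 (placeAt_liesOverPrime q)]
      exact pow_ne_zero _ q.2.ne_zero
    · intro a b h
      exact smul_right_injective ℚb (pow_ne_zero r q.2.ne_zero) h

end Fermat.Agent.GD
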