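import Fermat.Agent.GD.Local.Degree

/-!
# Cyclic layers of a local field
-/

set_option autoImplicit false
set_option linter.style.haveILetI false

noncomputable section

namespace Fermat.Agent.GD

open Fermat.Agent.Galois Finset

local notation "ℚb" => AlgebraicClosure ℚ

variable {q : Nat.Primes}

/-- A normal subgroup with cyclic quotient of order `m` generated by `σ`. -/
structure CycLayer (H M : Subgroup (LD (some q)).G) (σ : (LD (some q)).G) (m : ℕ) : Prop where
  isOpen : (LD (some q)).IsOpen M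
  le : M ≤ H
  conj : ∀ h ∈ H, ∀ s ∈ M, h * s * h⁻¹ ∈ M
  mem : σ ∈ H
  gen : ∀ h ∈ H, ∃ i : ℕ, h⁻¹ * σ ^ i ∈ M
  pos : 0 < m
  pow_mem : σ ^ m ∈ M
  min : ∀ i, 0 < i → i < m → σ ^ i ∉ M

variable {H M : Subgroup (LD (some q)).G} {σ : (LD (some q)).G} {m : ℕ}

theorem CycLayer.isOpen_top (h : CycLayer H M σ m) : (LD (some q)).IsOpen H :=
  ⟨h.isOpen.choose, h.isOpen.choose_spec.1, h.isOpen.choose_spec.2.trans h.le⟩

theorem CycLayer.normal (h : CycLayer H M σ m) : (M.subgroupOf H).Normal :=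
  ⟨fun s hs g => Subgroup.mem_subgroupOf.mpr (h.conj g g.2 s (Subgroup.mem_subgroupOf.mp hs))⟩

/-- The powers of the generator enumerate the cosets. -/
theorem CycLayer.bijective (h : CycLayer H M σ m) :
    Function.Bijective fun i : Fin m =>
      ((⟨σ, h.mem⟩ ^ (i : ℕ) : H) : H ⧸ M.subgroupOf H) := by
  constructor
  · intro i j hij
    have hij' := Subgroup.mem_subgroupOf.mp (QuotientGroup.eq.mp hij)
    simp only [Subgroup.coe_mul, Subgroup.coe_inv, Subgroup.coe_pow] at hij'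
    have key : ∀ a b : ℕ, a ≤ b → b < m → (σ ^ a)⁻¹ * σ ^ b ∈ M → a = b := by
      intro a b hab hb hmem
      obtain ⟨k, rfl⟩ := Nat.exists_eq_add_of_le hab
      rw [pow_add, inv_mul_cancel_left] at hmem
      rcases Nat.eq_zero_or_pos k with hk | hk
      · omega
      · exact absurd hmem (h.min k hk (by omega))
    rcases le_total (i : ℕ) j with hle | hle
    · exact Fin.ext (key _ _ hle j.2 hij')
    · refine Fin.ext (key _ _ hle i.2 ?_).symm
      have := M.inv_mem hij'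
      rwa [mul_inv_rev, inv_inv] at this
  · intro c
    obtain ⟨i, hi⟩ := h.gen c.out c.out.2
    refine ⟨⟨i % m, Nat.mod_lt _ h.pos⟩, ?_⟩
    conv_rhs => rw [← QuotientGroup.out_eq' c]
    refine (QuotientGroup.eq.mpr (Subgroup.mem_subgroupOf.mpr ?_)).symm
    simp only [Subgroup.coe_mul, Subgroup.coe_inv, Subgroup.coe_pow]
    have h2 : σ ^ (m * (i / m)) ∈ M := by rw [pow_mul]; exact M.pow_mem h.pow_mem _
    have e : ((c.out : H) : (LD (some q)).G)⁻¹ * σ ^ (i % m) =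
        ((c.out : H) : (LD (some q)).G)⁻¹ * σ ^ i * (σ ^ (m * (i / m)))⁻¹ := by
      conv_rhs => rw [← Nat.mod_add_div i m, pow_add, Nat.mod_add_div]
      rw [← mul_assoc, mul_inv_cancel_right]
    rw [e]
    exact M.mul_mem hi (M.inv_mem h2)

theorem CycLayer.relIndex_eq (h : CycLayer H M σ m) : M.relIndex H = m := by
  show (M.subgroupOf H).index = m
  rw [Subgroup.index_eq_card, ← Nat.card_congr (Equiv.ofBijective _ h.bijective)]
  simp

/-- The norm along the powers of an element. -/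
def nrm (σ : (LD (some q)).G) (m : ℕ) : ℚbˣ →* ℚbˣ where
  toFun y := ∏ i ∈ range m, σ ^ i • y
  map_one' := by simp
  map_mul' x y := by simp [smul_mul', prod_mul_distrib]

theorem nrm_apply (σ : (LD (some q)).G) (m : ℕ) (y : ℚbˣ) :
    nrm σ m y = ∏ i ∈ range m, σ ^ i • y := rfl

theorem nrm_mul (σ : (LD (some q)).G) (a b : ℕ) (y : ℚbˣ) :
    nrm σ (a * b) y = nrm σ a (nrm (σ ^ a) b y) := by
  simp only [nrm_apply, smul_prod', ← mul_smul, ← pow_mul, ← pow_add]
  induction b with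
  | zero => simp
  | succ b ih =>
    rw [Nat.mul_succ, prod_range_add, ih, ← prod_mul_distrib]
    refine prod_congr rfl fun i _ => ?_
    rw [prod_range_succ, add_comm (a * b) i]

theorem CycLayer.nrm_mem (h : CycLayer H M σ m) {y : ℚbˣ} (hy : y ∈ fixedUnits M) :
    nrm σ m y ∈ fixedUnits H := by
  intro g hg
  have hMfix : ∀ i : ℕ, ∀ s ∈ M, s • (σ ^ i • y) = σ ^ i • y := fun i s hs => by
    have h2 := hy _ (h.conj _ (H.inv_mem (H.pow_mem h.mem i)) s hs)
    rw [inv_inv, mul_smul, mul_smul, inv_smul_eq_iff] at h2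
    exact h2
  have hσ : ∀ j : ℕ, σ ^ j • nrm σ m y = nrm σ m y := fun j => by
    induction j with
    | zero => rw [pow_zero, one_smul]
    | succ j ih =>
      rw [pow_succ', mul_smul, ih, nrm_apply, smul_prod']
      have h1 := prod_range_succ' (fun i => σ ^ i • y) m
      rw [prod_range_succ, show σ ^ m • y = σ ^ 0 • y by
        rw [pow_zero, one_smul]; exact hy _ h.pow_mem] at h1
      refine Eq.trans (prod_congr rfl fun i _ => ?_) (mul_right_cancel h1).symm
      rw [← mul_smul, ← pow_succ']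
  obtain ⟨i, hi⟩ := h.gen g hg
  rw [show g = σ ^ i * (g⁻¹ * σ ^ i)⁻¹ by group, mul_smul]
  have : (g⁻¹ * σ ^ i)⁻¹ • nrm σ m y = nrm σ m y := by
    rw [nrm_apply, smul_prod']
    exact prod_congr rfl fun j _ => hMfix j _ (M.inv_mem hi)
  rw [this, hσ]

/-- The group of norms from a layer. -/
def normGroup (M : Subgroup (LD (some q)).G) (σ : (LD (some q)).G) (m : ℕ) : Subgroup ℚbˣ :=
  (fixedUnits M).map (nrm σ m)

theorem CycLayer.normGroup_le (h : CycLayer H M σ m) : normGroup M σ m ≤ fixedUnits H := by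
  rintro _ ⟨y, hy, rfl⟩
  exact h.nrm_mem hy

theorem relIndex_normGroup_prime {p : ℕ} [hp : Fact p.Prime] (h : CycLayer H M σ p) :
    (normGroup M σ p).relIndex (fixedUnits H) = p := by
  have hc := card_norm_eq (p := p) H h.isOpen h.le h.normal h.relIndex_eq
  refine Eq.trans ?_ hc
  rw [← Subgroup.index_eq_card]
  show ((normGroup M σ p).subgroupOf (fixedUnits H)).index = _
  congr 1
  haveI : Finite (H ⧸ M.subgroupOf H) := Finite.of_surjective _ h.bijective.2
  haveI := h.normal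
  have hprod : ∀ y ∈ fixedUnits M,
      ∏ᶠ s : H ⧸ M.subgroupOf H, ((s.out : H) : (LD (some q)).G) • y = nrm σ p y := fun y hy => by
    rw [← finprod_comp _ h.bijective, finprod_eq_prod_of_fintype, nrm_apply, prod_range]
    refine prod_congr rfl fun i _ => ?_
    obtain ⟨k, hk⟩ : ∃ k : M.subgroupOf H,
        ((((⟨σ, h.mem⟩ : H) ^ (i : ℕ) : H) : H ⧸ M.subgroupOf H).out : H) =
          (⟨σ, h.mem⟩ : H) ^ (i : ℕ) * k := QuotientGroup.mk_out_eq_mul _ _
    rw [hk, Subgroup.coe_mul, mul_smul, hy _ (Subgroup.mem_subgroupOf.mp k.2)]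
    rfl
  refine Eq.trans (Subgroup.closure_eq _).symm (congrArg Subgroup.closure (Set.ext fun x => ?_))
  constructor
  · intro hx
    obtain ⟨y, hy, hyx⟩ := Subgroup.mem_map.mp (Subgroup.mem_subgroupOf.mp hx)
    exact ⟨y, hy, by rw [hprod y hy, hyx]⟩
  · rintro ⟨y, hy, hxy⟩
    exact Subgroup.mem_subgroupOf.mpr ⟨y, hy, by rw [hxy, hprod y hy]⟩

/-- An intermediate layer. -/
theorem CycLayer.exists_mid (h : CycLayer H M σ m) {a b : ℕ} (hab : m = a * b) :
    ∃ M₁, CycLayer H M₁ σ a ∧ CycLayer M₁ M (σ ^ a) b := by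
  subst hab
  have ha : 0 < a := Nat.pos_of_mul_pos_right h.pos
  have hb : 0 < b := Nat.pos_of_mul_pos_left h.pos
  let M₁ : Subgroup (LD (some q)).G :=
    { carrier := {g | g ∈ H ∧ ∃ j : ℕ, g⁻¹ * σ ^ (a * j) ∈ M}
      one_mem' := ⟨H.one_mem, 0, by simp⟩
      mul_mem' := by
        rintro g g' ⟨hg, j, hj⟩ ⟨hg', j', hj'⟩
        refine ⟨H.mul_mem hg hg', j + j', ?_⟩
        have h1 := h.conj _ (H.inv_mem hg') _ hj
        rw [inv_inv] at h1
        rw [mul_add, pow_add, mul_inv_rev, show g'⁻¹ * g⁻¹ * (σ ^ (a * j) * σ ^ (a * j')) =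
          g'⁻¹ * (g⁻¹ * σ ^ (a * j)) * g' * (g'⁻¹ * σ ^ (a * j')) by group]
        exact M.mul_mem h1 hj'
      inv_mem' := by
        rintro g ⟨hg, j, hj⟩
        refine ⟨H.inv_mem hg, (b - 1) * j, ?_⟩
        rw [inv_inv]
        have h1 : σ ^ (a * j + a * ((b - 1) * j)) ∈ M := by
          rw [show a * j + a * ((b - 1) * j) = a * b * j by
            obtain ⟨c, rfl⟩ : ∃ c, b = c + 1 := ⟨b - 1, by omega⟩
            rw [Nat.add_sub_cancel]; ring, pow_mul]
          exact M.pow_mem h.pow_mem _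
        rw [pow_add] at h1
        have h2 := h.conj _ (H.inv_mem (H.pow_mem h.mem (a * ((b - 1) * j)))) _ (M.inv_mem hj)
        rw [inv_inv] at h2
        rw [show g * σ ^ (a * ((b - 1) * j)) = σ ^ (a * j) * σ ^ (a * ((b - 1) * j)) *
          ((σ ^ (a * ((b - 1) * j)))⁻¹ * (g⁻¹ * σ ^ (a * j))⁻¹ * σ ^ (a * ((b - 1) * j))) by group]
        exact M.mul_mem h1 h2 }
  have hMle : M ≤ M₁ := fun s hs => ⟨h.le hs, 0, by simpa using hs⟩
  refine ⟨M₁, ⟨⟨h.isOpen.choose, h.isOpen.choose_spec.1, h.isOpen.choose_spec.2.trans hMle⟩,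
    fun s hs => hs.1, fun g hg s hs => ?_, h.mem, fun g hg => ?_, ha, ?_, fun i hi0 hia hi => ?_⟩,
    h.isOpen, hMle, fun g hg => h.conj g hg.1, ?_, fun g hg => ?_, hb,
    by rw [← pow_mul]; exact h.pow_mem, fun i hi0 hib => ?_⟩
  · obtain ⟨hs', j, hj⟩ := hs
    obtain ⟨i, hi⟩ := h.gen g hg
    refine ⟨H.mul_mem (H.mul_mem hg hs') (H.inv_mem hg), j, ?_⟩
    -- conjugation is trivial modulo the layer
    have hc : ∀ x ∈ M, g * x * g⁻¹ ∈ M := h.conj g hg
    have e : (g * s * g⁻¹)⁻¹ * σ ^ (a * j) =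
        g * (s⁻¹ * σ ^ (a * j)) * g⁻¹ *
          (g * (σ ^ (a * j))⁻¹ * g⁻¹ * σ ^ (a * j)) := by group
    rw [e]
    refine M.mul_mem (hc _ hj) ?_
    have e2 : g * (σ ^ (a * j))⁻¹ * g⁻¹ * σ ^ (a * j) =
        σ ^ i * (g⁻¹ * σ ^ i)⁻¹ * (σ ^ (a * j))⁻¹ * (g⁻¹ * σ ^ i) * (σ ^ i)⁻¹ * σ ^ (a * j) := by
      group
    rw [e2, show σ ^ i * (g⁻¹ * σ ^ i)⁻¹ * (σ ^ (a * j))⁻¹ * (g⁻¹ * σ ^ i) * (σ ^ i)⁻¹ * σ ^ (a * j)
      = σ ^ i * ((g⁻¹ * σ ^ i)⁻¹ * ((σ ^ (a * j))⁻¹ * (g⁻¹ * σ ^ i) * σ ^ (a * j))) * (σ ^ i)⁻¹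
      by group]
    refine h.conj _ (H.pow_mem h.mem i) _ (M.mul_mem (M.inv_mem hi) ?_)
    have := h.conj _ (H.inv_mem (H.pow_mem h.mem (a * j))) _ hi
    rwa [inv_inv] at this
  · obtain ⟨i, hi⟩ := h.gen g hg
    exact ⟨i, ⟨H.mul_mem (H.inv_mem hg) (H.pow_mem h.mem i), 0, by
      simpa using M.inv_mem hi⟩⟩
  · exact ⟨H.pow_mem h.mem a, 1, by simp⟩
  · obtain ⟨-, j, hj⟩ := hi
    have hlt : (i : ℕ) < a * b := lt_of_lt_of_le hia (Nat.le_mul_of_pos_right a hb)
    have hmod : a * (j % b) < a * b := Nat.mul_lt_mul_of_pos_left (Nat.mod_lt _ hb) ha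
    have hj' : (σ ^ i)⁻¹ * σ ^ (a * (j % b)) ∈ M := by
      have h2 : σ ^ (a * b * (j / b)) ∈ M := by rw [pow_mul]; exact M.pow_mem h.pow_mem _
      have e : (σ ^ i)⁻¹ * σ ^ (a * (j % b)) =
          (σ ^ i)⁻¹ * σ ^ (a * j) * (σ ^ (a * b * (j / b)))⁻¹ := by
        conv_rhs => rw [show a * j = a * (j % b) + a * b * (j / b) by
          conv_lhs => rw [← Nat.mod_add_div j b]
          ring, pow_add]
        group
      rw [e]
      exact M.mul_mem hj (M.inv_mem h2)
    have heq := h.bijective.1 (a₁ := ⟨i, hlt⟩) (a₂ := ⟨a * (j % b), hmod⟩)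
      (QuotientGroup.eq.mpr (Subgroup.mem_subgroupOf.mpr (by simpa using hj')))
    have : i = a * (j % b) := congrArg Fin.val heq
    rcases Nat.eq_zero_or_pos (j % b) with h0 | h0
    · rw [h0, mul_zero] at this; omega
    · nlinarith
  · exact ⟨H.pow_mem h.mem a, 1, by simp⟩
  · obtain ⟨-, j, hj⟩ := hg
    exact ⟨j, by rwa [← pow_mul]⟩
  · rw [← pow_mul]
    exact h.min _ (Nat.mul_pos ha hi0) (Nat.mul_lt_mul_of_pos_left hib ha)

/-- The norm index of a layer of prime power degree is at most its degree. -/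
theorem relIndex_normGroup_le {p : ℕ} [hp : Fact p.Prime] {H : Subgroup (LD (some q)).G} (a : ℕ) :
    ∀ {M : Subgroup (LD (some q)).G} {σ : (LD (some q)).G}, CycLayer H M σ (p ^ a) →
      (normGroup M σ (p ^ a)).relIndex (fixedUnits H) ∣ p ^ a := by
  induction a generalizing H with
  | zero =>
    intro M σ h
    have hHM : H ≤ M := fun g hg => by
      obtain ⟨i, hi⟩ := h.gen g hg
      have h2 : σ ^ i ∈ M := M.pow_mem (by simpa using h.pow_mem) i
      have := M.mul_mem h2 (M.inv_mem hi)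
      rwa [mul_inv_rev, inv_inv, mul_inv_cancel_left] at this
    rw [show normGroup M σ (p ^ 0) = fixedUnits H by
      refine le_antisymm h.normGroup_le fun x hx => ⟨x, fun s hs => hx s (h.le hs), ?_⟩
      simp [nrm_apply], Subgroup.relIndex_self, pow_zero]
  | succ a ih =>
    intro M σ h
    obtain ⟨M₁, h₁, h₂⟩ := h.exists_mid (a := p) (b := p ^ a) (pow_succ' p a)
    have heq : normGroup M σ (p ^ (a + 1)) = (normGroup M (σ ^ p) (p ^ a)).map (nrm σ p) := by
      rw [normGroup, normGroup, Subgroup.map_map]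
      congr 1
      exact MonoidHom.ext fun y => by rw [pow_succ' p a]; exact nrm_mul σ p (p ^ a) y
    have hle : normGroup M σ (p ^ (a + 1)) ≤ normGroup M₁ σ p := by
      rw [heq]
      exact Subgroup.map_mono h₂.normGroup_le
    rw [← Subgroup.relIndex_mul_relIndex _ _ _ hle h₁.normGroup_le, relIndex_normGroup_prime h₁,
      heq, pow_succ]
    refine Nat.mul_dvd_mul_right ?_ p
    show ((normGroup M (σ ^ p) (p ^ a)).map (nrm σ p)).relIndex ((fixedUnits M₁).map (nrm σ p)) ∣ _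
    rw [Subgroup.relIndex_map_map]
    have e : fixedUnits M₁ ⊔ (nrm σ p).ker =
        fixedUnits M₁ ⊔ (normGroup M (σ ^ p) (p ^ a) ⊔ (nrm σ p).ker) := by
      rw [← sup_assoc, sup_eq_left.mpr h₂.normGroup_le]
    rw [e, Subgroup.relIndex_sup_right]
    exact (Subgroup.relIndex_dvd_of_le_left _ le_sup_left).trans (ih h₂)

/-- The norms from a layer of prime power degree above the residue degree. -/
theorem mem_normGroup_iff {p : ℕ} [hp : Fact p.Prime] {a : ℕ} (h : CycLayer H M σ (p ^ a))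
    [FiniteDimensional (decField (placeAt q)) (fieldOf H)] {f : ℕ} (hf0 : f ≠ 0)
    (hP : ∃ x, ordE q.2 (placeAt_liesOverPrime q) (fieldOf H) x = f)
    (hdiv : ∀ x, (f : ℤ) ∣ ordE q.2 (placeAt_liesOverPrime q) (fieldOf H) x)
    (hU : ∃ U, Unram U ∧ H ⊓ U ≤ M ∧ ∀ U', Unram U' → U' ≤ U → (H ⊔ U').index = f)
    {x : (fieldOf H)ˣ} :
    ((fixedUnitsEquiv H x : fixedUnits H) : ℚbˣ) ∈ normGroup M σ (p ^ a) ↔
      ((f * p ^ a : ℕ) : ℤ) ∣
        ordE q.2 (placeAt_liesOverPrime q) (fieldOf H) (Additive.ofMul x) := by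
  classical
  have hA := placeAt_liesOverPrime q
  set m := p ^ a
  set o := ordE q.2 hA (fieldOf H)
  haveI := finiteDimensional_fieldOf h.isOpen
  haveI := finiteIndex_of_isOpen h.isOpen
  have hm : M.relIndex H = m := h.relIndex_eq
  obtain ⟨f', hf'0, hdiv', -, U₂, hU₂, hdeg'⟩ := exists_degree M h.isOpen
  obtain ⟨U₁, hU₁, hUM, hdeg⟩ := hU
  set U := U₁ ⊓ U₂
  have hUr : Unram U := hU₁.inf hU₂
  have hff : f' = f * m := by
    haveI := hUr.2.1
    rw [← hdeg' U hUr inf_le_right, ← hdeg U hUr inf_le_left,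
      ← Subgroup.relIndex_mul_index (sup_le_sup_right h.le U), mul_comm]
    congr 1
    rw [← hm, ← Subgroup.inf_relIndex_right (M ⊔ U)]
    have e1 : (M ⊔ U) ⊓ (H ⊔ U) = M ⊔ U := inf_eq_left.mpr (sup_le_sup_right h.le U)
    rw [e1, show H ⊔ U = H ⊔ (M ⊔ U) by rw [← sup_assoc, sup_eq_left.mpr h.le]]
    haveI : (M ⊔ U).Normal := (hUr.of_le le_sup_right).2.1
    rw [Subgroup.relIndex_sup_right, ← Subgroup.inf_relIndex_right]
    congr 1
    refine le_antisymm ?_ (le_inf le_sup_left h.le)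
    rintro g ⟨hg, hgH⟩
    obtain ⟨s, hs, u, hu, rfl⟩ := Subgroup.mem_sup_of_normal_right.mp hg
    refine M.mul_mem hs (hUM ⟨?_, hu.1⟩)
    have := H.mul_mem (H.inv_mem (h.le hs)) hgH
    rwa [inv_mul_cancel_left] at this
  have hd : Module.finrank (decField (placeAt q)) (fieldOf M) =
      m * Module.finrank (decField (placeAt q)) (fieldOf H) := by
    rw [finrank_fieldOf h.isOpen, finrank_fieldOf h.isOpen_top,
      ← Subgroup.relIndex_mul_index h.le, hm]
  have hnorm : ∀ z : (fieldOf H)ˣ, ((fixedUnitsEquiv H z : fixedUnits H) : ℚbˣ) ∈ normGroup M σ m →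
      ((f * m : ℕ) : ℤ) ∣ o (Additive.ofMul z) := by
    rintro z ⟨y, hy, hyz⟩
    have e : o (Additive.ofMul z) =
        ordE q.2 hA (fieldOf M) (Additive.ofMul ((fixedUnitsEquiv M).symm ⟨y, hy⟩)) := by
      refine val_zpow_injective q.2 hA ?_
      rw [← ordE_spec, ← ordE_spec, hd, pow_mul]
      show (placeAt q).valuation ((((fixedUnitsEquiv H z : fixedUnits H)) : ℚbˣ) : ℚb) ^ _ =
        ((placeAt q).valuation ((y : ℚbˣ) : ℚb) ^ m) ^ _
      rw [← hyz, nrm_apply, Units.coe_prod, map_prod]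
      congr 1
      rw [← card_range m, ← prod_const, card_range]
      exact prod_congr rfl fun i _ =>
        valuation_apply_eq (show decomp (some q) from σ ^ i).2 _
    rw [e, ← hff]
    exact hdiv' _
  set NG := ((normGroup M σ m).subgroupOf (fixedUnits H)).comap (fixedUnitsEquiv H).toMonoidHom
  have hmemNG : ∀ z, z ∈ NG ↔
      ((fixedUnitsEquiv H z : fixedUnits H) : ℚbˣ) ∈ normGroup M σ m := fun z => Iff.rfl
  let o' : Additive (fieldOf H)ˣ →+ ZMod m :=
    AddMonoidHom.mk' (fun z => ((o z / (f : ℤ) : ℤ) : ZMod m)) fun z w => by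
      rw [map_add, Int.add_ediv_of_dvd_left (hdiv z)]
      push_cast
      rfl
  let o'' : (fieldOf H)ˣ →* Multiplicative (ZMod m) := AddMonoidHom.toMultiplicativeRight o'
  haveI : NeZero m := ⟨(pow_pos hp.out.pos a).ne'⟩
  have hker : ∀ z, z ∈ o''.ker ↔ ((f * m : ℕ) : ℤ) ∣ o (Additive.ofMul z) := fun z => by
    show ((o (Additive.ofMul z) / (f : ℤ) : ℤ) : ZMod m) = 0 ↔ _
    obtain ⟨k, hk⟩ := hdiv (Additive.ofMul z)
    rw [hk, Int.mul_ediv_cancel_left _ (by exact_mod_cast hf0), ZMod.intCast_zmod_eq_zero_iff_dvd]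
    push_cast
    rw [mul_dvd_mul_iff_left (by exact_mod_cast hf0)]
  have hle : NG ≤ o''.ker := fun z hz => (hker z).mpr (hnorm z hz)
  have hidx : o''.ker.index = m := by
    rw [Subgroup.index_ker, MonoidHom.range_eq_top.mpr, Subgroup.card_top, Nat.card_congr
      Multiplicative.toAdd, Nat.card_zmod]
    intro c
    obtain ⟨P, hP⟩ := hP
    refine ⟨(Additive.toMul P) ^ (c.toAdd).val, ?_⟩
    rw [map_pow]
    refine Multiplicative.toAdd.injective ?_
    rw [toAdd_pow]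
    show c.toAdd.val • ((o P / (f : ℤ) : ℤ) : ZMod m) = c.toAdd
    rw [hP, Int.ediv_self (by exact_mod_cast hf0), Int.cast_one, nsmul_one, ZMod.natCast_zmod_val]
  have hdvd : NG.index ∣ m := by
    rw [Subgroup.index_comap_of_surjective _ (fixedUnitsEquiv H).surjective]
    exact relIndex_normGroup_le a h
  have heq : NG = o''.ker := by
    by_contra hne
    haveI : NG.FiniteIndex := ⟨fun h0 => by
      rw [h0, zero_dvd_iff] at hdvd; exact (pow_pos hp.out.pos a).ne' hdvd⟩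
    have hlt := Subgroup.index_strictAnti (lt_of_le_of_ne hle hne)
    have hmle := Nat.le_of_dvd (pow_pos hp.out.pos a) hdvd
    omega
  exact ((hmemNG x).symm.trans (heq ▸ Iff.rfl)).trans (hker x)

end Fermat.Agent.GD
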