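import Fermat.Agent.GD.Local.Integers

/-!
# Integers of a finite extension of the henselisation as a lattice
-/

set_option autoImplicit false
set_option linter.style.haveILetI false

noncomputable section

namespace Fermat.Agent.GD

open IsLocalRing Polynomial
open Fermat.Agent.Galois

local notation "ℚb" => AlgebraicClosure ℚ

variable {A : ValuationSubring (AlgebraicClosure ℚ)}

/-- The integers of the henselisation inside its field. -/
def zHToField (A : ValuationSubring (AlgebraicClosure ℚ)) : zH A →+* decField A where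
  toFun x := ⟨x.1, x.2.2⟩
  map_one' := rfl
  map_mul' _ _ := rfl
  map_zero' := rfl
  map_add' _ _ := rfl

instance algebraZH : Algebra (zH A) (decField A) := (zHToField A).toAlgebra

instance towerZH : IsScalarTower (zH A) (decField A) ℚb :=
  IsScalarTower.of_algebraMap_eq fun _ => rfl

theorem valuation_le_or_inv {x : ℚb} : x ∈ A ∨ x⁻¹ ∈ A := A.mem_or_inv_mem x

instance faithfulZH : FaithfulSMul (zH A) (decField A) :=
  (faithfulSMul_iff_algebraMap_injective _ _).mpr fun _ _ h =>
    Subtype.ext (congrArg (fun z : decField A => (z : ℚb)) h)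

instance isFractionRing_zH : IsFractionRing (zH A) (decField A) := by
  refine IsFractionRing.of_field (zH A) (decField A) fun z => ?_
  rcases valuation_le_or_inv (A := A) (x := (z : ℚb)) with h | h
  · exact ⟨⟨z, h, z.2⟩, 1, by rw [map_one, div_one]; rfl⟩
  · exact ⟨1, ⟨(z : ℚb)⁻¹, h, (z⁻¹).2⟩, by
      rw [map_one, one_div]
      exact (inv_inv z).symm⟩

variable (E : IntermediateField (decField A) (AlgebraicClosure ℚ))

instance algebraLocInt : Algebra (locInt E) E :=
  ({ toFun := fun x => ⟨x.1, x.2.2⟩
     map_one' := rfl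
     map_mul' := fun _ _ => rfl
     map_zero' := rfl
     map_add' := fun _ _ => rfl } : locInt E →+* E).toAlgebra

theorem coe_algebraMap_locInt (x : locInt E) : ((algebraMap (locInt E) E x : E) : ℚb) = x := rfl

instance towerLocInt : IsScalarTower (zH A) (locInt E) E :=
  IsScalarTower.of_algebraMap_eq fun _ => Subtype.ext rfl

instance towerLocInt'' : IsScalarTower (zH A) E ℚb :=
  IsScalarTower.of_algebraMap_eq fun _ => rfl

instance towerLocInt' : IsScalarTower (zH A) (decField A) E :=
  IsScalarTower.of_algebraMap_eq fun _ => Subtype.ext rfl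

theorem valuation_root_mem {x : ℚb} (hx : IsIntegral (zH A) x) : x ∈ A := by
  obtain ⟨f, hf, h0⟩ := hx
  refine root_mem (f := f.map (algebraMap (zH A) ℚb)) (hf.map _) (fun i => ?_) ?_
  · rw [coeff_map]
    exact (f.coeff i).2.1
  · rw [IsRoot.def, eval_map]
    exact h0

instance isIntegralClosure_locInt : IsIntegralClosure (locInt E) (zH A) E where
  algebraMap_injective a b h := Subtype.ext (congrArg (fun z : E => (z : ℚb)) h)
  isIntegral_iff {x} := by
    have hval : IsIntegral (zH A) x ↔ IsIntegral (zH A) (x : ℚb) :=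
      (isIntegral_algHom_iff (IsScalarTower.toAlgHom (zH A) E ℚb)
        (fun a b h => Subtype.ext h)).symm
    constructor
    · exact fun h => ⟨⟨x, valuation_root_mem (hval.mp h), x.2⟩, Subtype.ext rfl⟩
    · rintro ⟨y, rfl⟩
      exact hval.mpr (isIntegral_of_mem y.2.1)

variable {q : ℕ} (hq : q.Prime) (hA : A.LiesOverPrime q)

include hq hA

theorem locInt_free [FiniteDimensional (decField A) E] :
    ∃ _b : Module.Basis (Fin (Module.finrank (decField A) E)) (zH A) (locInt E), True := by
  haveI := isDiscreteValuationRing_zH hq hA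
  haveI : Algebra.IsAlgebraic ℚ ℚb := isAlgebraic_qbar
  haveI : Module.IsTorsionFree (zH A) E :=
    Module.isTorsionFree_iff_algebraMap_injective.mpr fun a b h =>
      Subtype.ext (congrArg (fun z : E => (z : ℚb)) h)
  haveI := IsIntegralClosure.module_free (zH A) (decField A) E (locInt E)
  haveI := IsIntegralClosure.finite (zH A) (decField A) E (locInt E)
  exact ⟨(Module.finBasisOfFinrankEq (zH A) (locInt E)
    (IsIntegralClosure.rank (zH A) (decField A) E (locInt E))), trivial⟩

/-- The residue map of the henselisation. -/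
theorem exists_residue_hom :
    ∃ r : zH A →+ ZMod q, Function.Surjective r ∧ ∀ x, r x = 0 ↔ ∃ y, x = q • y := by
  classical
  haveI : Fact q.Prime := ⟨hq⟩
  let I : Ideal (zH A) := Ideal.span {(q : zH A)}
  have hI : ∀ x : zH A, x ∈ I ↔ ∃ y, x = q • y := fun x => by
    rw [Ideal.mem_span_singleton']
    exact exists_congr fun y => by rw [nsmul_eq_mul, mul_comm, eq_comm]
  haveI : Nontrivial (zH A ⧸ I) := Ideal.Quotient.nontrivial_iff.mpr fun h => by
    obtain ⟨y, hy⟩ := (hI 1).mp (h ▸ Submodule.mem_top)
    have h1 := congrArg (fun z : zH A => A.valuation (z : ℚb)) hy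
    simp only [nsmul_eq_mul] at h1
    push_cast at h1
    rw [map_one, map_mul] at h1
    exact absurd h1.symm (ne_of_lt (lt_of_le_of_lt
      (mul_le_of_le_one_right' ((A.valuation_le_one_iff _).mpr y.2.1)) (natCast_val_lt_one hA)))
  haveI : CharP (zH A ⧸ I) q := by
    refine (CharP.charP_iff_prime_eq_zero hq).mpr ?_
    rw [← map_natCast (Ideal.Quotient.mk I), Ideal.Quotient.eq_zero_iff_mem]
    exact Ideal.mem_span_singleton_self _
  let f : ZMod q →+* zH A ⧸ I := ZMod.castHom dvd_rfl _
  have hf : Function.Bijective f := ⟨f.injective, fun z => by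
    obtain ⟨x, rfl⟩ := Ideal.Quotient.mk_surjective z
    obtain ⟨a, ha⟩ := exists_int_sub_mem_nonunits hq hA (x := (x : ℚb)) x.2.2 x.2.1
    refine ⟨(a : ZMod q), ?_⟩
    rw [map_intCast, ← map_intCast (Ideal.Quotient.mk I), eq_comm, Ideal.Quotient.eq]
    refine Ideal.mem_span_singleton.mpr ((isUnit_or_dvd hq hA _).resolve_left fun hu => ?_)
    obtain ⟨u, hu⟩ := hu
    rw [ValuationSubring.mem_nonunits_iff] at ha
    have h1 := congrArg (fun z : zH A => A.valuation (z : ℚb)) u.mul_inv
    simp only [hu] at h1
    push_cast at h1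
    rw [map_mul, map_one] at h1
    exact absurd h1 (ne_of_lt (lt_of_le_of_lt
      (mul_le_of_le_one_right' ((A.valuation_le_one_iff _).mpr ((u⁻¹ : (zH A)ˣ) : zH A).2.1)) ha))⟩
  let e : ZMod q ≃+* zH A ⧸ I := RingEquiv.ofBijective f hf
  refine ⟨(e.symm.toAddEquiv.toAddMonoidHom).comp (Ideal.Quotient.mk I).toAddMonoidHom,
    e.symm.surjective.comp Ideal.Quotient.mk_surjective, fun x => ?_⟩
  show e.symm (Ideal.Quotient.mk I x) = 0 ↔ _
  rw [map_eq_zero_iff _ e.symm.injective, Ideal.Quotient.eq_zero_iff_mem, hI]

/-- The integers of an extension of degree `d` modulo the prime have `q ^ d` elements. -/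
theorem index_smul_locInt [FiniteDimensional (decField A) E] :
    (nsmulAddMonoidHom (α := locInt E) q).range.index =
      q ^ Module.finrank (decField A) E := by
  haveI : Fact q.Prime := ⟨hq⟩
  obtain ⟨b, -⟩ := locInt_free E hq hA
  obtain ⟨r, hr, hker⟩ := exists_residue_hom hq hA
  set R : locInt E →+ (Fin (Module.finrank (decField A) E) → ZMod q) :=
    (r.compLeft _).comp b.equivFun.toAddEquiv.toAddMonoidHom
  have hR : Function.Surjective R := hr.comp_left.comp b.equivFun.surjective
  have hk : R.ker = (nsmulAddMonoidHom (α := locInt E) q).range := by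
    ext x
    constructor
    · intro hx
      have hx' : ∀ i, ∃ y, b.equivFun x i = q • y := fun i => (hker _).mp (congrFun hx i)
      choose y hy using hx'
      refine ⟨b.equivFun.symm y, b.equivFun.injective (funext fun i => ?_)⟩
      show b.equivFun (q • b.equivFun.symm y) i = _
      rw [map_nsmul, LinearEquiv.apply_symm_apply, Pi.smul_apply, hy]
    · rintro ⟨y, rfl⟩
      funext i
      exact (hker _).mpr ⟨b.equivFun y i, by
        show b.equivFun (q • y) i = _; rw [map_nsmul, Pi.smul_apply]⟩
  rw [← hk, AddSubgroup.index_ker, AddMonoidHom.range_eq_top.mpr hR]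
  simp

end Fermat.Agent.GD
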