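import Fermat.Agent.GD.Local.Units

/-!
# Powers in the units of a finite extension of the henselisation
-/

set_option autoImplicit false
set_option linter.style.haveILetI false

noncomputable section

namespace Fermat.Agent.GD

open IsLocalRing Polynomial
open Fermat.Agent.Galois

local notation "ℚb" => AlgebraicClosure ℚ

variable {A : ValuationSubring (AlgebraicClosure ℚ)} {q : ℕ} (hq : q.Prime)
  (hA : A.LiesOverPrime q)

include hA in
/-- Values of small elements. -/
theorem val_pow_lt_one {k : ℕ} (hk : k ≠ 0) : A.valuation (q : ℚb) ^ k < 1 :=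
  pow_lt_one₀ zero_le (natCast_val_lt_one hA) hk

/-- An element close to one is a unit of the place. -/
theorem val_eq_one_of_near {x : ℚb} (h : A.valuation (x - 1) < 1) : A.valuation x = 1 := by
  have := A.valuation.map_one_add_of_lt h
  rwa [add_sub_cancel] at this

variable (E : IntermediateField (decField A) (AlgebraicClosure ℚ))

include hA in
theorem near_one {k : ℕ} (hk : k ≠ 0) {x : ℚb}
    (h : A.valuation (x - 1) ≤ A.valuation (q : ℚb) ^ k) : A.valuation x = 1 :=
  val_eq_one_of_near (lt_of_le_of_lt h (val_pow_lt_one hA hk))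

/-- The units of level `k + 1`. -/
def princ (k : ℕ) : AddSubgroup (Additive Eˣ) where
  carrier := {x |
    A.valuation ((((x.toMul : Eˣ) : E) : ℚb) - 1) ≤ A.valuation (q : ℚb) ^ (k + 1)}
  zero_mem' := by simp
  add_mem' := by
    intro x y hx hy
    show A.valuation (((x.toMul : Eˣ) : E).1 * ((y.toMul : Eˣ) : E).1 - 1) ≤ _
    rw [show ∀ a b : ℚb, a * b - 1 = (a - 1) * b + (b - 1) from fun a b => by ring]
    refine (Valuation.map_add _ _ _).trans (max_le ?_ hy)
    rw [map_mul, near_one hA k.succ_ne_zero hy, mul_one]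
    exact hx
  neg_mem' := by
    intro x hx
    show A.valuation ((((x.toMul)⁻¹ : Eˣ) : E).1 - 1) ≤ _
    have hmul : ((((x.toMul)⁻¹ : Eˣ) : E).1 : ℚb) * ((x.toMul : Eˣ) : E).1 = 1 :=
      congrArg Subtype.val (Units.inv_mul (x.toMul : Eˣ))
    rw [show ((((x.toMul)⁻¹ : Eˣ) : E).1 : ℚb) - 1 =
      ((((x.toMul)⁻¹ : Eˣ) : E).1 : ℚb) * (1 - ((x.toMul : Eˣ) : E).1) by
        rw [mul_sub, mul_one, hmul]]
    have h1 := congrArg A.valuation hmul
    rw [map_mul, map_one, near_one hA k.succ_ne_zero hx, mul_one] at h1
    rw [map_mul, h1, one_mul, Valuation.map_sub_swap]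
    exact hx

theorem mem_princ {k : ℕ} {x : Additive Eˣ} : x ∈ princ hA E k ↔
    A.valuation ((((x.toMul : Eˣ) : E) : ℚb) - 1) ≤ A.valuation (q : ℚb) ^ (k + 1) :=
  Iff.rfl

/-- The shift of the level under `p`-th powers. -/
def shift (p q : ℕ) : ℕ := if q = p then 1 else 0

include hq hA in
theorem val_prime_eq {p : ℕ} (hp : p.Prime) :
    A.valuation (p : ℚb) = A.valuation (q : ℚb) ^ shift p q := by
  unfold shift
  split
  · next h => rw [h, pow_one]
  · next h =>
    rw [pow_zero]
    obtain ⟨a, b, hab⟩ : ∃ a b : ℤ, a * p + b * q = 1 :=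
      Int.isCoprime_iff_nat_coprime.mpr (by
        simpa using (Nat.coprime_primes hp hq).mpr (Ne.symm h))
    refine le_antisymm ((A.valuation_le_one_iff _).mpr (natCast_mem A p)) (not_lt.mp fun hlt => ?_)
    have h1 : A.valuation ((a : ℚb) * p + (b : ℚb) * q) < 1 :=
      lt_of_le_of_lt (Valuation.map_add _ _ _) (max_lt
        (by rw [map_mul]; exact lt_of_le_of_lt (mul_le_of_le_one_left'
          ((A.valuation_le_one_iff _).mpr (intCast_mem A a))) hlt)
        (by rw [map_mul]; exact lt_of_le_of_lt (mul_le_of_le_one_left'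
          ((A.valuation_le_one_iff _).mpr (intCast_mem A b))) (natCast_val_lt_one hA)))
    rw [show (a : ℚb) * p + (b : ℚb) * q = ((a * p + b * q : ℤ) : ℚb) by push_cast; ring, hab,
      Int.cast_one, map_one] at h1
    exact lt_irrefl _ h1

include hq hA in
/-- Small elements satisfy the hypothesis of `val_one_add_pow_sub_one`. -/
theorem small_of_le {p : ℕ} (hp : p.Prime) {k : ℕ} (hk : 2 ≤ k) {t : ℚb}
    (ht : A.valuation t ≤ A.valuation (q : ℚb) ^ k) :
    A.valuation t < 1 ∧ A.valuation t ^ (p - 1) < A.valuation (p : ℚb) := by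
  have hq1 := natCast_val_lt_one hA
  have hlt : A.valuation t < 1 := lt_of_le_of_lt ht (val_pow_lt_one hA (by omega))
  refine ⟨hlt, lt_of_le_of_lt (pow_le_pow_left₀ zero_le ht _) ?_⟩
  rw [← pow_mul, val_prime_eq hq hA hp]
  refine pow_lt_pow_right_of_lt_one₀ (zero_lt_iff.mpr (natCast_val_ne_zero hq)) hq1 ?_
  have : 1 ≤ p - 1 := by have := hp.two_le; omega
  have hs : shift p q ≤ 1 := by unfold shift; split <;> omega
  have : k * 1 ≤ k * (p - 1) := Nat.mul_le_mul_left k this
  omega

include hq hA in
/-- Multiplication by `p` maps a deep level onto the shifted level. -/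
theorem map_princ {p : ℕ} (hp : p.Prime) {k : ℕ} (hk : 1 ≤ k) :
    (princ hA E k).map (nsmulAddMonoidHom p) = princ hA E (k + shift p q) := by
  ext y
  constructor
  · rintro ⟨x, hx, rfl⟩
    rw [SetLike.mem_coe, mem_princ hA] at hx
    rw [mem_princ hA]
    obtain ⟨h1, h2⟩ := small_of_le hq hA hp (by omega) hx
    show A.valuation ((((x.toMul : Eˣ) : E) ^ p : E).1 - 1) ≤ _
    rw [show ((((x.toMul : Eˣ) : E) ^ p : E).1 : ℚb) =
      (1 + ((((x.toMul : Eˣ) : E) : ℚb) - 1)) ^ p by push_cast; ring,
      val_one_add_pow_sub_one hp h1 h2, val_prime_eq hq hA hp,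
      show k + shift p q + 1 = shift p q + (k + 1) by omega, pow_add]
    exact mul_le_mul' le_rfl hx
  · intro hy
    rw [mem_princ hA] at hy
    set c : ℚb := (((y.toMul : Eˣ) : E) : ℚb)
    have hc1 : A.valuation c = 1 := near_one hA (Nat.succ_ne_zero _) hy
    set f : ℚb[X] := X ^ p - C c
    have hf : f.Monic := monic_X_pow_sub_C c hp.ne_zero
    have hsplit : f.Splits := IsAlgClosed.splits f
    -- some root is close to one
    obtain ⟨α, hα, hαle⟩ : ∃ α ∈ f.roots,
        A.valuation (α - 1) ^ p ≤ A.valuation (c - 1) := by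
      by_contra hcon
      push Not at hcon
      have hev : f.eval 1 = (f.roots.map fun a => 1 - a).prod :=
        hsplit.eval_eq_prod_roots_of_monic hf 1
      have h1 : A.valuation (c - 1) = (f.roots.map fun a => A.valuation (1 - a)).prod := by
        rw [Valuation.map_sub_swap, show (1 : ℚb) - c = f.eval 1 by simp [f], hev,
          map_multiset_prod, Multiset.map_map]
        rfl
      have h2 : A.valuation (c - 1) ^ f.roots.card <
          (f.roots.map fun a => A.valuation (1 - a) ^ p).prod := by
        have hne : f.roots ≠ 0 := by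
          intro h0
          have := hsplit.natDegree_eq_card_roots
          rw [natDegree_X_pow_sub_C, h0] at this
          simp at this
          exact hp.ne_zero this
        obtain ⟨a, ha⟩ := Multiset.exists_mem_of_ne_zero hne
        obtain ⟨t, ht⟩ := Multiset.exists_cons_of_mem ha
        rw [ht, Multiset.map_cons, Multiset.prod_cons, Multiset.card_cons, pow_succ']
        have hle : A.valuation (c - 1) ^ t.card ≤
            (t.map fun a => A.valuation (1 - a) ^ p).prod := by
          rw [← Multiset.prod_replicate, ← Multiset.map_const']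
          refine Multiset.prod_map_le_prod_map₀ _ _ (fun _ _ => zero_le) fun b hb => ?_
          rw [Valuation.map_sub_swap A.valuation 1 b]
          exact (hcon b (by rw [ht]; exact Multiset.mem_cons_of_mem hb)).le
        have ha' : A.valuation (c - 1) < A.valuation (1 - a) ^ p := by
          rw [Valuation.map_sub_swap A.valuation 1 a]; exact hcon a ha
        refine lt_of_le_of_lt (mul_le_mul' le_rfl hle) (mul_lt_mul_of_pos_right ha' ?_)
        refine zero_lt_iff.mpr (Multiset.prod_ne_zero fun hm => ?_)
        obtain ⟨b, hb, hb0⟩ := Multiset.mem_map.mp hm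
        have hb' := hcon b (by rw [ht]; exact Multiset.mem_cons_of_mem hb)
        rw [Valuation.map_sub_swap A.valuation b 1] at hb'
        exact absurd hb0 (ne_of_gt (lt_of_le_of_lt zero_le hb'))
      have hcard : f.roots.card = p := by
        rw [← hsplit.natDegree_eq_card_roots, natDegree_X_pow_sub_C]
      rw [hcard, Multiset.prod_map_pow, ← h1] at h2
      exact lt_irrefl _ h2
    have hroot : α ^ p = c := by
      simpa [f, sub_eq_zero] using ((mem_roots hf.ne_zero).mp hα).eq_zero
    have hq0 : A.valuation (q : ℚb) ≠ 0 := natCast_val_ne_zero hq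
    have hb : A.valuation (α - 1) ^ p ≤ A.valuation (q : ℚb) ^ (k + shift p q + 1) :=
      hαle.trans hy
    have hα1 : A.valuation (α - 1) < 1 := by
      by_contra h
      exact absurd (lt_of_le_of_lt ((one_le_pow₀ (not_lt.mp h)).trans hb)
        (val_pow_lt_one hA (Nat.succ_ne_zero _))) (lt_irrefl _)
    have hα2 : A.valuation (α - 1) ^ (p - 1) < A.valuation (p : ℚb) := by
      rw [val_prime_eq hq hA hp]
      by_contra h
      have h1 : A.valuation (q : ℚb) ^ (shift p q * p) ≤
          A.valuation (q : ℚb) ^ ((k + shift p q + 1) * (p - 1)) := by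
        rw [pow_mul, pow_mul]
        calc _ ≤ (A.valuation (α - 1) ^ (p - 1)) ^ p := pow_le_pow_left₀ zero_le (not_lt.mp h) _
          _ = (A.valuation (α - 1) ^ p) ^ (p - 1) := by rw [← pow_mul, ← pow_mul, mul_comm]
          _ ≤ _ := pow_le_pow_left₀ zero_le hb _
      rw [pow_le_pow_iff_right_of_lt_one₀ (zero_lt_iff.mpr hq0) (natCast_val_lt_one hA)] at h1
      have hs : shift p q ≤ 1 := by unfold shift; split <;> omega
      have : (shift p q + 2) * (p - 1) ≤ (k + shift p q + 1) * (p - 1) :=
        Nat.mul_le_mul_right _ (by omega)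
      have hp2 := hp.two_le
      have : shift p q * p < (shift p q + 2) * (p - 1) := by
        interval_cases (shift p q) <;> omega
      omega
    have hsc := val_one_add_pow_sub_one hp hα1 hα2
    rw [add_sub_cancel, hroot] at hsc
    have hαk : A.valuation (α - 1) ≤ A.valuation (q : ℚb) ^ (k + 1) := by
      rw [hsc, val_prime_eq hq hA hp, show k + shift p q + 1 = shift p q + (k + 1) by omega,
        pow_add] at hy
      exact le_of_mul_le_mul_left hy (zero_lt_iff.mpr (pow_ne_zero _ hq0))
    -- it is the only such root, so it lies in the field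
    have hαE : α ∈ E := by
      refine mem_of_forall_fixingSubgroup (F := E.restrictScalars ℚ) fun σ hσ => ?_
      have hσ' : σ ∈ A.decompositionSubgroup ℚ := isHens_restrict E hσ
      have hσc : (σ α) ^ p = α ^ p := by
        rw [← map_pow, hroot]
        exact hσ ⟨c, (((y.toMul : Eˣ) : E)).2⟩
      have hσv : A.valuation (σ α - 1) = A.valuation (α - 1) := by
        rw [show σ α - 1 = σ (α - 1) by rw [map_sub, map_one], Galois.valuation_apply_eq hσ']
      have hv1 := val_eq_one_of_near hα1
      have hα0 : α ≠ 0 := fun h => by rw [h, map_zero] at hv1; exact zero_ne_one hv1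
      have hdiff : A.valuation (σ α / α - 1) ≤ A.valuation (α - 1) := by
        rw [div_sub_one hα0, map_div₀, hv1, div_one,
          show σ α - α = (σ α - 1) - (α - 1) by ring]
        exact (Valuation.map_sub _ _ _).trans (max_le hσv.le le_rfl)
      have h0 := eq_one_of_pow_eq_one (A := A) hp (t := σ α / α - 1)
        (lt_of_le_of_lt hdiff hα1)
        (lt_of_le_of_lt (pow_le_pow_left₀ zero_le hdiff _) hα2)
        (by rw [add_sub_cancel, div_pow, hσc, div_self (pow_ne_zero _ hα0)])
      exact (div_eq_one_iff_eq hα0).mp (sub_eq_zero.mp h0)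
    have hα0 : (⟨α, hαE⟩ : E) ≠ 0 := fun h => by
      have h' : α = 0 := congrArg Subtype.val h
      rw [h', zero_sub, Valuation.map_neg, map_one] at hα1
      exact lt_irrefl _ hα1
    refine ⟨Additive.ofMul (Units.mk0 _ hα0), (mem_princ hA E).mpr hαk, ?_⟩
    refine Additive.toMul.injective (Units.ext (Subtype.ext ?_))
    exact hroot

end Fermat.Agent.GD
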