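import Fermat.Agent.GD.Local.NormIndex

/-!
# The residue field of an unramified level
-/

set_option autoImplicit false
set_option linter.style.haveILetI false

noncomputable section

namespace Fermat.Agent.GD

open Fermat.Agent.Galois Polynomial

local notation "ℚb" => AlgebraicClosure ℚ

variable {q : Nat.Primes} (N : Subgroup (LD (some q)).G)

/-- The reduction of the integers of a field modulo the prime. -/
abbrev Res : Type := locInt (fieldOf N) ⧸ Ideal.span {((q : ℕ) : locInt (fieldOf N))}

/-- The action on the integers of the field of a normal subgroup. -/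
def actInt [hn : N.Normal] (g : (LD (some q)).G) : locInt (fieldOf N) ≃+* locInt (fieldOf N) where
  toFun x := ⟨toGQ g (x : ℚb),
    apply_mem_of_mem_decomposition (show decomp (some q) from g).2 x.2.1, fun h hh => by
      have h1 := x.2.2 _ (hn.conj_mem h hh g⁻¹)
      rw [inv_inv, toGQ_mul, toGQ_mul, AlgEquiv.mul_apply, AlgEquiv.mul_apply] at h1
      exact (toGQ g).symm.injective (h1.trans ((toGQ g).symm_apply_apply _).symm)⟩
  invFun x := ⟨toGQ g⁻¹ (x : ℚb),
    apply_mem_of_mem_decomposition (show decomp (some q) from g⁻¹).2 x.2.1, fun h hh => by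
      have h1 := x.2.2 _ (hn.conj_mem h hh g)
      rw [toGQ_mul, toGQ_mul, AlgEquiv.mul_apply, AlgEquiv.mul_apply] at h1
      exact (toGQ g).injective (h1.trans ((toGQ g).apply_symm_apply _).symm)⟩
  left_inv x := Subtype.ext ((toGQ g).symm_apply_apply _)
  right_inv x := Subtype.ext ((toGQ g).apply_symm_apply _)
  map_mul' x y := Subtype.ext (map_mul (toGQ g) _ _)
  map_add' x y := Subtype.ext (map_add (toGQ g) _ _)

theorem coe_actInt [N.Normal] (g : (LD (some q)).G) (x : locInt (fieldOf N)) :
    (actInt N g x : ℚb) = toGQ g (x : ℚb) := rfl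

/-- The action on the residues. -/
def actRes [N.Normal] : (LD (some q)).G →* RingAut (Res N) where
  toFun g := Ideal.quotientEquiv _ _ (actInt N g) (by
    rw [Ideal.map_span, Set.image_singleton]
    congr 1
    exact congrArg _ (map_natCast (actInt N g) (q : ℕ)).symm)
  map_one' := RingEquiv.ext fun x => by
    obtain ⟨x, rfl⟩ := Ideal.Quotient.mk_surjective x
    exact congrArg (Ideal.Quotient.mk _) (Subtype.ext rfl)
  map_mul' g h := RingEquiv.ext fun x => by
    obtain ⟨x, rfl⟩ := Ideal.Quotient.mk_surjective x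
    exact congrArg (Ideal.Quotient.mk _) (Subtype.ext rfl)

theorem actRes_mk [N.Normal] (g : (LD (some q)).G) (x : locInt (fieldOf N)) :
    actRes N g (Ideal.Quotient.mk _ x) = Ideal.Quotient.mk _ (actInt N g x) := rfl

variable {N}

theorem card_res (hN : (LD (some q)).IsOpen N) :
    Nat.card (Res N) = (q : ℕ) ^ N.index := by
  haveI := finiteDimensional_fieldOf hN
  rw [← finrank_fieldOf hN, ← index_smul_locInt (fieldOf N) q.2 (placeAt_liesOverPrime q)]
  show AddSubgroup.index _ = _
  congr 1
  ext x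
  show x ∈ Ideal.span {_} ↔ _
  rw [Ideal.mem_span_singleton']
  exact exists_congr fun y => by
    show y * ((q : ℕ) : locInt (fieldOf N)) = x ↔ (q : ℕ) • y = x
    rw [nsmul_eq_mul, mul_comm]

/-- An unramified level. -/
def Unram (N : Subgroup (LD (some q)).G) : Prop :=
  (LD (some q)).IsOpen N ∧ N.Normal ∧
    ∀ s : (LD (some q)).G, s.1 ∈ (placeAt q).inertiaSubgroupIn ℚ → s ∈ N

theorem mem_span_q_iff (hN : Unram N) {x : locInt (fieldOf N)} :
    x ∈ Ideal.span {((q : ℕ) : locInt (fieldOf N))} ↔ (x : ℚb) ∈ (placeAt q).nonunits := by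
  have hA := placeAt_liesOverPrime q
  haveI := finiteDimensional_fieldOf hN.1
  rw [ValuationSubring.mem_nonunits_iff]
  constructor
  · intro hx
    obtain ⟨y, rfl⟩ := Ideal.mem_span_singleton'.mp hx
    push_cast
    rw [map_mul]
    exact lt_of_le_of_lt (mul_le_of_le_one_left'
      (((placeAt q).valuation_le_one_iff _).mpr y.2.1)) (natCast_val_lt_one hA)
  · intro hx
    rcases eq_or_ne (x : ℚb) 0 with h0 | h0
    · rw [show x = 0 from Subtype.ext h0]; exact zero_mem _
    obtain ⟨k, hk⟩ := NewVec.exists_val_eq_zpow_of_fixed q.2 hA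
      (fun σ hσ => by
        obtain ⟨s, hs, rfl⟩ := hσ
        exact x.2.2 _ (hN.2.2 s ⟨s, hs, rfl⟩)) h0
    have hk1 : (1 : ℤ) ≤ k := by
      by_contra hlt
      rw [hk] at hx
      exact absurd hx (not_lt.mpr (one_le_zpow_of_nonpos₀
        (zero_lt_iff.mpr (natCast_val_ne_zero q.2)) (natCast_val_lt_one hA).le (by omega)))
    obtain ⟨y, hy⟩ := exists_smul_locInt q.2 hA (fieldOf N) 1 x.2.2 (by
      obtain ⟨n, rfl⟩ : ∃ n : ℕ, k = ((n + 1 : ℕ) : ℤ) := ⟨(k - 1).toNat, by omega⟩
      rw [hk, zpow_natCast, pow_one]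
      exact pow_le_of_le_one zero_le (natCast_val_lt_one hA).le (Nat.succ_ne_zero n))
    refine Ideal.mem_span_singleton'.mpr ⟨y, Subtype.ext ?_⟩
    rw [hy, pow_one]
    push_cast
    ring

theorem isField_res (hN : Unram N) : IsField (Res N) := by
  have hA := placeAt_liesOverPrime q
  refine ⟨⟨0, 1, ?_⟩, fun a b => ?_, fun {a} ha => ?_⟩
  · intro h
    have h1 := (mem_span_q_iff hN).mp (Ideal.Quotient.eq_zero_iff_mem.mp h.symm)
    rw [ValuationSubring.mem_nonunits_iff] at h1
    simp at h1
  · obtain ⟨a, rfl⟩ := Ideal.Quotient.mk_surjective a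
    obtain ⟨b, rfl⟩ := Ideal.Quotient.mk_surjective b
    exact congrArg (Ideal.Quotient.mk _) (mul_comm a b)
  · obtain ⟨x, rfl⟩ := Ideal.Quotient.mk_surjective a
    have hx : ¬ (x : ℚb) ∈ (placeAt q).nonunits := fun h =>
      ha (Ideal.Quotient.eq_zero_iff_mem.mpr ((mem_span_q_iff hN).mpr h))
    rw [ValuationSubring.mem_nonunits_iff, not_lt] at hx
    have hv : (placeAt q).valuation (x : ℚb) = 1 :=
      le_antisymm (((placeAt q).valuation_le_one_iff _).mpr x.2.1) hx
    have hx0 : (x : ℚb) ≠ 0 := fun h => by rw [h, map_zero] at hv; exact zero_ne_one hv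
    refine ⟨Ideal.Quotient.mk _ ⟨(x : ℚb)⁻¹,
      ((placeAt q).valuation_le_one_iff _).mp (by rw [map_inv₀, hv, inv_one]),
      inv_mem x.2.2⟩, ?_⟩
    rw [← map_mul, ← map_one (Ideal.Quotient.mk _)]
    exact congrArg (Ideal.Quotient.mk _) (Subtype.ext (mul_inv_cancel₀ hx0))

theorem toGQ_mem_of_fix (hN : Unram N) {g : (LD (some q)).G} (hg : ∀ y, haveI := hN.2.1
    actRes N g y = y) : g ∈ N := by
  haveI := hN.2.1
  have hA := placeAt_liesOverPrime q
  set H := N ⊔ Subgroup.zpowers g
  have hH : (LD (some q)).IsOpen H := ⟨hN.1.choose, hN.1.choose_spec.1,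
    hN.1.choose_spec.2.trans le_sup_left⟩
  haveI := finiteIndex_of_isOpen hN.1
  haveI := finiteIndex_of_isOpen hH
  letI : Field (Res N) := (isField_res hN).toField
  haveI : Finite (Res N) := Nat.finite_of_card_ne_zero (by
    rw [card_res hN.1]; exact pow_ne_zero _ q.2.ne_zero)
  letI : Fintype (Res N) := Fintype.ofFinite _
  set Q := Nat.card (Res N) with hQdef
  have hQ : Q = (q : ℕ) ^ N.index := card_res hN.1
  have hQ1 : 1 < Q := by
    rw [hQ]; exact Nat.one_lt_pow Subgroup.FiniteIndex.index_ne_zero q.2.one_lt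
  have hQv : (placeAt q).valuation (Q : ℚb) < 1 := by
    rw [hQ]; push_cast; rw [map_pow]
    exact val_pow_lt_one hA Subgroup.FiniteIndex.index_ne_zero
  -- every residue has a representative fixed by `g`
  have hrep : ∀ c : Res N, ∃ b : locInt (fieldOf N), (Ideal.Quotient.mk _ b : Res N) = c ∧
      toGQ g (b : ℚb) = b := by
    intro c
    obtain ⟨a, rfl⟩ := Ideal.Quotient.mk_surjective c
    have hH' := isHens_restrict (A := placeAt q) (fieldOf N)
    obtain ⟨α, hαE, hαA, hαroot, hαa⟩ := hH'.exists_root (f := X ^ Q - X)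
      (monic_X_pow_sub (by rw [degree_X]; exact_mod_cast hQ1))
      (fun i => by
        rw [coeff_sub, coeff_X_pow, coeff_X]
        split_ifs <;> simp [one_mem, zero_mem])
      (fun i => by
        rw [coeff_sub, coeff_X_pow, coeff_X]
        split_ifs <;> simp [one_mem, zero_mem])
      a.2.2 a.2.1
      (by
        have h1 : (Ideal.Quotient.mk _ (a ^ Q - a) : Res N) = 0 := by
          rw [map_sub, map_pow, hQdef, Nat.card_eq_fintype_card, FiniteField.pow_card, sub_self]
        simpa using (mem_span_q_iff hN).mp (Ideal.Quotient.eq_zero_iff_mem.mp h1))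
      (by
        rw [ValuationSubring.mem_nonunits_iff, derivative_sub, derivative_X_pow, derivative_X,
          eval_sub, eval_mul, eval_C, eval_pow, eval_X, eval_one, not_lt]
        refine (le_of_eq (Eq.symm ?_))
        rw [Valuation.map_sub_swap, sub_eq_add_neg]
        refine (placeAt q).valuation.map_one_add_of_lt ?_
        rw [Valuation.map_neg, map_mul]
        exact lt_of_le_of_lt (mul_le_of_le_one_right'
          (((placeAt q).valuation_le_one_iff _).mpr (pow_mem a.2.1 _))) hQv)
    refine ⟨⟨α, hαA, hαE⟩, ?_, ?_⟩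
    · rw [Ideal.Quotient.eq, mem_span_q_iff hN]
      exact hαa
    · -- two congruent roots coincide
      have hb := hg (Ideal.Quotient.mk _ ⟨α, hαA, hαE⟩)
      rw [actRes_mk, Ideal.Quotient.eq, mem_span_q_iff hN, ValuationSubring.mem_nonunits_iff] at hb
      replace hb : (placeAt q).valuation (toGQ g α - α) < 1 := hb
      have hα : α ^ Q = α := by simpa [sub_eq_zero] using hαroot.eq_zero
      have hgα : toGQ g α ^ Q = toGQ g α := by rw [← map_pow, hα]
      by_contra hne
      have hgA := apply_mem_of_mem_decomposition (show decomp (some q) from g).2 hαA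
      have hsum : (placeAt q).valuation (∑ i ∈ Finset.range Q,
          toGQ g α ^ i * α ^ (Q - 1 - i)) < 1 := by
        have hstep : ∀ i ∈ Finset.range Q, toGQ g α ^ i * α ^ (Q - 1 - i) =
            (toGQ g α ^ i - α ^ i) * α ^ (Q - 1 - i) + α ^ (Q - 1) := fun i hi => by
          rw [Finset.mem_range] at hi
          conv_rhs => rw [show Q - 1 = i + (Q - 1 - i) by omega, pow_add,
            show i + (Q - 1 - i) - i = Q - 1 - i by omega]
          ring
        rw [Finset.sum_congr rfl hstep, Finset.sum_add_distrib, Finset.sum_const, Finset.card_range,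
          nsmul_eq_mul]
        refine lt_of_le_of_lt (Valuation.map_add _ _ _) (max_lt ?_ ?_)
        · refine Valuation.map_sum_lt _ one_ne_zero fun i _ => ?_
          rw [map_mul]
          refine lt_of_le_of_lt (mul_le_of_le_one_right'
            (((placeAt q).valuation_le_one_iff _).mpr (pow_mem hαA _))) (lt_of_le_of_lt ?_ hb)
          rw [← geom_sum₂_mul, map_mul]
          exact mul_le_of_le_one_left' (((placeAt q).valuation_le_one_iff _).mpr
            (sum_mem fun j _ => mul_mem (pow_mem hgA j) (pow_mem hαA _)))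
        · rw [map_mul]
          exact lt_of_le_of_lt (mul_le_of_le_one_right'
            (((placeAt q).valuation_le_one_iff _).mpr (pow_mem hαA _))) hQv
      have h3 := geom_sum₂_mul (toGQ g α) α Q
      rw [hα, hgα, ← sub_eq_zero, ← sub_one_mul, mul_eq_zero] at h3
      rcases h3 with h3 | h3
      · rw [sub_eq_zero.mp h3, map_one] at hsum; exact lt_irrefl _ hsum
      · exact hne (sub_eq_zero.mp h3)
  -- compare the degrees
  have hle : fieldOf H ≤ fieldOf N := fun x hx h hh => hx h (le_sup_left (a := N) hh)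
  have hmem : ∀ b : locInt (fieldOf N), toGQ g (b : ℚb) = b → (b : ℚb) ∈ fieldOf H := by
    intro b hb h hh
    let S : Subgroup (LD (some q)).G :=
      { carrier := {s | toGQ s (b : ℚb) = b}
        one_mem' := rfl
        mul_mem' := fun {s t} hs ht => by
          show toGQ (s * t) (b : ℚb) = b
          rw [toGQ_mul, AlgEquiv.mul_apply, ht, hs]
        inv_mem' := fun {s} hs => by
          show toGQ s⁻¹ (b : ℚb) = b
          exact (toGQ s).injective (((toGQ s).apply_symm_apply _).trans hs.symm) }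
    have : H ≤ S := sup_le (fun s hs => b.2.2 s hs) (Subgroup.zpowers_le.mpr hb)
    exact this hh
  let Φ : Res H → Res N := Ideal.quotientMap _
    ({ toFun := fun x => ⟨x.1, x.2.1, hle x.2.2⟩
       map_one' := rfl, map_mul' := fun _ _ => rfl, map_zero' := rfl
       map_add' := fun _ _ => rfl } : locInt (fieldOf H) →+* locInt (fieldOf N))
    (Ideal.span_le.mpr (Set.singleton_subset_iff.mpr (Ideal.mem_span_singleton'.mpr
      ⟨1, by rw [one_mul]; exact Subtype.ext rfl⟩)))
  have hsurj : Function.Surjective Φ := fun c => by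
    obtain ⟨b, rfl, hb⟩ := hrep c
    exact ⟨Ideal.Quotient.mk _ ⟨b, b.2.1, hmem b hb⟩, rfl⟩
  haveI : Finite (Res H) := Nat.finite_of_card_ne_zero (by
    rw [card_res hH]; exact pow_ne_zero _ q.2.ne_zero)
  have h1 := Nat.card_le_card_of_surjective Φ hsurj
  rw [card_res hN.1, card_res hH, Nat.pow_le_pow_iff_right q.2.one_lt] at h1
  by_contra hgN
  exact absurd h1 (not_le.mpr (Subgroup.index_strictAnti (lt_of_le_of_ne le_sup_left fun h =>
    hgN (h.symm ▸ (le_sup_right (a := N)) (Subgroup.mem_zpowers g)))))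

/-- The group of an unramified level is cyclic. -/
theorem exists_generator (hN : Unram N) {H : Subgroup (LD (some q)).G} (hle : N ≤ H) :
    ∃ σ ∈ H, ∀ h ∈ H, ∃ i : ℕ, h⁻¹ * σ ^ i ∈ N := by
  haveI := hN.2.1
  haveI := finiteIndex_of_isOpen hN.1
  letI : Field (Res N) := (isField_res hN).toField
  haveI : Finite (Res N) := Nat.finite_of_card_ne_zero (by
    rw [card_res hN.1]; exact pow_ne_zero _ q.2.ne_zero)
  haveI : Fact (q : ℕ).Prime := ⟨q.2⟩
  haveI : CharP (Res N) (q : ℕ) := by
    refine (CharP.charP_iff_prime_eq_zero q.2).mpr ?_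
    rw [← map_natCast (Ideal.Quotient.mk _), Ideal.Quotient.eq_zero_iff_mem]
    exact Ideal.mem_span_singleton_self _
  letI : Algebra (ZMod q) (Res N) := ZMod.algebra _ _
  let ψ : (LD (some q)).G →* (Res N ≃ₐ[ZMod q] Res N) :=
    { toFun := fun g => AlgEquiv.ofRingEquiv (f := actRes N g) fun z => by
        obtain ⟨n, rfl⟩ := ZMod.natCast_zmod_surjective z
        rw [map_natCast, map_natCast]
      map_one' := AlgEquiv.ext fun x => RingEquiv.congr_fun (map_one (actRes N)) x
      map_mul' := fun g h => AlgEquiv.ext fun x => RingEquiv.congr_fun (map_mul (actRes N) g h) x }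
  haveI : IsCyclic (H.map ψ) := Subgroup.isCyclic _
  obtain ⟨⟨_, σ, hσ, rfl⟩, hgen⟩ := IsCyclic.exists_generator (α := H.map ψ)
  refine ⟨σ, hσ, fun h hh => ?_⟩
  obtain ⟨i, hi⟩ : ∃ i : ℕ, (ψ σ) ^ i = ψ h := by
    obtain ⟨i, hi⟩ := (mem_powers_iff_mem_zpowers.mpr (hgen ⟨ψ h, Subgroup.mem_map_of_mem _ hh⟩) :
      _ ∈ Submonoid.powers _)
    exact ⟨i, by simpa using congrArg Subtype.val hi⟩
  refine ⟨i, toGQ_mem_of_fix hN fun y => ?_⟩
  have h1 : ψ (h⁻¹ * σ ^ i) = 1 := by rw [map_mul, map_inv, map_pow, hi, inv_mul_cancel]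
  exact AlgEquiv.congr_fun h1 y

end Fermat.Agent.GD
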