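import Fermat.Agent.GD.Local.H2

/-!
# Classes of `p`-power order are split by the cyclic layers
-/

set_option autoImplicit false
set_option linter.style.haveILetI false

noncomputable section

namespace Fermat.Agent.GD

open Fermat.Agent.Galois Finset

local notation "ℚb" => AlgebraicClosure ℚ
local notation "Cu" => Additive (AlgebraicClosure ℚ)ˣ

variable {q : Nat.Primes} {H H' M : Subgroup (LD (some q)).G} {σ : (LD (some q)).G} {m : ℕ}

/-- The exponent as a homomorphism. -/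
def CycLayer.deg (h : CycLayer H M σ m) : (LH H).G →* Multiplicative (ZMod m) :=
  MonoidHom.mk' (fun g => Multiplicative.ofAdd (h.idx g : ZMod m)) fun g g' => by
    rw [h.idx_mul, ZMod.natCast_mod, Nat.cast_add, ofAdd_add]

theorem CycLayer.deg_eq_iff (h : CycLayer H M σ m) (g : (LH H).G) (i : ℕ) :
    h.deg g = Multiplicative.ofAdd (i : ZMod m) ↔ (g : (LD (some q)).G)⁻¹ * σ ^ i ∈ M := by
  have h2 : ∀ i, σ ^ (m * (i / m)) ∈ M := fun i => by rw [pow_mul]; exact M.pow_mem h.pow_mem _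
  show Multiplicative.ofAdd (h.idx g : ZMod m) = Multiplicative.ofAdd (i : ZMod m) ↔ _
  rw [Multiplicative.ofAdd.injective.eq_iff, ZMod.natCast_eq_natCast_iff',
    Nat.mod_eq_of_lt (h.idx_lt g)]
  have e : (g : (LD (some q)).G)⁻¹ * σ ^ i =
      (g : (LD (some q)).G)⁻¹ * σ ^ (i % m) * σ ^ (m * (i / m)) := by
    rw [mul_assoc, ← pow_add, Nat.mod_add_div]
  rw [e, M.mul_mem_cancel_right (h2 i)]
  constructor
  · intro h'; rw [← h']; exact h.idx_spec g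
  · exact fun h' => h.idx_eq g (Nat.mod_lt _ h.pos) h'

theorem CycLayer.deg_eq_one_iff (h : CycLayer H M σ m) (g : (LH H).G) :
    h.deg g = 1 ↔ (g : (LD (some q)).G) ∈ M := by
  rw [← ofAdd_zero, ← Nat.cast_zero, h.deg_eq_iff, pow_zero, mul_one, M.inv_mem_iff]

theorem CycLayer.deg_gen (h : CycLayer H M σ m) (i : ℕ) :
    h.deg (h.genH ^ i) = Multiplicative.ofAdd (i : ZMod m) := by
  rw [h.deg_eq_iff, h.coe_genH_pow, inv_mul_cancel]
  exact M.one_mem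

theorem CycLayer.deg_surjective (h : CycLayer H M σ m) : Function.Surjective h.deg := fun c => by
  haveI : NeZero m := ⟨h.pos.ne'⟩
  exact ⟨h.genH ^ c.toAdd.val, by rw [h.deg_gen, ZMod.natCast_zmod_val]; rfl⟩

/-- A layer together with the residue degree of its base. -/
structure LayerData (H M : Subgroup (LD (some q)).G) (σ : (LD (some q)).G) (f m : ℕ)
    [FiniteDimensional (decField (placeAt q)) (fieldOf H)] : Prop where
  layer : CycLayer H M σ m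
  f_ne_zero : f ≠ 0
  dvd_ord : ∀ x, (f : ℤ) ∣ ordE q.2 (placeAt_liesOverPrime q) (fieldOf H) x
  exists_ord : ∃ x, ordE q.2 (placeAt_liesOverPrime q) (fieldOf H) x = f
  level : ∃ U, Unram U ∧ H ⊓ U ≤ M ∧ ∀ U', Unram U' → U' ≤ U → (H ⊔ U').index = f

theorem exists_cycLayer {H X : Subgroup (LD (some q)).G} {σ : (LD (some q)).G}
    (hX : (LD (some q)).IsOpen X) (hle : X ≤ H) (hconj : ∀ h ∈ H, ∀ s ∈ X, h * s * h⁻¹ ∈ X)
    (hσ : σ ∈ H) (hgen : ∀ h ∈ H, ∃ i : ℕ, h⁻¹ * σ ^ i ∈ X) : ∃ e, CycLayer H X σ e := by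
  classical
  haveI := finiteIndex_of_isOpen hX
  have hex : ∃ i, 0 < i ∧ σ ^ i ∈ X := by
    obtain ⟨i, hi, -, h⟩ := Subgroup.exists_pow_mem_of_index_ne_zero
      (Subgroup.FiniteIndex.index_ne_zero (H := X)) σ
    exact ⟨i, hi, h⟩
  exact ⟨Nat.find hex, hX, hle, hconj, hσ, hgen, (Nat.find_spec hex).1, (Nat.find_spec hex).2,
    fun i h0 h h' => Nat.find_min hex h ⟨h0, h'⟩⟩

theorem conj_mem_of_unram {H U : Subgroup (LD (some q)).G} (hU : Unram U) {g : (LD (some q)).G}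
    (hg : g ∈ H) {s : (LD (some q)).G} (hs : s ∈ H ⊓ U) : g * s * g⁻¹ ∈ H ⊓ U :=
  ⟨H.mul_mem (H.mul_mem hg hs.1) (H.inv_mem hg), hU.2.1.conj_mem s hs.2 g⟩

theorem exists_layerData {p : ℕ} [hp : Fact p.Prime] (H : Subgroup (LD (some q)).G)
    (hH : (LD (some q)).IsOpen H) [FiniteDimensional (decField (placeAt q)) (fieldOf H)] (A : ℕ) :
    ∃ M σ f, LayerData H M σ f (p ^ A) := by
  obtain ⟨f, hf0, hdiv, hP, U₀, hU₀, hdeg⟩ := exists_degree H hH
  obtain ⟨N, -, hN, hNdvd, -⟩ := exists_unram (q := q) (f * p ^ A)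
    (mul_ne_zero hf0 (pow_ne_zero _ hp.out.ne_zero))
  have hU := hU₀.inf hN
  set U := U₀ ⊓ N
  haveI := hU.2.1
  have hdeg' := hdeg U hU inf_le_left
  obtain ⟨τ, hτ, hgen⟩ := exists_generator hU (H := H ⊔ U) le_sup_right
  -- move the generator into `H`
  obtain ⟨σ, hσ, u, hu, rfl⟩ := Subgroup.mem_sup_of_normal_right.mp hτ
  have hgenH : ∀ h ∈ H, ∃ i : ℕ, h⁻¹ * σ ^ i ∈ H ⊓ U := by
    intro h hh
    obtain ⟨i, hi⟩ := hgen h (le_sup_left (a := H) hh)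
    refine ⟨i, H.mul_mem (H.inv_mem hh) (H.pow_mem hσ i), ?_⟩
    have e : (QuotientGroup.mk' U) (h⁻¹ * σ ^ i) = (QuotientGroup.mk' U) (h⁻¹ * (σ * u) ^ i) := by
      simp only [map_mul, map_inv, map_pow]
      rw [show QuotientGroup.mk' U u = 1 from (QuotientGroup.eq_one_iff u).mpr hu, mul_one]
    exact (QuotientGroup.eq_one_iff _).mp (e.trans ((QuotientGroup.eq_one_iff _).mpr hi))
  have hHU : (LD (some q)).IsOpen (H ⊓ U) := by
    obtain ⟨L₁, hL₁, h₁⟩ := hH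
    obtain ⟨L₂, hL₂, h₂⟩ := hU.1
    exact ⟨L₁ ⊓ L₂, (LD (some q)).inf _ _ hL₁ hL₂, inf_le_inf h₁ h₂⟩
  obtain ⟨e, he⟩ := exists_cycLayer hHU inf_le_left
    (fun h hh s hs => conj_mem_of_unram hU hh hs) hσ hgenH
  have hidx : U.index = e * f := by
    rw [← hdeg', ← Subgroup.relIndex_mul_index (le_sup_right : U ≤ H ⊔ U),
      Subgroup.relIndex_sup_right, ← Subgroup.inf_relIndex_right, inf_comm U H, he.relIndex_eq]
  have hdvd : p ^ A ∣ e := by
    have h1 : f * p ^ A ∣ e * f := hidx ▸ dvd_trans hNdvd (Subgroup.index_dvd_of_le inf_le_right)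
    rw [mul_comm e f] at h1
    exact (mul_dvd_mul_iff_left hf0).mp h1
  obtain ⟨b, hb⟩ := hdvd
  obtain ⟨M, hM₁, hM₂⟩ := he.exists_mid hb
  exact ⟨M, σ, f, hM₁, hf0, hdiv, hP, U, hU, hM₂.le,
    fun U' hU' hle => hdeg U' hU' (hle.trans inf_le_left)⟩

theorem ordE_res (hle : H' ≤ H) [FiniteDimensional (decField (placeAt q)) (fieldOf H)]
    [FiniteDimensional (decField (placeAt q)) (fieldOf H')] (hH' : (LD (some q)).IsOpen H')
    (u : fixedUnits H) :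
    ordE q.2 (placeAt_liesOverPrime q) (fieldOf H') (Additive.ofMul
        ((fixedUnitsEquiv H').symm ⟨(u : ℚbˣ), fun h hh => u.2 h (hle hh)⟩)) =
      (H'.relIndex H : ℤ) *
        ordE q.2 (placeAt_liesOverPrime q) (fieldOf H) (Additive.ofMul ((fixedUnitsEquiv H).symm u)) := by
  have hA := placeAt_liesOverPrime q
  have hH : (LD (some q)).IsOpen H := ⟨hH'.choose, hH'.choose_spec.1, hH'.choose_spec.2.trans hle⟩
  refine val_zpow_injective q.2 hA ?_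
  rw [← ordE_spec, mul_comm, zpow_mul, ← ordE_spec, zpow_natCast, ← pow_mul, finrank_fieldOf hH,
    finrank_fieldOf hH', mul_comm H.index, Subgroup.relIndex_mul_index hle]
  rfl

/-- Classes of a layer die on subgroups of large enough index. -/
theorem LayerData.res_cls_eq_zero {p : ℕ} [hp : Fact p.Prime] {A : ℕ} {f : ℕ}
    [FiniteDimensional (decField (placeAt q)) (fieldOf H)] (D : LayerData H M σ f (p ^ A))
    (hA : 0 < A) (hle : H' ≤ H) (hH' : (LD (some q)).IsOpen H') (u : fixedUnits H) {r : ℤ}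
    (hr : ordE q.2 (placeAt_liesOverPrime q) (fieldOf H)
      (Additive.ofMul ((fixedUnitsEquiv H).symm u)) = f * r)
    {k : ℕ} (hk : p ^ k ∣ H'.relIndex H) (hr' : ((p ^ A : ℕ) : ℤ) ∣ (p ^ k : ℕ) * r) :
    resH2 hle (D.layer.cls (Additive.ofMul u)) = 0 := by
  classical
  haveI := finiteDimensional_fieldOf hH'
  set h := D.layer
  have hAone : 1 < p ^ A := Nat.one_lt_pow hA.ne' hp.out.one_lt
  haveI : NeZero (p ^ A) := ⟨(pow_pos hp.out.pos A).ne'⟩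
  obtain ⟨U₁, hU₁, hU₁M, hdeg⟩ := D.level
  obtain ⟨f', hf'0, hdiv', hP', U₂, hU₂, hdeg'⟩ := exists_degree H' hH'
  have hU := hU₁.inf hU₂
  set U := U₁ ⊓ U₂
  haveI := hU.2.1
  -- the index of the residue extension
  set X := (H' ⊔ U) ⊓ H
  set F₀ := X.relIndex H
  have hf' : f' = F₀ * f := by
    rw [← hdeg' U hU inf_le_right, ← hdeg U hU inf_le_left,
      ← Subgroup.relIndex_mul_index (sup_le_sup_right hle U)]
    congr 1
    rw [show H ⊔ U = H ⊔ (H' ⊔ U) by rw [← sup_assoc, sup_eq_left.mpr hle]]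
    haveI : (H' ⊔ U).Normal := (hU.of_le le_sup_right).2.1
    rw [Subgroup.relIndex_sup_right, ← Subgroup.inf_relIndex_right]
  have hF₀ : F₀ ∣ H'.relIndex H := Subgroup.relIndex_dvd_of_le_left _ (le_inf le_sup_left hle)
  -- the exponents on `H'`
  let incH : H' →* (LH H).G := Subgroup.inclusion hle
  have hsub : ∀ g : H', ∃ c : ℕ,
      h.deg (incH g) = Multiplicative.ofAdd ((Nat.gcd F₀ (p ^ A) * c : ℕ) : ZMod (p ^ A)) := by
    intro g
    obtain ⟨τ₀, hτ₀, hgen₀⟩ := exists_generator hU (H := H ⊔ U) le_sup_right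
    obtain ⟨τ, hτ, w, hw, rfl⟩ := Subgroup.mem_sup_of_normal_right.mp hτ₀
    have hgen : ∀ x ∈ H, ∃ i : ℕ, x⁻¹ * τ ^ i ∈ H ⊓ U := by
      intro x hx
      obtain ⟨i, hi⟩ := hgen₀ x (le_sup_left (a := H) hx)
      refine ⟨i, H.mul_mem (H.inv_mem hx) (H.pow_mem hτ i), ?_⟩
      have e : (QuotientGroup.mk' U) (x⁻¹ * τ ^ i) = (QuotientGroup.mk' U) (x⁻¹ * (τ * w) ^ i) := by
        simp only [map_mul, map_inv, map_pow]
        rw [show QuotientGroup.mk' U w = 1 from (QuotientGroup.eq_one_iff w).mpr hw, mul_one]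
      exact (QuotientGroup.eq_one_iff _).mp (e.trans ((QuotientGroup.eq_one_iff _).mpr hi))
    have hXU : H ⊓ U ≤ X := fun s hs => ⟨le_sup_right (a := H') hs.2, hs.1⟩
    obtain ⟨e₀, he₀⟩ := exists_cycLayer (X := X) (σ := τ)
      (by
        obtain ⟨L, hL, hLle⟩ := hH'
        exact ⟨L, hL, fun s hs => ⟨le_sup_left (b := U) (hLle hs), hle (hLle hs)⟩⟩)
      inf_le_right
      (fun x hx s hs => ⟨(hU.of_le le_sup_right).2.1.conj_mem s hs.1 x,
        H.mul_mem (H.mul_mem hx hs.2) (H.inv_mem hx)⟩)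
      hτ (fun x hx => (hgen x hx).imp fun i hi => hXU hi)
    have he₀F : e₀ = F₀ := he₀.relIndex_eq.symm
    obtain ⟨j, hj⟩ := hgen g.1 (hle g.2)
    have hgX : (g : (LD (some q)).G) ∈ X := ⟨le_sup_left (b := U) g.2, hle g.2⟩
    have hτj : τ ^ j ∈ X := by
      have := X.mul_mem hgX (hXU hj)
      rwa [mul_inv_cancel_left] at this
    have hmod : τ ^ (j % e₀) ∈ X := by
      have h2 : τ ^ (e₀ * (j / e₀)) ∈ X := by rw [pow_mul]; exact X.pow_mem he₀.pow_mem _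
      rw [← Nat.mod_add_div j e₀, pow_add] at hτj
      exact (X.mul_mem_cancel_right h2).mp hτj
    have hj0 : j % e₀ = 0 := by
      by_contra hne
      exact he₀.min _ (Nat.pos_of_ne_zero hne) (Nat.mod_lt _ he₀.pos) hmod
    obtain ⟨c₁, hc₁⟩ : e₀ ∣ j := Nat.dvd_of_mod_eq_zero hj0
    obtain ⟨c₂, hc₂⟩ := Nat.gcd_dvd_left F₀ (p ^ A)
    refine ⟨c₂ * c₁ * (h.idx ⟨τ, hτ⟩), ?_⟩
    have hfac : incH g = (⟨τ, hτ⟩ : (LH H).G) ^ j *
        (⟨(g : (LD (some q)).G)⁻¹ * τ ^ j, hj.1⟩ : (LH H).G)⁻¹ := Subtype.ext (by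
      show (g : (LD (some q)).G) = τ ^ j * ((g : (LD (some q)).G)⁻¹ * τ ^ j)⁻¹
      group)
    rw [hfac, map_mul, map_inv, (h.deg_eq_one_iff
      (⟨(g : (LD (some q)).G)⁻¹ * τ ^ j, hj.1⟩ : (LH H).G)).mpr (hU₁M ⟨hj.1, hj.2.1⟩), inv_one,
      mul_one,
      map_pow]
    show Multiplicative.ofAdd (h.idx ⟨τ, hτ⟩ : ZMod (p ^ A)) ^ j = _
    rw [← ofAdd_nsmul, nsmul_eq_mul]
    congr 1
    rw [← Nat.cast_mul]
    congr 1
    rw [← mul_assoc, ← mul_assoc, ← hc₂, hc₁, he₀F]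
  -- the least exponent
  have hex : ∃ t : ℕ, 0 < t ∧ ∃ g : H', h.deg (incH g) = Multiplicative.ofAdd (t : ZMod (p ^ A)) :=
    ⟨p ^ A, pow_pos hp.out.pos A, 1, by rw [map_one, map_one, ZMod.natCast_self]; rfl⟩
  set Ft := Nat.find hex
  obtain ⟨hFt0, g₁, hg₁⟩ := Nat.find_spec hex
  change h.deg (incH g₁) = Multiplicative.ofAdd (Ft : ZMod (p ^ A)) at hg₁
  change 0 < Ft at hFt0
  have hpowdeg : ∀ c : ℕ, h.deg (incH (g₁ ^ c)) =
      Multiplicative.ofAdd ((Ft * c : ℕ) : ZMod (p ^ A)) := fun c => by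
    rw [map_pow, map_pow, hg₁, ← ofAdd_nsmul, nsmul_eq_mul, Nat.cast_mul, mul_comm]
  have hdivFt : ∀ (g : H') (t : ℕ), h.deg (incH g) = Multiplicative.ofAdd (t : ZMod (p ^ A)) →
      Ft ∣ t := by
    intro g t hg
    by_contra hndvd
    have hpos : 0 < t % Ft := Nat.pos_of_ne_zero fun h0 => hndvd (Nat.dvd_of_mod_eq_zero h0)
    refine Nat.find_min hex (Nat.mod_lt t hFt0) ⟨hpos, g * (g₁ ^ (t / Ft))⁻¹, ?_⟩
    rw [map_mul, map_inv, map_mul, map_inv, hg, hpowdeg, ← ofAdd_neg, ← ofAdd_add]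
    congr 1
    rw [← sub_eq_add_neg, sub_eq_iff_eq_add, ← Nat.cast_add, Nat.mod_add_div]
  obtain ⟨m', hm'⟩ : Ft ∣ p ^ A :=
    hdivFt 1 _ (by rw [map_one, map_one, ZMod.natCast_self]; rfl)
  have hm'0 : 0 < m' := Nat.pos_of_ne_zero fun h0 => by
    rw [h0, mul_zero] at hm'; exact (pow_pos hp.out.pos A).ne' hm'
  -- the layer on `H'`
  have hmemM : ∀ g : H', h.deg (incH g) = 1 ↔ (g : (LD (some q)).G) ∈ H' ⊓ M := fun g =>
    (h.deg_eq_one_iff _).trans ⟨fun hm => ⟨g.2, hm⟩, fun hm => hm.2⟩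
  have hLopen : (LD (some q)).IsOpen (H' ⊓ M) := by
    obtain ⟨L₁, hL₁, h₁⟩ := hH'
    obtain ⟨L₂, hL₂, h₂⟩ := h.isOpen
    exact ⟨L₁ ⊓ L₂, (LD (some q)).inf _ _ hL₁ hL₂, inf_le_inf h₁ h₂⟩
  have hL : CycLayer H' (H' ⊓ M) g₁.1 m' := by
    refine ⟨hLopen, inf_le_left,
      fun g hg s hs => ⟨H'.mul_mem (H'.mul_mem hg hs.1) (H'.inv_mem hg), h.conj g (hle hg) s hs.2⟩,
      g₁.2, fun g hg => ?_, hm'0, ?_, fun i hi0 hi hmem => ?_⟩
    · obtain ⟨c, hc⟩ := hdivFt ⟨g, hg⟩ (h.idx (incH ⟨g, hg⟩)) rfl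
      refine ⟨c, ?_⟩
      have h1 : h.deg (incH ((⟨g, hg⟩ : H')⁻¹ * g₁ ^ c)) = 1 := by
        rw [map_mul, map_mul, map_inv, map_inv, hpowdeg, ← hc]
        exact inv_mul_cancel _
      simpa using (hmemM _).mp h1
    · have h1 : h.deg (incH (g₁ ^ m')) = 1 := by
        rw [hpowdeg, ← hm', ZMod.natCast_self]; rfl
      simpa using (hmemM _).mp h1
    · have h1 : h.deg (incH (g₁ ^ i)) = 1 := (hmemM _).mpr (by simpa using hmem)
      rw [hpowdeg, ← ofAdd_zero, Multiplicative.ofAdd.injective.eq_iff,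
        ZMod.natCast_eq_zero_iff] at h1
      have hlt : Ft * i < p ^ A := hm'.symm ▸ Nat.mul_lt_mul_of_pos_left hi hFt0
      exact absurd (Nat.le_of_dvd (Nat.mul_pos hFt0 hi0) h1) (not_le.mpr hlt)
  obtain ⟨b, -, hb⟩ := (Nat.dvd_prime_pow hp.out).mp (Dvd.intro_left Ft hm'.symm)
  subst hb
  -- the total of the restriction
  set z := resZ hle (h.carry (Additive.ofMul u))
  have hzinf : (LH H').Inflated ((H' ⊓ M).subgroupOf H') z.1 :=
    ⟨fun g g' s hs s' hs' => (h.carry_inflated _).1 (incl hle g) (incl hle g') (incl hle s) hs.2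
      (incl hle s') hs'.2,
    fun g g' s hs => (h.carry_inflated _).2 (incl hle g) (incl hle g') (incl hle s) hs.2⟩
  refine (resH2_mk hle _).trans ((hL.h2mk_eq_zero_iff hzinf).mpr ?_)
  have hlev : ∃ U', Unram U' ∧ H' ⊓ U' ≤ H' ⊓ M ∧
      ∀ U'', Unram U'' → U'' ≤ U' → (H' ⊔ U'').index = f' :=
    ⟨U, hU, le_inf inf_le_left fun s hs => hU₁M ⟨hle hs.1, hs.2.1⟩,
      fun U'' hU'' hle'' => hdeg' U'' hU'' (hle''.trans inf_le_right)⟩
  set u' : fixedUnits H' := ⟨hL.total z.1, hL.total_fixed hzinf⟩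
  have hiff := mem_normGroup_iff hL hf'0 hP' hdiv' hlev (x := (fixedUnitsEquiv H').symm u')
  rw [MulEquiv.apply_symm_apply] at hiff
  refine hiff.mpr ?_
  rcases Nat.eq_zero_or_pos b with rfl | hb0
  · rw [pow_zero, mul_one]; exact hdiv' _
  have hb1 : 1 < p ^ b := Nat.one_lt_pow hb0.ne' hp.out.one_lt
  have hidx : ∀ i < p ^ b, h.idx (incl hle (hL.genH ^ i)) = Ft * i := fun i hi => by
    have h1 : h.deg (incH (g₁ ^ i)) = Multiplicative.ofAdd ((Ft * i : ℕ) : ZMod (p ^ A)) := hpowdeg i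
    rw [h.deg_eq_iff] at h1
    refine h.idx_eq _ (hm'.symm ▸ Nat.mul_lt_mul_of_pos_left hi hFt0) ?_
    show ((hL.genH ^ i : (LH H').G) : (LD (some q)).G)⁻¹ * _ ∈ M
    rw [hL.coe_genH_pow]
    simpa [incH] using h1
  have htot : hL.total z.1 = (u : ℚbˣ) := by
    show (∑ i ∈ range (p ^ b), ((h.idx (incl hle (hL.genH ^ i)) + h.idx (incl hle hL.genH)) / p ^ A) •
      Additive.ofMul (u : ℚbˣ)).toMul = _
    have hg : h.idx (incl hle hL.genH) = Ft := by simpa using hidx 1 hb1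
    rw [← sum_smul, sum_congr rfl fun i hi => by rw [hidx i (mem_range.mp hi), hg]]
    have e : ∑ i ∈ range (p ^ b), (Ft * i + Ft) / p ^ A = 1 := by
      have hpb := pow_pos hp.out.pos b
      rw [sum_eq_single (p ^ b - 1)]
      · rw [show Ft * (p ^ b - 1) + Ft = p ^ A by
          rw [hm', ← Nat.mul_succ, Nat.succ_eq_add_one, Nat.sub_add_cancel hpb],
          Nat.div_self (pow_pos hp.out.pos A)]
      · intro i hi hne
        rw [mem_range] at hi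
        refine Nat.div_eq_of_lt (lt_of_lt_of_eq ?_ hm'.symm)
        rw [← Nat.mul_succ]
        exact Nat.mul_lt_mul_of_pos_left (by omega) hFt0
      · exact fun hni => absurd (mem_range.mpr (by omega)) hni
    rw [e, one_smul]
    rfl
  rw [show u' = ⟨(u : ℚbˣ), fun g hg => u.2 g (hle hg)⟩ from Subtype.ext htot,
    ordE_res hle hH' u, hr, hf']
  -- arithmetic
  have hgF : Nat.gcd F₀ (p ^ A) ∣ Ft := by
    obtain ⟨c, hc⟩ := hsub g₁
    have h1 : ((Ft : ℕ) : ZMod (p ^ A)) = ((Nat.gcd F₀ (p ^ A) * c : ℕ) : ZMod (p ^ A)) :=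
      Multiplicative.ofAdd.injective (hg₁.symm.trans hc)
    rw [ZMod.natCast_eq_natCast_iff] at h1
    exact ((Nat.ModEq.of_dvd (Nat.gcd_dvd_right F₀ (p ^ A)) h1).dvd_iff dvd_rfl).mpr
      (dvd_mul_right _ _)
  obtain ⟨E, hE⟩ := hF₀
  obtain ⟨T, hT⟩ := hgF
  obtain ⟨j₀, hj₀⟩ := Nat.gcd_dvd_left F₀ (p ^ A)
  set F := Nat.gcd F₀ (p ^ A) with hF
  -- it suffices that `p ^ A` divides `r * E * Ft`
  suffices hs : ((p ^ A : ℕ) : ℤ) ∣ r * (E * Ft : ℕ) by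
    have h1 : ((F₀ * (Ft * p ^ b) : ℕ) : ℤ) ∣ (H'.relIndex H : ℤ) * r * (Ft : ℕ) := by
      rw [← hm', hE, Nat.cast_mul, Nat.cast_mul, mul_assoc, mul_assoc]
      refine mul_dvd_mul_left _ ?_
      rw [show (E : ℤ) * (r * (Ft : ℤ)) = r * ((E * Ft : ℕ) : ℤ) by push_cast; ring]
      exact hs
    have h2 : ((F₀ * p ^ b : ℕ) : ℤ) * (Ft : ℤ) ∣ (H'.relIndex H : ℤ) * r * (Ft : ℤ) := by
      refine dvd_trans (dvd_of_eq ?_) h1
      push_cast; ring
    have h3 := (mul_dvd_mul_iff_right (by exact_mod_cast hFt0.ne' : (Ft : ℤ) ≠ 0)).mp h2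
    rw [show ((F₀ * f * p ^ b : ℕ) : ℤ) = ((F₀ * p ^ b : ℕ) : ℤ) * (f : ℤ) by push_cast; ring,
      show (H'.relIndex H : ℤ) * ((f : ℤ) * r) = (H'.relIndex H : ℤ) * r * (f : ℤ) by ring]
    exact mul_dvd_mul_right h3 _
  have hk' : p ^ k ∣ E * F ∨ p ^ A ∣ F := by
    rcases Nat.eq_zero_or_pos A with hA0 | _
    · exact Or.inr (by rw [hA0, pow_zero]; exact one_dvd _)
    by_cases hpj : p ∣ j₀
    · right
      obtain ⟨g, -, hg⟩ := (Nat.dvd_prime_pow hp.out).mp (Nat.gcd_dvd_right F₀ (p ^ A))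
      rw [← hF] at hg
      by_contra hndvd
      have hgA : g < A := by
        by_contra hle'
        exact hndvd (hg ▸ pow_dvd_pow p (not_lt.mp hle'))
      have h1 : p ^ (g + 1) ∣ F := hF ▸ Nat.dvd_gcd
        (by rw [hj₀, pow_succ, hg]; exact mul_dvd_mul_left _ hpj) (pow_dvd_pow p hgA)
      rw [hg, Nat.pow_dvd_pow_iff_le_right hp.out.one_lt] at h1
      omega
    · left
      rw [hE, hj₀, show F * j₀ * E = E * F * j₀ by ring] at hk
      exact (Nat.Coprime.pow_left k ((Nat.Prime.coprime_iff_not_dvd hp.out).mpr hpj)).dvd_of_dvd_mul_right hk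
  rcases hk' with hk' | hk'
  · obtain ⟨c, hc⟩ := hk'
    rw [hT, show E * (F * T) = p ^ k * (c * T) by rw [← mul_assoc, hc, mul_assoc]]
    push_cast at hr' ⊢
    rw [show r * ((p : ℤ) ^ k * ((c : ℤ) * T)) = ((p : ℤ) ^ k * r) * ((c : ℤ) * T) by ring]
    exact dvd_mul_of_dvd_left hr' _
  · refine dvd_mul_of_dvd_right (Int.natCast_dvd_natCast.mpr ?_) _
    rw [hT]
    exact dvd_mul_of_dvd_right (dvd_mul_of_dvd_left hk' _) _

end Fermat.Agent.GD
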